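import Mathlib
import Fermat.Agent.Lib.Deuring.RedSpace

set_option autoImplicit false

/-!
# Cluster T, M2 (seed node condition), piece A: reduction of characteristic polynomials

`S : ValSetup K F k Fk` a constant reduction, `u ∈ F` a unit of `Ov` whose reduction `ū` is
transcendental over `k`, and `[F : K(u)] ≤ [Fk : k(ū)]` (the non-automatic inequality).  Then for
every `f ∈ Ov` the characteristic polynomial of `f` over `K(u)` has coefficients in `Ov` and
reduces, coefficient by coefficient, to the characteristic polynomial of `red f` over `k(ū)`.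

Nothing here mentions modular curves.
-/

noncomputable section

open Polynomial IntermediateField

namespace Fermat.Agent.BadRed.SeedNode

open Fermat.Agent.Deuring

variable {K F k Fk : Type*} [Field K] [Field F] [Algebra K F]
  [Field k] [Field Fk] [Algebra k Fk]

variable (S : ValSetup K F k Fk)

/-- evaluation of a polynomial with coefficients in `A` at `u ∈ Ov` lies in `Ov` and reduces to
the reduced polynomial evaluated at `red u`. -/
theorem sn_red_aeval {u : F} (hu : u ∈ S.Ov) (p : S.A[X]) :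
    aeval u (p.map (algebraMap S.A K)) ∈ S.Ov ∧
      S.red (aeval u (p.map (algebraMap S.A K))) = aeval (S.red u) (p.map S.res) := by
  induction p using Polynomial.induction_on with
  | C a =>
    have h1 : aeval u ((C a : S.A[X]).map (algebraMap S.A K)) = algebraMap K F (a : K) := by
      rw [Polynomial.map_C, aeval_C]
      rfl
    rw [h1, Polynomial.map_C, aeval_C]
    exact ⟨S.algebraMap_mem a.2, S.red_algebraMap a.2⟩
  | add p q hp hq =>
    rw [Polynomial.map_add, map_add, Polynomial.map_add, map_add]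
    exact ⟨add_mem hp.1 hq.1, by rw [S.red_add hp.1 hq.1, hp.2, hq.2]⟩
  | monomial n a ih =>
    have h1 : aeval u ((C a * X ^ (n + 1) : S.A[X]).map (algebraMap S.A K)) =
        aeval u ((C a * X ^ n : S.A[X]).map (algebraMap S.A K)) * u := by
      simp only [Polynomial.map_mul, Polynomial.map_pow, Polynomial.map_X, map_mul, map_pow,
        aeval_X, pow_succ, mul_assoc]
    have h2 : aeval (S.red u) ((C a * X ^ (n + 1) : S.A[X]).map S.res) =
        aeval (S.red u) ((C a * X ^ n : S.A[X]).map S.res) * S.red u := by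
      simp only [Polynomial.map_mul, Polynomial.map_pow, Polynomial.map_X, map_mul, map_pow,
        aeval_X, pow_succ, mul_assoc]
    rw [h1, h2]
    exact ⟨mul_mem ih.1 hu, by rw [S.red_mul ih.1 hu, ih.2]⟩

/-- Gauss normalisation: a nonzero polynomial over `K` is a constant times a polynomial over `A`
with nonzero reduction. -/
theorem sn_exists_normalize {p : K[X]} (hp : p ≠ 0) :
    ∃ (c : K) (p₀ : S.A[X]), c ≠ 0 ∧ p = C c * p₀.map (algebraMap S.A K) ∧ p₀.map S.res ≠ 0 := by
  classical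
  have hex : ∃ i : Fin (p.natDegree + 1), p.coeff i ≠ 0 :=
    ⟨⟨p.natDegree, Nat.lt_succ_self _⟩, by
      simpa using Polynomial.leadingCoeff_ne_zero.mpr hp⟩
  obtain ⟨i₀, hi₀, hall⟩ := exists_max_coeff S.A (fun i : Fin (p.natDegree + 1) => p.coeff i) hex
  set c : K := p.coeff i₀ with hc
  have hmem : ∀ i : ℕ, p.coeff i * c⁻¹ ∈ S.A := by
    intro i
    by_cases hi : i < p.natDegree + 1
    · exact hall ⟨i, hi⟩
    · have : p.coeff i = 0 := Polynomial.coeff_eq_zero_of_natDegree_lt (by omega)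
      rw [this, zero_mul]
      exact zero_mem _
  let p₀ : S.A[X] := ∑ i ∈ Finset.range (p.natDegree + 1),
    Polynomial.monomial i (⟨p.coeff i * c⁻¹, hmem i⟩ : S.A)
  have hmap : p₀.map (algebraMap S.A K) = C c⁻¹ * p := by
    have h1 : p₀.map (algebraMap S.A K) =
        ∑ i ∈ Finset.range (p.natDegree + 1), Polynomial.monomial i (p.coeff i * c⁻¹) := by
      rw [Polynomial.map_sum]
      refine Finset.sum_congr rfl fun i _ => ?_
      rw [Polynomial.map_monomial]
      rfl
    rw [h1]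
    conv_rhs => rw [Polynomial.as_sum_range' p (p.natDegree + 1) (Nat.lt_succ_self _)]
    rw [Finset.mul_sum]
    refine Finset.sum_congr rfl fun i _ => ?_
    rw [Polynomial.C_mul_monomial, mul_comm]
  refine ⟨c, p₀, hi₀, ?_, ?_⟩
  · rw [hmap, ← mul_assoc, ← Polynomial.C_mul, mul_inv_cancel₀ hi₀, Polynomial.C_1, one_mul]
  · intro h0
    have h1 : (p₀.map S.res).coeff i₀ = 1 := by
      rw [Polynomial.coeff_map]
      have h2 : p₀.coeff i₀ = (⟨p.coeff i₀ * c⁻¹, hmem i₀⟩ : S.A) := by
        simp only [p₀, Polynomial.finsetSum_coeff, Polynomial.coeff_monomial]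
        rw [Finset.sum_eq_single (i₀ : ℕ)]
        · simp
        · intro b _ hb
          simp [hb]
        · intro hb
          exact absurd (Finset.mem_range.mpr i₀.2) hb
      rw [h2]
      have h3 : (⟨p.coeff i₀ * c⁻¹, hmem i₀⟩ : S.A) = 1 := by
        apply Subtype.ext
        change p.coeff i₀ * c⁻¹ = 1
        rw [← hc]
        exact mul_inv_cancel₀ hi₀
      rw [h3, map_one]
    rw [h0, Polynomial.coeff_zero] at h1
    exact zero_ne_one h1

/-- a polynomial over `A` with nonzero reduction takes a unit value at `u`. -/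
theorem sn_red_aeval_ne_zero {u : F} (hu : u ∈ S.Ov) (hub : Transcendental k (S.red u))
    {p : S.A[X]} (hp : p.map S.res ≠ 0) :
    S.red (aeval u (p.map (algebraMap S.A K))) ≠ 0 := by
  rw [(sn_red_aeval S hu p).2]
  intro h0
  exact hp ((transcendental_iff_injective.mp hub) (by rw [h0, map_zero]))

/-- **Gauss' lemma**: the reduction of an element of `K(u) ∩ Ov` lies in `k(ū)`. -/
theorem sn_red_mem_adjoin {u : F} (hu : u ∈ S.Ov) (hub : Transcendental k (S.red u))
    {a : F} (ha : a ∈ K⟮u⟯) (haO : a ∈ S.Ov) : S.red a ∈ k⟮S.red u⟯ := by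
  obtain ⟨r, s, rfl⟩ := (IntermediateField.mem_adjoin_simple_iff K a).mp ha
  by_cases hs : s = 0
  · rw [hs, map_zero, div_zero, S.red_zero]
    exact zero_mem _
  by_cases hr : r = 0
  · rw [hr, map_zero, zero_div, S.red_zero]
    exact zero_mem _
  obtain ⟨c, r₀, hc, hr₀, hr₀'⟩ := sn_exists_normalize S hr
  obtain ⟨d, s₀, hd, hs₀, hs₀'⟩ := sn_exists_normalize S hs
  set R : F := aeval u (r₀.map (algebraMap S.A K)) with hR
  set T : F := aeval u (s₀.map (algebraMap S.A K)) with hT
  have hRm : R ∈ S.Ov := (sn_red_aeval S hu r₀).1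
  have hTm : T ∈ S.Ov := (sn_red_aeval S hu s₀).1
  have hRred : S.red R ≠ 0 := sn_red_aeval_ne_zero S hu hub hr₀'
  have hTred : S.red T ≠ 0 := sn_red_aeval_ne_zero S hu hub hs₀'
  have hR0 : R ≠ 0 := S.ne_zero_of_red_ne_zero hRred
  have hT0 : T ≠ 0 := S.ne_zero_of_red_ne_zero hTred
  have hRi : R⁻¹ ∈ S.Ov := S.inv_mem_of_red_ne_zero hRred
  have hTi : T⁻¹ ∈ S.Ov := S.inv_mem_of_red_ne_zero hTred
  have e1 : aeval u r = algebraMap K F c * R := by
    rw [hr₀, map_mul, aeval_C]
  have e2 : aeval u s = algebraMap K F d * T := by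
    rw [hs₀, map_mul, aeval_C]
  have hc' : algebraMap K F c ≠ 0 := (_root_.map_ne_zero _).mpr hc
  have hd' : algebraMap K F d ≠ 0 := (_root_.map_ne_zero _).mpr hd
  have e3 : aeval u r / aeval u s = algebraMap K F (c / d) * (R * T⁻¹) := by
    rw [e1, e2, map_div₀]
    field_simp
  rw [e3] at haO ⊢
  have hw : R * T⁻¹ ∈ S.Ov := mul_mem hRm hTi
  have hwi : (R * T⁻¹)⁻¹ ∈ S.Ov := by
    rw [mul_inv, inv_inv]
    exact mul_mem hRi hTm
  have hcd : c / d ∈ S.A := by
    rw [← S.mem_Ov_iff]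
    have : algebraMap K F (c / d) = algebraMap K F (c / d) * (R * T⁻¹) * (R * T⁻¹)⁻¹ := by
      rw [mul_assoc, mul_inv_cancel₀ (mul_ne_zero hR0 (inv_ne_zero hT0)), mul_one]
    rw [this]
    exact mul_mem haO hwi
  rw [S.red_mul (S.algebraMap_mem hcd) hw, S.red_algebraMap hcd, S.red_mul hRm hTi,
    S.red_inv hTm hTi hT0, (sn_red_aeval S hu r₀).2, (sn_red_aeval S hu s₀).2]
  refine mul_mem (IntermediateField.algebraMap_mem _ _) (mul_mem ?_ (inv_mem ?_))
  · rw [IntermediateField.mem_adjoin_simple_iff]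
    exact ⟨r₀.map S.res, 1, by simp⟩
  · rw [IntermediateField.mem_adjoin_simple_iff]
    exact ⟨s₀.map S.res, 1, by simp⟩

/-- the Gauss valuation ring `K(u) ∩ Ov` of `K(u)`. -/
def snRing (u : F) : Subring K⟮u⟯ := S.Ov.toSubring.comap (algebraMap K⟮u⟯ F)

theorem mem_snRing {u : F} {a : K⟮u⟯} : a ∈ snRing S u ↔ (a : F) ∈ S.Ov := Iff.rfl

/-- the reduction map `K(u) ∩ Ov → k(ū)`. -/
def snRed {u : F} (hu : u ∈ S.Ov) (hub : Transcendental k (S.red u)) :
    snRing S u →+* k⟮S.red u⟯ where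
  toFun a := ⟨S.red ((a : K⟮u⟯) : F), sn_red_mem_adjoin S hu hub (a : K⟮u⟯).2 a.2⟩
  map_one' := Subtype.ext (by simp)
  map_mul' a b := Subtype.ext (by
    have ha : ((a : K⟮u⟯) : F) ∈ S.Ov := a.2
    have hb : ((b : K⟮u⟯) : F) ∈ S.Ov := b.2
    simpa using S.red_mul ha hb)
  map_zero' := Subtype.ext (by simp)
  map_add' a b := Subtype.ext (by
    have ha : ((a : K⟮u⟯) : F) ∈ S.Ov := a.2
    have hb : ((b : K⟮u⟯) : F) ∈ S.Ov := b.2
    simpa using S.red_add ha hb)

@[simp]
theorem snRed_coe {u : F} (hu : u ∈ S.Ov) (hub : Transcendental k (S.red u)) (a : snRing S u) :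
    ((snRed S hu hub a : k⟮S.red u⟯) : Fk) = S.red ((a : K⟮u⟯) : F) := rfl

theorem sn_red_sum {ι : Type*} (s : Finset ι) (x : ι → F) (hx : ∀ i ∈ s, x i ∈ S.Ov) :
    (∑ i ∈ s, x i) ∈ S.Ov ∧ S.red (∑ i ∈ s, x i) = ∑ i ∈ s, S.red (x i) := by
  classical
  induction s using Finset.induction_on with
  | empty => simp [zero_mem]
  | insert a s ha ih =>
    have h1 := ih fun i hi => hx i (Finset.mem_insert_of_mem hi)
    have h2 := hx a (Finset.mem_insert_self a s)
    rw [Finset.sum_insert ha, Finset.sum_insert ha]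
    exact ⟨add_mem h2 h1.1, by rw [S.red_add h2 h1.1, h1.2]⟩

section Lift

variable {S}
variable {u : F} (hu : u ∈ S.Ov) (hub : Transcendental k (S.red u))

include hu hub in
/-- reduction of a linear combination with coefficients in `K(u) ∩ Ov`. -/
theorem sn_red_comb {ι : Type*} [Fintype ι] (b : ι → F) (hb : ∀ i, b i ∈ S.Ov)
    (a : ι → snRing S u) :
    S.red (∑ i, (((a i : snRing S u) : K⟮u⟯) : F) * b i) =
      ∑ i, (snRed S hu hub (a i)) • S.red (b i) := by
  have ha : ∀ i, (((a i : snRing S u) : K⟮u⟯) : F) ∈ S.Ov := fun i => (a i).2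
  have h1 := sn_red_sum S Finset.univ (fun i => (((a i : snRing S u) : K⟮u⟯) : F) * b i)
    (fun i _ => mul_mem (ha i) (hb i))
  rw [h1.2]
  refine Finset.sum_congr rfl fun i _ => ?_
  rw [S.red_mul (ha i) (hb i)]
  rfl

include hu hub in
/-- a family in `Ov` whose reductions are `k(ū)`-linearly independent is `K(u)`-linearly
independent. -/
theorem sn_linearIndependent_of_red {ι : Type*} [Fintype ι] (b : ι → F) (hb : ∀ i, b i ∈ S.Ov)
    (hli : LinearIndependent k⟮S.red u⟯ (fun i => S.red (b i))) :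
    LinearIndependent K⟮u⟯ b := by
  classical
  rw [Fintype.linearIndependent_iff]
  intro g hg
  by_contra hne
  push Not at hne
  obtain ⟨j, hj⟩ := hne
  have hj' : ((g j : K⟮u⟯) : F) ≠ 0 := by
    intro h0
    exact hj (Subtype.ext h0)
  obtain ⟨i₀, hi₀, hall⟩ := exists_max_coeff S.Ov (fun i => ((g i : K⟮u⟯) : F)) ⟨j, hj'⟩
  let a : ι → snRing S u := fun i => ⟨g i * (g i₀)⁻¹, by
    rw [mem_snRing]
    simpa using hall i⟩
  have hsum : ∑ i, (((a i : snRing S u) : K⟮u⟯) : F) * b i = 0 := by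
    have h1 : ∀ i, (((a i : snRing S u) : K⟮u⟯) : F) * b i =
        (((g i₀ : K⟮u⟯) : F))⁻¹ * ((g i) • b i) := by
      intro i
      simp only [a, IntermediateField.smul_def, smul_eq_mul]
      push_cast
      ring
    rw [Finset.sum_congr rfl fun i _ => h1 i, ← Finset.mul_sum, hg, mul_zero]
  have hred := sn_red_comb hu hub b hb a
  rw [hsum, S.red_zero] at hred
  have h0 := Fintype.linearIndependent_iff.mp hli _ hred.symm i₀
  have h1 : a i₀ = 1 := by
    apply Subtype.ext
    apply Subtype.ext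
    simp only [a]
    push_cast
    exact mul_inv_cancel₀ hi₀
  rw [h1, map_one] at h0
  exact one_ne_zero h0

include hu hub in
/-- coordinates of an integral element in a lifted basis are integral. -/
theorem sn_coeff_mem {ι : Type*} [Fintype ι] (b : ι → F) (hb : ∀ i, b i ∈ S.Ov)
    (hli : LinearIndependent k⟮S.red u⟯ (fun i => S.red (b i)))
    (g : ι → K⟮u⟯) {x : F} (hx : x ∈ S.Ov) (hsum : ∑ i, ((g i : K⟮u⟯) : F) * b i = x) :
    ∀ i, ((g i : K⟮u⟯) : F) ∈ S.Ov := by
  classical
  by_contra hne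
  push Not at hne
  obtain ⟨j, hj⟩ := hne
  have hj' : ((g j : K⟮u⟯) : F) ≠ 0 := by
    intro h0
    exact hj (h0 ▸ zero_mem _)
  obtain ⟨i₀, hi₀, hall⟩ := exists_max_coeff S.Ov (fun i => ((g i : K⟮u⟯) : F)) ⟨j, hj'⟩
  have hi₀' : ((g i₀ : K⟮u⟯) : F) ∉ S.Ov := by
    intro hmem
    apply hj
    have : ((g j : K⟮u⟯) : F) = ((g j : K⟮u⟯) : F) * (((g i₀ : K⟮u⟯) : F))⁻¹ * (g i₀ : K⟮u⟯) := by
      rw [mul_assoc, inv_mul_cancel₀ hi₀, mul_one]
    rw [this]
    exact mul_mem (hall j) hmem
  have hinv : (((g i₀ : K⟮u⟯) : F))⁻¹ ∈ S.Ov := (S.Ov.mem_or_inv_mem _).resolve_left hi₀'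
  have hredinv : S.red (((g i₀ : K⟮u⟯) : F))⁻¹ = 0 := by
    rw [S.red_eq_zero_iff hinv (inv_ne_zero hi₀), inv_inv]
    exact hi₀'
  let a : ι → snRing S u := fun i => ⟨g i * (g i₀)⁻¹, by
    rw [mem_snRing]
    simpa using hall i⟩
  have hsum' : ∑ i, (((a i : snRing S u) : K⟮u⟯) : F) * b i = x * (((g i₀ : K⟮u⟯) : F))⁻¹ := by
    have h1 : ∀ i, (((a i : snRing S u) : K⟮u⟯) : F) * b i =
        (((g i : K⟮u⟯) : F) * b i) * (((g i₀ : K⟮u⟯) : F))⁻¹ := by
      intro i
      simp only [a]
      push_cast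
      ring
    rw [Finset.sum_congr rfl fun i _ => h1 i, ← Finset.sum_mul, hsum]
  have hred := sn_red_comb hu hub b hb a
  rw [hsum', S.red_mul hx hinv, hredinv, mul_zero] at hred
  have h0 := Fintype.linearIndependent_iff.mp hli _ hred.symm i₀
  have h1 : a i₀ = 1 := by
    apply Subtype.ext
    apply Subtype.ext
    simp only [a]
    push_cast
    exact mul_inv_cancel₀ hi₀
  rw [h1, map_one] at h0
  exact one_ne_zero h0

include hu hub in
/-- **Piece A.** The characteristic polynomial of `f ∈ Ov` over `K(u)` has an integral model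
over the Gauss ring `K(u) ∩ Ov` which reduces to the characteristic polynomial of `red f` over
`k(ū)`. -/
theorem sn_charpoly_red [FiniteDimensional K⟮u⟯ F] [FiniteDimensional k⟮S.red u⟯ Fk]
    (hdeg : Module.finrank K⟮u⟯ F ≤ Module.finrank k⟮S.red u⟯ Fk) {f : F} (hf : f ∈ S.Ov) :
    ∃ P : (snRing S u)[X],
      P.map (snRing S u).subtype = (LinearMap.mulLeft K⟮u⟯ f).charpoly ∧
      P.map (snRed S hu hub) = (LinearMap.mulLeft k⟮S.red u⟯ (S.red f)).charpoly ∧
      P.Monic ∧ P.natDegree = Module.finrank K⟮u⟯ F := by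
  classical
  set n : ℕ := Module.finrank k⟮S.red u⟯ Fk with hn
  let bbar : Module.Basis (Fin n) k⟮S.red u⟯ Fk := Module.finBasis k⟮S.red u⟯ Fk
  choose b hb using fun i => S.ρ_surj (bbar i)
  let bF : Fin n → F := fun i => ((b i : S.Ov) : F)
  have hbF : ∀ i, bF i ∈ S.Ov := fun i => (b i).2
  have hred : ∀ i, S.red (bF i) = bbar i := by
    intro i
    rw [S.red_of_mem (hbF i)]
    exact hb i
  have hli : LinearIndependent k⟮S.red u⟯ (fun i => S.red (bF i)) := by
    have : (fun i => S.red (bF i)) = bbar := funext hred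
    rw [this]
    exact bbar.linearIndependent
  have hliF := sn_linearIndependent_of_red hu hub bF hbF hli
  have hcard : Fintype.card (Fin n) = Module.finrank K⟮u⟯ F := by
    refine le_antisymm hliF.fintype_card_le_finrank ?_
    simpa using hdeg
  have hnpos : 0 < n := Module.finrank_pos
  have : Nonempty (Fin n) := ⟨⟨0, hnpos⟩⟩
  let B : Module.Basis (Fin n) K⟮u⟯ F := basisOfLinearIndependentOfCardEqFinrank hliF hcard
  have hB : ∀ i, B i = bF i := fun i => by
    simp only [B, coe_basisOfLinearIndependentOfCardEqFinrank]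
  set M : Matrix (Fin n) (Fin n) K⟮u⟯ := LinearMap.toMatrix B B (LinearMap.mulLeft K⟮u⟯ f) with hM
  have hMsum : ∀ j, ∑ i, ((M i j : K⟮u⟯) : F) * bF i = f * bF j := by
    intro j
    have h1 := B.sum_repr (f * B j)
    rw [← hB j, ← h1]
    refine Finset.sum_congr rfl fun i _ => ?_
    rw [hM, LinearMap.toMatrix_apply, LinearMap.mulLeft_apply, IntermediateField.smul_def, hB i,
      smul_eq_mul]
  have hMmem : ∀ i j, ((M i j : K⟮u⟯) : F) ∈ S.Ov := fun i j =>
    sn_coeff_mem hu hub bF hbF hli (fun i => M i j) (mul_mem hf (hbF j)) (hMsum j) i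
  let M' : Matrix (Fin n) (Fin n) (snRing S u) := fun i j => ⟨M i j, hMmem i j⟩
  have hM' : M'.map (snRing S u).subtype = M := by
    ext i j
    rfl
  have hMbar : M'.map (snRed S hu hub) =
      LinearMap.toMatrix bbar bbar (LinearMap.mulLeft k⟮S.red u⟯ (S.red f)) := by
    ext i j
    rw [Matrix.map_apply, LinearMap.toMatrix_apply, LinearMap.mulLeft_apply]
    have h1 : S.red f * bbar j = ∑ i, (snRed S hu hub (M' i j)) • bbar i := by
      rw [← hred j, ← S.red_mul hf (hbF j), ← hMsum j]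
      have h2 := sn_red_comb hu hub bF hbF (fun i => M' i j)
      have h3 : ∑ i, (snRed S hu hub (M' i j)) • bbar i =
          ∑ i, (snRed S hu hub (M' i j)) • S.red (bF i) :=
        Finset.sum_congr rfl fun i _ => by rw [hred i]
      rw [h3]
      exact h2
    rw [h1, Module.Basis.repr_sum_self]
  refine ⟨M'.charpoly, ?_, ?_, Matrix.charpoly_monic M', ?_⟩
  · rw [← Matrix.charpoly_map, hM', hM, LinearMap.charpoly_toMatrix]
  · rw [← Matrix.charpoly_map, hMbar, LinearMap.charpoly_toMatrix]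
  · rw [Matrix.charpoly_natDegree_eq_dim, hcard]

end Lift

end Fermat.Agent.BadRed.SeedNode
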