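import Mathlib
import Fermat.Agent.Lib.Deuring.Basic
import Fermat.Agent.Lib.Deuring.RedSpace

set_option autoImplicit false
set_option linter.style.haveILetI false
set_option linter.unusedSectionVars false

/-!
# Cluster T, WP M2 (seed node condition), piece B: LAURENT / GAUSS  (helper33)

Two constant reductions `S₁`, `S₂` of `F / K` over the same valuation ring `A` of `K`,
`u ∈ F`, `ϖ ∈ 𝔪_A`, `ϖ ≠ 0`, such that `u` is a unit for `S₁` with transcendental reduction `ū`
and `u' = ϖ / u` is a unit for `S₂` with transcendental reduction `ū'`.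

* `gauss_family`, `gauss_poly` : Gauss lemma for one constant reduction.
* `laurent_gauss` : a Laurent polynomial `c = P(u) / u ^ M` which is integral for both valuations
  reduces to POLYNOMIALS `P₁(ū)`, `P₂(ū')` with the SAME constant term.

Sorry-free.
-/

noncomputable section

open Polynomial Fermat.Agent.Deuring

namespace Fermat.Agent.BadRed.SeedNode

variable {K F k Fk₁ Fk₂ : Type*} [Field K] [Field F] [Algebra K F]
  [Field k] [Field Fk₁] [Algebra k Fk₁] [Field Fk₂] [Algebra k Fk₂]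


/-- powers of a transcendental element are linearly independent. -/
theorem linearIndependent_pow_of_transcendental {Fk : Type*} [Field Fk] [Algebra k Fk] {t : Fk}
    (ht : Transcendental k t) (n : ℕ) (e : Fin n → ℕ) (he : Function.Injective e) :
    LinearIndependent k (fun i : Fin n => t ^ e i) := by
  classical
  rw [Fintype.linearIndependent_iff]
  intro g hg i
  have hinj := transcendental_iff_injective.mp ht
  have h0 : Polynomial.aeval t (∑ j, Polynomial.monomial (e j) (g j)) = 0 := by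
    rw [map_sum, ← hg]
    refine Finset.sum_congr rfl fun j _ => ?_
    rw [Polynomial.aeval_monomial, Algebra.smul_def]
  have h1 : (∑ j, Polynomial.monomial (e j) (g j) : k[X]) = 0 :=
    hinj (by rw [h0, map_zero])
  have h2 := congrArg (fun p : k[X] => p.coeff (e i)) h1
  simp only [Polynomial.finsetSum_coeff, Polynomial.coeff_monomial, Polynomial.coeff_zero] at h2
  rw [Finset.sum_eq_single i] at h2
  · simpa using h2
  · intro j _ hji
    rw [if_neg]
    exact fun h => hji (he h)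
  · intro h
    exact absurd (Finset.mem_univ i) h

/-- (G) Gauss lemma for one constant reduction, general exponents. -/
theorem gauss_family {Fk : Type*} [Field Fk] [Algebra k Fk] (S : ValSetup K F k Fk) {u : F}
    (hu : u ∈ S.Ov) (hubar : Transcendental k (S.red u)) (n : ℕ) (e : Fin n → ℕ)
    (he : Function.Injective e) (c : Fin n → K)
    (hP : (∑ i, c i • u ^ e i) ∈ S.Ov) :
    ∃ hc : ∀ i, c i ∈ S.A,
      S.red (∑ i, c i • u ^ e i) = ∑ i, algebraMap k Fk (S.res ⟨c i, hc i⟩) * S.red u ^ e i := by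
  have hw : ∀ i : Fin n, u ^ e i ∈ S.Ov := fun i => pow_mem hu _
  have hli : LinearIndependent k (fun i : Fin n => S.red (u ^ e i)) := by
    have := linearIndependent_pow_of_transcendental hubar n e he
    simpa only [S.red_pow hu] using this
  have hc := coeff_mem_of_sum_mem S (fun i => u ^ e i) hw hli c hP
  refine ⟨hc, ?_⟩
  rw [(red_sum S (fun i => u ^ e i) hw c hc).2]
  refine Finset.sum_congr rfl fun i _ => ?_
  rw [Algebra.smul_def, S.red_pow hu]

/-- (G) Gauss lemma for one constant reduction: a polynomial expression `P(u) ∈ Ov` in an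
integral `u` with transcendental reduction has coefficients in `A`, and reduces
coefficientwise. -/
theorem gauss_poly {Fk : Type*} [Field Fk] [Algebra k Fk] (S : ValSetup K F k Fk) {u : F}
    (hu : u ∈ S.Ov) (hubar : Transcendental k (S.red u)) (P : K[X])
    (hP : Polynomial.aeval u P ∈ S.Ov) :
    ∃ hc : ∀ i, P.coeff i ∈ S.A,
      S.red (Polynomial.aeval u P) =
        ∑ i ∈ Finset.range (P.natDegree + 1), algebraMap k Fk (S.res ⟨P.coeff i, hc i⟩) *
          S.red u ^ i := by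
  have hsum : Polynomial.aeval u P = ∑ i : Fin (P.natDegree + 1), P.coeff i • u ^ (i : ℕ) := by
    rw [Polynomial.aeval_eq_sum_range, ← Fin.sum_univ_eq_sum_range
      (fun i => P.coeff i • u ^ i) (P.natDegree + 1)]
  rw [hsum] at hP
  obtain ⟨hc, hred⟩ := gauss_family S hu hubar (P.natDegree + 1) (fun i => (i : ℕ))
    Fin.val_injective (fun i => P.coeff i) hP
  have hc' : ∀ i, P.coeff i ∈ S.A := by
    intro i
    by_cases hi : i < P.natDegree + 1
    · exact hc ⟨i, hi⟩
    · rw [Polynomial.coeff_eq_zero_of_natDegree_lt (by omega)]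
      exact zero_mem _
  refine ⟨hc', ?_⟩
  rw [hsum, hred, ← Fin.sum_univ_eq_sum_range
      (fun i => algebraMap k Fk (S.res ⟨P.coeff i, hc' i⟩) * S.red u ^ i) (P.natDegree + 1)]



theorem ne_zero_of_transcendental' {R A : Type*} [Field R] [Field A] [Algebra R A] {t : A}
    (ht : Transcendental R t) : t ≠ 0 := fun h0 => ht (h0 ▸ isAlgebraic_zero)

/-- residue of a product with a non-unit. -/
theorem res_mul_eq_zero {Fk : Type*} [Field Fk] [Algebra k Fk] (S : ValSetup K F k Fk)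
    {a b : K} (ha : a ∈ S.A) (hb : b ∈ S.A) (hb0 : S.res ⟨b, hb⟩ = 0) (hab : a * b ∈ S.A) :
    S.res ⟨a * b, hab⟩ = 0 := by
  have : (⟨a * b, hab⟩ : S.A) = ⟨a, ha⟩ * ⟨b, hb⟩ := rfl
  rw [this, map_mul, hb0, mul_zero]

theorem res_pow_eq_zero {Fk : Type*} [Field Fk] [Algebra k Fk] (S : ValSetup K F k Fk)
    {b : K} (hb : b ∈ S.A) (hb0 : S.res ⟨b, hb⟩ = 0) {n : ℕ} (hn : 0 < n)
    (hbn : b ^ n ∈ S.A) : S.res ⟨b ^ n, hbn⟩ = 0 := by
  have : (⟨b ^ n, hbn⟩ : S.A) = ⟨b, hb⟩ ^ n := rfl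
  rw [this, map_pow, hb0, zero_pow hn.ne']

/-- (B) LAURENT / GAUSS. -/
theorem laurent_gauss (S₁ : ValSetup K F k Fk₁) (S₂ : ValSetup K F k Fk₂) (hA : S₁.A = S₂.A)
    (hres : ∀ (c : K) (h₁ : c ∈ S₁.A) (h₂ : c ∈ S₂.A), S₁.res ⟨c, h₁⟩ = S₂.res ⟨c, h₂⟩)
    {u : F} {ϖ : K} (hϖ0 : ϖ ≠ 0) (hϖ : ϖ ∈ S₁.A) (hϖres : S₁.res ⟨ϖ, hϖ⟩ = 0)
    (hu₁ : u ∈ S₁.Ov) (hubar₁ : Transcendental k (S₁.red u))
    (hu₂ : algebraMap K F ϖ / u ∈ S₂.Ov)
    (hubar₂ : Transcendental k (S₂.red (algebraMap K F ϖ / u)))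
    (c : F) (hc₁ : c ∈ S₁.Ov) (hc₂ : c ∈ S₂.Ov) (M : ℕ) (P : K[X])
    (hP : c * u ^ M = Polynomial.aeval u P) :
    ∃ P₁ P₂ : k[X], P₁.coeff 0 = P₂.coeff 0 ∧
      S₁.red c = Polynomial.aeval (S₁.red u) P₁ ∧
      S₂.red c = Polynomial.aeval (S₂.red (algebraMap K F ϖ / u)) P₂ := by
  classical
  have hub0 : S₁.red u ≠ 0 := ne_zero_of_transcendental' hubar₁
  have hub0' : S₂.red (algebraMap K F ϖ / u) ≠ 0 := ne_zero_of_transcendental' hubar₂
  have hu0 : u ≠ 0 := S₁.ne_zero_of_red_ne_zero hub0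
  have hϖF : algebraMap K F ϖ ≠ 0 := by
    rw [Ne, map_eq_zero_iff _ (algebraMap K F).injective]
    exact hϖ0
  set u' : F := algebraMap K F ϖ / u with hu'
  have hu'0 : u' ≠ 0 := div_ne_zero hϖF hu0
  have huu' : u * u' = algebraMap K F ϖ := by
    rw [hu']; field_simp
  have hϖ₂ : ϖ ∈ S₂.A := hA ▸ hϖ
  have hϖres₂ : S₂.res ⟨ϖ, hϖ₂⟩ = 0 := by rw [← hres ϖ hϖ hϖ₂]; exact hϖres
  -- the common degree bound
  set D : ℕ := max P.natDegree M with hD
  have hDP : P.natDegree ≤ D := le_max_left _ _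
  have hDM : M ≤ D := le_max_right _ _
  have hPsum : Polynomial.aeval u P = ∑ i ∈ Finset.range (D + 1), P.coeff i • u ^ i := by
    rw [Polynomial.aeval_eq_sum_range' (n := D + 1) (by omega)]
  -- side 1
  have hP₁ : Polynomial.aeval u P ∈ S₁.Ov := hP ▸ mul_mem hc₁ (pow_mem hu₁ M)
  have hsum₁ : Polynomial.aeval u P = ∑ i : Fin (D + 1), P.coeff i • u ^ (i : ℕ) := by
    rw [hPsum, ← Fin.sum_univ_eq_sum_range (fun i => P.coeff i • u ^ i) (D + 1)]
  obtain ⟨hp, hred₁⟩ := gauss_family S₁ hu₁ hubar₁ (D + 1) (fun i => (i : ℕ))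
    Fin.val_injective (fun i => P.coeff i) (hsum₁ ▸ hP₁)
  have hp' : ∀ i : ℕ, P.coeff i ∈ S₁.A := by
    intro i
    by_cases hi : i < D + 1
    · exact hp ⟨i, hi⟩
    · rw [Polynomial.coeff_eq_zero_of_natDegree_lt (by omega)]
      exact zero_mem _
  -- side 2
  set q : ℕ → K := fun j => P.coeff j * ϖ ^ j * (ϖ ^ M)⁻¹ with hq
  have hsum₂ : ∑ j : Fin (D + 1), q j • u' ^ (D - (j : ℕ)) = c * u' ^ (D - M) := by
    have h1 : ∀ j : Fin (D + 1), q j • u' ^ (D - (j : ℕ)) =
        (algebraMap K F (ϖ ^ M))⁻¹ * u' ^ D * (P.coeff j • u ^ (j : ℕ)) := by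
      intro j
      have hj : (j : ℕ) ≤ D := by have := j.2; omega
      have e1 : u' ^ D = u' ^ (D - (j : ℕ)) * u' ^ (j : ℕ) := by
        rw [← pow_add, Nat.sub_add_cancel hj]
      rw [hq, Algebra.smul_def, Algebra.smul_def, map_mul, map_mul, map_inv₀, map_pow, ← huu',
        e1]
      ring
    rw [Finset.sum_congr rfl fun j _ => h1 j, ← Finset.mul_sum, ← hsum₁, ← hP]
    have e2 : u' ^ D = u' ^ (D - M) * u' ^ M := by rw [← pow_add, Nat.sub_add_cancel hDM]
    have e3 : algebraMap K F (ϖ ^ M) = u ^ M * u' ^ M := by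
      rw [map_pow, ← huu', mul_pow]
    have e4 : u ^ M * u' ^ M ≠ 0 := mul_ne_zero (pow_ne_zero _ hu0) (pow_ne_zero _ hu'0)
    rw [e2, e3]
    field_simp
  have hinj : Function.Injective (fun j : Fin (D + 1) => D - (j : ℕ)) := by
    intro a b hab
    have ha := a.2
    have hb := b.2
    simp only at hab
    exact Fin.ext (by omega)
  have hmem₂ : (∑ j : Fin (D + 1), q j • u' ^ (D - (j : ℕ))) ∈ S₂.Ov := by
    rw [hsum₂]
    exact mul_mem hc₂ (pow_mem hu₂ _)
  obtain ⟨hq₂, hred₂⟩ := gauss_family S₂ hu₂ hubar₂ (D + 1) (fun j => D - (j : ℕ)) hinj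
    (fun j => q j) hmem₂
  have hq' : ∀ j : ℕ, q j ∈ S₂.A := by
    intro j
    by_cases hj : j < D + 1
    · exact hq₂ ⟨j, hj⟩
    · have : q j = 0 := by
        rw [hq]
        simp only
        rw [Polynomial.coeff_eq_zero_of_natDegree_lt (by omega), zero_mul, zero_mul]
      rw [this]
      exact zero_mem _
  -- total residue functions
  set pb : ℕ → k := fun i => S₁.res ⟨P.coeff i, hp' i⟩ with hpb
  set qb : ℕ → k := fun j => S₂.res ⟨q j, hq' j⟩ with hqb
  have hϖpow : ∀ n : ℕ, ϖ ^ n ∈ S₁.A := fun n => pow_mem hϖ n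
  -- vanishing
  have hpb0 : ∀ i, i < M → pb i = 0 := by
    intro i hi
    have e : P.coeff i = q i * ϖ ^ (M - i) := by
      rw [hq]
      simp only
      have : ϖ ^ M = ϖ ^ i * ϖ ^ (M - i) := by rw [← pow_add]; congr 1; omega
      rw [this]
      have h1 : ϖ ^ i ≠ 0 := pow_ne_zero _ hϖ0
      have h2 : ϖ ^ (M - i) ≠ 0 := pow_ne_zero _ hϖ0
      field_simp
    have hqi : q i ∈ S₁.A := hA ▸ hq' i
    have hmem : q i * ϖ ^ (M - i) ∈ S₁.A := mul_mem hqi (hϖpow _)
    have h3 : pb i = S₁.res ⟨q i * ϖ ^ (M - i), hmem⟩ := by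
      rw [hpb]
      simp only
      congr 1
      exact Subtype.ext e
    rw [h3]
    exact res_mul_eq_zero S₁ hqi (hϖpow _)
      (res_pow_eq_zero S₁ hϖ hϖres (by omega) (hϖpow _)) hmem
  have hqb0 : ∀ j, M < j → qb j = 0 := by
    intro j hj
    have e : q j = P.coeff j * ϖ ^ (j - M) := by
      rw [hq]
      simp only
      have : ϖ ^ j = ϖ ^ (j - M) * ϖ ^ M := by rw [← pow_add]; congr 1; omega
      rw [this]
      have h1 : ϖ ^ M ≠ 0 := pow_ne_zero _ hϖ0
      field_simp
    have hpj : P.coeff j ∈ S₂.A := hA ▸ hp' j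
    have hϖpow₂ : ∀ n : ℕ, ϖ ^ n ∈ S₂.A := fun n => pow_mem hϖ₂ n
    have hmem : P.coeff j * ϖ ^ (j - M) ∈ S₂.A := mul_mem hpj (hϖpow₂ _)
    have h3 : qb j = S₂.res ⟨P.coeff j * ϖ ^ (j - M), hmem⟩ := by
      rw [hqb]
      simp only
      congr 1
      exact Subtype.ext e
    rw [h3]
    exact res_mul_eq_zero S₂ hpj (hϖpow₂ _)
      (res_pow_eq_zero S₂ hϖ₂ hϖres₂ (by omega) (hϖpow₂ _)) hmem
  have hqM : qb M = pb M := by
    have e : q M = P.coeff M := by
      rw [hq]
      simp only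
      have h1 : ϖ ^ M ≠ 0 := pow_ne_zero _ hϖ0
      field_simp
    rw [hqb, hpb]
    simp only
    rw [hres (P.coeff M) (hp' M) (hA ▸ hp' M)]
    congr 1
    exact Subtype.ext e
  -- the two polynomials
  refine ⟨∑ i ∈ Finset.range (D + 1 - M), Polynomial.monomial i (pb (M + i)),
    ∑ j ∈ Finset.range (M + 1), Polynomial.monomial (M - j) (qb j), ?_, ?_, ?_⟩
  · -- constant terms
    rw [Polynomial.finsetSum_coeff, Polynomial.finsetSum_coeff]
    simp only [Polynomial.coeff_monomial]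
    rw [Finset.sum_eq_single 0, Finset.sum_eq_single M]
    · simp [hqM]
    · intro j hj hjM
      have := Finset.mem_range.mp hj
      rw [if_neg (by omega)]
    · intro h
      exact absurd (Finset.mem_range.mpr (Nat.lt_succ_self M)) h
    · intro i _ hi
      rw [if_neg hi]
    · intro h
      exact absurd (Finset.mem_range.mpr (by omega)) h
  · -- side 1
    have h1 : S₁.red c * S₁.red u ^ M =
        ∑ i ∈ Finset.range (D + 1), algebraMap k Fk₁ (pb i) * S₁.red u ^ i := by
      rw [← S₁.red_pow hu₁, ← S₁.red_mul hc₁ (pow_mem hu₁ M), hP, hsum₁, hred₁,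
        ← Fin.sum_univ_eq_sum_range (fun i => algebraMap k Fk₁ (pb i) * S₁.red u ^ i) (D + 1)]
    have h2 : ∑ i ∈ Finset.range (D + 1), algebraMap k Fk₁ (pb i) * S₁.red u ^ i =
        S₁.red u ^ M * ∑ i ∈ Finset.range (D + 1 - M),
          algebraMap k Fk₁ (pb (M + i)) * S₁.red u ^ i := by
      have hsplit : D + 1 = M + (D + 1 - M) := by omega
      conv_lhs => rw [hsplit]
      rw [Finset.sum_range_add, Finset.sum_eq_zero, zero_add, Finset.mul_sum]
      · refine Finset.sum_congr rfl fun i _ => ?_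
        rw [pow_add]
        ring
      · intro i hi
        rw [hpb0 i (Finset.mem_range.mp hi), map_zero, zero_mul]
    rw [h2, mul_comm] at h1
    have h3 := mul_left_cancel₀ (pow_ne_zero M hub0) h1
    rw [h3, map_sum]
    refine Finset.sum_congr rfl fun i _ => ?_
    rw [Polynomial.aeval_monomial]
  · -- side 2
    have h1 : S₂.red c * S₂.red u' ^ (D - M) =
        ∑ j ∈ Finset.range (D + 1), algebraMap k Fk₂ (qb j) * S₂.red u' ^ (D - j) := by
      rw [← S₂.red_pow hu₂, ← S₂.red_mul hc₂ (pow_mem hu₂ _), ← hsum₂, hred₂,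
        ← Fin.sum_univ_eq_sum_range
          (fun j => algebraMap k Fk₂ (qb j) * S₂.red u' ^ (D - j)) (D + 1)]
    have h2 : ∑ j ∈ Finset.range (D + 1), algebraMap k Fk₂ (qb j) * S₂.red u' ^ (D - j) =
        S₂.red u' ^ (D - M) * ∑ j ∈ Finset.range (M + 1),
          algebraMap k Fk₂ (qb j) * S₂.red u' ^ (M - j) := by
      have hsplit : D + 1 = (M + 1) + (D - M) := by omega
      conv_lhs => rw [hsplit]
      rw [Finset.sum_range_add, Finset.sum_eq_zero (s := Finset.range (D - M)), add_zero,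
        Finset.mul_sum]
      · refine Finset.sum_congr rfl fun j hj => ?_
        have hj' := Finset.mem_range.mp hj
        have : D - j = (D - M) + (M - j) := by omega
        rw [this, pow_add]
        ring
      · intro i _
        rw [hqb0 (M + 1 + i) (by omega), map_zero, zero_mul]
    rw [h2, mul_comm] at h1
    have h3 := mul_left_cancel₀ (pow_ne_zero (D - M) hub0') h1
    rw [h3, map_sum]
    refine Finset.sum_congr rfl fun j _ => ?_
    rw [Polynomial.aeval_monomial]

end Fermat.Agent.BadRed.SeedNode
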