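import Mathlib
import Fermat.Agent.Lib.RR.Hurwitz.Norm
import Fermat.Agent.S24.Bridge
import Fermat.Agent.Lib.BadRed.Nodal.Setup

set_option autoImplicit false
set_option linter.style.haveILetI false
set_option linter.unusedSectionVars false

/-!
# Cluster T, WP M2 (seed node condition), piece C, part 1: integral bases  (helper33)

`F / K` a function field (`IsRRField`), `x ∈ F` transcendental, `[F : K(x)] = n`.

* `toAdj x : K[T] →+* K(x)`;
* `exists_int_basis` : a `K(x)`-basis of `F` which is a `K[x]`-basis of the ring of functions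
  without poles off the poles of `x` (from the reduced basis of `Lib/RR/Hurwitz/Norm.lean`);
* `exists_matrix` : the matrix over `K[T]` of an integral function;
* `exists_charpoly_poly` (C1), `regular_of_charpoly_poly` (C-reg).

Sorry-free.
-/

noncomputable section

open AlgebraicCurve IntermediateField Polynomial

namespace Fermat.Agent.BadRed.SeedNode

open Fermat.Agent.RR Fermat.Agent.RRHur

variable {K F : Type*} [Field K] [Field F] [Algebra K F]

/-- `K[T] → K(x)`, `T ↦ x`. -/
def toAdj (x : F) : K[X] →+* K⟮x⟯ :=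
  (Polynomial.aeval (R := K) (⟨x, mem_adjoin_simple_self K x⟩ : K⟮x⟯)).toRingHom

theorem toAdj_apply (x : F) (p : K[X]) :
    toAdj x p = Polynomial.aeval (R := K) (⟨x, mem_adjoin_simple_self K x⟩ : K⟮x⟯) p := rfl

theorem coe_toAdj (x : F) (p : K[X]) : ((toAdj x p : K⟮x⟯) : F) = Polynomial.aeval x p := by
  rw [toAdj_apply]
  have := Polynomial.aeval_algebraMap_apply (A := K⟮x⟯) F
    (⟨x, mem_adjoin_simple_self K x⟩ : K⟮x⟯) p
  exact this.symm

theorem toAdj_injective {x : F} (hx : Transcendental K x) : Function.Injective (toAdj (K := K) x) := by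
  intro p q hpq
  have h1 : Polynomial.aeval x p = Polynomial.aeval x q := by
    rw [← coe_toAdj, ← coe_toAdj, hpq]
  exact (transcendental_iff_injective.mp hx) h1

theorem toAdj_C (x : F) (c : K) : toAdj x (Polynomial.C c) = algebraMap K K⟮x⟯ c := by
  rw [toAdj_apply, Polynomial.aeval_C]

theorem intAway_iff {x f : F} :
    IntAway (K := K) x f ↔ ∀ v : Place K F, 0 ≤ v.ord x → 0 ≤ v.ord f := by
  refine forall_congr' fun v => ?_
  rw [adicValuation_le_one_iff', adicValuation_le_one_iff']

/-- the reduced basis as a basis of `F / K(x)`, with its integrality properties. -/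
theorem exists_int_basis (h : IsRRField K F) {x : F} (hx : Transcendental K x)
    [FiniteDimensional K⟮x⟯ F] :
    ∃ b : Module.Basis (Fin (Module.finrank K⟮x⟯ F)) K⟮x⟯ F,
      (∀ i, IntAway (K := K) x (b i)) ∧
      ∀ f : F, IntAway (K := K) x f →
        ∃ a : Fin (Module.finrank K⟮x⟯ F) → K[X], f = ∑ i, toAdj x (a i) • b i := by
  have hx0 : x ≠ 0 := fun h0 => hx (h0 ▸ isAlgebraic_zero)
  obtain ⟨u, d, hred⟩ := exists_isReducedBasis h hx
  haveI : Nonempty (Fin (Module.finrank K⟮x⟯ F)) := ⟨⟨0, Module.finrank_pos⟩⟩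
  let b : Module.Basis (Fin (Module.finrank K⟮x⟯ F)) K⟮x⟯ F :=
    basisOfLinearIndependentOfCardEqFinrank hred.linInd (by simp)
  have hb : ∀ i, b i = u i := fun i => by
    simp [b, coe_basisOfLinearIndependentOfCardEqFinrank]
  refine ⟨b, fun i => ?_, fun f hf => ?_⟩
  · rw [hb]
    exact ((mem_riemannRochSpace_nsmul_poleDiv_iff h hx0 (d i) (u i)).mp (hred.mem i)).1
  · obtain ⟨a, ha⟩ := hred.integral f (intAway_iff.mp hf)
    refine ⟨a, ?_⟩
    rw [ha]
    refine Finset.sum_congr rfl fun i _ => ?_
    rw [hb, IntermediateField.smul_def, coe_toAdj, smul_eq_mul]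

/-- the matrix over `K[T]` of an integral function with respect to an integral basis. -/
theorem exists_matrix {x : F} [FiniteDimensional K⟮x⟯ F] {n : ℕ}
    (b : Module.Basis (Fin n) K⟮x⟯ F)
    (hint : ∀ f : F, IntAway (K := K) x f → ∃ a : Fin n → K[X], f = ∑ i, toAdj x (a i) • b i)
    (hb : ∀ i, IntAway (K := K) x (b i)) (f : F) (hf : IntAway (K := K) x f) :
    ∃ m : Matrix (Fin n) (Fin n) K[X],
      (∀ j, f * b j = ∑ i, toAdj x (m i j) • b i) ∧
      Algebra.leftMulMatrix b f = m.map (toAdj x) := by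
  choose a ha using fun j => hint (f * b j) (hf.mul (hb j))
  refine ⟨Matrix.of fun i j => a j i, ha, ?_⟩
  refine Matrix.ext fun i j => ?_
  rw [Algebra.leftMulMatrix_eq_repr_mul, Matrix.map_apply, Matrix.of_apply, ha j]
  simp only [map_sum, map_smul, Module.Basis.repr_self, Finsupp.coe_finsetSum, Finsupp.coe_smul,
    Finset.sum_apply, Pi.smul_apply, smul_eq_mul, Finsupp.single_apply, mul_ite, mul_one,
    mul_zero]
  rw [Finset.sum_eq_single i]
  · simp
  · intro j' _ hj'
    rw [if_neg hj']
  · intro hi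
    exact absurd (Finset.mem_univ i) hi

theorem charpoly_mulLeft_eq {L : Type*} [Field L] [Algebra L F] [FiniteDimensional L F] {n : ℕ}
    (b : Module.Basis (Fin n) L F) (f : F) :
    LinearMap.charpoly (LinearMap.mulLeft L f) = (Algebra.leftMulMatrix b f).charpoly := by
  rw [Algebra.leftMulMatrix_apply, LinearMap.charpoly_toMatrix]
  rfl

/-- (C1) the characteristic polynomial of a function without poles off the poles of `x` has
coefficients in `K[x]`. -/
theorem exists_charpoly_poly (h : IsRRField K F) {x : F} (hx : Transcendental K x)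
    [FiniteDimensional K⟮x⟯ F] (f : F) (hf : ∀ v : Place K F, 0 ≤ v.ord x → 0 ≤ v.ord f) :
    ∃ Φ : Polynomial (Polynomial K), Φ.Monic ∧
      Φ.map (toAdj x) = LinearMap.charpoly (LinearMap.mulLeft K⟮x⟯ f) := by
  obtain ⟨b, hb, hint⟩ := exists_int_basis h hx
  obtain ⟨m, -, hm⟩ := exists_matrix b hint hb f (intAway_iff.mpr hf)
  refine ⟨m.charpoly, Matrix.charpoly_monic m, ?_⟩
  rw [charpoly_mulLeft_eq b f, hm, Matrix.charpoly_map]

/-- Cayley-Hamilton for the multiplication map. -/
theorem aeval_charpoly_mulLeft {L : Type*} [Field L] [Algebra L F] [FiniteDimensional L F]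
    (f : F) : Polynomial.aeval f (LinearMap.charpoly (LinearMap.mulLeft L f)) = 0 := by
  have h := LinearMap.aeval_self_charpoly (LinearMap.mulLeft L f)
  have h3 := congrArg (fun φ : Module.End L F => φ 1) h
  have h4 : (Polynomial.aeval (LinearMap.mulLeft L f)
      (LinearMap.charpoly (LinearMap.mulLeft L f))) =
      LinearMap.mulLeft L (Polynomial.aeval f (LinearMap.charpoly (LinearMap.mulLeft L f))) := by
    have := Polynomial.aeval_algHom_apply (Algebra.lmul L F) f
      (LinearMap.charpoly (LinearMap.mulLeft L f))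
    exact this
  rw [h4] at h3
  simpa using h3

/-- (C-reg) conversely: coefficients in `K[x]` imply no poles off the poles of `x`. -/
theorem regular_of_charpoly_poly {x : F} [FiniteDimensional K⟮x⟯ F] (f : F)
    (Φ : Polynomial (Polynomial K))
    (hΦ : Φ.map (toAdj x) = LinearMap.charpoly (LinearMap.mulLeft K⟮x⟯ f)) :
    ∀ v : Place K F, 0 ≤ v.ord x → 0 ≤ v.ord f := by
  intro v hv
  apply Fermat.Agent.S24Res.ord_nonneg_of_mem
  -- `f` is integral over the image `R` of `K[T]` in `K(x)`
  let R : Subring K⟮x⟯ := (toAdj (K := K) x).range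
  letI : Algebra R F := ((algebraMap K⟮x⟯ F).comp R.subtype).toAlgebra
  have halg : ∀ r : R, algebraMap R F r = ((r : K⟮x⟯) : F) := fun r => rfl
  refine Fermat.Agent.S24Bridge.mem_of_isIntegral (R := R) v (fun r => ?_) ?_
  · rw [halg]
    obtain ⟨p, hp⟩ := r.2
    rw [← hp, coe_toAdj]
    have := adicValuation_aeval_le_one v ((adicValuation_le_one_iff' v).mpr hv) p
    exact Fermat.Agent.S24Res.mem_of_ord_nonneg v ((adicValuation_le_one_iff' v).mp this)
  · have hmap : (Φ.map (toAdj (K := K) x).rangeRestrict).map R.subtype = Φ.map (toAdj x) := by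
      rw [Polynomial.map_map]
      rfl
    have hmonic : (Φ.map (toAdj (K := K) x).rangeRestrict).Monic := by
      apply Polynomial.monic_of_injective (f := R.subtype) Subtype.val_injective
      rw [hmap, hΦ]
      exact LinearMap.charpoly_monic _
    refine ⟨Φ.map (toAdj (K := K) x).rangeRestrict, hmonic, ?_⟩
    have h2 := aeval_charpoly_mulLeft (L := K⟮x⟯) f
    rw [← hΦ, ← hmap, Polynomial.aeval_def, Polynomial.eval₂_map] at h2
    exact h2

end Fermat.Agent.BadRed.SeedNode
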