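import Mathlib
import Fermat.Agent.Lib.BadRed.Mod.SeedNodeC1

set_option autoImplicit false
set_option linter.style.haveILetI false
set_option linter.unusedSectionVars false

/-!
# Cluster T, WP M2 (seed node condition), piece C, part 2: the two directions of the root formula
(helper33)

`b` an integral basis of `F / K(x)`, `g` an integral function with matrix `m ∈ M_n(K[T])`:
`det m (a) = 0` iff `x - a` and `g` have a common zero.  Sorry-free.
-/

noncomputable section

open AlgebraicCurve IntermediateField Polynomial

namespace Fermat.Agent.BadRed.SeedNode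

open Fermat.Agent.RR Fermat.Agent.RRHur

variable {K F : Type*} [Field K] [Field F] [Algebra K F]

/-- at a zero of `x - a`, a polynomial `p(x)` with `p(a) ≠ 0` is a unit. -/
theorem adicValuation_aeval_eq_one (v : Place K F) {x : F} {a : K}
    (hv : v.adicValuation (x - algebraMap K F a) < 1) (p : K[X]) (hp : p.eval a ≠ 0) :
    v.adicValuation (Polynomial.aeval x p) = 1 := by
  have hx1 : v.adicValuation x ≤ 1 := by
    have : x = (x - algebraMap K F a) + algebraMap K F a := by ring
    rw [this]
    exact (Valuation.map_add _ _ _).trans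
      (max_le hv.le (v.adicValuation_algebraMap_le_one a))
  obtain ⟨q, hq⟩ : (X - C a) ∣ p - C (p.eval a) := by
    rw [Polynomial.dvd_iff_isRoot]
    simp
  have hdecomp : Polynomial.aeval x p =
      (x - algebraMap K F a) * Polynomial.aeval x q + algebraMap K F (p.eval a) := by
    have h1 : p = (X - C a) * q + C (p.eval a) := by rw [← hq]; ring
    conv_lhs => rw [h1]
    simp [Polynomial.aeval_C]
  have hlt : v.adicValuation ((x - algebraMap K F a) * Polynomial.aeval x q) < 1 := by
    rw [map_mul]
    calc v.adicValuation (x - algebraMap K F a) * v.adicValuation (Polynomial.aeval x q)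
        ≤ v.adicValuation (x - algebraMap K F a) * 1 := by
          gcongr
          exact adicValuation_aeval_le_one v hx1 q
      _ < 1 := by rwa [mul_one]
  have hone : v.adicValuation (algebraMap K F (p.eval a)) = 1 :=
    adicValuation_algebraMap_eq_one v hp
  rw [hdecomp, add_comm]
  rw [Valuation.map_add_eq_of_lt_left _ (by rw [hone]; exact hlt), hone]

section RootFormula

variable {x : F} [FiniteDimensional K⟮x⟯ F] {n : ℕ} (b : Module.Basis (Fin n) K⟮x⟯ F)

theorem smul_toAdj (p : K[X]) (y : F) : toAdj x p • y = Polynomial.aeval x p * y := by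
  rw [IntermediateField.smul_def, coe_toAdj, smul_eq_mul]

/-- (⇐) a common zero of `x - a` and `g` forces `det m (a) = 0`. -/
theorem det_eval_eq_zero_of_place
    (hint : ∀ f : F, IntAway (K := K) x f → ∃ a : Fin n → K[X], f = ∑ i, toAdj x (a i) • b i)
    (hb : ∀ i, IntAway (K := K) x (b i)) (g : F) (m : Matrix (Fin n) (Fin n) K[X])
    (hm : ∀ j, g * b j = ∑ i, toAdj x (m i j) • b i) (a : K) (Q : Place K F)
    (hQ : Q.adicValuation (x - algebraMap K F a) < 1) (hg : Q.adicValuation g < 1) :
    (m.det).eval a = 0 := by
  classical
  by_contra hne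
  have hx1 : Q.adicValuation x ≤ 1 := by
    have : x = (x - algebraMap K F a) + algebraMap K F a := by ring
    rw [this]
    exact (Valuation.map_add _ _ _).trans
      (max_le hQ.le (Q.adicValuation_algebraMap_le_one a))
  -- the matrix over `F`
  set M : Matrix (Fin n) (Fin n) F := m.map (Polynomial.aeval (R := K) x) with hM
  set e : Fin n → F := fun i => b i with he
  have heM : Matrix.vecMul e M = g • e := by
    funext j
    simp only [Matrix.vecMul, dotProduct, Pi.smul_apply, smul_eq_mul, hM, Matrix.map_apply, he]
    rw [hm j]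
    refine Finset.sum_congr rfl fun i _ => ?_
    rw [smul_toAdj, mul_comm]
  have hadj : M.det • e = g • Matrix.vecMul e M.adjugate := by
    have h1 : Matrix.vecMul (Matrix.vecMul e M) M.adjugate = M.det • e := by
      rw [Matrix.vecMul_vecMul, Matrix.mul_adjugate, Matrix.vecMul_smul, Matrix.vecMul_one]
    rw [← h1, heM, Matrix.smul_vecMul]
  have hMdet : M.det = Polynomial.aeval x m.det := by
    rw [hM]
    exact (RingHom.map_det (Polynomial.aeval (R := K) x).toRingHom m).symm
  have hMadj : M.adjugate = m.adjugate.map (Polynomial.aeval (R := K) x) := by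
    rw [hM]
    exact (RingHom.map_adjugate (Polynomial.aeval (R := K) x).toRingHom m).symm
  -- `1` in the basis
  have h1int : IntAway (K := K) x (1 : F) := fun v _ => by simp
  obtain ⟨t, ht⟩ := hint 1 h1int
  set H : F := ∑ j, Polynomial.aeval x (t j) * Matrix.vecMul e M.adjugate j with hH
  have hdet : M.det = g * H := by
    have h2 : ∀ j, M.det * b j = g * Matrix.vecMul e M.adjugate j := by
      intro j
      have := congrFun hadj j
      simpa [he] using this
    calc M.det = M.det * 1 := (mul_one _).symm
      _ = M.det * ∑ j, toAdj x (t j) • b j := by rw [← ht]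
      _ = ∑ j, Polynomial.aeval x (t j) * (M.det * b j) := by
          rw [Finset.mul_sum]
          refine Finset.sum_congr rfl fun j _ => ?_
          rw [smul_toAdj]; ring
      _ = ∑ j, Polynomial.aeval x (t j) * (g * Matrix.vecMul e M.adjugate j) := by
          refine Finset.sum_congr rfl fun j _ => ?_
          rw [h2 j]
      _ = g * H := by
          rw [hH, Finset.mul_sum]
          refine Finset.sum_congr rfl fun j _ => ?_
          ring
  have hHint : Q.adicValuation H ≤ 1 := by
    rw [hH]
    refine Valuation.map_sum_le _ fun j _ => ?_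
    rw [map_mul]
    have h3 : Q.adicValuation (Matrix.vecMul e M.adjugate j) ≤ 1 := by
      simp only [Matrix.vecMul, dotProduct]
      refine Valuation.map_sum_le _ fun i _ => ?_
      rw [map_mul, hMadj, Matrix.map_apply]
      calc Q.adicValuation (e i) * Q.adicValuation (Polynomial.aeval x (m.adjugate i j))
          ≤ 1 * 1 := by
            gcongr
            · exact hb i Q hx1
            · exact adicValuation_aeval_le_one Q hx1 _
        _ = 1 := one_mul _
    calc Q.adicValuation (Polynomial.aeval x (t j)) *
          Q.adicValuation (Matrix.vecMul e M.adjugate j) ≤ 1 * 1 := by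
            gcongr
            exact adicValuation_aeval_le_one Q hx1 _
      _ = 1 := one_mul _
  have hlt : Q.adicValuation M.det < 1 := by
    rw [hdet, map_mul]
    calc Q.adicValuation g * Q.adicValuation H ≤ Q.adicValuation g * 1 := by gcongr
      _ < 1 := by rwa [mul_one]
  rw [hMdet, adicValuation_aeval_eq_one Q hQ m.det hne] at hlt
  exact lt_irrefl _ hlt

end RootFormula


section RootFormula

variable {x : F} [FiniteDimensional K⟮x⟯ F] {n : ℕ} (b : Module.Basis (Fin n) K⟮x⟯ F)


/-- (⇒) if `det m (a) = 0`, then `x - a` and `g` have a common zero. -/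
theorem exists_place_of_det_eval_eq_zero (hx : Transcendental K x)
    (hint : ∀ f : F, IntAway (K := K) x f → ∃ a : Fin n → K[X], f = ∑ i, toAdj x (a i) • b i)
    (hb : ∀ i, IntAway (K := K) x (b i)) (g : F) (hg : IntAway (K := K) x g)
    (m : Matrix (Fin n) (Fin n) K[X])
    (hm : ∀ j, g * b j = ∑ i, toAdj x (m i j) • b i) (a : K)
    (hdet : (m.det).eval a = 0) :
    ∃ Q : Place K F, Q.adicValuation (x - algebraMap K F a) < 1 ∧ Q.adicValuation g < 1 := by
  classical
  by_contra hcon
  push Not at hcon
  -- a kernel vector of `m(a)`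
  have hdet' : (m.map (Polynomial.evalRingHom a)).det = 0 := by
    have := RingHom.map_det (Polynomial.evalRingHom a) m
    rw [RingHom.mapMatrix_apply] at this
    rw [← this]
    exact hdet
  obtain ⟨w, hw0, hw⟩ := Matrix.exists_mulVec_eq_zero_iff.mpr hdet'
  -- the polynomials `p i = ∑ j, m i j * C (w j)` vanish at `a`
  set p : Fin n → K[X] := fun i => ∑ j, m i j * Polynomial.C (w j) with hp
  have hpa : ∀ i, (p i).eval a = 0 := by
    intro i
    have := congrFun hw i
    simp only [Matrix.mulVec, dotProduct, Matrix.map_apply, Polynomial.coe_evalRingHom,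
      Pi.zero_apply] at this
    rw [hp]
    simp only [Polynomial.eval_finsetSum, Polynomial.eval_mul, Polynomial.eval_C]
    exact this
  have hdiv : ∀ i, ∃ r : K[X], p i = (X - C a) * r := fun i =>
    Polynomial.dvd_iff_isRoot.mpr (hpa i)
  choose r hr using hdiv
  set β : F := ∑ j, toAdj x (Polynomial.C (w j)) • b j with hβ
  set β' : F := ∑ i, toAdj x (r i) • b i with hβ'
  have hxa0 : x - algebraMap K F a ≠ 0 := by
    intro h0
    apply hx
    rw [sub_eq_zero] at h0
    rw [h0]
    exact isAlgebraic_algebraMap a
  have hβint : IntAway (K := K) x β := by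
    rw [hβ]
    refine IntAway.sum _ _ fun j _ => ?_
    rw [smul_toAdj]
    exact (intAway_aeval x _).mul (hb j)
  have hβ'int : IntAway (K := K) x β' := by
    rw [hβ']
    refine IntAway.sum _ _ fun j _ => ?_
    rw [smul_toAdj]
    exact (intAway_aeval x _).mul (hb j)
  have hgβ : g * β = (x - algebraMap K F a) * β' := by
    have h1 : g * β = ∑ i, toAdj x (p i) • b i := by
      rw [hβ, Finset.mul_sum]
      have h2 : ∀ j, g * toAdj x (Polynomial.C (w j)) • b j =
          ∑ i, toAdj x (m i j * Polynomial.C (w j)) • b i := by
        intro j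
        rw [smul_toAdj, mul_left_comm, hm j, Finset.mul_sum]
        refine Finset.sum_congr rfl fun i _ => ?_
        rw [smul_toAdj, smul_toAdj, map_mul]
        ring
      rw [Finset.sum_congr rfl fun j _ => h2 j, Finset.sum_comm]
      refine Finset.sum_congr rfl fun i _ => ?_
      rw [hp]
      simp only [map_sum, Finset.sum_smul]
    rw [h1, hβ', Finset.mul_sum]
    refine Finset.sum_congr rfl fun i _ => ?_
    rw [hr i, smul_toAdj, smul_toAdj, map_mul]
    simp only [map_sub, Polynomial.aeval_X, Polynomial.aeval_C]
    ring
  -- `γ = β / (x - a)` is integral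
  set γ : F := β / (x - algebraMap K F a) with hγ
  have hγint : IntAway (K := K) x γ := by
    intro v hv
    have hxa1 : v.adicValuation (x - algebraMap K F a) ≤ 1 :=
      (Valuation.map_sub _ _ _).trans (max_le hv (v.adicValuation_algebraMap_le_one a))
    rcases hxa1.lt_or_eq with hlt | heq
    · have hg1 : 1 ≤ v.adicValuation g := hcon v hlt
      have hg1' : v.adicValuation g = 1 := le_antisymm (hg v hv) hg1
      have hg0 : g ≠ 0 := by
        intro h0
        rw [h0, map_zero] at hg1'
        exact zero_ne_one hg1'
      have hγ' : γ = β' / g := by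
        rw [hγ, div_eq_div_iff hxa0 hg0]
        rw [mul_comm β g, hgβ]
        ring
      rw [hγ', map_div₀, hg1', div_one]
      exact hβ'int v hv
    · rw [hγ, map_div₀, heq, div_one]
      exact hβint v hv
  obtain ⟨s, hs⟩ := hint γ hγint
  -- compare coordinates
  have hβ2 : β = ∑ i, toAdj x ((X - C a) * s i) • b i := by
    have : β = (x - algebraMap K F a) * γ := by
      rw [hγ]; field_simp
    rw [this, hs, Finset.mul_sum]
    refine Finset.sum_congr rfl fun i _ => ?_
    rw [smul_toAdj, smul_toAdj, map_mul]
    simp only [map_sub, Polynomial.aeval_X, Polynomial.aeval_C]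
    ring
  have hcoord : ∀ i, toAdj x (Polynomial.C (w i)) = toAdj x ((X - C a) * s i) := by
    have h3 : ∑ i, (toAdj x (Polynomial.C (w i)) - toAdj x ((X - C a) * s i)) • b i = 0 := by
      simp only [sub_smul, Finset.sum_sub_distrib]
      rw [← hβ2, ← hβ, sub_self]
    have h4 := (Fintype.linearIndependent_iff.mp b.linearIndependent) _ h3
    intro i
    exact sub_eq_zero.mp (h4 i)
  apply hw0
  funext i
  have h5 := toAdj_injective hx (hcoord i)
  have h6 := congrArg (Polynomial.eval a) h5
  simpa using h6

end RootFormula

end Fermat.Agent.BadRed.SeedNode
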