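import Mathlib
import Fermat.Agent.Lib.BadRed.Mod.SeedNodeC1
import Fermat.Agent.Lib.RR.Riemann

set_option autoImplicit false

/-!
# Cluster T, WP M2 (seed node condition), piece C-gen: LAURENT coefficients  (helper47)

`F / K` a function field, `u ∈ F` transcendental.  If the poles of `f` are among the zeros and
poles of `u`, the coefficients of the characteristic polynomial of `f` over `K(u)` are Laurent
polynomials in `u` (`exists_laurent_coeff_gen`).
-/

noncomputable section

open AlgebraicCurve IntermediateField Polynomial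

namespace Fermat.Agent.BadRed.SeedNode

open Fermat.Agent.RR Fermat.Agent.RRHur

variable {K F : Type*} [Field K] [Field F] [Algebra K F]

/-- the subring of Laurent polynomials in `u` inside `K(u)`. -/
def laurentSubring (u : F) : Subring K⟮u⟯ where
  carrier := {a | ∃ (M : ℕ) (P : K[X]), a * toAdj u X ^ M = toAdj u P}
  mul_mem' := by
    rintro a a' ⟨M, P, h⟩ ⟨M', P', h'⟩
    refine ⟨M + M', P * P', ?_⟩
    rw [map_mul, ← h, ← h', pow_add]
    ring
  one_mem' := ⟨0, 1, by simp⟩
  add_mem' := by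
    rintro a a' ⟨M, P, h⟩ ⟨M', P', h'⟩
    refine ⟨M + M', P * X ^ M' + P' * X ^ M, ?_⟩
    rw [map_add, map_mul, map_mul, map_pow, map_pow, ← h, ← h', pow_add]
    ring
  zero_mem' := ⟨0, 0, by simp⟩
  neg_mem' := by
    rintro a ⟨M, P, h⟩
    exact ⟨M, -P, by rw [map_neg, ← h, neg_mul]⟩

theorem mem_laurentSubring {u : F} {a : K⟮u⟯} :
    a ∈ laurentSubring (K := K) u ↔ ∃ (M : ℕ) (P : K[X]), a * toAdj u X ^ M = toAdj u P :=
  Iff.rfl

theorem toAdj_mem_laurentSubring (u : F) (P : K[X]) : toAdj u P ∈ laurentSubring (K := K) u :=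
  ⟨0, P, by simp⟩

theorem toAdj_X_coe (u : F) : ((toAdj (K := K) u X : K⟮u⟯) : F) = u := by
  rw [coe_toAdj, aeval_X]

/-- `u⁻¹` is a Laurent polynomial. -/
theorem inv_mem_laurentSubring {u : F} (hu0 : u ≠ 0) :
    (toAdj (K := K) u X)⁻¹ ∈ laurentSubring (K := K) u := by
  refine ⟨1, 1, ?_⟩
  have hne : toAdj (K := K) u X ≠ 0 := by
    intro h0
    apply hu0
    rw [← toAdj_X_coe (K := K) u, h0]
    rfl
  rw [pow_one, inv_mul_cancel₀ hne, map_one]

/-- a nonnegative divisor has coefficients bounded by its degree. -/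
theorem sn_coeff_le_degree (h : IsRRField K F) {D : Divisor K F} (hD : 0 ≤ D) (v : Place K F) :
    D v ≤ Divisor.degree D := by
  classical
  rw [degree_eq_sum h]
  by_cases hv : v ∈ D.support
  · exact Finset.single_le_sum (f := fun w => D w) (fun w _ => hD w) hv
  · rw [Finsupp.notMem_support_iff.mp hv]
    exact Finset.sum_nonneg fun w _ => hD w

/-- if the poles of `f` are among the zeros and poles of `u`, then `f * u ^ M` has no poles off
the poles of `u`, for `M` large. -/
theorem sn_exists_pow_intAway (h : IsRRField K F) {u : F} (hu0 : u ≠ 0) (f : F)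
    (hf : ∀ v : Place K F, v.ord f < 0 → v.ord u ≠ 0) :
    ∃ M : ℕ, IntAway (K := K) u (f * u ^ M) := by
  rcases eq_or_ne f 0 with rfl | hf0
  · exact ⟨0, by simpa using IntAway.zero (K := K) u⟩
  refine ⟨(Divisor.degree (poleDiv h f)).toNat, ?_⟩
  rw [intAway_iff]
  intro v hv
  set M := (Divisor.degree (poleDiv h f)).toNat with hM
  have hMge : poleDiv h f v ≤ (M : ℤ) := by
    have h1 := sn_coeff_le_degree h (poleDiv_nonneg h f) v
    have h2 : Divisor.degree (poleDiv h f) ≤ (M : ℤ) := Int.self_le_toNat _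
    omega
  have hpd : -(v.ord f) ≤ poleDiv h f v := by
    rw [poleDiv_apply]
    exact le_max_left _ _
  have hord : v.ord (f * u ^ M) = v.ord f + M * v.ord u := by
    rw [v.ord_mul hf0 (pow_ne_zero _ hu0)]
    congr 1
    have := v.ord_zpow u (M : ℤ)
    rw [zpow_natCast] at this
    exact this
  rw [hord]
  by_cases h0 : v.ord u = 0
  · have h1 : ¬ v.ord f < 0 := fun hlt => hf v hlt h0
    rw [h0]
    omega
  · have h1 : 1 ≤ v.ord u := by omega
    have h2 : (M : ℤ) * 1 ≤ M * v.ord u := by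
      apply mul_le_mul_of_nonneg_left h1
      exact Int.natCast_nonneg _
    omega

/-- (C-gen) generic fibre: if the poles of `f` are among the zeros and poles of `u`, the
coefficients of the characteristic polynomial of `f` over `K(u)` are Laurent polynomials in
`u`. -/
theorem exists_laurent_coeff_gen (h : IsRRField K F) {u : F} (hu : Transcendental K u)
    [FiniteDimensional K⟮u⟯ F] (f : F) (hf : ∀ v : Place K F, v.ord f < 0 → v.ord u ≠ 0)
    (r : ℕ) :
    ∃ (M : ℕ) (P : K[X]),
      (((LinearMap.charpoly (LinearMap.mulLeft K⟮u⟯ f)).coeff r : K⟮u⟯) : F) * u ^ M =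
        Polynomial.aeval u P := by
  classical
  have hu0 : u ≠ 0 := fun h0 => hu (h0 ▸ isAlgebraic_zero)
  obtain ⟨b, hb, hint⟩ := exists_int_basis h hu
  obtain ⟨M₀, hM₀⟩ := sn_exists_pow_intAway h hu0 f hf
  obtain ⟨m, -, hm⟩ := exists_matrix b hint hb (f * u ^ M₀) hM₀
  set uK : K⟮u⟯ := toAdj u X with huK
  have huK0 : uK ≠ 0 := by
    intro h0
    apply hu0
    rw [← toAdj_X_coe (K := K) u, ← huK, h0]
    rfl
  -- `f = uK⁻¹ ^ M₀ • (f * u ^ M₀)`
  have hf' : f = (uK⁻¹ ^ M₀) • (f * u ^ M₀) := by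
    rw [IntermediateField.smul_def, smul_eq_mul]
    push_cast
    rw [huK, toAdj_X_coe, mul_comm f, ← mul_assoc, ← mul_pow, inv_mul_cancel₀ hu0, one_pow, one_mul]
  have hmat : Algebra.leftMulMatrix b f = (uK⁻¹ ^ M₀) • (m.map (toAdj u)) := by
    conv_lhs => rw [hf']
    rw [map_smul, hm]
  have hentry : ∀ i j, Algebra.leftMulMatrix b f i j ∈ laurentSubring (K := K) u := by
    intro i j
    rw [hmat, Matrix.smul_apply, Matrix.map_apply, smul_eq_mul]
    exact mul_mem (pow_mem (inv_mem_laurentSubring hu0) _) (toAdj_mem_laurentSubring u _)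
  let M' : Matrix (Fin (Module.finrank K⟮u⟯ F)) (Fin (Module.finrank K⟮u⟯ F))
      (laurentSubring (K := K) u) := fun i j => ⟨Algebra.leftMulMatrix b f i j, hentry i j⟩
  have hM' : M'.map (laurentSubring (K := K) u).subtype = Algebra.leftMulMatrix b f := by
    ext i j
    rfl
  have hchar : LinearMap.charpoly (LinearMap.mulLeft K⟮u⟯ f) =
      M'.charpoly.map (laurentSubring (K := K) u).subtype := by
    rw [charpoly_mulLeft_eq b f, ← hM', Matrix.charpoly_map]
  obtain ⟨M, P, hMP⟩ := (M'.charpoly.coeff r).2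
  refine ⟨M, P, ?_⟩
  rw [hchar, Polynomial.coeff_map]
  have h1 : (((M'.charpoly.coeff r : laurentSubring (K := K) u) : K⟮u⟯) : F) *
      ((toAdj (K := K) u X : K⟮u⟯) : F) ^ M = ((toAdj u P : K⟮u⟯) : F) := by
    rw [← hMP]
    push_cast
    rfl
  rw [toAdj_X_coe] at h1
  rw [← coe_toAdj]
  exact h1

end Fermat.Agent.BadRed.SeedNode
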