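import Mathlib
import Fermat.Agent.Lib.BadRed.Mod.SeedNodeC1
import Fermat.Agent.Lib.BadRed.Mod.SeedNodeC2
import Fermat.Agent.Lib.BadRed.Mod.SeedNodeCGen

set_option autoImplicit false
set_option linter.style.haveILetI false
set_option linter.unusedSectionVars false

/-!
# Cluster T, WP M2 (seed node condition), piece C: the IMAGE CURVE  (helper33)

`F / K` a function field (`IsRRField`), `x ∈ F` transcendental, `[F : K(x)] = n`.

* `exists_charpoly_poly` (in `SeedNodeC1.lean`): if `f` has no poles off the poles of `x`, the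
  characteristic polynomial of `f` on `F / K(x)` is `Φ(x, X)` with `Φ ∈ K[T][X]` monic.
* `regular_of_charpoly_poly` (in `SeedNodeC1.lean`): conversely.
* `root_iff_exists_place` : for such `Φ` and `a c : K`:
  `Φ(a, c) = 0  ↔  ∃ Q, x(Q) = a ∧ f(Q) = c`.   PROVED.
* `exists_poly_root_iff` : (C1) + (C2) at `a = 0` in one statement.  PROVED.
* `exists_laurent_coeff` : if the poles of `f` are among the zeros and poles of `u`, the
  coefficients of the characteristic polynomial of `f` on `F / K(u)` are Laurent polynomials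
  in `u`.   PROVED.

Sorry-free.

No separability hypothesis (the proofs use the reduced basis of `Lib/RR/Hurwitz/Norm.lean`).
-/

noncomputable section

open AlgebraicCurve IntermediateField Polynomial

namespace Fermat.Agent.BadRed.SeedNode

open Fermat.Agent.RR Fermat.Agent.RRHur

variable {K F : Type*} [Field K] [Field F] [Algebra K F]

theorem adicValuation_lt_one_iff (v : Place K F) (y : F) :
    v.adicValuation y < 1 ↔ y = 0 ∨ 0 < v.ord y := by
  rcases eq_or_ne y 0 with rfl | hy
  · simp
  · rw [v.adicValuation_eq_exp_neg_ord hy, ← WithZero.exp_zero, WithZero.exp_lt_exp,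
      or_iff_right hy]
    omega

theorem valAt_iff (Q : Place K F) (f : F) (c : K) :
    ValAt Q f c ↔ Q.adicValuation (algebraMap K F c - f) < 1 := by
  rw [adicValuation_lt_one_iff, ValAt]
  have h1 : algebraMap K F c - f = -(f - algebraMap K F c) := by ring
  have h2 : Q.ord (algebraMap K F c - f) = Q.ord (f - algebraMap K F c) := by
    unfold Place.ord
    rw [h1, Valuation.map_neg]
  rw [h2, sub_eq_zero, sub_eq_zero.symm.trans (by rw [sub_eq_zero] : f - algebraMap K F c = 0 ↔ f = algebraMap K F c)]
  constructor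
  · rintro (h | h)
    · exact Or.inl h.symm
    · exact Or.inr h
  · rintro (h | h)
    · exact Or.inl h.symm
    · exact Or.inr h

/-- evaluation of a bivariate polynomial in the two orders. -/
theorem eval_map_evalRingHom (Φ : Polynomial (Polynomial K)) (a c : K) :
    (Φ.map (Polynomial.evalRingHom a)).eval c = (Φ.eval (Polynomial.C c)).eval a := by
  rw [Polynomial.eval_map]
  have := Polynomial.hom_eval₂ Φ (RingHom.id (Polynomial K)) (Polynomial.evalRingHom a)
    (Polynomial.C c)
  simp only [RingHom.comp_id, Polynomial.coe_evalRingHom, Polynomial.eval_C] at this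
  rw [← this]
  rfl

/-- the value of the characteristic polynomial at a constant is the determinant of the matrix
of `c - f`. -/
theorem eval_C_eq_det {x : F} (hx : Transcendental K x) [FiniteDimensional K⟮x⟯ F] {n : ℕ}
    (b : Module.Basis (Fin n) K⟮x⟯ F) (f : F) (Φ : Polynomial (Polynomial K))
    (hΦ : Φ.map (toAdj x) = LinearMap.charpoly (LinearMap.mulLeft K⟮x⟯ f)) (c : K)
    (m : Matrix (Fin n) (Fin n) K[X])
    (hm : Algebra.leftMulMatrix b (algebraMap K F c - f) = m.map (toAdj x)) :
    Φ.eval (Polynomial.C c) = m.det := by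
  classical
  apply toAdj_injective hx
  have h1 : toAdj x (Φ.eval (Polynomial.C c)) = (Φ.map (toAdj x)).eval (toAdj x (Polynomial.C c)) := by
    rw [Polynomial.eval_map, Polynomial.eval₂_at_apply]
  rw [h1, hΦ, charpoly_mulLeft_eq b f, Matrix.eval_charpoly, toAdj_C]
  have h2 : Matrix.scalar (Fin n) (algebraMap K K⟮x⟯ c) - Algebra.leftMulMatrix b f =
      Algebra.leftMulMatrix b (algebraMap K F c - f) := by
    rw [map_sub]
    congr 1
    have h3 : algebraMap K F c = algebraMap K⟮x⟯ F (algebraMap K K⟮x⟯ c) := rfl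
    rw [h3, AlgHom.commutes]
    rfl
  rw [h2, hm]
  have := RingHom.map_det (toAdj (K := K) x) m
  rw [RingHom.mapMatrix_apply] at this
  exact this.symm

/-- (C2) the ROOT FORMULA: `Φ(a, c) = 0` iff some place over `x = a` has `f = c`. -/
theorem root_iff_exists_place (h : IsRRField K F) {x : F} (hx : Transcendental K x)
    [FiniteDimensional K⟮x⟯ F] (f : F) (Φ : Polynomial (Polynomial K))
    (hΦ : Φ.map (toAdj x) = LinearMap.charpoly (LinearMap.mulLeft K⟮x⟯ f)) (a c : K) :
    (Φ.map (Polynomial.evalRingHom a)).eval c = 0 ↔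
      ∃ Q : Place K F, 0 < Q.ord (x - algebraMap K F a) ∧ ValAt Q f c := by
  have hxa0 : x - algebraMap K F a ≠ 0 := by
    intro h0
    apply hx
    rw [sub_eq_zero] at h0
    rw [h0]
    exact isAlgebraic_algebraMap a
  have hf : IntAway (K := K) x f := intAway_iff.mpr (regular_of_charpoly_poly f Φ hΦ)
  have hg : IntAway (K := K) x (algebraMap K F c - f) := by
    refine IntAway.sub (fun v _ => v.adicValuation_algebraMap_le_one c) hf
  obtain ⟨b, hb, hint⟩ := exists_int_basis h hx
  obtain ⟨m, hm, hmat⟩ := exists_matrix b hint hb _ hg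
  rw [eval_map_evalRingHom, eval_C_eq_det hx b f Φ hΦ c m hmat]
  have hconv : ∀ Q : Place K F, (0 < Q.ord (x - algebraMap K F a) ∧ ValAt Q f c) ↔
      (Q.adicValuation (x - algebraMap K F a) < 1 ∧
        Q.adicValuation (algebraMap K F c - f) < 1) := by
    intro Q
    rw [valAt_iff, adicValuation_lt_one_iff Q (x - algebraMap K F a), or_iff_right hxa0]
  simp only [hconv]
  constructor
  · intro hdet
    exact exists_place_of_det_eval_eq_zero b hx hint hb _ hg m hm a hdet
  · rintro ⟨Q, hQ, hgQ⟩
    exact det_eval_eq_zero_of_place b hint hb _ m hm a Q hQ hgQ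

/-- helper47's shape of (C1) + (C2) at `a = 0`. -/
theorem exists_poly_root_iff (h : IsRRField K F) {x : F} (hx : Transcendental K x)
    [FiniteDimensional K⟮x⟯ F] (f : F) (hf : ∀ v : Place K F, 0 ≤ v.ord x → 0 ≤ v.ord f) :
    ∃ Φ : Polynomial (Polynomial K), Φ.Monic ∧
      (∀ i, (((LinearMap.charpoly (LinearMap.mulLeft K⟮x⟯ f)).coeff i : K⟮x⟯) : F) =
        Polynomial.aeval x (Φ.coeff i)) ∧
      ∀ c : K, (Φ.map (Polynomial.evalRingHom 0)).eval c = 0 ↔
        ∃ Q : Place K F, 0 < Q.ord x ∧ ValAt Q f c := by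
  obtain ⟨Φ, hmonic, hΦ⟩ := exists_charpoly_poly h hx f hf
  refine ⟨Φ, hmonic, fun i => ?_, fun c => ?_⟩
  · rw [← hΦ, Polynomial.coeff_map, coe_toAdj]
  · have := root_iff_exists_place h hx f Φ hΦ 0 c
    simpa using this

/-- (C-gen) generic fibre: if the poles of `f` are among the zeros and poles of `u`, the
coefficients of the characteristic polynomial of `f` over `K(u)` are Laurent polynomials in `u`.
(Proof: helper47, `SeedNodeCGen.lean`.) -/
theorem exists_laurent_coeff (h : IsRRField K F) {u : F} (hu : Transcendental K u)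
    [FiniteDimensional K⟮u⟯ F] (f : F) (hf : ∀ v : Place K F, v.ord f < 0 → v.ord u ≠ 0)
    (r : ℕ) :
    ∃ (M : ℕ) (P : K[X]),
      (((LinearMap.charpoly (LinearMap.mulLeft K⟮u⟯ f)).coeff r : K⟮u⟯) : F) * u ^ M =
        Polynomial.aeval u P :=
  exists_laurent_coeff_gen h hu f hf r

end Fermat.Agent.BadRed.SeedNode
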