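import Mathlib
import Fermat.Agent.Lib.BadRed.Mod.SeedNodeA
import Fermat.Agent.Lib.BadRed.Mod.SeedNodeB
import Fermat.Agent.Lib.BadRed.Mod.SeedNodeC
import Fermat.Agent.Lib.BadRed.Nodal.Deuring2.RRExist

set_option autoImplicit false

/-!
# Cluster T, M2 (seed node condition): the abstract NODE THEOREM (assembly of pieces A, B, C)

Two constant reductions `S₁`, `S₂` of `F / K` over the same valuation ring, `u ∈ F`, `ϖ ∈ 𝔪_A`,
`u` a unit for `S₁` and `u' = ϖ / u` a unit for `S₂`, both with transcendental reduction, and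
`[F : K(u)] ≤ [Fk₁ : k(ū)]`, `[F : K(u)] ≤ [Fk₂ : k(ū')]`.

`sn_node_values`: for `f ∈ O₁ ∩ O₂` whose poles are zeros or poles of `u`, the reductions
`red₁ f`, `red₂ f` are regular off the poles of `ū`, `ū'`, and the SET of values of `red₁ f` at
the zeros of `ū` equals the SET of values of `red₂ f` at the zeros of `ū'`.

`sn_node_condition`: with separating functions, `red₁ f (s₁ i) = red₂ f (s₂ i)` for every node.
-/

noncomputable section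

open Polynomial IntermediateField AlgebraicCurve

namespace Fermat.Agent.BadRed.SeedNode

open Fermat.Agent.Deuring Fermat.Agent.RR

variable {K F k Fk : Type*} [Field K] [Field F] [Algebra K F]
  [Field k] [Field Fk] [Algebra k Fk]

/-- transcendence lifts from the reduction. -/
theorem sn_transcendental_of_red (S : ValSetup K F k Fk) {u : F} (hu : u ∈ S.Ov)
    (hub : Transcendental k (S.red u)) : Transcendental K u := by
  intro halg
  obtain ⟨p, hp, hpu⟩ := halg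
  obtain ⟨c, p₀, hc, hpp, hp₀⟩ := sn_exists_normalize S hp
  have h1 := sn_red_aeval_ne_zero S hu hub hp₀
  apply h1
  have h2 : aeval u (p₀.map (algebraMap S.A K)) = 0 := by
    rw [hpp, map_mul, aeval_C] at hpu
    rcases mul_eq_zero.mp hpu with h | h
    · exact absurd ((map_eq_zero _).mp h) hc
    · exact h
  rw [h2, S.red_zero]

/-- the characteristic polynomial only depends on the intermediate field as a set. -/
theorem sn_charpoly_congr {L L' : IntermediateField K F} (h : L = L') [FiniteDimensional L F]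
    [FiniteDimensional L' F] (f : F) (i : ℕ) :
    (((LinearMap.mulLeft L f).charpoly.coeff i : L) : F) =
      (((LinearMap.mulLeft L' f).charpoly.coeff i : L') : F) := by
  subst h
  rfl

theorem sn_finrank_congr {L L' : IntermediateField K F} (h : L = L') :
    Module.finrank L F = Module.finrank L' F := by
  subst h
  rfl

/-- piece A, coefficient form, over an intermediate field `L = K(w)`. -/
theorem sn_charpoly_red_coeff (S : ValSetup K F k Fk) {w : F} (hw : w ∈ S.Ov)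
    (hwb : Transcendental k (S.red w)) (L : IntermediateField K F) (hL : K⟮w⟯ = L)
    [FiniteDimensional L F] [FiniteDimensional k⟮S.red w⟯ Fk]
    (hdeg : Module.finrank L F ≤ Module.finrank k⟮S.red w⟯ Fk) {f : F} (hf : f ∈ S.Ov) :
    (∀ r, (((LinearMap.mulLeft L f).charpoly.coeff r : L) : F) ∈ S.Ov ∧
      S.red (((LinearMap.mulLeft L f).charpoly.coeff r : L) : F) =
        (((LinearMap.mulLeft k⟮S.red w⟯ (S.red f)).charpoly.coeff r : k⟮S.red w⟯) : Fk)) ∧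
      (LinearMap.mulLeft k⟮S.red w⟯ (S.red f)).charpoly.natDegree = Module.finrank L F := by
  subst hL
  obtain ⟨P, hP1, hP2, hPm, hPd⟩ := sn_charpoly_red hw hwb hdeg hf
  refine ⟨fun r => ?_, ?_⟩
  · rw [← hP1, ← hP2, Polynomial.coeff_map, Polynomial.coeff_map]
    exact ⟨(P.coeff r).2, rfl⟩
  · rw [← hP2, hPm.natDegree_map, hPd]

/-- `K(ϖ / u) = K(u)`. -/
theorem sn_adjoin_inv_eq {u : F} {ϖ : K} (hϖ0 : ϖ ≠ 0) (hu0 : u ≠ 0) :
    K⟮algebraMap K F ϖ / u⟯ = K⟮u⟯ := by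
  have hϖ' : algebraMap K F ϖ ≠ 0 := (_root_.map_ne_zero _).mpr hϖ0
  apply le_antisymm
  · rw [IntermediateField.adjoin_simple_le_iff]
    exact div_mem (IntermediateField.algebraMap_mem _ _) (mem_adjoin_simple_self K u)
  · rw [IntermediateField.adjoin_simple_le_iff]
    have h1 : u = algebraMap K F ϖ / (algebraMap K F ϖ / u) := by
      field_simp
    have h2 : algebraMap K F ϖ / (algebraMap K F ϖ / u) ∈ K⟮algebraMap K F ϖ / u⟯ :=
      div_mem (IntermediateField.algebraMap_mem _ _)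
        (mem_adjoin_simple_self K (algebraMap K F ϖ / u))
    rw [← h1] at h2
    exact h2

section Main

variable {Fk₁ Fk₂ : Type*} [Field Fk₁] [Algebra k Fk₁] [Field Fk₂] [Algebra k Fk₂]

/-- the bivariate polynomial with prescribed coefficients. -/
def snPhi (n : ℕ) (P : ℕ → k[X]) : Polynomial (Polynomial k) :=
  ∑ r ∈ Finset.range (n + 1), Polynomial.monomial r (P r)

theorem snPhi_coeff (n : ℕ) (P : ℕ → k[X]) (r : ℕ) :
    (snPhi n P).coeff r = if r < n + 1 then P r else 0 := by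
  classical
  simp only [snPhi, Polynomial.finsetSum_coeff, Polynomial.coeff_monomial]
  rw [Finset.sum_ite_eq' (Finset.range (n + 1)) r]
  simp

/-- `snPhi` maps to the characteristic polynomial. -/
theorem snPhi_map {E : Type*} [Field E] [Algebra k E] {x : E} [FiniteDimensional k⟮x⟯ E]
    (g : E) (n : ℕ) (P : ℕ → k[X])
    (hn : (LinearMap.mulLeft k⟮x⟯ g).charpoly.natDegree = n)
    (hP : ∀ r, (((LinearMap.mulLeft k⟮x⟯ g).charpoly.coeff r : k⟮x⟯) : E) = aeval x (P r)) :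
    (snPhi n P).map (toAdj x) = (LinearMap.mulLeft k⟮x⟯ g).charpoly := by
  ext r : 1
  rw [Polynomial.coeff_map, snPhi_coeff]
  apply Subtype.ext
  split_ifs with hr
  · rw [coe_toAdj, hP r]
  · rw [map_zero, Polynomial.coeff_eq_zero_of_natDegree_lt (by omega)]

theorem snPhi_eval_zero (n : ℕ) (P Q : ℕ → k[X]) (h : ∀ r, (P r).coeff 0 = (Q r).coeff 0) :
    (snPhi n P).map (Polynomial.evalRingHom 0) = (snPhi n Q).map (Polynomial.evalRingHom 0) := by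
  ext r : 1
  rw [Polynomial.coeff_map, Polynomial.coeff_map, snPhi_coeff, snPhi_coeff]
  split_ifs with hr
  · rw [Polynomial.coe_evalRingHom, ← Polynomial.coeff_zero_eq_eval_zero,
      ← Polynomial.coeff_zero_eq_eval_zero, h r]
  · rfl

/-- **The abstract node theorem (value sets).** -/
theorem sn_node_values (S₁ : ValSetup K F k Fk₁) (S₂ : ValSetup K F k Fk₂) (hA : S₁.A = S₂.A)
    (hres : ∀ (c : K) (h₁ : c ∈ S₁.A) (h₂ : c ∈ S₂.A), S₁.res ⟨c, h₁⟩ = S₂.res ⟨c, h₂⟩)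
    {u : F} {ϖ : K} (hϖ0 : ϖ ≠ 0) (hϖ : ϖ ∈ S₁.A) (hϖres : S₁.res ⟨ϖ, hϖ⟩ = 0)
    (hu₁ : u ∈ S₁.Ov) (hubar₁ : Transcendental k (S₁.red u))
    (hu₂ : algebraMap K F ϖ / u ∈ S₂.Ov)
    (hubar₂ : Transcendental k (S₂.red (algebraMap K F ϖ / u)))
    [FiniteDimensional K⟮u⟯ F] [FiniteDimensional k⟮S₁.red u⟯ Fk₁]
    [FiniteDimensional k⟮S₂.red (algebraMap K F ϖ / u)⟯ Fk₂]
    (hdeg₁ : Module.finrank K⟮u⟯ F ≤ Module.finrank k⟮S₁.red u⟯ Fk₁)
    (hdeg₂ : Module.finrank K⟮u⟯ F ≤ Module.finrank k⟮S₂.red (algebraMap K F ϖ / u)⟯ Fk₂)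
    (f : F) (hf₁ : f ∈ S₁.Ov) (hf₂ : f ∈ S₂.Ov)
    (hf : ∀ v : Place K F, v.ord f < 0 → v.ord u ≠ 0) :
    (∀ Q : Place k Fk₁, 0 ≤ Q.ord (S₁.red u) → 0 ≤ Q.ord (S₁.red f)) ∧
    (∀ Q : Place k Fk₂, 0 ≤ Q.ord (S₂.red (algebraMap K F ϖ / u)) → 0 ≤ Q.ord (S₂.red f)) ∧
    ∀ c : k, (∃ Q : Place k Fk₁, 0 < Q.ord (S₁.red u) ∧ ValAt Q (S₁.red f) c) ↔
      (∃ Q : Place k Fk₂, 0 < Q.ord (S₂.red (algebraMap K F ϖ / u)) ∧ ValAt Q (S₂.red f) c) := by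
  have hu0 : u ≠ 0 := by
    rintro rfl
    apply hubar₁
    rw [S₁.red_zero]
    exact isAlgebraic_zero
  have huK : Transcendental K u := sn_transcendental_of_red S₁ hu₁ hubar₁
  have hL : K⟮algebraMap K F ϖ / u⟯ = K⟮u⟯ := sn_adjoin_inv_eq hϖ0 hu0
  obtain ⟨hA₁, hn₁⟩ := sn_charpoly_red_coeff S₁ hu₁ hubar₁ K⟮u⟯ rfl hdeg₁ hf₁
  obtain ⟨hA₂, hn₂⟩ := sn_charpoly_red_coeff S₂ hu₂ hubar₂ K⟮u⟯ hL hdeg₂ hf₂
  -- Laurent form of the coefficients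
  have hC := exists_laurent_coeff S₁.hF huK f hf
  choose M P hMP using hC
  have hB := fun r => laurent_gauss S₁ S₂ hA hres hϖ0 hϖ hϖres hu₁ hubar₁ hu₂ hubar₂ _
    (hA₁ r).1 (hA₂ r).1 (M r) (P r) (hMP r)
  choose P₁ P₂ h0 hP₁ hP₂ using hB
  set n := Module.finrank K⟮u⟯ F with hn
  have hΦ₁ : (snPhi n P₁).map (toAdj (S₁.red u)) =
      (LinearMap.mulLeft k⟮S₁.red u⟯ (S₁.red f)).charpoly :=
    snPhi_map (S₁.red f) n P₁ hn₁ fun r => by rw [← (hA₁ r).2, hP₁ r]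
  have hΦ₂ : (snPhi n P₂).map (toAdj (S₂.red (algebraMap K F ϖ / u))) =
      (LinearMap.mulLeft k⟮S₂.red (algebraMap K F ϖ / u)⟯ (S₂.red f)).charpoly :=
    snPhi_map (S₂.red f) n P₂ hn₂ fun r => by rw [← (hA₂ r).2, hP₂ r]
  refine ⟨regular_of_charpoly_poly (S₁.red f) _ hΦ₁, regular_of_charpoly_poly (S₂.red f) _ hΦ₂,
    fun c => ?_⟩
  have hR₁ := root_iff_exists_place S₁.hFk hubar₁ (S₁.red f) _ hΦ₁ 0 c
  have hR₂ := root_iff_exists_place S₂.hFk hubar₂ (S₂.red f) _ hΦ₂ 0 c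
  rw [map_zero, sub_zero] at hR₁ hR₂
  rw [← hR₁, ← hR₂, snPhi_eval_zero n P₁ P₂ h0]

/-! ### functions satisfying the node condition -/

/-- `g` is integral for both valuations, has no poles off the zeros and poles of `u`, and takes
the value `c l` on BOTH branches at the node `l`. -/
structure NodeVal {ι : Type*} (S₁ : ValSetup K F k Fk₁) (S₂ : ValSetup K F k Fk₂) (u : F)
    (s₁ : ι → Place k Fk₁) (s₂ : ι → Place k Fk₂) (g : F) (c : ι → k) : Prop where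
  mem₁ : g ∈ S₁.Ov
  mem₂ : g ∈ S₂.Ov
  cusp : ∀ v : Place K F, v.ord u = 0 → 0 ≤ v.ord g
  val₁ : ∀ l, ValAt (s₁ l) (S₁.red g) (c l)
  val₂ : ∀ l, ValAt (s₂ l) (S₂.red g) (c l)

section NodeVal

variable {ι : Type*} {S₁ : ValSetup K F k Fk₁} {S₂ : ValSetup K F k Fk₂} {u : F}
  {s₁ : ι → Place k Fk₁} {s₂ : ι → Place k Fk₂}

theorem NodeVal.const (hA : S₁.A = S₂.A)
    (hres : ∀ (c : K) (h₁ : c ∈ S₁.A) (h₂ : c ∈ S₂.A), S₁.res ⟨c, h₁⟩ = S₂.res ⟨c, h₂⟩)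
    {a : K} (ha : a ∈ S₁.A) :
    NodeVal S₁ S₂ u s₁ s₂ (algebraMap K F a) (fun _ => S₁.res ⟨a, ha⟩) where
  mem₁ := S₁.algebraMap_mem ha
  mem₂ := S₂.algebraMap_mem (hA ▸ ha)
  cusp v _ := by rw [Fermat.Agent.S24Res.ord_algebraMap]
  val₁ _ := Or.inl (S₁.red_algebraMap ha)
  val₂ _ := Or.inl (by rw [S₂.red_algebraMap (hA ▸ ha), hres a ha (hA ▸ ha)])

theorem NodeVal.mul {g h : F} {c d : ι → k} (hg : NodeVal S₁ S₂ u s₁ s₂ g c)
    (hh : NodeVal S₁ S₂ u s₁ s₂ h d) : NodeVal S₁ S₂ u s₁ s₂ (g * h) (fun l => c l * d l) where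
  mem₁ := mul_mem hg.mem₁ hh.mem₁
  mem₂ := mul_mem hg.mem₂ hh.mem₂
  cusp v hv := Fermat.Agent.S24Res.ord_nonneg_of_mem v
    (mul_mem (Fermat.Agent.S24Res.mem_of_ord_nonneg v (hg.cusp v hv))
      (Fermat.Agent.S24Res.mem_of_ord_nonneg v (hh.cusp v hv)))
  val₁ l := by
    rw [S₁.red_mul hg.mem₁ hh.mem₁]
    exact (hg.val₁ l).mul (hh.val₁ l)
  val₂ l := by
    rw [S₂.red_mul hg.mem₂ hh.mem₂]
    exact (hg.val₂ l).mul (hh.val₂ l)

theorem NodeVal.add {g h : F} {c d : ι → k} (hg : NodeVal S₁ S₂ u s₁ s₂ g c)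
    (hh : NodeVal S₁ S₂ u s₁ s₂ h d) : NodeVal S₁ S₂ u s₁ s₂ (g + h) (fun l => c l + d l) where
  mem₁ := add_mem hg.mem₁ hh.mem₁
  mem₂ := add_mem hg.mem₂ hh.mem₂
  cusp v hv := Fermat.Agent.S24Res.ord_nonneg_of_mem v
    (add_mem (Fermat.Agent.S24Res.mem_of_ord_nonneg v (hg.cusp v hv))
      (Fermat.Agent.S24Res.mem_of_ord_nonneg v (hh.cusp v hv)))
  val₁ l := by
    rw [S₁.red_add hg.mem₁ hh.mem₁]
    exact (hg.val₁ l).add (hh.val₁ l)
  val₂ l := by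
    rw [S₂.red_add hg.mem₂ hh.mem₂]
    exact (hg.val₂ l).add (hh.val₂ l)

theorem NodeVal.congr {g : F} {c d : ι → k} (hg : NodeVal S₁ S₂ u s₁ s₂ g c) (h : c = d) :
    NodeVal S₁ S₂ u s₁ s₂ g d := h ▸ hg

theorem NodeVal.one (hA : S₁.A = S₂.A)
    (hres : ∀ (c : K) (h₁ : c ∈ S₁.A) (h₂ : c ∈ S₂.A), S₁.res ⟨c, h₁⟩ = S₂.res ⟨c, h₂⟩) :
    NodeVal S₁ S₂ u s₁ s₂ (1 : F) (fun _ => 1) := by
  have h := NodeVal.const (u := u) (s₁ := s₁) (s₂ := s₂) hA hres (one_mem S₁.A)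
  rw [map_one] at h
  refine h.congr (funext fun _ => ?_)
  exact map_one S₁.res

theorem NodeVal.prod (hA : S₁.A = S₂.A)
    (hres : ∀ (c : K) (h₁ : c ∈ S₁.A) (h₂ : c ∈ S₂.A), S₁.res ⟨c, h₁⟩ = S₂.res ⟨c, h₂⟩)
    {J : Type*} (t : Finset J) (g : J → F) (c : J → ι → k)
    (h : ∀ j ∈ t, NodeVal S₁ S₂ u s₁ s₂ (g j) (c j)) :
    NodeVal S₁ S₂ u s₁ s₂ (∏ j ∈ t, g j) (fun l => ∏ j ∈ t, c j l) := by
  classical
  induction t using Finset.induction_on with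
  | empty =>
    simp only [Finset.prod_empty]
    exact NodeVal.one hA hres
  | insert a t ha ih =>
    have h1 := (h a (Finset.mem_insert_self a t)).mul
      (ih fun j hj => h j (Finset.mem_insert_of_mem hj))
    rw [Finset.prod_insert ha]
    refine h1.congr (funext fun l => ?_)
    rw [Finset.prod_insert ha]

/-- a constant with nonzero residue is a unit of `A`. -/
theorem sn_inv_mem_of_res_ne_zero (S : ValSetup K F k Fk) {d : K} (hd : d ∈ S.A)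
    (hres : S.res ⟨d, hd⟩ ≠ 0) :
    ∃ h : d⁻¹ ∈ S.A, S.res ⟨d⁻¹, h⟩ = (S.res ⟨d, hd⟩)⁻¹ := by
  have hd0 : d ≠ 0 := by
    rintro rfl
    apply hres
    have : (⟨0, hd⟩ : S.A) = 0 := rfl
    rw [this, map_zero]
  have hinv : d⁻¹ ∈ S.A := by
    by_contra hcon
    obtain ⟨h, h0⟩ := S.res_inv_eq_zero hcon
    apply hres
    have : (⟨d, hd⟩ : S.A) = ⟨d⁻¹⁻¹, h⟩ := Subtype.ext (inv_inv d).symm
    rw [this, h0]
  refine ⟨hinv, ?_⟩
  have h1 : S.res ⟨d⁻¹, hinv⟩ * S.res ⟨d, hd⟩ = 1 := by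
    rw [← map_mul]
    have : (⟨d⁻¹, hinv⟩ : S.A) * ⟨d, hd⟩ = 1 := Subtype.ext (inv_mul_cancel₀ hd0)
    rw [this, map_one]
  exact eq_inv_of_mul_eq_one_left h1

/-- the normalised separating function: value `1` at the node `i`, `0` at the node `j`. -/
theorem NodeVal.exists_sep (hA : S₁.A = S₂.A)
    (hres : ∀ (c : K) (h₁ : c ∈ S₁.A) (h₂ : c ∈ S₂.A), S₁.res ⟨c, h₁⟩ = S₂.res ⟨c, h₂⟩)
    {g : F} {c : ι → k} (hg : NodeVal S₁ S₂ u s₁ s₂ g c) {i j : ι} (hij : c i ≠ c j) :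
    ∃ (h : F) (d : ι → k), NodeVal S₁ S₂ u s₁ s₂ h d ∧ d i = 1 ∧ d j = 0 := by
  obtain ⟨⟨b, hb⟩, hbj⟩ := S₁.res_surj (c j)
  obtain ⟨⟨a, ha⟩, hai⟩ := S₁.res_surj (c i)
  have hd : a - b ∈ S₁.A := sub_mem ha hb
  have hdres : S₁.res ⟨a - b, hd⟩ = c i - c j := by
    have : (⟨a - b, hd⟩ : S₁.A) = ⟨a, ha⟩ - ⟨b, hb⟩ := rfl
    rw [this, map_sub, hai, hbj]
  have hne : S₁.res ⟨a - b, hd⟩ ≠ 0 := by
    rw [hdres]
    exact sub_ne_zero.mpr hij
  obtain ⟨hinv, hinvres⟩ := sn_inv_mem_of_res_ne_zero S₁ hd hne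
  have hnb : -b ∈ S₁.A := neg_mem hb
  have hnbres : S₁.res ⟨-b, hnb⟩ = -c j := by
    have : (⟨-b, hnb⟩ : S₁.A) = -⟨b, hb⟩ := rfl
    rw [this, map_neg, hbj]
  have h1 := (hg.add (NodeVal.const (u := u) (s₁ := s₁) (s₂ := s₂) hA hres hnb)).mul
    (NodeVal.const (u := u) (s₁ := s₁) (s₂ := s₂) hA hres hinv)
  refine ⟨_, _, h1, ?_, ?_⟩
  · simp only [hnbres, hinvres, hdres]
    rw [← sub_eq_add_neg]
    exact mul_inv_cancel₀ (sub_ne_zero.mpr hij)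
  · simp only [hnbres]
    rw [add_neg_cancel, zero_mul]

/-- delta functions at the nodes. -/
theorem NodeVal.exists_delta [Finite ι] (hA : S₁.A = S₂.A)
    (hres : ∀ (c : K) (h₁ : c ∈ S₁.A) (h₂ : c ∈ S₂.A), S₁.res ⟨c, h₁⟩ = S₂.res ⟨c, h₂⟩)
    (hsep : ∀ i j, i ≠ j → ∃ (g : F) (c : ι → k), NodeVal S₁ S₂ u s₁ s₂ g c ∧ c i ≠ c j)
    (i : ι) :
    ∃ (e : F) (d : ι → k), NodeVal S₁ S₂ u s₁ s₂ e d ∧ d i = 1 ∧ ∀ l, l ≠ i → d l = 0 := by
  classical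
  have := Fintype.ofFinite ι
  have h1 : ∀ j, ∃ (h : F) (d : ι → k), NodeVal S₁ S₂ u s₁ s₂ h d ∧ d i = 1 ∧ (j ≠ i → d j = 0) := by
    intro j
    by_cases hji : j = i
    · exact ⟨1, fun _ => 1, NodeVal.one hA hres, rfl, fun h => absurd hji h⟩
    · obtain ⟨g, c, hg, hc⟩ := hsep i j (Ne.symm hji)
      obtain ⟨h, d, hh, hdi, hdj⟩ := hg.exists_sep hA hres hc
      exact ⟨h, d, hh, hdi, fun _ => hdj⟩
  choose h d hh hdi hdj using h1
  refine ⟨∏ j ∈ Finset.univ, h j, fun l => ∏ j ∈ Finset.univ, d j l,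
    NodeVal.prod hA hres Finset.univ h d (fun j _ => hh j), ?_, ?_⟩
  · exact Finset.prod_eq_one fun j _ => hdi j
  · intro l hl
    exact Finset.prod_eq_zero (Finset.mem_univ l) (hdj l hl)

end NodeVal

/-- **The abstract NODE CONDITION.**  If functions satisfying the node condition separate the
nodes, then every function which is integral for both valuations and has no poles off the zeros
and poles of `u` satisfies the node condition. -/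
theorem sn_node_condition {ι : Type*} [Finite ι]
    (S₁ : ValSetup K F k Fk₁) (S₂ : ValSetup K F k Fk₂) (hA : S₁.A = S₂.A)
    (hres : ∀ (c : K) (h₁ : c ∈ S₁.A) (h₂ : c ∈ S₂.A), S₁.res ⟨c, h₁⟩ = S₂.res ⟨c, h₂⟩)
    {u : F} {ϖ : K} (hϖ0 : ϖ ≠ 0) (hϖ : ϖ ∈ S₁.A) (hϖres : S₁.res ⟨ϖ, hϖ⟩ = 0)
    (hu₁ : u ∈ S₁.Ov) (hubar₁ : Transcendental k (S₁.red u))
    (hu₂ : algebraMap K F ϖ / u ∈ S₂.Ov)
    (hubar₂ : Transcendental k (S₂.red (algebraMap K F ϖ / u)))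
    [FiniteDimensional K⟮u⟯ F] [FiniteDimensional k⟮S₁.red u⟯ Fk₁]
    [FiniteDimensional k⟮S₂.red (algebraMap K F ϖ / u)⟯ Fk₂]
    (hdeg₁ : Module.finrank K⟮u⟯ F ≤ Module.finrank k⟮S₁.red u⟯ Fk₁)
    (hdeg₂ : Module.finrank K⟮u⟯ F ≤ Module.finrank k⟮S₂.red (algebraMap K F ϖ / u)⟯ Fk₂)
    (s₁ : ι → Place k Fk₁) (s₂ : ι → Place k Fk₂)
    (hs₁ : ∀ i, 0 < (s₁ i).ord (S₁.red u))
    (hs₂ : ∀ i, 0 < (s₂ i).ord (S₂.red (algebraMap K F ϖ / u)))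
    (hz₁ : ∀ Q : Place k Fk₁, 0 < Q.ord (S₁.red u) → ∃ i, Q = s₁ i)
    (hz₂ : ∀ Q : Place k Fk₂, 0 < Q.ord (S₂.red (algebraMap K F ϖ / u)) → ∃ i, Q = s₂ i)
    (hsep : ∀ i j, i ≠ j → ∃ (g : F) (c : ι → k), NodeVal S₁ S₂ u s₁ s₂ g c ∧ c i ≠ c j)
    (f : F) (hf₁ : f ∈ S₁.Ov) (hf₂ : f ∈ S₂.Ov)
    (hf : ∀ v : Place K F, v.ord u = 0 → 0 ≤ v.ord f) :
    ∃ c : ι → k, NodeVal S₁ S₂ u s₁ s₂ f c := by
  classical
  have hpole : ∀ g : F, (∀ v : Place K F, v.ord u = 0 → 0 ≤ v.ord g) →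
      ∀ v : Place K F, v.ord g < 0 → v.ord u ≠ 0 := by
    intro g hg v hv h0
    have := hg v h0
    omega
  obtain ⟨hreg₁, hreg₂, -⟩ := sn_node_values S₁ S₂ hA hres hϖ0 hϖ hϖres hu₁ hubar₁ hu₂ hubar₂
    hdeg₁ hdeg₂ f hf₁ hf₂ (hpole f hf)
  have hv₁ : ∀ l, ∃ c, ValAt (s₁ l) (S₁.red f) c := fun l =>
    exists_const_sub S₁.hFk (s₁ l) (hreg₁ _ (hs₁ l).le)
  have hv₂ : ∀ l, ∃ c, ValAt (s₂ l) (S₂.red f) c := fun l =>
    exists_const_sub S₂.hFk (s₂ l) (hreg₂ _ (hs₂ l).le)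
  choose c₁ hc₁ using hv₁
  choose c₂ hc₂ using hv₂
  have key : ∀ i, c₁ i = c₂ i := by
    intro i
    obtain ⟨e, d, he, hdi, hdl⟩ := NodeVal.exists_delta hA hres hsep i
    have hg₁ : f * e ∈ S₁.Ov := mul_mem hf₁ he.mem₁
    have hg₂ : f * e ∈ S₂.Ov := mul_mem hf₂ he.mem₂
    have hgc : ∀ v : Place K F, v.ord u = 0 → 0 ≤ v.ord (f * e) := fun v hv =>
      Fermat.Agent.S24Res.ord_nonneg_of_mem v
        (mul_mem (Fermat.Agent.S24Res.mem_of_ord_nonneg v (hf v hv))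
          (Fermat.Agent.S24Res.mem_of_ord_nonneg v (he.cusp v hv)))
    obtain ⟨-, -, hiff⟩ := sn_node_values S₁ S₂ hA hres hϖ0 hϖ hϖres hu₁ hubar₁ hu₂ hubar₂
      hdeg₁ hdeg₂ (f * e) hg₁ hg₂ (hpole _ hgc)
    have hval₁ : ∀ l, ValAt (s₁ l) (S₁.red (f * e)) (c₁ l * d l) := fun l => by
      rw [S₁.red_mul hf₁ he.mem₁]
      exact (hc₁ l).mul (he.val₁ l)
    have hval₂ : ∀ l, ValAt (s₂ l) (S₂.red (f * e)) (c₂ l * d l) := fun l => by
      rw [S₂.red_mul hf₂ he.mem₂]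
      exact (hc₂ l).mul (he.val₂ l)
    -- the value `c₁ i` occurs on the second component
    obtain ⟨Q', hQ', hQ'v⟩ := (hiff (c₁ i)).mp ⟨s₁ i, hs₁ i, by
      have := hval₁ i
      rwa [hdi, mul_one] at this⟩
    obtain ⟨j, rfl⟩ := hz₂ Q' hQ'
    have h1 : c₁ i = c₂ j * d j := hQ'v.unique (hval₂ j)
    by_cases hji : j = i
    · rw [hji, hdi, mul_one] at h1
      exact h1
    · rw [hdl j hji, mul_zero] at h1
      -- the value `c₂ i` occurs on the first component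
      obtain ⟨Q, hQ, hQv⟩ := (hiff (c₂ i)).mpr ⟨s₂ i, hs₂ i, by
        have := hval₂ i
        rwa [hdi, mul_one] at this⟩
      obtain ⟨j', rfl⟩ := hz₁ Q hQ
      have h2 : c₂ i = c₁ j' * d j' := hQv.unique (hval₁ j')
      by_cases hji' : j' = i
      · rw [hji', hdi, mul_one] at h2
        exact h2.symm
      · rw [hdl j' hji', mul_zero] at h2
        rw [h1, h2]
  exact ⟨c₁, ⟨hf₁, hf₂, hf, hc₁, fun l => by rw [key l]; exact hc₂ l⟩⟩

end Main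

end Fermat.Agent.BadRed.SeedNode
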