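import Mathlib
import Fermat.Agent.Lib.RR.Riemann
import Fermat.Agent.Lib.Deuring.Basic

/-!
# Cluster T, piece M2p (helper19): the POLE bounds of the seed

Abstract setting: two constant reductions `S₁ : ValSetup K F k Fk₁`, `S₂ : ValSetup K F k Fk₂` over
the same valuation ring `A` of `K` (same residue map), `k` infinite, with the two-valuation
fundamental inequality

  (FI2)  `g ∈ O₁ ∩ O₂ ⟹ deg (red₁ g)_∞ + deg (red₂ g)_∞ ≤ deg (g)_∞`

(taken as a hypothesis), and `x ∈ O₁ ∩ O₂` for which (FI2) is an equality: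
`deg (x)_∞ ≤ deg (red₁ x)_∞ + deg (red₂ x)_∞`.

**Theorem** `seed_pole_bounds`: for every `m` and every `f ∈ L(m (x)_∞) ∩ O₁ ∩ O₂`,
`red₁ f ∈ L(m (red₁ x)_∞)` and `red₂ f ∈ L(m (red₂ x)_∞)`.

Proof: apply (FI2) to `g = c x^m + f` with `c ∈ A` of generic residue: `(g)_∞ ≤ m (x)_∞`, and
pointwise `(red_i g)_∞ ≥ max (m (red_i x)_∞) ((red_i f)_∞)`.

For `X₀(q N₀)`, `x = j`: `red₁ j = j̄`, `red₂ j = j̄ ^ q` (`poleDiv_pow`), degrees
`ψ(q N₀) = ψ(N₀) + q ψ(N₀)`.
-/

set_option autoImplicit false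

noncomputable section

open AlgebraicCurve Fermat.Agent.RR Fermat.Agent.Deuring WithZero

namespace Fermat.Agent.BadRed.SeedPoles

section OneCurve

variable {k E : Type*} [Field k] [Field E] [Algebra k E]

theorem adicValuation_algebraMap_eq_one (Q : Place k E) {c : k} (hc : c ≠ 0) :
    Q.adicValuation (algebraMap k E c) = 1 := by
  apply le_antisymm (Q.adicValuation_algebraMap_le_one c)
  have h1 := Q.adicValuation_algebraMap_le_one c⁻¹
  rw [map_inv₀, map_inv₀] at h1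
  have hne : Q.adicValuation (algebraMap k E c) ≠ 0 :=
    Q.adicValuation_ne_zero (by
      rw [Ne, map_eq_zero_iff _ (algebraMap k E).injective]
      exact hc)
  exact (inv_le_one₀ (zero_lt_iff.mpr hne)).mp h1

theorem adicValuation_smul (Q : Place k E) {c : k} (hc : c ≠ 0) (u : E) :
    Q.adicValuation (c • u) = Q.adicValuation u := by
  rw [Algebra.smul_def, map_mul, adicValuation_algebraMap_eq_one Q hc, one_mul]

theorem adicValuation_smul_le (Q : Place k E) (c : k) (u : E) :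
    Q.adicValuation (c • u) ≤ Q.adicValuation u := by
  rcases eq_or_ne c 0 with rfl | hc
  · rw [zero_smul, map_zero]
    exact zero_le
  · rw [adicValuation_smul Q hc]

/-- **generic constants, one place**: if `u`, `v` have valuation `≤ γ` at `Q`, one of them with
equality, then `c u + v` has valuation exactly `γ` for all constants `c` but at most one. -/
theorem exists_bad (Q : Place k E) (u v : E) (γ : ℤᵐ⁰) (hu : Q.adicValuation u ≤ γ)
    (hv : Q.adicValuation v ≤ γ) (h1 : Q.adicValuation u = γ ∨ Q.adicValuation v = γ) :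
    ∃ c₀ : k, ∀ c : k, c ≠ c₀ → Q.adicValuation (c • u + v) = γ := by
  rcases lt_or_eq_of_le hu with hu' | hu'
  · have hv' : Q.adicValuation v = γ := h1.resolve_left hu'.ne
    refine ⟨0, fun c _ => ?_⟩
    have h2 : Q.adicValuation (c • u) < Q.adicValuation v := by
      rw [hv']
      exact lt_of_le_of_lt (adicValuation_smul_le Q c u) hu'
    rw [Valuation.map_add_eq_of_lt_right _ h2, hv']
  · rcases lt_or_eq_of_le hv with hv' | hv'
    · refine ⟨0, fun c hc => ?_⟩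
      have h2 : Q.adicValuation v < Q.adicValuation (c • u) := by
        rwa [adicValuation_smul Q hc, hu']
      rw [Valuation.map_add_eq_of_lt_left _ h2, adicValuation_smul Q hc, hu']
    · by_cases hex : ∃ c₀ : k, Q.adicValuation (c₀ • u + v) < γ
      · obtain ⟨c₀, hc₀⟩ := hex
        refine ⟨c₀, fun c hc => ?_⟩
        have e : c • u + v = (c - c₀) • u + (c₀ • u + v) := by
          rw [sub_smul]
          abel
        have hcc : c - c₀ ≠ 0 := sub_ne_zero.mpr hc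
        have h2 : Q.adicValuation (c₀ • u + v) < Q.adicValuation ((c - c₀) • u) := by
          rwa [adicValuation_smul Q hcc, hu']
        rw [e, Valuation.map_add_eq_of_lt_left _ h2, adicValuation_smul Q hcc, hu']
      · have hex' : ∀ c₀ : k, γ ≤ Q.adicValuation (c₀ • u + v) := fun c₀ =>
          not_lt.mp fun hlt => hex ⟨c₀, hlt⟩
        refine ⟨0, fun c _ => le_antisymm ?_ (hex' c)⟩
        exact (Valuation.map_add _ _ _).trans
          (max_le ((adicValuation_smul_le Q c u).trans hu) hv)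

variable (h : IsRRField k E)

theorem poleDiv_apply_nonneg (w : E) (Q : Place k E) : 0 ≤ poleDiv h w Q := by
  rw [poleDiv_apply]
  exact le_max_right _ _

theorem poleDiv_le_iff (w : E) (Q : Place k E) {n : ℤ} (hn : 0 ≤ n) :
    poleDiv h w Q ≤ n ↔ Q.adicValuation w ≤ exp n := by
  rw [poleDiv_apply, Q.adicValuation_le_exp_iff]
  constructor
  · intro h1
    right
    have := le_max_left (-(Q.ord w)) 0
    omega
  · rintro (rfl | h1)
    · rw [Q.ord_zero]
      exact max_le (by omega) hn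
    · exact max_le (by omega) hn

theorem adicValuation_eq_of_poleDiv_eq (w : E) (Q : Place k E) {n : ℤ} (hn : 0 < n)
    (hw : poleDiv h w Q = n) : Q.adicValuation w = exp n := by
  rw [poleDiv_apply] at hw
  have hw0 : w ≠ 0 := by
    rintro rfl
    rw [Q.ord_zero] at hw
    simp at hw
    omega
  rw [Q.adicValuation_eq_exp_neg_ord hw0]
  congr 1
  rcases max_cases (-(Q.ord w)) 0 with ⟨h1, _⟩ | ⟨h1, _⟩ <;> omega

theorem le_poleDiv_of_adicValuation_eq (w : E) (Q : Place k E) {n : ℤ}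
    (hV : Q.adicValuation w = exp n) : n ≤ poleDiv h w Q := by
  have hw0 : w ≠ 0 := by
    rintro rfl
    rw [map_zero] at hV
    exact exp_ne_zero hV.symm
  rw [Q.adicValuation_eq_exp_neg_ord hw0, exp_inj] at hV
  rw [poleDiv_apply]
  have := le_max_left (-(Q.ord w)) 0
  omega

/-- **generic constants, all places**: for all constants `c` outside a finite set,
`(c u + v)_∞ ≥ max (u)_∞ (v)_∞`. -/
theorem exists_finite_bad (u v : E) :
    ∃ B : Finset k, ∀ c : k, c ∉ B → ∀ Q : Place k E,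
      max (poleDiv h u Q) (poleDiv h v Q) ≤ poleDiv h (c • u + v) Q := by
  classical
  have key : ∀ Q : Place k E, ∃ c₀ : k, ∀ c : k, c ≠ c₀ →
      max (poleDiv h u Q) (poleDiv h v Q) ≤ poleDiv h (c • u + v) Q := by
    intro Q
    have he0 : 0 ≤ max (poleDiv h u Q) (poleDiv h v Q) :=
      le_max_of_le_left (poleDiv_apply_nonneg h u Q)
    rcases he0.eq_or_lt with h0 | hpos
    · exact ⟨0, fun c _ => by rw [← h0]; exact poleDiv_apply_nonneg h _ Q⟩
    · have hu : Q.adicValuation u ≤ exp (max (poleDiv h u Q) (poleDiv h v Q)) :=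
        (poleDiv_le_iff h u Q he0).mp (le_max_left _ _)
      have hv : Q.adicValuation v ≤ exp (max (poleDiv h u Q) (poleDiv h v Q)) :=
        (poleDiv_le_iff h v Q he0).mp (le_max_right _ _)
      have h1 : Q.adicValuation u = exp (max (poleDiv h u Q) (poleDiv h v Q)) ∨
          Q.adicValuation v = exp (max (poleDiv h u Q) (poleDiv h v Q)) := by
        rcases max_cases (poleDiv h u Q) (poleDiv h v Q) with ⟨h2, _⟩ | ⟨h2, _⟩
        · left
          exact adicValuation_eq_of_poleDiv_eq h u Q hpos h2.symm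
        · right
          exact adicValuation_eq_of_poleDiv_eq h v Q hpos h2.symm
      obtain ⟨c₀, hc₀⟩ := exists_bad Q u v _ hu hv h1
      exact ⟨c₀, fun c hc => le_poleDiv_of_adicValuation_eq h _ Q (hc₀ c hc)⟩
  choose c₀ hc₀ using key
  refine ⟨((poleDiv h u).support ∪ (poleDiv h v).support).image c₀, fun c hc Q => ?_⟩
  by_cases hQ : Q ∈ (poleDiv h u).support ∪ (poleDiv h v).support
  · exact hc₀ Q c fun hcc => hc (Finset.mem_image.mpr ⟨Q, hQ, hcc.symm⟩)
  · rw [Finset.mem_union, not_or, Finsupp.notMem_support_iff, Finsupp.notMem_support_iff] at hQ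
    rw [hQ.1, hQ.2, max_self]
    exact poleDiv_apply_nonneg h _ Q

/-- `(y ^ n)_∞ = n (y)_∞`. -/
theorem poleDiv_pow (y : E) (n : ℕ) : poleDiv h (y ^ n) = n • poleDiv h y := by
  ext Q
  rw [Finsupp.smul_apply, poleDiv_apply, poleDiv_apply, ← zpow_natCast, Q.ord_zpow,
    nsmul_eq_mul, mul_max_of_nonneg _ _ (Int.natCast_nonneg n), mul_zero, mul_neg]

/-- the pole divisor of an element of `L(D)`, `D ≥ 0`, is at most `D`. -/
theorem poleDiv_le_of_mem {D : Divisor k E} (hD : 0 ≤ D) {f : E}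
    (hf : f ∈ riemannRochSpace D) : poleDiv h f ≤ D := by
  rw [Finsupp.le_def]
  intro v
  rw [poleDiv_apply]
  have h0 : 0 ≤ D v := by
    have := (Finsupp.le_def.mp hD) v
    simpa using this
  rcases (mem_riemannRochSpace_iff.mp hf) v with h1 | h1
  · rw [h1, v.ord_zero]
    simpa using h0
  · exact max_le (by omega) h0

/-- `f ∈ L(D)` as soon as `(f)_∞ ≤ D`. -/
theorem mem_of_poleDiv_le {D : Divisor k E} {f : E} (hf : poleDiv h f ≤ D) :
    f ∈ riemannRochSpace D :=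
  riemannRochSpace_mono hf (mem_riemannRochSpace_poleDiv h f)

theorem pow_mem_riemannRochSpace (x : E) (m : ℕ) :
    x ^ m ∈ riemannRochSpace (m • poleDiv h x) := by
  apply mem_of_poleDiv_le h
  rw [poleDiv_pow]

end OneCurve

section Main

variable {K F k Fk₁ Fk₂ : Type*} [Field K] [Field F] [Algebra K F]
  [Field k] [Field Fk₁] [Algebra k Fk₁] [Field Fk₂] [Algebra k Fk₂]

theorem red_smul_pow_add {Fk : Type*} [Field Fk] [Algebra k Fk] (S : ValSetup K F k Fk) {c : K}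
    (hc : c ∈ S.A) {x f : F} (hx : x ∈ S.Ov) (hf : f ∈ S.Ov) (m : ℕ) :
    c • x ^ m + f ∈ S.Ov ∧
      S.red (c • x ^ m + f) = S.res ⟨c, hc⟩ • (S.red x) ^ m + S.red f := by
  have h1 : x ^ m ∈ S.Ov := pow_mem hx m
  have h2 : c • x ^ m ∈ S.Ov := S.smul_mem hc h1
  refine ⟨add_mem h2 hf, ?_⟩
  rw [S.red_add h2 hf, S.red_smul hc h1, S.red_pow hx]

/-- the core of the argument: ONE test function `g` with
`(g)_∞ ≤ m (x)_∞`, `(red_i g)_∞ ≥ max (m (red_i x)_∞) ((red_i f)_∞)` and (FI2) for `g`. -/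
theorem pole_bounds_of_test (h : IsRRField K F) (h₁ : IsRRField k Fk₁) (h₂ : IsRRField k Fk₂)
    {x g : F} {x₁ f₁ g₁ : Fk₁} {x₂ f₂ g₂ : Fk₂} (m : ℕ)
    (hFI2 : Divisor.degree (poleDiv h₁ g₁) + Divisor.degree (poleDiv h₂ g₂)
      ≤ Divisor.degree (poleDiv h g))
    (hdeg : Divisor.degree (poleDiv h x) ≤
      Divisor.degree (poleDiv h₁ x₁) + Divisor.degree (poleDiv h₂ x₂))
    (hg : g ∈ riemannRochSpace (m • poleDiv h x))
    (hg₁ : ∀ Q, max ((m • poleDiv h₁ x₁) Q) (poleDiv h₁ f₁ Q) ≤ poleDiv h₁ g₁ Q)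
    (hg₂ : ∀ Q, max ((m • poleDiv h₂ x₂) Q) (poleDiv h₂ f₂ Q) ≤ poleDiv h₂ g₂ Q) :
    f₁ ∈ riemannRochSpace (m • poleDiv h₁ x₁) ∧ f₂ ∈ riemannRochSpace (m • poleDiv h₂ x₂) := by
  have hD0 : 0 ≤ m • poleDiv h x := nsmul_nonneg (poleDiv_nonneg h x) m
  have hgle : poleDiv h g ≤ m • poleDiv h x := poleDiv_le_of_mem h hD0 hg
  have hdg : Divisor.degree (poleDiv h g) ≤ m * Divisor.degree (poleDiv h x) := by
    have := degree_mono h hgle
    rwa [map_nsmul, nsmul_eq_mul] at this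
  -- the divisors `E_i = max (m (x_i)_∞) ((f_i)_∞)`
  have hE₁ : (m • poleDiv h₁ x₁) ⊔ poleDiv h₁ f₁ ≤ poleDiv h₁ g₁ := by
    rw [Finsupp.le_def]
    intro Q
    rw [Finsupp.sup_apply]
    exact hg₁ Q
  have hE₂ : (m • poleDiv h₂ x₂) ⊔ poleDiv h₂ f₂ ≤ poleDiv h₂ g₂ := by
    rw [Finsupp.le_def]
    intro Q
    rw [Finsupp.sup_apply]
    exact hg₂ Q
  have hd₁ := degree_mono h₁ hE₁
  have hd₂ := degree_mono h₂ hE₂
  have hl₁ : Divisor.degree (m • poleDiv h₁ x₁)
      ≤ Divisor.degree ((m • poleDiv h₁ x₁) ⊔ poleDiv h₁ f₁) := degree_mono h₁ le_sup_left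
  have hl₂ : Divisor.degree (m • poleDiv h₂ x₂)
      ≤ Divisor.degree ((m • poleDiv h₂ x₂) ⊔ poleDiv h₂ f₂) := degree_mono h₂ le_sup_left
  have hm₁ : Divisor.degree (m • poleDiv h₁ x₁) = m * Divisor.degree (poleDiv h₁ x₁) := by
    rw [map_nsmul, nsmul_eq_mul]
  have hm₂ : Divisor.degree (m • poleDiv h₂ x₂) = m * Divisor.degree (poleDiv h₂ x₂) := by
    rw [map_nsmul, nsmul_eq_mul]
  have hmul : (m : ℤ) * Divisor.degree (poleDiv h x) ≤
      m * (Divisor.degree (poleDiv h₁ x₁) + Divisor.degree (poleDiv h₂ x₂)) :=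
    mul_le_mul_of_nonneg_left hdeg (Int.natCast_nonneg m)
  have e₁ : Divisor.degree (m • poleDiv h₁ x₁)
      = Divisor.degree ((m • poleDiv h₁ x₁) ⊔ poleDiv h₁ f₁) := by
    apply le_antisymm hl₁
    rw [hm₁] at hl₁ ⊢
    rw [hm₂] at hl₂
    linarith
  have e₂ : Divisor.degree (m • poleDiv h₂ x₂)
      = Divisor.degree ((m • poleDiv h₂ x₂) ⊔ poleDiv h₂ f₂) := by
    apply le_antisymm hl₂
    rw [hm₂] at hl₂ ⊢
    rw [hm₁] at hl₁
    linarith
  have E₁ := eq_of_le_of_degree_eq h₁ le_sup_left e₁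
  have E₂ := eq_of_le_of_degree_eq h₂ le_sup_left e₂
  constructor
  · apply mem_of_poleDiv_le h₁
    rw [E₁]
    exact le_sup_right
  · apply mem_of_poleDiv_le h₂
    rw [E₂]
    exact le_sup_right

/-- **M2p, the pole bounds of the seed.** -/
theorem seed_pole_bounds [Infinite k] (S₁ : ValSetup K F k Fk₁) (S₂ : ValSetup K F k Fk₂)
    (hA : S₁.A = S₂.A)
    (hres : ∀ (c : K) (h₁ : c ∈ S₁.A) (h₂ : c ∈ S₂.A), S₁.res ⟨c, h₁⟩ = S₂.res ⟨c, h₂⟩)
    (hFI2 : ∀ g : F, g ∈ S₁.Ov → g ∈ S₂.Ov →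
      Divisor.degree (poleDiv S₁.hFk (S₁.red g)) + Divisor.degree (poleDiv S₂.hFk (S₂.red g))
        ≤ Divisor.degree (poleDiv S₁.hF g))
    {x : F} (hx₁ : x ∈ S₁.Ov) (hx₂ : x ∈ S₂.Ov)
    (hdeg : Divisor.degree (poleDiv S₁.hF x) ≤
      Divisor.degree (poleDiv S₁.hFk (S₁.red x)) + Divisor.degree (poleDiv S₂.hFk (S₂.red x)))
    (m : ℕ) {f : F} (hf : f ∈ riemannRochSpace (m • poleDiv S₁.hF x))
    (hf₁ : f ∈ S₁.Ov) (hf₂ : f ∈ S₂.Ov) :
    S₁.red f ∈ riemannRochSpace (m • poleDiv S₁.hFk (S₁.red x)) ∧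
      S₂.red f ∈ riemannRochSpace (m • poleDiv S₂.hFk (S₂.red x)) := by
  classical
  obtain ⟨B₁, hB₁⟩ := exists_finite_bad S₁.hFk ((S₁.red x) ^ m) (S₁.red f)
  obtain ⟨B₂, hB₂⟩ := exists_finite_bad S₂.hFk ((S₂.red x) ^ m) (S₂.red f)
  obtain ⟨cbar, hcbar⟩ := Infinite.exists_notMem_finset (B₁ ∪ B₂)
  rw [Finset.mem_union, not_or] at hcbar
  obtain ⟨⟨c, hc₁⟩, hc⟩ := S₁.res_surj cbar
  have hc₂ : c ∈ S₂.A := hA ▸ hc₁
  have hc' : S₂.res ⟨c, hc₂⟩ = cbar := by rw [← hres c hc₁ hc₂, hc]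
  obtain ⟨hgO₁, hgr₁⟩ := red_smul_pow_add S₁ hc₁ hx₁ hf₁ m
  obtain ⟨hgO₂, hgr₂⟩ := red_smul_pow_add S₂ hc₂ hx₂ hf₂ m
  rw [hc] at hgr₁
  rw [hc'] at hgr₂
  refine pole_bounds_of_test S₁.hF S₁.hFk S₂.hFk m (hFI2 _ hgO₁ hgO₂) hdeg ?_ ?_ ?_
  · exact add_mem (Submodule.smul_mem _ c (pow_mem_riemannRochSpace S₁.hF x m)) hf
  · intro Q
    rw [hgr₁, ← poleDiv_pow]
    exact hB₁ cbar hcbar.1 Q
  · intro Q
    rw [hgr₂, ← poleDiv_pow]
    exact hB₂ cbar hcbar.2 Q

end Main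

end Fermat.Agent.BadRed.SeedPoles
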