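import Mathlib
import Fermat.Agent.Lib.BadRed.Mod.SeedPoles
import Fermat.Agent.Lib.BadRed.Nodal.Deuring2.FI2
import Fermat.Agent.Lib.BadRed.Nodal.Deuring2.Seed

/-!
# Cluster T, piece M2p (helper19): the seed attached to one function `x`

`C : NodalCore K F k Fk₁ Fk₂ ι` with incomparable valuation rings, `k` infinite, `x ∈ O₁ ∩ O₂` with
`deg (red₁ x)_∞ + deg (red₂ x)_∞ = deg (x)_∞`.  Then, with `D₀ = (x)_∞`, `R_i = (red_i x)_∞`: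

* `seed_pole_bounds_fi2` : `red_i (L(m D₀) ∩ O₁ ∩ O₂) ⊆ L(m R_i)` (no hypothesis (FI2): it is
  `fi2_degree_le` of helper80);
* `mem_nodalRR_of_node`  : the `seed` field of `NodalSeed` from the NODE condition (piece M2);
* `NodalCore.seedOfX`    : the `NodalSeed` itself.

For `X₀(q N₀)`: `x = j`, `red₁ j = j̄`, `red₂ j = j̄ ^ q`.
-/

set_option autoImplicit false

noncomputable section

open AlgebraicCurve Fermat.Agent.RR Fermat.Agent.Deuring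

namespace Fermat.Agent.BadRed.SeedPoles

variable {K F k Fk₁ Fk₂ : Type*} [Field K] [Field F] [Algebra K F]
  [Field k] [Field Fk₁] [Algebra k Fk₁] [Field Fk₂] [Algebra k Fk₂]

/-- **M2p** with (FI2) discharged: the pole bounds of the seed for incomparable valuation
rings. -/
theorem seed_pole_bounds_fi2 [Infinite k] (S₁ : ValSetup K F k Fk₁) (S₂ : ValSetup K F k Fk₂)
    (hA : S₁.A = S₂.A)
    (hres : ∀ (c : K) (h₁ : c ∈ S₁.A) (h₂ : c ∈ S₂.A), S₁.res ⟨c, h₁⟩ = S₂.res ⟨c, h₂⟩)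
    (h12 : ¬ S₁.Ov ≤ S₂.Ov) (h21 : ¬ S₂.Ov ≤ S₁.Ov)
    {x : F} (hx₁ : x ∈ S₁.Ov) (hx₂ : x ∈ S₂.Ov)
    (hdeg : Divisor.degree (poleDiv S₁.hF x) ≤
      Divisor.degree (poleDiv S₁.hFk (S₁.red x)) + Divisor.degree (poleDiv S₂.hFk (S₂.red x)))
    (m : ℕ) {f : F} (hf : f ∈ riemannRochSpace (m • poleDiv S₁.hF x))
    (hf₁ : f ∈ S₁.Ov) (hf₂ : f ∈ S₂.Ov) :
    S₁.red f ∈ riemannRochSpace (m • poleDiv S₁.hFk (S₁.red x)) ∧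
      S₂.red f ∈ riemannRochSpace (m • poleDiv S₂.hFk (S₂.red x)) :=
  seed_pole_bounds S₁ S₂ hA hres
    (fun _ hg₁ hg₂ => fi2_degree_le S₁ S₂ hA hres h12 h21 hg₁ hg₂) hx₁ hx₂ hdeg m hf hf₁ hf₂

/-- (FI2) is an equality for `x` as soon as `≥` holds. -/
theorem degree_poleDiv_eq (S₁ : ValSetup K F k Fk₁) (S₂ : ValSetup K F k Fk₂)
    (hA : S₁.A = S₂.A)
    (hres : ∀ (c : K) (h₁ : c ∈ S₁.A) (h₂ : c ∈ S₂.A), S₁.res ⟨c, h₁⟩ = S₂.res ⟨c, h₂⟩)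
    (h12 : ¬ S₁.Ov ≤ S₂.Ov) (h21 : ¬ S₂.Ov ≤ S₁.Ov)
    {x : F} (hx₁ : x ∈ S₁.Ov) (hx₂ : x ∈ S₂.Ov)
    (hdeg : Divisor.degree (poleDiv S₁.hF x) ≤
      Divisor.degree (poleDiv S₁.hFk (S₁.red x)) + Divisor.degree (poleDiv S₂.hFk (S₂.red x))) :
    Divisor.degree (poleDiv S₁.hFk (S₁.red x)) + Divisor.degree (poleDiv S₂.hFk (S₂.red x))
      = Divisor.degree (poleDiv S₁.hF x) :=
  le_antisymm (fi2_degree_le S₁ S₂ hA hres h12 h21 hx₁ hx₂) hdeg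

variable {ι : Type*}

/-- the `seed` field of `NodalSeed` for `D₀ = (x)_∞`, `R_i = (red_i x)_∞`, from the NODE
condition. -/
theorem mem_nodalRR_of_node [Infinite k] (C : NodalCore K F k Fk₁ Fk₂ ι)
    (h12 : ¬ C.S₁.Ov ≤ C.S₂.Ov) (h21 : ¬ C.S₂.Ov ≤ C.S₁.Ov)
    {x : F} (hx₁ : x ∈ C.S₁.Ov) (hx₂ : x ∈ C.S₂.Ov)
    (hdeg : Divisor.degree (poleDiv C.S₁.hF x) ≤
      Divisor.degree (poleDiv C.S₁.hFk (C.S₁.red x)) +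
        Divisor.degree (poleDiv C.S₂.hFk (C.S₂.red x)))
    (m : ℕ) {f : F} (hf : f ∈ riemannRochSpace (m • poleDiv C.S₁.hF x))
    (hf₁ : f ∈ C.S₁.Ov) (hf₂ : f ∈ C.S₂.Ov)
    (hnode : ∀ i, ∃ c : k, ValAt (C.s₁ i) (C.S₁.red f) c ∧ ValAt (C.s₂ i) (C.S₂.red f) c) :
    ((C.S₁.red f, C.S₂.red f) : Fk₁ × Fk₂) ∈
      nodalRR C.s₁ C.s₂ (m • poleDiv C.S₁.hFk (C.S₁.red x))
        (m • poleDiv C.S₂.hFk (C.S₂.red x)) := by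
  obtain ⟨h1, h2⟩ := seed_pole_bounds_fi2 C.S₁ C.S₂ C.A_eq C.res_eq h12 h21 hx₁ hx₂ hdeg m hf
    hf₁ hf₂
  exact mem_nodalRR.mpr ⟨h1, h2, hnode⟩

theorem poleDiv_eq_zero_of_ord_nonneg {E : Type*} [Field E] [Algebra k E] (h : IsRRField k E)
    {y : E} {Q : Place k E} (hQ : 0 ≤ Q.ord y) : poleDiv h y Q = 0 := by
  rw [poleDiv_apply]
  exact max_eq_right (by omega)

/-- **The seed attached to `x`**: `D₀ = (x)_∞`, `R_i = (red_i x)_∞`. -/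
def seedOfX [Fintype ι] [Infinite k] (C : NodalCore K F k Fk₁ Fk₂ ι)
    (h12 : ¬ C.S₁.Ov ≤ C.S₂.Ov) (h21 : ¬ C.S₂.Ov ≤ C.S₁.Ov)
    (x : F) (hx₁ : x ∈ C.S₁.Ov) (hx₂ : x ∈ C.S₂.Ov)
    (hpos₁ : 0 < Divisor.degree (poleDiv C.S₁.hFk (C.S₁.red x)))
    (hpos₂ : 0 < Divisor.degree (poleDiv C.S₂.hFk (C.S₂.red x)))
    (hn₁ : ∀ i, 0 ≤ (C.s₁ i).ord (C.S₁.red x))
    (hn₂ : ∀ i, 0 ≤ (C.s₂ i).ord (C.S₂.red x))
    (hdeg : Divisor.degree (poleDiv C.S₁.hF x) ≤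
      Divisor.degree (poleDiv C.S₁.hFk (C.S₁.red x)) +
        Divisor.degree (poleDiv C.S₂.hFk (C.S₂.red x)))
    (hnode : ∀ (m : ℕ) (f : F), f ∈ riemannRochSpace (m • poleDiv C.S₁.hF x) →
      f ∈ C.S₁.Ov → f ∈ C.S₂.Ov →
      ∀ i, ∃ c : k, ValAt (C.s₁ i) (C.S₁.red f) c ∧ ValAt (C.s₂ i) (C.S₂.red f) c)
    (hgenus : genusFF K F + 1 ≤ genusFF k Fk₁ + genusFF k Fk₂ + Fintype.card ι) :
    NodalSeed K F k Fk₁ Fk₂ ι where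
  toNodalCore := C
  D₀ := poleDiv C.S₁.hF x
  R₁ := poleDiv C.S₁.hFk (C.S₁.red x)
  R₂ := poleDiv C.S₂.hFk (C.S₂.red x)
  D₀_nonneg := poleDiv_nonneg _ _
  R₁_nonneg := poleDiv_nonneg _ _
  R₂_nonneg := poleDiv_nonneg _ _
  R₁_pos := hpos₁
  R₂_pos := hpos₂
  R₁_node := fun i => poleDiv_eq_zero_of_ord_nonneg _ (hn₁ i)
  R₂_node := fun i => poleDiv_eq_zero_of_ord_nonneg _ (hn₂ i)
  deg_eq := degree_poleDiv_eq C.S₁ C.S₂ C.A_eq C.res_eq h12 h21 hx₁ hx₂ hdeg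
  seed := fun m f hf hf₁ hf₂ =>
    mem_nodalRR_of_node C h12 h21 hx₁ hx₂ hdeg m hf hf₁ hf₂ (hnode m f hf hf₁ hf₂)
  genus_le := hgenus

end Fermat.Agent.BadRed.SeedPoles
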