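import Mathlib
import Fermat.Agent.Lib.BadRed.Mod.SeedOfX
import Fermat.Agent.Lib.BadRed.Mod.SeedNodeMain
import Fermat.Agent.Lib.RR.Hurwitz.Count

/-!
# Cluster T (helper19): the seed attached to the parameter `u`, seed function `x = u + ϖ / u`

(helper47's proposal.)  `C : NodalCore K F k Fk₁ Fk₂ ι`, `u ∈ F`, `ϖ ∈ 𝔪_A \ 0`, `u` a unit for
`S₁` and `u' = ϖ / u` a unit for `S₂`, both with transcendental reduction, the degree inequality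
(H2), the nodes = the zeros of `ū` resp. `ū'`, separating functions, `k` infinite.

* one curve: `poleDiv_add_div : (u + c / u)_∞ = (u)_∞ + (u⁻¹)_∞`, its degree `2 [F : K(u)]`,
  and `f ∈ L(m (x)_∞) ⟹ f` has no poles off the zeros and poles of `u`;
* two valuations: `x ∈ O₁ ∩ O₂`, `red₁ x = red₁ u`, `red₂ x = red₂ (ϖ / u)`, `O₁`, `O₂`
  incomparable;
* `seedOfU : NodalSeed K F k Fk₁ Fk₂ ι` — the wiring of `seedOfX` (pole bounds, M2p) with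
  `SeedNode.sn_node_condition` (node condition, M2).
-/

set_option autoImplicit false

noncomputable section

open AlgebraicCurve Fermat.Agent.RR Fermat.Agent.Deuring WithZero IntermediateField

namespace Fermat.Agent.BadRed.SeedPoles

section OneCurve

variable {K F : Type*} [Field K] [Field F] [Algebra K F] (h : IsRRField K F)

theorem poleDiv_eq_of_adicValuation_eq {w w' : F} (v : Place K F)
    (hV : v.adicValuation w = v.adicValuation w') : poleDiv h w v = poleDiv h w' v := by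
  rcases eq_or_ne w 0 with rfl | hw
  · rw [map_zero] at hV
    have hw' : w' = 0 := by
      by_contra hne
      exact v.adicValuation_ne_zero hne hV.symm
    rw [hw']
  · have hw' : w' ≠ 0 := by
      rintro rfl
      rw [map_zero] at hV
      exact v.adicValuation_ne_zero hw hV
    rw [v.adicValuation_eq_exp_neg_ord hw, v.adicValuation_eq_exp_neg_ord hw', exp_inj] at hV
    rw [poleDiv_apply, poleDiv_apply]
    have : v.ord w = v.ord w' := by omega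
    rw [this]

theorem poleDiv_eq_zero_iff (w : F) (v : Place K F) :
    poleDiv h w v = 0 ↔ v.adicValuation w ≤ 1 := by
  have h1 := poleDiv_le_iff h w v (n := 0) le_rfl
  rw [exp_zero] at h1
  rw [← h1]
  constructor
  · intro h0
    rw [h0]
  · intro h0
    exact le_antisymm h0 (poleDiv_apply_nonneg h w v)

theorem adicValuation_div_const (v : Place K F) {c : K} (hc : c ≠ 0) (u : F) :
    v.adicValuation (algebraMap K F c / u) = (v.adicValuation u)⁻¹ := by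
  rw [map_div₀, adicValuation_algebraMap_eq_one v hc, one_div]

/-- `(u + c / u)_∞ = (u)_∞ + (u⁻¹)_∞`. -/
theorem poleDiv_add_div {u : F} (hu : u ≠ 0) {c : K} (hc : c ≠ 0) :
    poleDiv h (u + algebraMap K F c / u) = poleDiv h u + poleDiv h u⁻¹ := by
  ext v
  rw [Finsupp.add_apply]
  have ha0 : v.adicValuation u ≠ 0 := v.adicValuation_ne_zero hu
  have hinv : v.adicValuation u⁻¹ = (v.adicValuation u)⁻¹ := map_inv₀ _ _
  have hdiv := adicValuation_div_const v hc u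
  rcases lt_trichotomy (v.adicValuation u) 1 with hlt | heq | hgt
  · -- zero of `u`
    have h1 : 1 < (v.adicValuation u)⁻¹ := (one_lt_inv₀ (zero_lt_iff.mpr ha0)).mpr hlt
    have h2 : v.adicValuation u < v.adicValuation (algebraMap K F c / u) := by
      rw [hdiv]
      exact hlt.trans h1
    have h3 : v.adicValuation (u + algebraMap K F c / u) = v.adicValuation u⁻¹ := by
      rw [Valuation.map_add_eq_of_lt_right _ h2, hdiv, hinv]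
    rw [poleDiv_eq_of_adicValuation_eq h v h3, (poleDiv_eq_zero_iff h u v).mpr hlt.le, zero_add]
  · -- `u` is a unit at `v`
    have h1 : v.adicValuation (u + algebraMap K F c / u) ≤ 1 := by
      refine (Valuation.map_add _ _ _).trans (max_le heq.le ?_)
      rw [hdiv, heq, inv_one]
    rw [(poleDiv_eq_zero_iff h _ v).mpr h1, (poleDiv_eq_zero_iff h u v).mpr heq.le,
      (poleDiv_eq_zero_iff h u⁻¹ v).mpr (by rw [hinv, heq, inv_one]), add_zero]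
  · -- pole of `u`
    have h1 : (v.adicValuation u)⁻¹ < 1 := inv_lt_one_of_one_lt₀ hgt
    have h2 : v.adicValuation (algebraMap K F c / u) < v.adicValuation u := by
      rw [hdiv]
      exact h1.trans hgt
    have h3 : v.adicValuation (u + algebraMap K F c / u) = v.adicValuation u :=
      Valuation.map_add_eq_of_lt_left _ h2
    rw [poleDiv_eq_of_adicValuation_eq h v h3,
      (poleDiv_eq_zero_iff h u⁻¹ v).mpr (by rw [hinv]; exact h1.le), add_zero]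

theorem poleDiv_apply_of_ord_eq_zero {u : F} {v : Place K F} (hv : v.ord u = 0) :
    poleDiv h u v = 0 ∧ poleDiv h u⁻¹ v = 0 := by
  rw [poleDiv_apply, poleDiv_apply, v.ord_inv, hv]
  simp

/-- functions of `L(m (u + c / u)_∞)` have no poles off the zeros and poles of `u`. -/
theorem ord_nonneg_of_mem_seed {u : F} (hu : u ≠ 0) {c : K} (hc : c ≠ 0) {m : ℕ} {f : F}
    (hf : f ∈ riemannRochSpace (m • poleDiv h (u + algebraMap K F c / u)))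
    {v : Place K F} (hv : v.ord u = 0) : 0 ≤ v.ord f := by
  rcases (mem_riemannRochSpace_iff.mp hf) v with h0 | h1
  · rw [h0, v.ord_zero]
  · rw [poleDiv_add_div h hu hc, Finsupp.smul_apply, Finsupp.add_apply,
      (poleDiv_apply_of_ord_eq_zero h hv).1, (poleDiv_apply_of_ord_eq_zero h hv).2, add_zero,
      smul_zero, neg_zero] at h1
    exact h1

/-- `deg (u⁻¹)_∞ = deg (u)_∞`. -/
theorem degree_poleDiv_inv (u : F) :
    Divisor.degree (poleDiv h u⁻¹) = Divisor.degree (poleDiv h u) := by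
  have h1 : poleDiv h u⁻¹ = poleDiv h u + divOf h u := by
    ext v
    rw [Finsupp.add_apply, poleDiv_apply, poleDiv_apply, divOf_apply, v.ord_inv, neg_neg]
    rcases max_cases (v.ord u) 0 with ⟨h1, _⟩ | ⟨h1, _⟩ <;>
      rcases max_cases (-(v.ord u)) 0 with ⟨h2, _⟩ | ⟨h2, _⟩ <;> omega
  rw [h1, map_add, degree_divOf, add_zero]

/-- `deg (u + c / u)_∞ = 2 [F : K(u)]`. -/
theorem degree_poleDiv_add_div {u : F} (hu : Transcendental K u) [FiniteDimensional K⟮u⟯ F]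
    {c : K} (hc : c ≠ 0) :
    Divisor.degree (poleDiv h (u + algebraMap K F c / u)) = 2 * (Module.finrank K⟮u⟯ F : ℤ) := by
  have hu0 : u ≠ 0 := by
    rintro rfl
    exact hu (isAlgebraic_zero)
  rw [poleDiv_add_div h hu0 hc, map_add, degree_poleDiv_inv, Fermat.Agent.RRHur.degree_poleDiv_eq_finrank h hu]
  ring

end OneCurve

section TwoVal

variable {K F k Fk : Type*} [Field K] [Field F] [Algebra K F]
  [Field k] [Field Fk] [Algebra k Fk]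

/-- if `u` is a unit of `Ov` and `ϖ ∈ 𝔪_A`, then `ϖ / u ∈ 𝔪_v` and `red (u + ϖ / u) = red u`. -/
theorem red_add_div (S : ValSetup K F k Fk) {u : F} {ϖ : K} (hϖ : ϖ ∈ S.A)
    (hϖres : S.res ⟨ϖ, hϖ⟩ = 0) (hu : S.red u ≠ 0) :
    algebraMap K F ϖ / u ∈ S.Ov ∧ S.red (algebraMap K F ϖ / u) = 0 ∧
      u + algebraMap K F ϖ / u ∈ S.Ov ∧ S.red (u + algebraMap K F ϖ / u) = S.red u := by
  have hu1 : u ∈ S.Ov := S.mem_of_red_ne_zero hu
  have hu2 : u⁻¹ ∈ S.Ov := S.inv_mem_of_red_ne_zero hu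
  have hϖ' : algebraMap K F ϖ ∈ S.Ov := S.algebraMap_mem hϖ
  have h1 : algebraMap K F ϖ / u ∈ S.Ov := by
    rw [div_eq_mul_inv]
    exact mul_mem hϖ' hu2
  have h2 : S.red (algebraMap K F ϖ / u) = 0 := by
    rw [div_eq_mul_inv, S.red_mul hϖ' hu2, S.red_algebraMap hϖ, hϖres, map_zero, zero_mul]
  refine ⟨h1, h2, add_mem hu1 h1, ?_⟩
  rw [S.red_add hu1 h1, h2, add_zero]

/-- the same for the second valuation: `u' = ϖ / u` is a unit, `u = ϖ / u' ∈ 𝔪_v`. -/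
theorem red_add_div' (S : ValSetup K F k Fk) {u : F} {ϖ : K} (hϖ : ϖ ∈ S.A)
    (hϖres : S.res ⟨ϖ, hϖ⟩ = 0) (hu' : S.red (algebraMap K F ϖ / u) ≠ 0) :
    u ∈ S.Ov ∧ S.red u = 0 ∧
      u + algebraMap K F ϖ / u ∈ S.Ov ∧
      S.red (u + algebraMap K F ϖ / u) = S.red (algebraMap K F ϖ / u) := by
  have hne : algebraMap K F ϖ / u ≠ 0 := S.ne_zero_of_red_ne_zero hu'
  have hu0 : u ≠ 0 := by
    rintro rfl
    exact hne (div_zero _)
  have hϖ0 : algebraMap K F ϖ ≠ 0 := by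
    intro h0
    exact hne (by rw [h0, zero_div])
  have hu_eq : algebraMap K F ϖ / (algebraMap K F ϖ / u) = u := by
    field_simp
  obtain ⟨h1, h2, h3, h4⟩ := red_add_div S hϖ hϖres hu'
  rw [hu_eq] at h1 h2 h3 h4
  refine ⟨h1, h2, ?_, ?_⟩
  · rw [add_comm]
    exact h3
  · rw [add_comm]
    exact h4

/-- a unit of `O₁` which is a nonunit of `O₂` shows `¬ O₁ ≤ O₂`. -/
theorem not_le_of_unit_of_red_zero {Fk₁ Fk₂ : Type*} [Field Fk₁] [Algebra k Fk₁] [Field Fk₂]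
    [Algebra k Fk₂] (S₁ : ValSetup K F k Fk₁) (S₂ : ValSetup K F k Fk₂) {u : F}
    (hu₁ : S₁.red u ≠ 0) (hu₂ : u ∈ S₂.Ov) (hu₂' : S₂.red u = 0) : ¬ S₁.Ov ≤ S₂.Ov := by
  intro hle
  have hu0 : u ≠ 0 := S₁.ne_zero_of_red_ne_zero hu₁
  have h1 : u⁻¹ ∈ S₂.Ov := hle (S₁.inv_mem_of_red_ne_zero hu₁)
  exact ((S₂.red_eq_zero_iff hu₂ hu0).mp hu₂') h1

end TwoVal

section Seed

variable {K F k Fk₁ Fk₂ : Type*} [Field K] [Field F] [Algebra K F]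
  [Field k] [Field Fk₁] [Algebra k Fk₁] [Field Fk₂] [Algebra k Fk₂] {ι : Type*}

open Fermat.Agent.BadRed.SeedNode

/-- **The seed attached to `u`** (seed function `x = u + ϖ / u`):
`D₀ = (u)_∞ + (u)_0`, `R₁ = (ū)_∞`, `R₂ = (ū')_∞`. -/
def seedOfU [Fintype ι] [Infinite k] (C : NodalCore K F k Fk₁ Fk₂ ι)
    (u : F) (ϖ : K) (hϖ0 : ϖ ≠ 0) (hϖ : ϖ ∈ C.S₁.A) (hϖres : C.S₁.res ⟨ϖ, hϖ⟩ = 0)
    (hu₁ : u ∈ C.S₁.Ov) (hubar₁ : Transcendental k (C.S₁.red u))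
    (hu₂ : algebraMap K F ϖ / u ∈ C.S₂.Ov)
    (hubar₂ : Transcendental k (C.S₂.red (algebraMap K F ϖ / u)))
    [FiniteDimensional K⟮u⟯ F] [FiniteDimensional k⟮C.S₁.red u⟯ Fk₁]
    [FiniteDimensional k⟮C.S₂.red (algebraMap K F ϖ / u)⟯ Fk₂]
    (hdeg₁ : Module.finrank K⟮u⟯ F ≤ Module.finrank k⟮C.S₁.red u⟯ Fk₁)
    (hdeg₂ : Module.finrank K⟮u⟯ F ≤ Module.finrank k⟮C.S₂.red (algebraMap K F ϖ / u)⟯ Fk₂)
    (hs₁ : ∀ i, 0 < (C.s₁ i).ord (C.S₁.red u))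
    (hs₂ : ∀ i, 0 < (C.s₂ i).ord (C.S₂.red (algebraMap K F ϖ / u)))
    (hz₁ : ∀ Q : Place k Fk₁, 0 < Q.ord (C.S₁.red u) → ∃ i, Q = C.s₁ i)
    (hz₂ : ∀ Q : Place k Fk₂, 0 < Q.ord (C.S₂.red (algebraMap K F ϖ / u)) → ∃ i, Q = C.s₂ i)
    (hsep : ∀ i j, i ≠ j → ∃ (g : F) (c : ι → k), NodeVal C.S₁ C.S₂ u C.s₁ C.s₂ g c ∧ c i ≠ c j)
    (hgenus : genusFF K F + 1 ≤ genusFF k Fk₁ + genusFF k Fk₂ + Fintype.card ι) :
    NodalSeed K F k Fk₁ Fk₂ ι :=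
  have hϖ₂ : ϖ ∈ C.S₂.A := C.A_eq ▸ hϖ
  have hϖres₂ : C.S₂.res ⟨ϖ, hϖ₂⟩ = 0 := by rw [← C.res_eq ϖ hϖ hϖ₂, hϖres]
  have hne₁ : C.S₁.red u ≠ 0 := fun h0 => hubar₁ (h0 ▸ isAlgebraic_zero)
  have hne₂ : C.S₂.red (algebraMap K F ϖ / u) ≠ 0 := fun h0 => hubar₂ (h0 ▸ isAlgebraic_zero)
  have hu0 : u ≠ 0 := C.S₁.ne_zero_of_red_ne_zero hne₁
  have htr : Transcendental K u := sn_transcendental_of_red C.S₁ hu₁ hubar₁
  have r₁ := red_add_div C.S₁ hϖ hϖres hne₁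
  have r₂ := red_add_div' C.S₂ hϖ₂ hϖres₂ hne₂
  have h12 : ¬ C.S₁.Ov ≤ C.S₂.Ov := not_le_of_unit_of_red_zero C.S₁ C.S₂ hne₁ r₂.1 r₂.2.1
  have h21 : ¬ C.S₂.Ov ≤ C.S₁.Ov := not_le_of_unit_of_red_zero C.S₂ C.S₁ hne₂ r₁.1 r₁.2.1
  have hd₁ : Divisor.degree (poleDiv C.S₁.hFk (C.S₁.red u))
      = (Module.finrank k⟮C.S₁.red u⟯ Fk₁ : ℤ) := Fermat.Agent.RRHur.degree_poleDiv_eq_finrank C.S₁.hFk hubar₁
  have hd₂ : Divisor.degree (poleDiv C.S₂.hFk (C.S₂.red (algebraMap K F ϖ / u)))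
      = (Module.finrank k⟮C.S₂.red (algebraMap K F ϖ / u)⟯ Fk₂ : ℤ) :=
    Fermat.Agent.RRHur.degree_poleDiv_eq_finrank C.S₂.hFk hubar₂
  seedOfX C h12 h21 (u + algebraMap K F ϖ / u) r₁.2.2.1 r₂.2.2.1
    (by
      rw [r₁.2.2.2, hd₁]
      exact_mod_cast Module.finrank_pos)
    (by
      rw [r₂.2.2.2, hd₂]
      exact_mod_cast Module.finrank_pos)
    (fun i => by
      rw [r₁.2.2.2]
      exact (hs₁ i).le)
    (fun i => by
      rw [r₂.2.2.2]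
      exact (hs₂ i).le)
    (by
      rw [r₁.2.2.2, r₂.2.2.2, hd₁, hd₂, degree_poleDiv_add_div C.S₁.hF htr hϖ0]
      have e₁ : (Module.finrank K⟮u⟯ F : ℤ) ≤ Module.finrank k⟮C.S₁.red u⟯ Fk₁ := by
        exact_mod_cast hdeg₁
      have e₂ : (Module.finrank K⟮u⟯ F : ℤ)
          ≤ Module.finrank k⟮C.S₂.red (algebraMap K F ϖ / u)⟯ Fk₂ := by
        exact_mod_cast hdeg₂
      linarith)
    (fun m f hf hf₁ hf₂ i => by
      obtain ⟨c, hc⟩ := sn_node_condition C.S₁ C.S₂ C.A_eq C.res_eq hϖ0 hϖ hϖres hu₁ hubar₁ hu₂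
        hubar₂ hdeg₁ hdeg₂ C.s₁ C.s₂ hs₁ hs₂ hz₁ hz₂ hsep f hf₁ hf₂
        (fun v hv => ord_nonneg_of_mem_seed C.S₁.hF hu0 hϖ0 hf hv)
      exact ⟨c i, hc.val₁ i, hc.val₂ i⟩)
    hgenus

/-- The nodal core underlying `seedOfU` is the given one. -/
theorem seedOfU_toNodalCore [Fintype ι] [Infinite k] (C : NodalCore K F k Fk₁ Fk₂ ι)
    (u : F) (ϖ : K) (hϖ0 : ϖ ≠ 0) (hϖ : ϖ ∈ C.S₁.A) (hϖres : C.S₁.res ⟨ϖ, hϖ⟩ = 0)
    (hu₁ : u ∈ C.S₁.Ov) (hubar₁ : Transcendental k (C.S₁.red u))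
    (hu₂ : algebraMap K F ϖ / u ∈ C.S₂.Ov)
    (hubar₂ : Transcendental k (C.S₂.red (algebraMap K F ϖ / u)))
    [FiniteDimensional K⟮u⟯ F] [FiniteDimensional k⟮C.S₁.red u⟯ Fk₁]
    [FiniteDimensional k⟮C.S₂.red (algebraMap K F ϖ / u)⟯ Fk₂]
    (hdeg₁ : Module.finrank K⟮u⟯ F ≤ Module.finrank k⟮C.S₁.red u⟯ Fk₁)
    (hdeg₂ : Module.finrank K⟮u⟯ F ≤ Module.finrank k⟮C.S₂.red (algebraMap K F ϖ / u)⟯ Fk₂)
    (hs₁ : ∀ i, 0 < (C.s₁ i).ord (C.S₁.red u))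
    (hs₂ : ∀ i, 0 < (C.s₂ i).ord (C.S₂.red (algebraMap K F ϖ / u)))
    (hz₁ : ∀ Q : Place k Fk₁, 0 < Q.ord (C.S₁.red u) → ∃ i, Q = C.s₁ i)
    (hz₂ : ∀ Q : Place k Fk₂, 0 < Q.ord (C.S₂.red (algebraMap K F ϖ / u)) → ∃ i, Q = C.s₂ i)
    (hsep : ∀ i j, i ≠ j → ∃ (g : F) (c : ι → k), NodeVal C.S₁ C.S₂ u C.s₁ C.s₂ g c ∧ c i ≠ c j)
    (hgenus : genusFF K F + 1 ≤ genusFF k Fk₁ + genusFF k Fk₂ + Fintype.card ι) :
    (seedOfU C u ϖ hϖ0 hϖ hϖres hu₁ hubar₁ hu₂ hubar₂ hdeg₁ hdeg₂ hs₁ hs₂ hz₁ hz₂ hsep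
      hgenus).toNodalCore = C := rfl

/-- The seed divisor of `seedOfU` is the pole divisor of `u + ϖ / u`. -/
theorem seedOfU_D₀ [Fintype ι] [Infinite k] (C : NodalCore K F k Fk₁ Fk₂ ι)
    (u : F) (ϖ : K) (hϖ0 : ϖ ≠ 0) (hϖ : ϖ ∈ C.S₁.A) (hϖres : C.S₁.res ⟨ϖ, hϖ⟩ = 0)
    (hu₁ : u ∈ C.S₁.Ov) (hubar₁ : Transcendental k (C.S₁.red u))
    (hu₂ : algebraMap K F ϖ / u ∈ C.S₂.Ov)
    (hubar₂ : Transcendental k (C.S₂.red (algebraMap K F ϖ / u)))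
    [FiniteDimensional K⟮u⟯ F] [FiniteDimensional k⟮C.S₁.red u⟯ Fk₁]
    [FiniteDimensional k⟮C.S₂.red (algebraMap K F ϖ / u)⟯ Fk₂]
    (hdeg₁ : Module.finrank K⟮u⟯ F ≤ Module.finrank k⟮C.S₁.red u⟯ Fk₁)
    (hdeg₂ : Module.finrank K⟮u⟯ F ≤ Module.finrank k⟮C.S₂.red (algebraMap K F ϖ / u)⟯ Fk₂)
    (hs₁ : ∀ i, 0 < (C.s₁ i).ord (C.S₁.red u))
    (hs₂ : ∀ i, 0 < (C.s₂ i).ord (C.S₂.red (algebraMap K F ϖ / u)))
    (hz₁ : ∀ Q : Place k Fk₁, 0 < Q.ord (C.S₁.red u) → ∃ i, Q = C.s₁ i)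
    (hz₂ : ∀ Q : Place k Fk₂, 0 < Q.ord (C.S₂.red (algebraMap K F ϖ / u)) → ∃ i, Q = C.s₂ i)
    (hsep : ∀ i j, i ≠ j → ∃ (g : F) (c : ι → k), NodeVal C.S₁ C.S₂ u C.s₁ C.s₂ g c ∧ c i ≠ c j)
    (hgenus : genusFF K F + 1 ≤ genusFF k Fk₁ + genusFF k Fk₂ + Fintype.card ι) :
    (seedOfU C u ϖ hϖ0 hϖ hϖres hu₁ hubar₁ hu₂ hubar₂ hdeg₁ hdeg₂ hs₁ hs₂ hz₁ hz₂ hsep
      hgenus).D₀ = poleDiv C.S₁.hF (u + algebraMap K F ϖ / u) := rfl

end Seed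

end Fermat.Agent.BadRed.SeedPoles
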