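/-
Cluster T (bad reduction at `q ∥ N`), modular instantiation M1w (helper84):
the Atkin–Lehner involution `w_Q` acting on places, divisors and `J₀(N) = Pic⁰` (through the
Prelude's `SemilinearAut`), its commutation with the Galois action, and the second constant
reduction `v_0 = v_∞ ∘ w_Q` of the function field of `X₀(N)`, `N = Q R`.
-/
import Mathlib
import Fermat.Prelude.Def_ModularCurve_ArithmeticGalois
import Fermat.Agent.Lib.BadRed.AtkinLehner
import Fermat.Agent.Lib.BadRed.ValTransport

set_option autoImplicit false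

noncomputable section

namespace Fermat.Agent.AtkinLehner

open AlgebraicCurve ModularCurve Fermat.Agent.S24 Fermat.Agent.Deuring

/-- `w_Q` as a semilinear automorphism of the function field (trivial on the constants). -/
def wAut (D : ALData) : SemilinearAut Kbar (modularFunctionFieldBar (D.Q * D.R)) :=
  SemilinearAut.ofAlgAut (atkinLehner D)

theorem wAut_smul (D : ALData) (x : modularFunctionFieldBar (D.Q * D.R)) :
    wAut D • x = atkinLehner D x := rfl

theorem wAut_mul_self (D : ALData) : wAut D * wAut D = 1 := by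
  apply Subtype.ext
  refine Prod.ext (RingEquiv.ext fun x => ?_) rfl
  exact atkinLehner_atkinLehner D x

theorem wAut_inv (D : ALData) : (wAut D)⁻¹ = wAut D :=
  inv_eq_of_mul_eq_one_left (wAut_mul_self D)

/-- `w_Q` commutes with the Galois action (as semilinear automorphisms). -/
theorem wAut_mul_arithmeticGalois (D : ALData) (σ : Kbar ≃ₐ[ℚ] Kbar) :
    wAut D * arithmeticGalois (modularFunctionFieldFull (D.Q * D.R)) σ =
      arithmeticGalois (modularFunctionFieldFull (D.Q * D.R)) σ * wAut D := by
  apply Subtype.ext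
  refine Prod.ext (RingEquiv.ext fun x => ?_) ?_
  · exact atkinLehner_arithmeticRingAut D σ x
  · show (1 : RingAut Kbar) * σ.toRingEquiv = σ.toRingEquiv * 1
    rw [one_mul, mul_one]

/-- `ord_{w P} (f) = ord_P (w f)`. -/
theorem ord_wAut_smul (D : ALData) (P : Place Kbar (modularFunctionFieldBar (D.Q * D.R)))
    (f : modularFunctionFieldBar (D.Q * D.R)) :
    (wAut D • P).ord f = P.ord (atkinLehner D f) := by
  have h := SemilinearAut.ord_smul (wAut D) P (atkinLehner D f)
  rw [wAut_smul, atkinLehner_atkinLehner] at h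
  exact h

theorem wAut_smul_smul_place (D : ALData)
    (P : Place Kbar (modularFunctionFieldBar (D.Q * D.R))) : wAut D • wAut D • P = P := by
  rw [← mul_smul, wAut_mul_self, one_smul]

/-- `w_Q` commutes with the Galois action on places. -/
theorem wAut_smul_galois_place (D : ALData) (σ : Kbar ≃ₐ[ℚ] Kbar)
    (P : Place Kbar (modularFunctionFieldBar (D.Q * D.R))) :
    wAut D • arithmeticGalois (modularFunctionFieldFull (D.Q * D.R)) σ • P =
      arithmeticGalois (modularFunctionFieldFull (D.Q * D.R)) σ • wAut D • P := by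
  rw [← mul_smul, ← mul_smul, wAut_mul_arithmeticGalois]

/-- `w_Q` commutes with the Galois action on divisors. -/
theorem wAut_smul_galois_divisor (D : ALData) (σ : Kbar ≃ₐ[ℚ] Kbar)
    (E : Divisor Kbar (modularFunctionFieldBar (D.Q * D.R))) :
    wAut D • arithmeticGalois (modularFunctionFieldFull (D.Q * D.R)) σ • E =
      arithmeticGalois (modularFunctionFieldFull (D.Q * D.R)) σ • wAut D • E := by
  rw [← mul_smul, ← mul_smul, wAut_mul_arithmeticGalois]

/-- **`w_Q` commutes with the Galois action on `J₀(N)`.** -/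
theorem wAut_smul_galois (D : ALData) (σ : Kbar ≃ₐ[ℚ] Kbar) (x : JZero (D.Q * D.R)) :
    wAut D • (σ • x) = σ • (wAut D • x) := by
  show wAut D • arithmeticGalois (modularFunctionFieldFull (D.Q * D.R)) σ • x =
    arithmeticGalois (modularFunctionFieldFull (D.Q * D.R)) σ • wAut D • x
  rw [← mul_smul, ← mul_smul, wAut_mul_arithmeticGalois]

/-- the Atkin–Lehner involution of `J₀(N)`. -/
def wJ (D : ALData) : JZero (D.Q * D.R) →+ JZero (D.Q * D.R) :=
  DistribSMul.toAddMonoidHom (JZero (D.Q * D.R)) (wAut D)

theorem wJ_apply (D : ALData) (x : JZero (D.Q * D.R)) : wJ D x = wAut D • x := rfl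

theorem wJ_wJ (D : ALData) (x : JZero (D.Q * D.R)) : wJ D (wJ D x) = x := by
  rw [wJ_apply, wJ_apply, ← mul_smul, wAut_mul_self, one_smul]

theorem wJ_galois (D : ALData) (σ : Kbar ≃ₐ[ℚ] Kbar) (x : JZero (D.Q * D.R)) :
    wJ D (σ • x) = σ • wJ D x :=
  wAut_smul_galois D σ x

theorem wJ_mk (D : ALData)
    (E : Divisor.degZero (K := Kbar) (F := modularFunctionFieldBar (D.Q * D.R))) :
    wJ D (Pic0.mk E) = Pic0.mk (SemilinearAut.degZeroSMulHom (wAut D) E) :=
  SemilinearAut.pic0_smul_mk (wAut D) E

/-! ### the second constant reduction `v_0 = v_∞ ∘ w_Q` -/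

variable {k Fk : Type*} [Field k] [Field Fk] [Algebra k Fk]

/-- the constant reduction `v_0 = v_∞ ∘ w_Q` attached to a constant reduction `v_∞`. -/
def valSetupZero (D : ALData)
    (S : ValSetup Kbar (modularFunctionFieldBar (D.Q * D.R)) k Fk) :
    ValSetup Kbar (modularFunctionFieldBar (D.Q * D.R)) k Fk :=
  Fermat.Agent.BadRed.comapEquiv S (atkinLehner D)

theorem valSetupZero_A (D : ALData)
    (S : ValSetup Kbar (modularFunctionFieldBar (D.Q * D.R)) k Fk) :
    (valSetupZero D S).A = S.A := rfl

theorem valSetupZero_res (D : ALData)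
    (S : ValSetup Kbar (modularFunctionFieldBar (D.Q * D.R)) k Fk) :
    (valSetupZero D S).res = S.res := rfl

theorem mem_valSetupZero_Ov (D : ALData)
    (S : ValSetup Kbar (modularFunctionFieldBar (D.Q * D.R)) k Fk)
    (f : modularFunctionFieldBar (D.Q * D.R)) :
    f ∈ (valSetupZero D S).Ov ↔ atkinLehner D f ∈ S.Ov := Iff.rfl

theorem valSetupZero_red (D : ALData)
    (S : ValSetup Kbar (modularFunctionFieldBar (D.Q * D.R)) k Fk)
    (f : modularFunctionFieldBar (D.Q * D.R)) :
    (valSetupZero D S).red f = S.red (atkinLehner D f) :=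
  Fermat.Agent.BadRed.comapEquiv_red S (atkinLehner D) f

theorem hasLattice_valSetupZero (D : ALData)
    (S : ValSetup Kbar (modularFunctionFieldBar (D.Q * D.R)) k Fk) (hL : HasLattice S) :
    HasLattice (valSetupZero D S) :=
  Fermat.Agent.BadRed.hasLattice_comapEquiv S (atkinLehner D) hL

/-- `w_Q` exchanges the two reductions. -/
theorem valSetupZero_red_atkinLehner (D : ALData)
    (S : ValSetup Kbar (modularFunctionFieldBar (D.Q * D.R)) k Fk)
    (f : modularFunctionFieldBar (D.Q * D.R)) :
    (valSetupZero D S).red (atkinLehner D f) = S.red f := by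
  rw [valSetupZero_red, atkinLehner_atkinLehner]

end Fermat.Agent.AtkinLehner
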