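/-
Cluster T / M3 (helper94): the arithmetic of the genus formula at level `q N₀`.

* `SSA.cuspCount_prime_mul`: `cuspCount (q N) = 2 cuspCount N` for a prime `q ∤ N`;
* `SSA.nuTwo_mul`, `SSA.nuThree_mul`: CRT multiplicativity of the numbers of elliptic points;
* `SSA.nuTwo_prime_of_one / _of_three`, `SSA.nuThree_prime_of_one / _of_two`: their values at
  primes;
* `SSA.twelve_genusFormula_prime_mul`: `12 g(qN) + 12 = 24 g(N) + (q - 1) ψ(N)
  + 3 ν₂(N) (2 - ν₂(q)) + 4 ν₃(N) (2 - ν₃(q))`;
* `ssArith : SSArith` (the exact Prop of `SSDefs.lean`, `q ≥ 5`);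
* `ssArith_two`, `ssArith_three`: the cases `q = 2` (`3 ∣ N₀`) and `q = 3` (`2 ∣ N₀`).
-/
import Mathlib
import Fermat.Agent.Lib.BadRed.Mod.SSDefs
import Fermat.Agent.S20.Cosets.Count

set_option autoImplicit false
set_option linter.style.haveILetI false

open ModularCurve

namespace Fermat.Agent.BadRed.SSA

/-- divisors of `q * N` for a prime `q ∤ N`. -/
theorem divisors_prime_mul {q N : ℕ} (hq : q.Prime) (hN : N ≠ 0) :
    (q * N).divisors = N.divisors ∪ N.divisors.image (fun d => q * d) := by
  ext d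
  simp only [Nat.mem_divisors, Finset.mem_union, Finset.mem_image, ne_eq, mul_eq_zero, hq.ne_zero,
    hN, or_self, not_false_eq_true, and_true]
  constructor
  · intro h
    by_cases hqd : q ∣ d
    · right
      obtain ⟨d', rfl⟩ := hqd
      exact ⟨d', (Nat.mul_dvd_mul_iff_left hq.pos).mp h, rfl⟩
    · left
      have hcop : d.Coprime q := (Nat.Coprime.symm ((Nat.Prime.coprime_iff_not_dvd hq).mpr hqd))
      exact hcop.dvd_of_dvd_mul_left h
  · rintro (h | ⟨d', h, rfl⟩)
    · exact h.mul_left q
    · exact Nat.mul_dvd_mul_left q h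

theorem disjoint_divisors_image {q N : ℕ} (hqN : ¬ q ∣ N) :
    Disjoint N.divisors (N.divisors.image (fun d => q * d)) := by
  rw [Finset.disjoint_left]
  intro d hd hd'
  rw [Finset.mem_image] at hd'
  obtain ⟨d', -, rfl⟩ := hd'
  exact hqN ((dvd_mul_right q d').trans (Nat.dvd_of_mem_divisors hd))

/-- `cuspCount (q N) = 2 cuspCount N` for a prime `q ∤ N`. -/
theorem cuspCount_prime_mul {q N : ℕ} (hq : q.Prime) (hqN : ¬ q ∣ N) (hN : N ≠ 0) :
    cuspCount (q * N) = 2 * cuspCount N := by
  unfold cuspCount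
  rw [divisors_prime_mul hq hN, Finset.sum_union (disjoint_divisors_image hqN),
    Finset.sum_image (fun a _ b _ h => Nat.eq_of_mul_eq_mul_left hq.pos h), two_mul]
  congr 1
  · refine Finset.sum_congr rfl fun d hd => ?_
    have hdN := Nat.dvd_of_mem_divisors hd
    have hqd : ¬ q ∣ d := fun h => hqN (h.trans hdN)
    have hcop : q.Coprime d := (Nat.Prime.coprime_iff_not_dvd hq).mpr hqd
    rw [Nat.mul_div_assoc q hdN, Nat.Coprime.gcd_mul_left_cancel_right _ hcop]
  · refine Finset.sum_congr rfl fun d hd => ?_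
    have hdN := Nat.dvd_of_mem_divisors hd
    have hqd : ¬ q ∣ N / d := fun h => hqN (h.trans (Nat.div_dvd_of_dvd hdN))
    have hcop : q.Coprime (N / d) := (Nat.Prime.coprime_iff_not_dvd hq).mpr hqd
    rw [Nat.mul_div_mul_left _ _ hq.pos, Nat.Coprime.gcd_mul_left_cancel _ hcop]

/-- CRT: the number of solutions of a polynomial equation (with integer coefficients, here
`x² + 1 = 0`) is multiplicative. -/
theorem nuTwo_mul {m n : ℕ} (h : m.Coprime n) : nuTwo (m * n) = nuTwo m * nuTwo n := by
  unfold nuTwo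
  rw [← Nat.card_prod]
  refine Nat.card_congr ?_
  let e := ZMod.chineseRemainder h
  refine
    { toFun := fun x => (⟨(e x.1).1, ?_⟩, ⟨(e x.1).2, ?_⟩)
      invFun := fun y => ⟨e.symm (y.1.1, y.2.1), ?_⟩
      left_inv := fun x => by simp
      right_inv := fun y => by simp }
  · have := congrArg (fun z => (e z).1) x.2
    simpa using this
  · have := congrArg (fun z => (e z).2) x.2
    simpa using this
  · apply e.injective
    rw [map_add, map_pow, map_one, map_zero, e.apply_symm_apply]
    ext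
    · simpa using y.1.2
    · simpa using y.2.2

theorem nuThree_mul {m n : ℕ} (h : m.Coprime n) : nuThree (m * n) = nuThree m * nuThree n := by
  unfold nuThree
  rw [← Nat.card_prod]
  refine Nat.card_congr ?_
  let e := ZMod.chineseRemainder h
  refine
    { toFun := fun x => (⟨(e x.1).1, ?_⟩, ⟨(e x.1).2, ?_⟩)
      invFun := fun y => ⟨e.symm (y.1.1, y.2.1), ?_⟩
      left_inv := fun x => by simp
      right_inv := fun y => by simp }
  · have := congrArg (fun z => (e z).1) x.2
    simpa using this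
  · have := congrArg (fun z => (e z).2) x.2
    simpa using this
  · apply e.injective
    rw [map_add, map_add, map_pow, map_one, map_zero, e.apply_symm_apply]
    ext
    · simpa using y.1.2
    · simpa using y.2.2


/-- in a field, an equation with exactly the two distinct solutions `a ≠ b`. -/
theorem card_subtype_eq_two {R : Type*} {p : R → Prop} {a b : R} (hab : a ≠ b)
    (h : ∀ x, p x ↔ x = a ∨ x = b) : Nat.card {x : R // p x} = 2 := by
  classical
  have e : {x : R // p x} ≃ ({a, b} : Finset R) :=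
    Equiv.subtypeEquivRight (fun x => by rw [h x]; simp)
  rw [Nat.card_congr e, Nat.card_eq_fintype_card, Fintype.card_coe, Finset.card_pair hab]

theorem nuTwo_prime_of_three {q : ℕ} (hq : q.Prime) (h : q % 4 = 3) : nuTwo q = 0 := by
  haveI : Fact q.Prime := ⟨hq⟩
  unfold nuTwo
  have : IsEmpty {x : ZMod q // x ^ 2 + 1 = 0} := by
    refine ⟨fun ⟨x, hx⟩ => ?_⟩
    have hsq : IsSquare (-1 : ZMod q) := ⟨x, by rw [← sq]; linear_combination -hx⟩
    exact (ZMod.exists_sq_eq_neg_one_iff.mp hsq) h
  exact Nat.card_of_isEmpty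

theorem nuTwo_prime_of_one {q : ℕ} (hq : q.Prime) (h : q % 4 = 1) : nuTwo q = 2 := by
  haveI : Fact q.Prime := ⟨hq⟩
  unfold nuTwo
  have hne3 : q % 4 ≠ 3 := by omega
  obtain ⟨i, hi⟩ := ZMod.exists_sq_eq_neg_one_iff.mpr hne3
  have hi2 : i ^ 2 = -1 := by rw [sq]; exact hi.symm
  have hq2 : q ≠ 2 := by rintro rfl; omega
  have h2 : (2 : ZMod q) ≠ 0 := by
    intro h0
    have : (q : ℕ) ∣ 2 := (ZMod.natCast_eq_zero_iff 2 q).mp (by exact_mod_cast h0)
    exact hq2 ((Nat.prime_dvd_prime_iff_eq hq Nat.prime_two).mp this)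
  have hi0 : i ≠ 0 := by
    intro h0
    rw [h0] at hi2
    have : (1 : ZMod q) = 0 := by linear_combination hi2
    exact one_ne_zero this
  have hne : i ≠ -i := by
    intro hh
    have : 2 * i = 0 := by linear_combination hh
    rcases mul_eq_zero.mp this with h' | h'
    · exact h2 h'
    · exact hi0 h'
  refine card_subtype_eq_two hne fun x => ?_
  constructor
  · intro hx
    have : (x - i) * (x + i) = 0 := by linear_combination hx - hi2
    rcases mul_eq_zero.mp this with h' | h'
    · left; linear_combination h'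
    · right; linear_combination h'
  · rintro (rfl | rfl)
    · linear_combination hi2
    · linear_combination hi2

theorem nuThree_prime_of_two {q : ℕ} (hq : q.Prime) (h : q % 3 = 2) : nuThree q = 0 := by
  haveI : Fact q.Prime := ⟨hq⟩
  unfold nuThree
  have : IsEmpty {x : ZMod q // x ^ 2 + x + 1 = 0} := by
    refine ⟨fun ⟨x, hx⟩ => ?_⟩
    have hx3 : x ^ 3 = 1 := by linear_combination (x - 1) * hx
    have hq3 : q ≠ 3 := by rintro rfl; omega
    have h3 : (3 : ZMod q) ≠ 0 := by
      intro h0
      have : (q : ℕ) ∣ 3 := (ZMod.natCast_eq_zero_iff 3 q).mp (by exact_mod_cast h0)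
      exact hq3 ((Nat.prime_dvd_prime_iff_eq hq Nat.prime_three).mp this)
    have hx1 : x ≠ 1 := by
      rintro rfl
      apply h3
      linear_combination hx
    have hx0 : x ≠ 0 := by
      rintro rfl
      rw [zero_pow three_ne_zero] at hx3
      exact zero_ne_one hx3
    -- the order of `x` in the unit group is `3`
    let u : (ZMod q)ˣ := Units.mk0 x hx0
    have hu3 : u ^ 3 = 1 := by
      apply Units.ext
      simpa [u] using hx3
    have hu1 : u ≠ 1 := by
      intro hh
      apply hx1
      have := congrArg Units.val hh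
      simpa [u] using this
    have hord : orderOf u = 3 := orderOf_eq_prime hu3 hu1
    have hdvd : 3 ∣ q - 1 := by
      have := orderOf_dvd_card (x := u)
      rwa [hord, ZMod.card_units_eq_totient, Nat.totient_prime hq] at this
    have hq1 : 1 ≤ q := hq.one_lt.le
    omega
  exact Nat.card_of_isEmpty

theorem nuThree_prime_of_one {q : ℕ} (hq : q.Prime) (h : q % 3 = 1) : nuThree q = 2 := by
  haveI : Fact q.Prime := ⟨hq⟩
  unfold nuThree
  have hq1 : 1 ≤ q := hq.one_lt.le
  have hdvd : 3 ∣ Fintype.card (ZMod q)ˣ := by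
    rw [ZMod.card_units_eq_totient, Nat.totient_prime hq]
    omega
  haveI : Fact (Nat.Prime 3) := ⟨Nat.prime_three⟩
  obtain ⟨u, hu⟩ := exists_prime_orderOf_dvd_card 3 hdvd
  have hu3 : u ^ 3 = 1 := by rw [← hu]; exact pow_orderOf_eq_one u
  have hu1 : u ≠ 1 := by
    rintro rfl
    rw [orderOf_one] at hu
    omega
  set w : ZMod q := (u : ZMod q) with hw
  have hw3 : w ^ 3 = 1 := by
    have := congrArg Units.val hu3
    simpa [hw] using this
  have hw1 : w ≠ 1 := by
    intro hh
    apply hu1
    apply Units.ext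
    simpa [hw] using hh
  have hw0 : w ≠ 0 := u.ne_zero
  have hroot : w ^ 2 + w + 1 = 0 := by
    have : (w - 1) * (w ^ 2 + w + 1) = 0 := by linear_combination hw3
    rcases mul_eq_zero.mp this with h' | h'
    · exact absurd (sub_eq_zero.mp h') hw1
    · exact h'
  have hne : w ≠ -1 - w := by
    intro hh
    -- then `2 w = -1`, so `4 (w² + w + 1) = 3`, hence `3 = 0`: impossible as `q ≠ 3`
    have h3 : (3 : ZMod q) = 0 := by linear_combination 4 * hroot - (2 * w + 1) * hh
    have hq3 : q ≠ 3 := by rintro rfl; omega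
    have : (q : ℕ) ∣ 3 := (ZMod.natCast_eq_zero_iff 3 q).mp (by exact_mod_cast h3)
    exact hq3 ((Nat.prime_dvd_prime_iff_eq hq Nat.prime_three).mp this)
  refine card_subtype_eq_two hne fun x => ?_
  constructor
  · intro hx
    have : (x - w) * (x + 1 + w) = 0 := by linear_combination hx - hroot
    rcases mul_eq_zero.mp this with h' | h'
    · left; linear_combination h'
    · right; linear_combination h'
  · rintro (rfl | rfl)
    · exact hroot
    · linear_combination hroot


theorem dedekindPsi_prime_mul {q N : ℕ} (hq : q.Prime) (hqN : ¬ q ∣ N) :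
    dedekindPsi (q * N) = (q + 1) * dedekindPsi N := by
  have hcop : q.Coprime N := (Nat.Prime.coprime_iff_not_dvd hq).mpr hqN
  rw [Fermat.Agent.S20.dedekindPsi_mul hcop]
  have h := Fermat.Agent.S20.dedekindPsi_prime_pow (p := q) (k := 0) hq
  rw [zero_add, pow_one, pow_zero] at h
  rw [h]

/-- the genus formula at level `q N₀` in terms of the numerics of `N₀` and `q`. -/
theorem twelve_genusFormula_prime_mul {q N : ℕ} (hq : q.Prime) (hqN : ¬ q ∣ N) (hN : N ≠ 0) :
    12 * genusFormula (q * N) + 12 = 24 * genusFormula N + ((q : ℚ) - 1) * (dedekindPsi N : ℚ)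
      + 3 * (nuTwo N : ℚ) * (2 - (nuTwo q : ℚ)) + 4 * (nuThree N : ℚ) * (2 - (nuThree q : ℚ)) := by
  have hcop : q.Coprime N := (Nat.Prime.coprime_iff_not_dvd hq).mpr hqN
  unfold genusFormula
  rw [dedekindPsi_prime_mul hq hqN, nuTwo_mul hcop, nuThree_mul hcop, cuspCount_prime_mul hq hqN hN]
  push_cast
  ring

end Fermat.Agent.BadRed.SSA

namespace Fermat.Agent.BadRed

open SSA in
/-- **(SS-A)** the arithmetic of the genus formula at level `q N₀`, `q ≥ 5`. -/
theorem ssArith : SSArith := by
  intro N₀ q hN hq h5 hqN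
  rw [twelve_genusFormula_prime_mul hq hqN hN]
  have hq2 : q ≠ 2 := by omega
  have hq3 : q ≠ 3 := by omega
  have hodd : q % 2 = 1 := by
    rcases hq.eq_two_or_odd with h | h
    · exact absurd h hq2
    · exact h
  have h4 : q % 4 = 1 ∨ q % 4 = 3 := by omega
  have h3 : q % 3 = 1 ∨ q % 3 = 2 := by
    have : q % 3 ≠ 0 := by
      intro h0
      have hdvd : 3 ∣ q := Nat.dvd_of_mod_eq_zero h0
      exact hq3 ((Nat.prime_dvd_prime_iff_eq Nat.prime_three hq).mp hdvd).symm
    omega
  rcases h4 with h4 | h4 <;> rcases h3 with h3 | h3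
  · rw [nuTwo_prime_of_one hq h4, nuThree_prime_of_one hq h3, if_neg (by omega), if_neg (by omega)]
    push_cast; ring
  · rw [nuTwo_prime_of_one hq h4, nuThree_prime_of_two hq h3, if_neg (by omega), if_pos h3]
    push_cast; ring
  · rw [nuTwo_prime_of_three hq h4, nuThree_prime_of_one hq h3, if_pos h4, if_neg (by omega)]
    push_cast; ring
  · rw [nuTwo_prime_of_three hq h4, nuThree_prime_of_two hq h3, if_pos h4, if_pos h3]
    push_cast; ring

/-- the arithmetic at `q = 2`, level `N₀` odd and divisible by `3`. -/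
theorem ssArith_two {N₀ : ℕ} (hN : N₀ ≠ 0) (h2 : ¬ 2 ∣ N₀) (h3 : 3 ∣ N₀) :
    12 * genusFormula (2 * N₀) + 12 = 24 * genusFormula N₀ + (dedekindPsi N₀ : ℚ)
      + 8 * (nuThree N₀ : ℚ) := by
  rw [SSA.twelve_genusFormula_prime_mul Nat.prime_two h2 hN]
  have hν2 : nuTwo N₀ = 0 := by
    unfold nuTwo
    have : IsEmpty {x : ZMod N₀ // x ^ 2 + 1 = 0} := by
      refine ⟨fun ⟨x, hx⟩ => ?_⟩
      have := congrArg (ZMod.castHom h3 (ZMod 3)) hx
      rw [map_add, map_pow, map_one, map_zero] at this
      revert this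
      generalize (ZMod.castHom h3 (ZMod 3)) x = y
      revert y
      decide
    exact Nat.card_of_isEmpty
  have hν3 : nuThree 2 = 0 := SSA.nuThree_prime_of_two Nat.prime_two (by norm_num)
  rw [hν2, hν3]
  push_cast
  ring

/-- the arithmetic at `q = 3`, level `N₀` even and prime to `3`. -/
theorem ssArith_three {N₀ : ℕ} (hN : N₀ ≠ 0) (h3 : ¬ 3 ∣ N₀) (h2 : 2 ∣ N₀) :
    12 * genusFormula (3 * N₀) + 12 = 24 * genusFormula N₀ + 2 * (dedekindPsi N₀ : ℚ)
      + 6 * (nuTwo N₀ : ℚ) := by
  rw [SSA.twelve_genusFormula_prime_mul Nat.prime_three h3 hN]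
  have hν3 : nuThree N₀ = 0 := by
    unfold nuThree
    have : IsEmpty {x : ZMod N₀ // x ^ 2 + x + 1 = 0} := by
      refine ⟨fun ⟨x, hx⟩ => ?_⟩
      have := congrArg (ZMod.castHom h2 (ZMod 2)) hx
      rw [map_add, map_add, map_pow, map_one, map_zero] at this
      revert this
      generalize (ZMod.castHom h2 (ZMod 2)) x = y
      revert y
      decide
    exact Nat.card_of_isEmpty
  have hν2 : nuTwo 3 = 0 := SSA.nuTwo_prime_of_three Nat.prime_three (by norm_num)
  rw [hν3, hν2]
  push_cast
  ring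

end Fermat.Agent.BadRed
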