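import Mathlib
import Fermat.Agent.Lib.GoodRed.Small.Final23
import Fermat.Agent.Lib.GoodRed.ModularBranch
import Fermat.Agent.Lib.BadRed.Mod.SSArith
import Fermat.Agent.Lib.RR.Hurwitz.Norm
import Fermat.Agent.Lib.GaussInt.ModularInst
import Fermat.Agent.Lib.Deuring.FundIneq
import Fermat.Agent.Lib.BadRed.Mod.SSDefs

/-!
# Cluster T / M3 at `q = 2, 3`: the count of supersingular points  (helper94)

`q ∈ {2, 3}`, `N₀` prime to `q` and divisible by the other prime of `{2, 3}` (auxiliary level: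
the covering `X₀(N₀) → X(1)` is wildly ramified over `j̄ = 0 = 1728` in characteristic `2, 3`, so
we count through the Hauptmodul of `X₀(3)` resp. `X₀(2)`).  `A` a place of `ℚ̄` over `q`,
`k` its residue field, `Fk = modularFunctionFieldFullC k N₀`.  The supersingular points of
`X₀(N₀)` mod `q` are the zeros of `j̄` on `Fk`, and

  `g(X₀(q N₀)) + 1 = 2 g(X₀(N₀)) + #{P place of Fk : 0 < ord_P j̄}`.

* `ss_count_two`   : `q = 2`, `3 ∣ N₀`, `2 ∤ N₀`;
* `ss_count_three` : `q = 3`, `2 ∣ N₀`, `3 ∤ N₀`.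

Proof.  Char `0`: with `x` the Hauptmodul of `X₀(3)` (`j x³ = (x + 27)(x + 243)³`) the fibre of
`j` over `0` is the union of the fibres of `x` over `-27` (multiplicity `1`) and `-243`
(multiplicity `3`, unramified); so `#x⁻¹(-27) = #j⁻¹(0) - n'`, `4 n' = ψ(N₀)`.  The discriminant
chain (cluster B, `FibreEq`) gives `#x̄⁻¹(-27) = #x⁻¹(-27)`; in characteristic `2` the reduced
relation is `j̄ x̄³ = (x̄ + 1)⁴`, so `j̄⁻¹(0) = x̄⁻¹(-27)`.  Then `ssArith_two`.
-/

set_option autoImplicit false
set_option linter.unusedSectionVars false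
set_option linter.style.haveILetI false

noncomputable section

open AlgebraicCurve Polynomial IntermediateField

namespace Fermat.Agent.BadRed.SS23

open Fermat.Agent.GoodRedSmall Fermat.Agent.RR

section generic

variable {K F : Type} [Field K] [Field F] [Algebra K F]

/-- a place at which `f - c` has positive order: `f` is integral there. -/
theorem ord_nonneg_of_sub_pos (v : Place K F) {f : F} {c : K}
    (h : 0 < v.ord (f - algebraMap K F c)) : 0 ≤ v.ord f :=
  Fermat.Agent.S24Res.ord_nonneg_of_mem v (mem_of_ord_sub_pos v h)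

/-- the value of `x` at a place is unique. -/
theorem value_unique (v : Place K F) {x : F} {c c' : K}
    (h : 0 < v.ord (x - algebraMap K F c)) (h' : 0 < v.ord (x - algebraMap K F c')) : c = c' := by
  by_contra hne
  have hcc : c' - c ≠ 0 := sub_ne_zero.mpr (Ne.symm hne)
  have e : x - algebraMap K F c = (x - algebraMap K F c') + algebraMap K F (c' - c) := by
    rw [map_sub]; ring
  have h0 := ord_eq_zero_of_sub_pos v hcc (f := x - algebraMap K F c) (by
    rw [e, add_sub_cancel_right]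
    exact h')
  omega

/-- for a relation `j Q(x) = P(x)` with `deg Q < deg P`: the poles of `x` are poles of `j`. -/
theorem ord_nonneg_of_rel {x j : F} (hx : Transcendental K x) {P Q : K[X]}
    (hrel : j * Polynomial.aeval x Q = Polynomial.aeval x P) (hQ : Q ≠ 0)
    (hdeg : Q.natDegree < P.natDegree) (v : Place K F) (hj : 0 ≤ v.ord j) : 0 ≤ v.ord x := by
  by_contra hneg
  rw [not_le] at hneg
  have hP : P ≠ 0 := by
    rintro rfl
    simp at hdeg
  have hQx : Polynomial.aeval x Q ≠ 0 := Fermat.Agent.RRHur.aeval_ne_zero_of_transcendental hx hQ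
  have hPx : Polynomial.aeval x P ≠ 0 := Fermat.Agent.RRHur.aeval_ne_zero_of_transcendental hx hP
  have hj0 : j ≠ 0 := by
    rintro rfl
    rw [zero_mul] at hrel
    exact hPx hrel.symm
  have h1 := Fermat.Agent.RRHur.ord_aeval_of_pole hx v hneg hP
  have h2 := Fermat.Agent.RRHur.ord_aeval_of_pole hx v hneg hQ
  have h3 := congrArg v.ord hrel
  rw [v.ord_mul hj0 hQx, h1, h2] at h3
  have h4 : ((Q.natDegree : ℤ)) < P.natDegree := by exact_mod_cast hdeg
  nlinarith

/-- **fibres of `j` in terms of fibres of `x`**, for a relation `j Q(x) = P(x)`, `P`, `Q` coprime,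
`deg Q < deg P`: the zeros of `j - j₀` are the zeros of the `x - c`, `c` a root of `P - j₀ Q`. -/
theorem ord_sub_pos_iff (hRR : IsRRField K F) {x j : F} (hx : Transcendental K x) {P Q : K[X]}
    (hrel : j * Polynomial.aeval x Q = Polynomial.aeval x P) (hcop : IsCoprime P Q)
    (hdeg : Q.natDegree < P.natDegree) (hQ : Q ≠ 0) (j0 : K) (v : Place K F) :
    0 < v.ord (j - algebraMap K F j0) ↔
      ∃ c : K, (P - C j0 * Q).IsRoot c ∧ 0 < v.ord (x - algebraMap K F c) := by
  have hf : P - C j0 * Q ≠ 0 := by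
    intro h0
    have h1 : P = C j0 * Q := sub_eq_zero.mp h0
    have h2 : P.natDegree ≤ Q.natDegree := by
      rw [h1]
      exact Polynomial.natDegree_C_mul_le _ _
    omega
  have hfx : Polynomial.aeval x (P - C j0 * Q) = (j - algebraMap K F j0) * Polynomial.aeval x Q := by
    rw [map_sub, map_mul, Polynomial.aeval_C, sub_mul, hrel]
  have hQx : Polynomial.aeval x Q ≠ 0 := Fermat.Agent.RRHur.aeval_ne_zero_of_transcendental hx hQ
  constructor
  · intro hv
    have hj : 0 ≤ v.ord j := ord_nonneg_of_sub_pos v hv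
    have hxv : 0 ≤ v.ord x := ord_nonneg_of_rel hx hrel hQ hdeg v hj
    obtain ⟨c, hc | hc⟩ := exists_const_sub hRR v hxv
    · exfalso
      apply hx
      rw [hc]
      exact isAlgebraic_algebraMap c
    · refine ⟨c, ?_, hc⟩
      by_contra hroot
      have h0 := ord_aeval_eq_zero v hc (g := P - C j0 * Q) hroot
      have hne : j - algebraMap K F j0 ≠ 0 := by
        intro h0'
        rw [h0', v.ord_zero] at hv
        exact lt_irrefl _ hv
      rw [hfx, v.ord_mul hne hQx] at h0
      have hQmem := Fermat.Agent.S24Res.ord_nonneg_of_mem v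
        (aeval_mem_of_mem v (mem_of_ord_sub_pos v hc) Q)
      omega
  · rintro ⟨c, hroot, hc⟩
    have hQc : Q.eval c ≠ 0 := by
      intro hQ0
      have hP0 : P.eval c = 0 := by
        have := hroot
        rw [Polynomial.IsRoot.def, eval_sub, eval_mul, eval_C, hQ0, mul_zero, sub_zero] at this
        exact this
      obtain ⟨a, b, hab⟩ := hcop
      have := congrArg (Polynomial.eval c) hab
      rw [eval_add, eval_mul, eval_mul, hP0, hQ0, mul_zero, mul_zero, add_zero, eval_one] at this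
      exact zero_ne_one this
    have hj0 : j0 * Q.eval c = P.eval c := by
      have := hroot
      rw [Polynomial.IsRoot.def, eval_sub, eval_mul, eval_C, sub_eq_zero] at this
      exact this.symm
    obtain ⟨h1, h2⟩ := Unram.ord_sub_eq_mul v hrel hc hQc j0 hj0 hf
    rw [h1]
    have : (0 : ℤ) < ((P - C j0 * Q).rootMultiplicity c : ℤ) := by exact_mod_cast h2
    positivity

/-- the zero set of `y - a`. -/
def zeros (y : F) (a : K) : Set (Place K F) := {v | 0 < v.ord (y - algebraMap K F a)}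

theorem mem_zeros {y : F} {a : K} {v : Place K F} :
    v ∈ zeros y a ↔ 0 < v.ord (y - algebraMap K F a) := Iff.rfl

theorem disjoint_zeros {x : F} {c c' : K} (h : c ≠ c') : Disjoint (zeros x c) (zeros x c') := by
  rw [Set.disjoint_left]
  intro v hv hv'
  exact h (value_unique v hv hv')

theorem card_zeros_eq_ncard (y : F) (a : K) :
    Nat.card {v : Place K F // 0 < v.ord (y - algebraMap K F a)} = (zeros y a).ncard := by
  rw [← Nat.card_coe_set_eq]
  rfl

variable [IsAlgClosed K] [CharZero K]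

/-- **degree relation**: if the zeros of `j - j₀` are the zeros of `x - c₁` and of `x - c₂`
(`c₁ ≠ c₂`), with `ord (j - j₀) = mᵢ ord (x - cᵢ)` there, then `[F : K(j)] = (m₁ + m₂) [F : K(x)]`. -/
theorem finrank_eq_of_two {t : F} (h : Fermat.Agent.S24Diff.IsFunctionFieldOver K F t)
    {x j : F} (hx : Transcendental K x) (hj : Transcendental K j) {j0 c1 c2 : K} (hc : c1 ≠ c2)
    (hz : zeros j j0 = zeros x c1 ∪ zeros x c2) (m1 m2 : ℕ)
    (h1 : ∀ v ∈ zeros x c1, v.ord (j - algebraMap K F j0) = m1 * v.ord (x - algebraMap K F c1))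
    (h2 : ∀ v ∈ zeros x c2, v.ord (j - algebraMap K F j0) = m2 * v.ord (x - algebraMap K F c2)) :
    Module.finrank K⟮j⟯ F = (m1 + m2) * Module.finrank K⟮x⟯ F := by
  classical
  have hj0 := Fermat.Agent.S24Fund.sum_ord_zeros h hj j0
  have hx1 := Fermat.Agent.S24Fund.sum_ord_zeros h hx c1
  have hx2 := Fermat.Agent.S24Fund.sum_ord_zeros h hx c2
  have hset : (Fermat.Agent.S24Fund.finite_zeros h hj j0).toFinset =
      (Fermat.Agent.S24Fund.finite_zeros h hx c1).toFinset ∪
        (Fermat.Agent.S24Fund.finite_zeros h hx c2).toFinset := by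
    ext v
    rw [Finset.mem_union, Set.Finite.mem_toFinset, Set.Finite.mem_toFinset,
      Set.Finite.mem_toFinset]
    have := Set.ext_iff.mp hz v
    exact this
  have hdisj : Disjoint (Fermat.Agent.S24Fund.finite_zeros h hx c1).toFinset
      (Fermat.Agent.S24Fund.finite_zeros h hx c2).toFinset := by
    rw [Finset.disjoint_left]
    intro v hv hv'
    rw [Set.Finite.mem_toFinset] at hv hv'
    exact hc (value_unique v hv hv')
  rw [hset, Finset.sum_union hdisj] at hj0
  have e1 : ∑ v ∈ (Fermat.Agent.S24Fund.finite_zeros h hx c1).toFinset,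
      v.ord (j - algebraMap K F j0) = m1 * (Module.finrank K⟮x⟯ F : ℤ) := by
    rw [← hx1, Finset.mul_sum]
    refine Finset.sum_congr rfl fun v hv => ?_
    rw [Set.Finite.mem_toFinset] at hv
    exact h1 v hv
  have e2 : ∑ v ∈ (Fermat.Agent.S24Fund.finite_zeros h hx c2).toFinset,
      v.ord (j - algebraMap K F j0) = m2 * (Module.finrank K⟮x⟯ F : ℤ) := by
    rw [← hx2, Finset.mul_sum]
    refine Finset.sum_congr rfl fun v hv => ?_
    rw [Set.Finite.mem_toFinset] at hv
    exact h2 v hv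
  rw [e1, e2] at hj0
  have : ((Module.finrank K⟮j⟯ F : ℕ) : ℤ) = (((m1 + m2) * Module.finrank K⟮x⟯ F : ℕ) : ℤ) := by
    rw [← hj0]
    push_cast
    ring
  exact_mod_cast this

/-- the same with one root. -/
theorem finrank_eq_of_one {t : F} (h : Fermat.Agent.S24Diff.IsFunctionFieldOver K F t)
    {x j : F} (hx : Transcendental K x) (hj : Transcendental K j) {j0 c1 : K}
    (hz : zeros j j0 = zeros x c1) (m1 : ℕ)
    (h1 : ∀ v ∈ zeros x c1, v.ord (j - algebraMap K F j0) = m1 * v.ord (x - algebraMap K F c1)) :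
    Module.finrank K⟮j⟯ F = m1 * Module.finrank K⟮x⟯ F := by
  classical
  have hj0 := Fermat.Agent.S24Fund.sum_ord_zeros h hj j0
  have hx1 := Fermat.Agent.S24Fund.sum_ord_zeros h hx c1
  have hset : (Fermat.Agent.S24Fund.finite_zeros h hj j0).toFinset =
      (Fermat.Agent.S24Fund.finite_zeros h hx c1).toFinset := by
    ext v
    rw [Set.Finite.mem_toFinset, Set.Finite.mem_toFinset]
    exact Set.ext_iff.mp hz v
  rw [hset] at hj0
  have e1 : ∑ v ∈ (Fermat.Agent.S24Fund.finite_zeros h hx c1).toFinset,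
      v.ord (j - algebraMap K F j0) = m1 * (Module.finrank K⟮x⟯ F : ℤ) := by
    rw [← hx1, Finset.mul_sum]
    refine Finset.sum_congr rfl fun v hv => ?_
    rw [Set.Finite.mem_toFinset] at hv
    exact h1 v hv
  rw [e1] at hj0
  have : ((Module.finrank K⟮j⟯ F : ℕ) : ℤ) = ((m1 * Module.finrank K⟮x⟯ F : ℕ) : ℤ) := by
    rw [← hj0]
    push_cast
    ring
  exact_mod_cast this

/-- cardinality of a disjoint union of two fibres. -/
theorem ncard_zeros_of_two {t : F} (h : Fermat.Agent.S24Diff.IsFunctionFieldOver K F t)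
    {x j : F} (hx : Transcendental K x) {j0 c1 c2 : K} (hc : c1 ≠ c2)
    (hz : zeros j j0 = zeros x c1 ∪ zeros x c2) :
    (zeros j j0).ncard = (zeros x c1).ncard + (zeros x c2).ncard := by
  rw [hz]
  exact Set.ncard_union_eq (disjoint_zeros hc) (Fermat.Agent.S24Fund.finite_zeros h hx c1)
    (Fermat.Agent.S24Fund.finite_zeros h hx c2)

end generic


section poly

variable {K : Type} [Field K]

theorem isCoprime_T3 (h27 : (27 : K) ≠ 0) (h243 : (243 : K) ≠ 0) :
    IsCoprime ((X + C 27) * (X + C 243) ^ 3 : K[X]) (X ^ 3) :=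
  IsCoprime.mul_left ((Branch.isCoprime_X_add_C_X h27).pow_right)
    (IsCoprime.pow (Branch.isCoprime_X_add_C_X h243))

theorem isCoprime_T2 (h256 : (256 : K) ≠ 0) :
    IsCoprime ((X + C 256) ^ 3 : K[X]) (X ^ 2) :=
  IsCoprime.pow (Branch.isCoprime_X_add_C_X h256)

theorem natDegree_T3_lt : (X ^ 3 : K[X]).natDegree < ((X + C 27) * (X + C 243) ^ 3 : K[X]).natDegree := by
  have h1 : ((X + C 27) * (X + C 243) ^ 3 : K[X]).natDegree = 4 := by
    rw [((Polynomial.monic_X_add_C (27 : K)).natDegree_mul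
      ((Polynomial.monic_X_add_C (243 : K)).pow 3)), (Polynomial.monic_X_add_C (243 : K)).natDegree_pow,
      Polynomial.natDegree_X_add_C, Polynomial.natDegree_X_add_C]
  rw [h1, Polynomial.natDegree_X_pow]
  norm_num

theorem natDegree_T2_lt : (X ^ 2 : K[X]).natDegree < ((X + C 256) ^ 3 : K[X]).natDegree := by
  rw [(Polynomial.monic_X_add_C (256 : K)).natDegree_pow, Polynomial.natDegree_X_add_C,
    Polynomial.natDegree_X_pow]
  norm_num

theorem isRoot_T3 (c : K) :
    ((X + C 27) * (X + C 243) ^ 3 - C 0 * X ^ 3 : K[X]).IsRoot c ↔ c = -27 ∨ c = -243 := by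
  rw [Polynomial.IsRoot.def]
  simp only [eval_sub, eval_mul, eval_pow, eval_add, eval_X, eval_C, zero_mul, sub_zero,
    mul_eq_zero, pow_eq_zero_iff, ne_eq, OfNat.ofNat_ne_zero, not_false_eq_true]
  rw [eq_neg_iff_add_eq_zero, eq_neg_iff_add_eq_zero]

theorem isRoot_T2_zero (c : K) :
    ((X + C 256) ^ 3 - C 0 * X ^ 2 : K[X]).IsRoot c ↔ c = -256 := by
  rw [Polynomial.IsRoot.def]
  simp only [eval_sub, eval_mul, eval_pow, eval_add, eval_X, eval_C, zero_mul, sub_zero,
    pow_eq_zero_iff, ne_eq, OfNat.ofNat_ne_zero, not_false_eq_true]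
  rw [eq_neg_iff_add_eq_zero]

theorem isRoot_T2_1728 (c : K) :
    ((X + C 256) ^ 3 - C 1728 * X ^ 2 : K[X]).IsRoot c ↔ c = -64 ∨ c = 512 := by
  rw [Polynomial.IsRoot.def]
  simp only [eval_sub, eval_mul, eval_pow, eval_add, eval_X, eval_C]
  have e : (c + 256) ^ 3 - 1728 * c ^ 2 = (c + 64) * (c - 512) ^ 2 := by ring
  rw [e, mul_eq_zero, pow_eq_zero_iff (by norm_num), eq_neg_iff_add_eq_zero, sub_eq_zero]

end poly

section rel

variable {K F : Type} [Field K] [Field F] [Algebra K F]

theorem aeval_T3_P (x : F) : Polynomial.aeval x ((X + C 27) * (X + C 243) ^ 3 : K[X]) =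
    (x + 27) * (x + 243) ^ 3 := by
  simp only [map_mul, map_pow, map_add, Polynomial.aeval_X, map_ofNat]

theorem aeval_T3_Q (x : F) : Polynomial.aeval x (X ^ 3 : K[X]) = x ^ 3 := by
  simp only [map_pow, Polynomial.aeval_X]

theorem aeval_T2_P (x : F) : Polynomial.aeval x ((X + C 256) ^ 3 : K[X]) = (x + 256) ^ 3 := by
  simp only [map_pow, map_add, Polynomial.aeval_X, map_ofNat]

theorem aeval_T2_Q (x : F) : Polynomial.aeval x (X ^ 2 : K[X]) = x ^ 2 := by
  simp only [map_pow, Polynomial.aeval_X]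

/-- `x - (-a) = x + a`. -/
theorem sub_algebraMap_neg_ofNat (x : F) (a : ℕ) [a.AtLeastTwo] :
    x - algebraMap K F (-(OfNat.ofNat a)) = x + OfNat.ofNat a := by
  rw [map_neg, map_ofNat, sub_neg_eq_add]

/-- `T3`, the simple root `-27`: `ord j = ord (x + 27)`. -/
theorem ord_T3_a (h216 : (216 : K) ≠ 0) (h27 : (27 : K) ≠ 0) (v : Place K F) {x j : F}
    (hrel : j * x ^ 3 = (x + 27) * (x + 243) ^ 3)
    (hv : 0 < v.ord (x - algebraMap K F (-27))) :
    v.ord j = v.ord (x - algebraMap K F (-27)) := by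
  have hx0 : v.ord x = 0 := ord_eq_zero_of_sub_pos v (neg_ne_zero.mpr h27) hv
  have e1 : x - algebraMap K F (-27) = x + 27 := sub_algebraMap_neg_ofNat x 27
  have h243 : v.ord (x + 243) = 0 := by
    apply ord_eq_zero_of_sub_pos v h216 (f := x + 243)
    have e : x + 243 - algebraMap K F 216 = x - algebraMap K F (-27) := by
      rw [e1, map_ofNat]
      ring
    rw [e]
    exact hv
  have hxne : x ≠ 0 := by
    rintro rfl
    rw [e1, zero_add] at hv
    have := ord_const v (27 : K)
    rw [map_ofNat] at this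
    omega
  have h27ne : x + 27 ≠ 0 := by
    intro h
    rw [e1, h, v.ord_zero] at hv
    exact lt_irrefl _ hv
  have h243ne : x + 243 ≠ 0 := by
    intro h
    have e : x + 27 = -algebraMap K F 216 := by
      have : x + 27 = (x + 243) - 216 := by ring
      rw [this, h, zero_sub, map_ofNat]
    rw [e1, e, ord_neg', ord_const] at hv
    exact lt_irrefl _ hv
  have hjne : j ≠ 0 := by
    rintro rfl
    rw [zero_mul] at hrel
    exact mul_ne_zero h27ne (pow_ne_zero 3 h243ne) hrel.symm
  have h := congrArg v.ord hrel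
  rw [v.ord_mul hjne (pow_ne_zero 3 hxne), v.ord_mul h27ne (pow_ne_zero 3 h243ne), ord_pow',
    ord_pow', hx0, h243, ← e1] at h
  linarith

/-- `T3`, the triple root `-243`: `ord j = 3 ord (x + 243)`. -/
theorem ord_T3_b (h216 : (216 : K) ≠ 0) (h243 : (243 : K) ≠ 0) (v : Place K F) {x j : F}
    (hrel : j * x ^ 3 = (x + 27) * (x + 243) ^ 3)
    (hv : 0 < v.ord (x - algebraMap K F (-243))) :
    v.ord j = 3 * v.ord (x - algebraMap K F (-243)) := by
  have hx0 : v.ord x = 0 := ord_eq_zero_of_sub_pos v (neg_ne_zero.mpr h243) hv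
  have e1 : x - algebraMap K F (-243) = x + 243 := sub_algebraMap_neg_ofNat x 243
  have h27 : v.ord (x + 27) = 0 := by
    apply ord_eq_zero_of_sub_pos v (neg_ne_zero.mpr h216) (f := x + 27)
    have e : x + 27 - algebraMap K F (-216) = x - algebraMap K F (-243) := by
      rw [e1, map_neg, map_ofNat]
      ring
    rw [e]
    exact hv
  have hxne : x ≠ 0 := by
    rintro rfl
    rw [e1, zero_add] at hv
    have := ord_const v (243 : K)
    rw [map_ofNat] at this
    omega
  have h243ne : x + 243 ≠ 0 := by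
    intro h
    rw [e1, h, v.ord_zero] at hv
    exact lt_irrefl _ hv
  have h27ne : x + 27 ≠ 0 := by
    intro h
    have e : x + 243 = algebraMap K F 216 := by
      have : x + 243 = (x + 27) + 216 := by ring
      rw [this, h, zero_add, map_ofNat]
    rw [e1, e, ord_const] at hv
    exact lt_irrefl _ hv
  have hjne : j ≠ 0 := by
    rintro rfl
    rw [zero_mul] at hrel
    exact mul_ne_zero h27ne (pow_ne_zero 3 h243ne) hrel.symm
  have h := congrArg v.ord hrel
  rw [v.ord_mul hjne (pow_ne_zero 3 hxne), v.ord_mul h27ne (pow_ne_zero 3 h243ne), ord_pow',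
    ord_pow', hx0, h27, ← e1] at h
  simp only [Nat.cast_ofNat] at h
  linarith

/-- `T2`, the triple root `-256`: `ord j = 3 ord (x + 256)`. -/
theorem ord_T2 (h256 : (256 : K) ≠ 0) (v : Place K F) {x j : F}
    (hrel : j * x ^ 2 = (x + 256) ^ 3)
    (hv : 0 < v.ord (x - algebraMap K F (-256))) :
    v.ord j = 3 * v.ord (x - algebraMap K F (-256)) := by
  have hx0 : v.ord x = 0 := ord_eq_zero_of_sub_pos v (neg_ne_zero.mpr h256) hv
  have e1 : x - algebraMap K F (-256) = x + 256 := sub_algebraMap_neg_ofNat x 256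
  have hxne : x ≠ 0 := by
    rintro rfl
    rw [e1, zero_add] at hv
    have := ord_const v (256 : K)
    rw [map_ofNat] at this
    omega
  have h256ne : x + 256 ≠ 0 := by
    intro h
    rw [e1, h, v.ord_zero] at hv
    exact lt_irrefl _ hv
  have hjne : j ≠ 0 := by
    rintro rfl
    rw [zero_mul] at hrel
    exact (pow_ne_zero 3 h256ne) hrel.symm
  have h := congrArg v.ord hrel
  rw [v.ord_mul hjne (pow_ne_zero 2 hxne), ord_pow', ord_pow', hx0, ← e1] at h
  simp only [Nat.cast_ofNat] at h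
  linarith

end rel


section char0

open Fermat.Agent.S24

set_option synthInstance.maxHeartbeats 400000
set_option maxHeartbeats 1000000

variable (N : ℕ) [NeZero N]

/-- **`T3`, characteristic `0`**: with `n' = [F_N : ℚ̄(x)]`:  `[SL₂(ℤ) : Γ₀(N)] = 4 n'` and
`#j⁻¹(0) = #x⁻¹(-27) + n'`. -/
theorem count_T3 {x : FBar N} (hT : IsT3 x) :
    (CongruenceSubgroup.Gamma0 N).index = 4 * Module.finrank Kbar⟮x⟯ (FBar N) ∧
    orbCount (CongruenceSubgroup.Gamma0 N) (ModularGroup.S * ModularGroup.T) =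
      Nat.card {v : Place Kbar (FBar N) // 0 < v.ord (x - algebraMap Kbar (FBar N) (-27))} +
        Module.finrank Kbar⟮x⟯ (FBar N) := by
  have hFF := isFunctionFieldOver_jBar N
  have hRR := Fermat.Agent.GenusEq.isRRField_modularFunctionFieldBar N
  have hx := Unram.transcendental_of_isT3 N hT
  have hj := transcendental_jBar N
  have h27 : (27 : Kbar) ≠ 0 := by norm_num
  have h243 : (243 : Kbar) ≠ 0 := by norm_num
  have h216 : (216 : Kbar) ≠ 0 := by norm_num
  have hne : (-27 : Kbar) ≠ -243 := by norm_num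
  have hrel : jBar N * Polynomial.aeval x (X ^ 3 : Kbar[X]) =
      Polynomial.aeval x ((X + C 27) * (X + C 243) ^ 3 : Kbar[X]) := by
    rw [aeval_T3_P, aeval_T3_Q]
    exact hT
  have hz : zeros (jBar N) (0 : Kbar) = zeros x (-27 : Kbar) ∪ zeros x (-243 : Kbar) := by
    ext v
    rw [Set.mem_union, mem_zeros, mem_zeros, mem_zeros,
      ord_sub_pos_iff hRR hx hrel (isCoprime_T3 h27 h243) natDegree_T3_lt
        (pow_ne_zero 3 Polynomial.X_ne_zero) 0 v]
    constructor
    · rintro ⟨c, hc, hv⟩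
      rcases (isRoot_T3 c).mp hc with rfl | rfl
      · exact Or.inl hv
      · exact Or.inr hv
    · rintro (hv | hv)
      · exact ⟨-27, (isRoot_T3 _).mpr (Or.inl rfl), hv⟩
      · exact ⟨-243, (isRoot_T3 _).mpr (Or.inr rfl), hv⟩
  have h1 : ∀ v ∈ zeros x (-27 : Kbar), v.ord (jBar N - algebraMap Kbar (FBar N) 0) =
      ((1 : ℕ) : ℤ) * v.ord (x - algebraMap Kbar (FBar N) (-27)) := by
    intro v hv
    rw [map_zero, sub_zero, Nat.cast_one, one_mul]
    exact ord_T3_a h216 h27 v hT hv
  have h2 : ∀ v ∈ zeros x (-243 : Kbar), v.ord (jBar N - algebraMap Kbar (FBar N) 0) =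
      ((3 : ℕ) : ℤ) * v.ord (x - algebraMap Kbar (FBar N) (-243)) := by
    intro v hv
    rw [map_zero, sub_zero, Nat.cast_ofNat]
    exact ord_T3_b h216 h243 v hT hv
  have hdeg := finrank_eq_of_two hFF hx hj hne hz 1 3 h1 h2
  have hcard := ncard_zeros_of_two hFF hx hne hz
  rw [← card_zeros_eq_ncard, ← card_zeros_eq_ncard, ← card_zeros_eq_ncard,
    Fermat.Agent.GoodRedBranch.card_fibre_jBar_zero N,
    unramT3 N (ordDvd N) x hT (-243) (by norm_num) (by norm_num)] at hcard
  rw [Fermat.Agent.GoodRedBranch.finrank_jBar N] at hdeg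
  exact ⟨hdeg, hcard⟩

/-- **`T2`, characteristic `0`**: with `n' = [F_N : ℚ̄(x)]`:  `[SL₂(ℤ) : Γ₀(N)] = 3 n'` and
`#j⁻¹(1728) = #x⁻¹(-64) + n'`. -/
theorem count_T2 {x : FBar N} (hT : IsT2 x) :
    (CongruenceSubgroup.Gamma0 N).index = 3 * Module.finrank Kbar⟮x⟯ (FBar N) ∧
    orbCount (CongruenceSubgroup.Gamma0 N) ModularGroup.S =
      Nat.card {v : Place Kbar (FBar N) // 0 < v.ord (x - algebraMap Kbar (FBar N) (-64))} +
        Module.finrank Kbar⟮x⟯ (FBar N) := by
  have hFF := isFunctionFieldOver_jBar N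
  have hRR := Fermat.Agent.GenusEq.isRRField_modularFunctionFieldBar N
  have hx := Unram.transcendental_of_isT2 N hT
  have hj := transcendental_jBar N
  have h256 : (256 : Kbar) ≠ 0 := by norm_num
  have hne : (-64 : Kbar) ≠ 512 := by norm_num
  have hrel : jBar N * Polynomial.aeval x (X ^ 2 : Kbar[X]) =
      Polynomial.aeval x ((X + C 256) ^ 3 : Kbar[X]) := by
    rw [aeval_T2_P, aeval_T2_Q]
    exact hT
  have hz0 : zeros (jBar N) (0 : Kbar) = zeros x (-256 : Kbar) := by
    ext v
    rw [mem_zeros, mem_zeros,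
      ord_sub_pos_iff hRR hx hrel (isCoprime_T2 h256) natDegree_T2_lt
        (pow_ne_zero 2 Polynomial.X_ne_zero) 0 v]
    constructor
    · rintro ⟨c, hc, hv⟩
      rcases (isRoot_T2_zero c).mp hc with rfl
      exact hv
    · intro hv
      exact ⟨-256, (isRoot_T2_zero _).mpr rfl, hv⟩
  have hz : zeros (jBar N) (1728 : Kbar) = zeros x (-64 : Kbar) ∪ zeros x (512 : Kbar) := by
    ext v
    rw [Set.mem_union, mem_zeros, mem_zeros, mem_zeros,
      ord_sub_pos_iff hRR hx hrel (isCoprime_T2 h256) natDegree_T2_lt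
        (pow_ne_zero 2 Polynomial.X_ne_zero) 1728 v]
    constructor
    · rintro ⟨c, hc, hv⟩
      rcases (isRoot_T2_1728 c).mp hc with rfl | rfl
      · exact Or.inl hv
      · exact Or.inr hv
    · rintro (hv | hv)
      · exact ⟨-64, (isRoot_T2_1728 _).mpr (Or.inl rfl), hv⟩
      · exact ⟨512, (isRoot_T2_1728 _).mpr (Or.inr rfl), hv⟩
  have h1 : ∀ v ∈ zeros x (-256 : Kbar), v.ord (jBar N - algebraMap Kbar (FBar N) 0) =
      ((3 : ℕ) : ℤ) * v.ord (x - algebraMap Kbar (FBar N) (-256)) := by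
    intro v hv
    rw [map_zero, sub_zero, Nat.cast_ofNat]
    exact ord_T2 h256 v hT hv
  have hdeg := finrank_eq_of_one hFF hx hj hz0 3 h1
  have hcard := ncard_zeros_of_two hFF hx hne hz
  rw [← card_zeros_eq_ncard, ← card_zeros_eq_ncard, ← card_zeros_eq_ncard,
    Fermat.Agent.GoodRedBranch.card_fibre_jBar_1728 N,
    unramT2 N (ordDvd N) x hT 512 (by norm_num) (by norm_num)] at hcard
  rw [Fermat.Agent.GoodRedBranch.finrank_jBar N] at hdeg
  exact ⟨hdeg, hcard⟩

end char0


section charq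

open Fermat.Agent.GoodRed

variable {K k F Fk : Type} [Field K] [Field k] [Field F] [Field Fk] [Algebra K F] [Algebra k Fk]

/-- **characteristic `2`**: the reduced relation is `j̄ x̄³ = (x̄ + 1)⁴`, so the zeros of `j̄` are
the zeros of `x̄ + 27`. -/
theorem ord_xbar_pos_iff_T3 (M : RedModel K k F Fk) (hRR : IsRRField k Fk) (h3 : (3 : k) ≠ 0)
    (h2 : (2 : k) = 0) {x : F} (hT : M.x * x ^ 3 = (x + 27) * (x + 243) ^ 3) (hx : x ∈ M.O)
    (htr : Transcendental k (M.rho ⟨x, hx⟩)) (v : Place k Fk) :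
    0 < v.ord M.xbar ↔ 0 < v.ord (M.rho ⟨x, hx⟩ - algebraMap k Fk (-27)) := by
  have h27 : (27 : k) ≠ 0 := by
    have : (27 : k) = 3 ^ 3 := by norm_num
    rw [this]
    exact pow_ne_zero _ h3
  have h243 : (243 : k) ≠ 0 := by
    have : (243 : k) = 3 ^ 5 := by norm_num
    rw [this]
    exact pow_ne_zero _ h3
  have heq : (-243 : k) = -27 := by
    have : (243 : k) = 27 + 2 * 108 := by norm_num
    rw [this, h2, zero_mul, add_zero]
  have hrel := Swap.rho_rel (Branch.hauptRel_T3 M h3 hT) hx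
  have eP : ((Polynomial.X + Polynomial.C (27 : M.A)) *
      (Polynomial.X + Polynomial.C (243 : M.A)) ^ 3).map M.res =
        ((X + C 27) * (X + C 243) ^ 3 : k[X]) := by
    simp only [Polynomial.map_mul, Polynomial.map_pow, Polynomial.map_add, Polynomial.map_X,
      Polynomial.map_C]
    have e27 : M.res (27 : M.A) = (27 : k) := map_ofNat M.res 27
    have e243 : M.res (243 : M.A) = (243 : k) := map_ofNat M.res 243
    rw [e27, e243]
  have eQ : ((Polynomial.X : Polynomial M.A) ^ 3).map M.res = (X ^ 3 : k[X]) := by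
    simp only [Polynomial.map_pow, Polynomial.map_X]
  rw [eP, eQ] at hrel
  have h := ord_sub_pos_iff hRR htr hrel (isCoprime_T3 h27 h243) natDegree_T3_lt
    (pow_ne_zero 3 Polynomial.X_ne_zero) 0 v
  rw [map_zero, sub_zero] at h
  rw [h]
  constructor
  · rintro ⟨c, hc, hv⟩
    rcases (isRoot_T3 c).mp hc with rfl | rfl
    · exact hv
    · rw [heq] at hv
      exact hv
  · intro hv
    exact ⟨-27, (isRoot_T3 _).mpr (Or.inl rfl), hv⟩

/-- **characteristic `3`**: the reduced relation is `j̄ x̄² = (x̄ + 1)³`, so the zeros of `j̄` are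
the zeros of `x̄ + 64`. -/
theorem ord_xbar_pos_iff_T2 (M : RedModel K k F Fk) (hRR : IsRRField k Fk) (h2 : (2 : k) ≠ 0)
    (h3 : (3 : k) = 0) {x : F} (hT : M.x * x ^ 2 = (x + 256) ^ 3) (hx : x ∈ M.O)
    (htr : Transcendental k (M.rho ⟨x, hx⟩)) (v : Place k Fk) :
    0 < v.ord M.xbar ↔ 0 < v.ord (M.rho ⟨x, hx⟩ - algebraMap k Fk (-64)) := by
  have h256 : (256 : k) ≠ 0 := by
    have : (256 : k) = 2 ^ 8 := by norm_num
    rw [this]
    exact pow_ne_zero _ h2
  have heq : (-256 : k) = -64 := by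
    have : (256 : k) = 64 + 3 * 64 := by norm_num
    rw [this, h3, zero_mul, add_zero]
  have hrel := Swap.rho_rel (Branch.hauptRel_T2 M h2 hT) hx
  have eP : ((Polynomial.X + Polynomial.C (256 : M.A)) ^ 3).map M.res =
        ((X + C 256) ^ 3 : k[X]) := by
    simp only [Polynomial.map_pow, Polynomial.map_add, Polynomial.map_X,
      Polynomial.map_C]
    have e256 : M.res (256 : M.A) = (256 : k) := map_ofNat M.res 256
    rw [e256]
  have eQ : ((Polynomial.X : Polynomial M.A) ^ 2).map M.res = (X ^ 2 : k[X]) := by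
    simp only [Polynomial.map_pow, Polynomial.map_X]
  rw [eP, eQ] at hrel
  have h := ord_sub_pos_iff hRR htr hrel (isCoprime_T2 h256) natDegree_T2_lt
    (pow_ne_zero 2 Polynomial.X_ne_zero) 0 v
  rw [map_zero, sub_zero] at h
  rw [h]
  constructor
  · rintro ⟨c, hc, hv⟩
    rcases (isRoot_T2_zero c).mp hc with rfl
    rw [heq] at hv
    exact hv
  · intro hv
    refine ⟨-256, (isRoot_T2_zero _).mpr rfl, ?_⟩
    rw [heq]
    exact hv

/-- the residue of `-c₀`. -/
theorem res_neg_natCast (M : RedModel K k F Fk) (c₀ : ℕ) (h : -(c₀ : K) ∈ M.A) :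
    M.res ⟨-(c₀ : K), h⟩ = -(c₀ : k) := by
  have : (⟨-(c₀ : K), h⟩ : M.A) = -((c₀ : ℕ) : M.A) := by
    apply Subtype.ext
    simp
  rw [this, map_neg, map_natCast]

/-- **(FIB=) at a branch value, in terms of places**: for a model with degree data and branch
data, at a branch value `c` the fibres of `x̄` over `c̄` and of `x` over `c` have the same number
of places. -/
theorem card_zeros_red_eq [IsAlgClosed K] [CharZero K] [IsAlgClosed k]
    (M : RedModel K k F Fk) (n : ℕ) (hdeg : DegData M n) (BD : BranchData M n)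
    (c : K) (hc : c ∈ BD.S) (hcA : c ∈ M.A) :
    Nat.card {v : Place k Fk // 0 < v.ord (M.xbar - algebraMap k Fk (M.res ⟨c, hcA⟩))} =
      Nat.card {v : Place K F // 0 < v.ord (M.x - algebraMap K F c)} := by
  haveI : FiniteDimensional K⟮M.x⟯ F :=
    Module.finite_of_finrank_pos (by rw [hdeg.deg]; exact hdeg.pos)
  haveI : FiniteDimensional k⟮M.xbar⟯ Fk :=
    Module.finite_of_finrank_pos (by rw [hdeg.degk]; exact hdeg.pos)
  haveI : Algebra.IsSeparable k⟮M.xbar⟯ Fk := hdeg.sepk
  have h := fibreEq_of_branchData M n hdeg BD.toA c hcA (Or.inl hc)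
  rw [fibreCard_eq_card_zeros M.x_transcendental c] at h
  have htr : Transcendental k M.xbar := M.x_trans
  rw [fibreCard_eq_card_zeros htr] at h
  exact h

end charq


section final

open Fermat.Agent.S24 Fermat.Agent.GoodRed ModularCurve

set_option synthInstance.maxHeartbeats 400000
set_option maxHeartbeats 1000000

variable {A : ValuationSubring Kbar}

/-- the residue field of `A | q` has `q = 0`. -/
theorem natCast_residue_eq_zero {q : ℕ} (hq : q.Prime) (hA : A.LiesOverPrime q) :
    ((q : ℕ) : IsLocalRing.ResidueField A) = 0 := by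
  haveI : Fact q.Prime := ⟨hq⟩
  haveI := Fermat.Agent.FrobTrace.charP_residueField A hA
  exact CharP.cast_eq_zero _ q

/-- **the number of supersingular points in characteristic `2`** (level divisible by `3`):
`12 s = ψ(N) + 8 ν₃(N)`. -/
theorem twelve_card_ss_two (N : ℕ) [NeZero N] (h3N : 3 ∣ N) (h2N : ¬ 2 ∣ N)
    (hA : A.LiesOverPrime 2) :
    12 * Nat.card {v : Place (IsLocalRing.ResidueField A)
        ↥(modularFunctionFieldFullC (IsLocalRing.ResidueField A) N) //
          0 < v.ord (Fermat.Agent.RRMod.jC (IsLocalRing.ResidueField A) N)} =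
      dedekindPsi N + 8 * nuThree N := by
  haveI : IsAlgClosed (IsLocalRing.ResidueField A) :=
    Fermat.Agent.FrobTrace.isAlgClosed_residueField A
  have hℓ : Nat.Prime 2 := Nat.prime_two
  have hR := rangeAt N hℓ hA h2N
  have hdeg := Fermat.Agent.IgusaDeg.degData_modular N hℓ hA hR h2N
  have hcop : Nat.Coprime 3 2 := by norm_num
  have h3 : (3 : IsLocalRing.ResidueField A) ≠ 0 := by
    have := Final23.natCast_residue_ne_zero hA hcop
    exact_mod_cast this
  have h2 : (2 : IsLocalRing.ResidueField A) = 0 := by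
    have := natCast_residue_eq_zero hℓ hA
    exact_mod_cast this
  obtain ⟨x, hxT⟩ := existsT3At N h3N existsT3
  obtain ⟨hx, htr, n', hdeg', BD, hS⟩ :=
    branchT3 N (unramT3 N (ordDvd N)) _ _ (modularRedModel N hℓ hA hR) _ rfl hdeg h3 x hxT
  have hmem : -((27 : ℕ) : Kbar) ∈ BD.S := (hS _).mpr (Or.inr (by norm_num))
  have hcA := BD.S_mem _ hmem
  have hfe := card_zeros_red_eq (swapX (modularRedModel N hℓ hA hR) x hx htr) n' hdeg' BD
    _ hmem hcA
  rw [res_neg_natCast (swapX (modularRedModel N hℓ hA hR) x hx htr) 27 hcA] at hfe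
  have hRRk := Fermat.Agent.RRMod.isRRField_fullC' (IsLocalRing.ResidueField A) N
  have hT' : (modularRedModel N hℓ hA hR).x * x ^ 3 = (x + 27) * (x + 243) ^ 3 := hxT
  have hiff := ord_xbar_pos_iff_T3 (modularRedModel N hℓ hA hR) hRRk h3 h2 hT' hx htr
  rw [Fermat.Agent.IgusaDeg.modularRedModel_xbar] at hiff
  have hcard : Nat.card {v : Place (IsLocalRing.ResidueField A)
        ↥(modularFunctionFieldFullC (IsLocalRing.ResidueField A) N) //
          0 < v.ord (Fermat.Agent.RRMod.jC (IsLocalRing.ResidueField A) N)} =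
      Nat.card {v : Place Kbar (FBar N) // 0 < v.ord (x - algebraMap Kbar (FBar N) (-27))} := by
    have e1 : (-((27 : ℕ) : Kbar)) = (-27 : Kbar) := by norm_num
    have e2 : (-((27 : ℕ) : IsLocalRing.ResidueField A)) = -27 := by norm_num
    rw [e1, e2] at hfe
    refine Eq.trans (Nat.card_congr (Equiv.subtypeEquivRight fun v => ?_)) hfe
    exact hiff v
  obtain ⟨hc1, hc2⟩ := count_T3 N hxT
  have h4 := three_mul_orbCount_ST N
  have h5 := index_Gamma0 N
  rw [hcard]
  omega

/-- **the number of supersingular points in characteristic `3`** (even level):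
`12 s = 2 ψ(N) + 6 ν₂(N)`. -/
theorem twelve_card_ss_three (N : ℕ) [NeZero N] (h2N : 2 ∣ N) (h3N : ¬ 3 ∣ N)
    (hA : A.LiesOverPrime 3) :
    12 * Nat.card {v : Place (IsLocalRing.ResidueField A)
        ↥(modularFunctionFieldFullC (IsLocalRing.ResidueField A) N) //
          0 < v.ord (Fermat.Agent.RRMod.jC (IsLocalRing.ResidueField A) N)} =
      2 * dedekindPsi N + 6 * nuTwo N := by
  haveI : IsAlgClosed (IsLocalRing.ResidueField A) :=
    Fermat.Agent.FrobTrace.isAlgClosed_residueField A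
  have hℓ : Nat.Prime 3 := Nat.prime_three
  have hR := rangeAt N hℓ hA h3N
  have hdeg := Fermat.Agent.IgusaDeg.degData_modular N hℓ hA hR h3N
  have hcop : Nat.Coprime 2 3 := by norm_num
  have h2 : (2 : IsLocalRing.ResidueField A) ≠ 0 := by
    have := Final23.natCast_residue_ne_zero hA hcop
    exact_mod_cast this
  have h3 : (3 : IsLocalRing.ResidueField A) = 0 := by
    have := natCast_residue_eq_zero hℓ hA
    exact_mod_cast this
  obtain ⟨x, hxT⟩ := existsT2At N h2N existsT2
  obtain ⟨hx, htr, n', hdeg', BD, hS⟩ :=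
    branchT2 N (unramT2 N (ordDvd N)) _ _ (modularRedModel N hℓ hA hR) _ rfl hdeg h2 x hxT
  have hmem : -((64 : ℕ) : Kbar) ∈ BD.S := (hS _).mpr (Or.inr (by norm_num))
  have hcA := BD.S_mem _ hmem
  have hfe := card_zeros_red_eq (swapX (modularRedModel N hℓ hA hR) x hx htr) n' hdeg' BD
    _ hmem hcA
  rw [res_neg_natCast (swapX (modularRedModel N hℓ hA hR) x hx htr) 64 hcA] at hfe
  have hRRk := Fermat.Agent.RRMod.isRRField_fullC' (IsLocalRing.ResidueField A) N
  have hT' : (modularRedModel N hℓ hA hR).x * x ^ 2 = (x + 256) ^ 3 := hxT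
  have hiff := ord_xbar_pos_iff_T2 (modularRedModel N hℓ hA hR) hRRk h2 h3 hT' hx htr
  rw [Fermat.Agent.IgusaDeg.modularRedModel_xbar] at hiff
  have hcard : Nat.card {v : Place (IsLocalRing.ResidueField A)
        ↥(modularFunctionFieldFullC (IsLocalRing.ResidueField A) N) //
          0 < v.ord (Fermat.Agent.RRMod.jC (IsLocalRing.ResidueField A) N)} =
      Nat.card {v : Place Kbar (FBar N) // 0 < v.ord (x - algebraMap Kbar (FBar N) (-64))} := by
    have e1 : (-((64 : ℕ) : Kbar)) = (-64 : Kbar) := by norm_num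
    have e2 : (-((64 : ℕ) : IsLocalRing.ResidueField A)) = -64 := by norm_num
    rw [e1, e2] at hfe
    refine Eq.trans (Nat.card_congr (Equiv.subtypeEquivRight fun v => ?_)) hfe
    exact hiff v
  obtain ⟨hc1, hc2⟩ := count_T2 N hxT
  have h4 := two_mul_orbCount_S N
  have h5 := index_Gamma0 N
  rw [hcard]
  omega

/-- Deuring's inequality for the modular curve: `g(F_{N,k}) ≤ g(F_N)`, `ℓ ∤ N`. -/
theorem genusFF_residue_le (N : ℕ) [NeZero N] {ℓ : ℕ} (hℓ : ℓ.Prime) (hA : A.LiesOverPrime ℓ)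
    (hℓN : ¬ ℓ ∣ N) :
    genusFF (IsLocalRing.ResidueField A)
        ↥(modularFunctionFieldFullC (IsLocalRing.ResidueField A) N) ≤
      genusFF Kbar (FBar N) := by
  haveI := Fermat.Agent.GaussInt.infinite_residue A
  exact Fermat.Agent.Deuring.genusFF_le (Fermat.Agent.GaussInt.modularValSetup A ℓ N hℓ hA hℓN)
    (Fermat.Agent.GaussInt.hasLattice_modularValSetup A ℓ N hℓ hA hℓN)

/-- **good reduction at `2`** (level divisible by `3`): `g(F_N) = g(F_{N,k})`. -/
theorem genusFF_eq_two (N : ℕ) [NeZero N] (h3N : 3 ∣ N) (h2N : ¬ 2 ∣ N)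
    (hA : A.LiesOverPrime 2) :
    genusFF Kbar (FBar N) =
      genusFF (IsLocalRing.ResidueField A)
        ↥(modularFunctionFieldFullC (IsLocalRing.ResidueField A) N) :=
  le_antisymm (genusFF_le_of_three_dvd' N h3N Nat.prime_two (by norm_num) hA h2N)
    (genusFF_residue_le N Nat.prime_two hA h2N)

/-- **good reduction at `3`** (even level): `g(F_N) = g(F_{N,k})`. -/
theorem genusFF_eq_three (N : ℕ) [NeZero N] (h2N : 2 ∣ N) (h3N : ¬ 3 ∣ N)
    (hA : A.LiesOverPrime 3) :
    genusFF Kbar (FBar N) =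
      genusFF (IsLocalRing.ResidueField A)
        ↥(modularFunctionFieldFullC (IsLocalRing.ResidueField A) N) :=
  le_antisymm (genusFF_le_of_even' N h2N Nat.prime_three (by norm_num) hA h3N)
    (genusFF_residue_le N Nat.prime_three hA h3N)

/-- **(G) at `q = 2`**: `g(X₀(2 N₀)) + 1 = 2 g(X₀(N₀)) + s`, `s` the number of zeros of `j̄` on
`X₀(N₀)` mod `2` (`3 ∣ N₀`, `2 ∤ N₀`). -/
theorem ss_count_two (N₀ : ℕ) [NeZero N₀] (h3 : 3 ∣ N₀) (h2 : ¬ 2 ∣ N₀)
    (hA : A.LiesOverPrime 2) :
    genusFF Kbar (FBar (2 * N₀)) + 1 =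
      2 * genusFF Kbar (FBar N₀) +
        Nat.card {v : Place (IsLocalRing.ResidueField A)
          ↥(modularFunctionFieldFullC (IsLocalRing.ResidueField A) N₀) //
            0 < v.ord (Fermat.Agent.RRMod.jC (IsLocalRing.ResidueField A) N₀)} := by
  haveI : NeZero (2 * N₀) := ⟨Nat.mul_ne_zero two_ne_zero (NeZero.ne N₀)⟩
  have hs := twelve_card_ss_two N₀ h3 h2 hA
  have hA₀ := Fermat.Agent.BadRed.ssArith_two (NeZero.ne N₀) h2 h3
  have hg₀ := Fermat.Agent.GenusEq.genusFF_modularFunctionFieldBar N₀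
  have hg := Fermat.Agent.GenusEq.genusFF_modularFunctionFieldBar (2 * N₀)
  rw [← hg, ← hg₀] at hA₀
  have hs' : ((12 * Nat.card {v : Place (IsLocalRing.ResidueField A)
          ↥(modularFunctionFieldFullC (IsLocalRing.ResidueField A) N₀) //
            0 < v.ord (Fermat.Agent.RRMod.jC (IsLocalRing.ResidueField A) N₀)} : ℕ) : ℚ) =
      ((dedekindPsi N₀ + 8 * nuThree N₀ : ℕ) : ℚ) := by rw [hs]
  push_cast at hs'
  have key : ((12 * (genusFF Kbar (FBar (2 * N₀)) + 1) : ℕ) : ℚ) =
      ((12 * (2 * genusFF Kbar (FBar N₀) +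
        Nat.card {v : Place (IsLocalRing.ResidueField A)
          ↥(modularFunctionFieldFullC (IsLocalRing.ResidueField A) N₀) //
            0 < v.ord (Fermat.Agent.RRMod.jC (IsLocalRing.ResidueField A) N₀)}) : ℕ) : ℚ) := by
    push_cast
    linarith
  have key' := Nat.cast_injective (R := ℚ) key
  omega

/-- **(G) at `q = 3`**: `g(X₀(3 N₀)) + 1 = 2 g(X₀(N₀)) + s`, `s` the number of zeros of `j̄` on
`X₀(N₀)` mod `3` (`2 ∣ N₀`, `3 ∤ N₀`). -/
theorem ss_count_three (N₀ : ℕ) [NeZero N₀] (h2 : 2 ∣ N₀) (h3 : ¬ 3 ∣ N₀)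
    (hA : A.LiesOverPrime 3) :
    genusFF Kbar (FBar (3 * N₀)) + 1 =
      2 * genusFF Kbar (FBar N₀) +
        Nat.card {v : Place (IsLocalRing.ResidueField A)
          ↥(modularFunctionFieldFullC (IsLocalRing.ResidueField A) N₀) //
            0 < v.ord (Fermat.Agent.RRMod.jC (IsLocalRing.ResidueField A) N₀)} := by
  haveI : NeZero (3 * N₀) := ⟨Nat.mul_ne_zero three_ne_zero (NeZero.ne N₀)⟩
  have hs := twelve_card_ss_three N₀ h2 h3 hA
  have hA₀ := Fermat.Agent.BadRed.ssArith_three (NeZero.ne N₀) h3 h2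
  have hg₀ := Fermat.Agent.GenusEq.genusFF_modularFunctionFieldBar N₀
  have hg := Fermat.Agent.GenusEq.genusFF_modularFunctionFieldBar (3 * N₀)
  rw [← hg, ← hg₀] at hA₀
  have hs' : ((12 * Nat.card {v : Place (IsLocalRing.ResidueField A)
          ↥(modularFunctionFieldFullC (IsLocalRing.ResidueField A) N₀) //
            0 < v.ord (Fermat.Agent.RRMod.jC (IsLocalRing.ResidueField A) N₀)} : ℕ) : ℚ) =
      ((2 * dedekindPsi N₀ + 6 * nuTwo N₀ : ℕ) : ℚ) := by rw [hs]
  push_cast at hs'
  have key : ((12 * (genusFF Kbar (FBar (3 * N₀)) + 1) : ℕ) : ℚ) =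
      ((12 * (2 * genusFF Kbar (FBar N₀) +
        Nat.card {v : Place (IsLocalRing.ResidueField A)
          ↥(modularFunctionFieldFullC (IsLocalRing.ResidueField A) N₀) //
            0 < v.ord (Fermat.Agent.RRMod.jC (IsLocalRing.ResidueField A) N₀)}) : ℕ) : ℚ) := by
    push_cast
    linarith
  have key' := Nat.cast_injective (R := ℚ) key
  omega

end final


section ssfun

open ModularCurve

/-- `E₄ ≡ 1` modulo `240`. -/
theorem eisenstein4_map_eq_one (k : Type*) [CommRing k] (h240 : (240 : k) = 0) :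
    eisenstein4.map (Int.castRingHom k) = 1 := by
  ext n
  rw [PowerSeries.coeff_map, PowerSeries.coeff_one]
  unfold eisenstein4
  rw [PowerSeries.coeff_mk]
  split_ifs with h
  · simp
  · rw [map_mul, map_ofNat, h240, zero_mul]

/-- `j ≡ Δ⁻¹` modulo `240`. -/
theorem jNum_map_eq (k : Type*) [CommRing k] (h240 : (240 : k) = 0) :
    jNum.map (Int.castRingHom k) = dedekindEtaUnitInv.map (Int.castRingHom k) := by
  unfold jNum
  rw [map_mul, map_pow, eisenstein4_map_eq_one k h240, one_pow, one_mul]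

/-- in characteristic `2`: `ssFun = Δ̄⁻¹ = j̄`. -/
theorem ssFun_two (k : Type*) [CommRing k] (h2 : (2 : k) = 0) : ssFun k 2 = jqModC k := by
  have h240 : (240 : k) = 0 := by
    have : (240 : k) = 2 * 120 := by norm_num
    rw [this, h2, zero_mul]
  unfold ssFun jqModC
  rw [jNum_map_eq k h240]
  norm_num

/-- in characteristic `3`: `ssFun = Δ̄⁻² = j̄²`. -/
theorem ssFun_three (k : Type*) [CommRing k] (h3 : (3 : k) = 0) : ssFun k 3 = jqModC k ^ 2 := by
  have h240 : (240 : k) = 0 := by
    have : (240 : k) = 3 * 80 := by norm_num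
    rw [this, h3, zero_mul]
  have e1 : (HahnSeries.single (-(((3 : ℕ) : ℤ) - 1)) (1 : k) : LaurentSeries k) =
      (HahnSeries.single (-1 : ℤ) (1 : k)) ^ 2 := by
    rw [pow_two, HahnSeries.single_mul_single]
    norm_num
  have e2 : (dedekindEtaUnitInv ^ (3 - 1)).map (Int.castRingHom k) =
      (dedekindEtaUnitInv.map (Int.castRingHom k)) ^ 2 := by
    rw [map_pow]
  unfold ssFun jqModC
  rw [jNum_map_eq k h240, mul_pow, e1, e2, map_pow]

end ssfun

section shape

open Fermat.Agent.S24 Fermat.Agent.GoodRed ModularCurve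

set_option synthInstance.maxHeartbeats 400000
set_option maxHeartbeats 1000000

local notation "Qb" => AlgebraicClosure ℚ

variable {A : ValuationSubring Qb}

/-- `ssFun k 2` lies in `F_k(N₀)`. -/
theorem ssFun_two_mem_fullC (hA : A.LiesOverPrime 2) (N₀ : ℕ) [NeZero N₀] :
    ssFun (IsLocalRing.ResidueField A) 2 ∈
      modularFunctionFieldFullC (IsLocalRing.ResidueField A) N₀ := by
  have h2 : (2 : IsLocalRing.ResidueField A) = 0 := by
    have := natCast_residue_eq_zero Nat.prime_two hA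
    exact_mod_cast this
  rw [ssFun_two _ h2]
  exact (Fermat.Agent.RRMod.jC (IsLocalRing.ResidueField A) N₀).2

/-- `ssFun k 3` lies in `F_k(N₀)`. -/
theorem ssFun_three_mem_fullC (hA : A.LiesOverPrime 3) (N₀ : ℕ) [NeZero N₀] :
    ssFun (IsLocalRing.ResidueField A) 3 ∈
      modularFunctionFieldFullC (IsLocalRing.ResidueField A) N₀ := by
  have h3 : (3 : IsLocalRing.ResidueField A) = 0 := by
    have := natCast_residue_eq_zero Nat.prime_three hA
    exact_mod_cast this
  rw [ssFun_three _ h3]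
  exact pow_mem (Fermat.Agent.RRMod.jC (IsLocalRing.ResidueField A) N₀).2 2

/-- **(G) at `q = 2`, in the form of `ssCount_ge`** (`q ≥ 5`, helper98): for `3 ∣ N₀`, `2 ∤ N₀`,
`N = 2 N₀`, and `h ∈ F_k(N₀)` with `q`-expansion `ssFun k 2`:
`g(X₀(N)) + 1 = 2 g(X₀(N₀) mod 2) + #{zeros of h}`. -/
theorem ssCount_two (N₀ N : ℕ) [NeZero N₀] [NeZero N] (h3 : 3 ∣ N₀) (h2 : ¬ 2 ∣ N₀)
    (hN : N = 2 * N₀) (hA : A.LiesOverPrime 2)
    (h : modularFunctionFieldFullC (IsLocalRing.ResidueField A) N₀)
    (hh : (h : LaurentSeries (IsLocalRing.ResidueField A)) =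
      ssFun (IsLocalRing.ResidueField A) 2) :
    genusFF Qb ↥(modularFunctionFieldBar N) + 1 =
      genusFF (IsLocalRing.ResidueField A)
          ↥(modularFunctionFieldFullC (IsLocalRing.ResidueField A) N₀) +
        genusFF (IsLocalRing.ResidueField A)
          ↥(modularFunctionFieldFullC (IsLocalRing.ResidueField A) N₀) +
        Nat.card {v : Place (IsLocalRing.ResidueField A)
          ↥(modularFunctionFieldFullC (IsLocalRing.ResidueField A) N₀) // 0 < v.ord h} := by
  subst hN
  have hk2 : (2 : IsLocalRing.ResidueField A) = 0 := by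
    have := natCast_residue_eq_zero Nat.prime_two hA
    exact_mod_cast this
  have hj : h = Fermat.Agent.RRMod.jC (IsLocalRing.ResidueField A) N₀ := by
    apply Subtype.ext
    rw [hh, ssFun_two _ hk2]
    rfl
  have h1 := ss_count_two N₀ h3 h2 hA
  have h2' := genusFF_eq_two N₀ h3 h2 hA
  rw [hj, ← h2']
  have e : genusFF Qb ↥(modularFunctionFieldBar (2 * N₀)) + 1 =
      genusFF Kbar (FBar (2 * N₀)) + 1 := rfl
  rw [e, h1]
  ring

/-- **(G) at `q = 3`, in the form of `ssCount_ge`**: for `2 ∣ N₀`, `3 ∤ N₀`, `N = 3 N₀`, and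
`h ∈ F_k(N₀)` with `q`-expansion `ssFun k 3`:
`g(X₀(N)) + 1 = 2 g(X₀(N₀) mod 3) + #{zeros of h}`. -/
theorem ssCount_three (N₀ N : ℕ) [NeZero N₀] [NeZero N] (h2 : 2 ∣ N₀) (h3 : ¬ 3 ∣ N₀)
    (hN : N = 3 * N₀) (hA : A.LiesOverPrime 3)
    (h : modularFunctionFieldFullC (IsLocalRing.ResidueField A) N₀)
    (hh : (h : LaurentSeries (IsLocalRing.ResidueField A)) =
      ssFun (IsLocalRing.ResidueField A) 3) :
    genusFF Qb ↥(modularFunctionFieldBar N) + 1 =
      genusFF (IsLocalRing.ResidueField A)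
          ↥(modularFunctionFieldFullC (IsLocalRing.ResidueField A) N₀) +
        genusFF (IsLocalRing.ResidueField A)
          ↥(modularFunctionFieldFullC (IsLocalRing.ResidueField A) N₀) +
        Nat.card {v : Place (IsLocalRing.ResidueField A)
          ↥(modularFunctionFieldFullC (IsLocalRing.ResidueField A) N₀) // 0 < v.ord h} := by
  subst hN
  have hk3 : (3 : IsLocalRing.ResidueField A) = 0 := by
    have := natCast_residue_eq_zero Nat.prime_three hA
    exact_mod_cast this
  have hj : h = Fermat.Agent.RRMod.jC (IsLocalRing.ResidueField A) N₀ ^ 2 := by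
    apply Subtype.ext
    rw [hh, ssFun_three _ hk3]
    rfl
  have hcard : Nat.card {v : Place (IsLocalRing.ResidueField A)
          ↥(modularFunctionFieldFullC (IsLocalRing.ResidueField A) N₀) // 0 < v.ord h} =
      Nat.card {v : Place (IsLocalRing.ResidueField A)
          ↥(modularFunctionFieldFullC (IsLocalRing.ResidueField A) N₀) //
            0 < v.ord (Fermat.Agent.RRMod.jC (IsLocalRing.ResidueField A) N₀)} := by
    refine Nat.card_congr (Equiv.subtypeEquivRight fun v => ?_)
    rw [hj, ord_pow']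
    constructor
    · intro hv
      have : (0 : ℤ) < 2 * v.ord (Fermat.Agent.RRMod.jC (IsLocalRing.ResidueField A) N₀) := by
        exact_mod_cast hv
      omega
    · intro hv
      have : (0 : ℤ) < 2 * v.ord (Fermat.Agent.RRMod.jC (IsLocalRing.ResidueField A) N₀) := by
        omega
      exact_mod_cast this
  have h1 := ss_count_three N₀ h2 h3 hA
  have h2' := genusFF_eq_three N₀ h2 h3 hA
  rw [hcard, ← h2']
  have e : genusFF Qb ↥(modularFunctionFieldBar (3 * N₀)) + 1 =
      genusFF Kbar (FBar (3 * N₀)) + 1 := rfl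
  rw [e, h1]
  ring

/-- `ssCount_two` with `Fintype.card` (the form of `NodalSeed.genus_le`). -/
theorem ssCount_two_fintype (N₀ N : ℕ) [NeZero N₀] [NeZero N] (h3 : 3 ∣ N₀) (h2 : ¬ 2 ∣ N₀)
    (hN : N = 2 * N₀) (hA : A.LiesOverPrime 2)
    (h : modularFunctionFieldFullC (IsLocalRing.ResidueField A) N₀)
    (hh : (h : LaurentSeries (IsLocalRing.ResidueField A)) =
      ssFun (IsLocalRing.ResidueField A) 2)
    [Fintype {v : Place (IsLocalRing.ResidueField A)
          ↥(modularFunctionFieldFullC (IsLocalRing.ResidueField A) N₀) // 0 < v.ord h}] :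
    genusFF Qb ↥(modularFunctionFieldBar N) + 1 ≤
      genusFF (IsLocalRing.ResidueField A)
          ↥(modularFunctionFieldFullC (IsLocalRing.ResidueField A) N₀) +
        genusFF (IsLocalRing.ResidueField A)
          ↥(modularFunctionFieldFullC (IsLocalRing.ResidueField A) N₀) +
        Fintype.card {v : Place (IsLocalRing.ResidueField A)
          ↥(modularFunctionFieldFullC (IsLocalRing.ResidueField A) N₀) // 0 < v.ord h} := by
  rw [← Nat.card_eq_fintype_card]
  exact (ssCount_two N₀ N h3 h2 hN hA h hh).le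

/-- `ssCount_three` with `Fintype.card` (the form of `NodalSeed.genus_le`). -/
theorem ssCount_three_fintype (N₀ N : ℕ) [NeZero N₀] [NeZero N] (h2 : 2 ∣ N₀) (h3 : ¬ 3 ∣ N₀)
    (hN : N = 3 * N₀) (hA : A.LiesOverPrime 3)
    (h : modularFunctionFieldFullC (IsLocalRing.ResidueField A) N₀)
    (hh : (h : LaurentSeries (IsLocalRing.ResidueField A)) =
      ssFun (IsLocalRing.ResidueField A) 3)
    [Fintype {v : Place (IsLocalRing.ResidueField A)
          ↥(modularFunctionFieldFullC (IsLocalRing.ResidueField A) N₀) // 0 < v.ord h}] :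
    genusFF Qb ↥(modularFunctionFieldBar N) + 1 ≤
      genusFF (IsLocalRing.ResidueField A)
          ↥(modularFunctionFieldFullC (IsLocalRing.ResidueField A) N₀) +
        genusFF (IsLocalRing.ResidueField A)
          ↥(modularFunctionFieldFullC (IsLocalRing.ResidueField A) N₀) +
        Fintype.card {v : Place (IsLocalRing.ResidueField A)
          ↥(modularFunctionFieldFullC (IsLocalRing.ResidueField A) N₀) // 0 < v.ord h} := by
  rw [← Nat.card_eq_fintype_card]
  exact (ssCount_three N₀ N h2 h3 hN hA h hh).le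

end shape

end Fermat.Agent.BadRed.SS23
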