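import Mathlib
import Fermat.Agent.Lib.RR.Hurwitz.Count

set_option autoImplicit false

/-!
# Cluster T, modular assembly MA4 (helper16): poles and zeros of `u` from its modular equation

PURE ALGEBRA.  `F / K` a function field (`IsRRField K F`), `j u : F`, `q ≥ 2`, and a polynomial
relation of the shape of the modular equation of `u = Δ(z)/Δ(qz)` over `K(j)` (the conclusion of
MA3, with the SHARP degree bounds `deg c_i ≤ i - 1`):

  `u^(q+1) + c_q(j) u^q + ∑_{0 < i < q} c_i(j) u^i + c_0 = 0`,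
  `c_0 ∈ K^×`, `deg c_q = q - 1`, `deg c_i ≤ i - 1` for `0 < i < q`.

Results (`namespace Fermat.Agent.BadRed`):
* `UCuspEq`                              : the hypothesis (a `Prop` on `q j u`);
* `UCuspEq.ord_eq_zero_of_nonneg`        : `0 ≤ ord_v j → ord_v u = 0`;
* `UCuspEq.ord_of_pole`                  : `ord_v j < 0 →`
      `ord_v u = (q-1) ord_v j  ∨  q * ord_v u = -(q-1) ord_v j`   (Newton polygon);
* `UCuspEq.ord_j_neg_iff`                : (a)  `ord_v j < 0 ↔ ord_v u ≠ 0`;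
* `UCuspEq.degree_poleDiv`               : (b)  `(q+1) deg (u)_∞ = (q-1) deg (j)_∞`;
* `UCuspEq.finrank_eq`                   : `(q+1) [F : K(u)] = (q-1) [F : K(j)]`.
-/

noncomputable section

open AlgebraicCurve IntermediateField Polynomial

namespace Fermat.Agent.BadRed

open Fermat.Agent.RR Fermat.Agent.RRHur

variable {K F : Type*} [Field K] [Field F] [Algebra K F]

/-! ### the dominant term principle -/

/-- In a vanishing finite sum no nonzero term has strictly smallest order. -/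
theorem ucd_exists_ord_le (v : Place K F) {ι : Type*} (s : Finset ι) (t : ι → F)
    (hsum : ∑ i ∈ s, t i = 0) {i0 : ι} (hi0 : i0 ∈ s) (h0 : t i0 ≠ 0) :
    ∃ i1 ∈ s, i1 ≠ i0 ∧ t i1 ≠ 0 ∧ v.ord (t i1) ≤ v.ord (t i0) := by
  classical
  by_contra hcon
  push Not at hcon
  have hsplit : t i0 = -∑ i ∈ s.erase i0, t i := by
    rw [← Finset.add_sum_erase s t hi0] at hsum
    exact eq_neg_of_add_eq_zero_left hsum
  have hlt : v.adicValuation (∑ i ∈ s.erase i0, t i) < v.adicValuation (t i0) := by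
    apply Valuation.map_sum_lt _ (v.adicValuation_ne_zero h0)
    intro i hi
    rw [Finset.mem_erase] at hi
    rcases eq_or_ne (t i) 0 with h | h
    · rw [h, map_zero]
      exact zero_lt_iff.mpr (v.adicValuation_ne_zero h0)
    · rw [v.adicValuation_eq_exp_neg_ord h, v.adicValuation_eq_exp_neg_ord h0,
        WithZero.exp_lt_exp]
      have := hcon i hi.2 hi.1 h
      omega
  rw [hsplit, Valuation.map_neg] at hlt
  exact lt_irrefl _ hlt

/-- a nonzero polynomial in `j` does not vanish at a pole of `j`. -/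
theorem ucd_aeval_ne_zero_of_pole (v : Place K F) {j : F} (hj : v.ord j < 0) {p : K[X]}
    (hp : p ≠ 0) : aeval j p ≠ 0 := by
  have hj0 : j ≠ 0 := by
    rintro rfl
    simp at hj
  have h1 := adicValuation_aeval_eq v ((one_lt_adicValuation_iff v).mpr hj) hp
  intro h0
  rw [h0, map_zero] at h1
  exact pow_ne_zero _ (v.adicValuation_ne_zero hj0) h1.symm

/-- order of a polynomial in `j` at a pole of `j`. -/
theorem ucd_ord_aeval_of_pole (v : Place K F) {j : F} (hj : v.ord j < 0) {p : K[X]}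
    (hp : p ≠ 0) : v.ord (aeval j p) = (p.natDegree : ℤ) * v.ord j := by
  have hj0 : j ≠ 0 := by
    rintro rfl
    simp at hj
  have hp0 := ucd_aeval_ne_zero_of_pole v hj hp
  have h1 := adicValuation_aeval_eq v ((one_lt_adicValuation_iff v).mpr hj) hp
  rw [v.adicValuation_eq_exp_neg_ord hp0, v.adicValuation_eq_exp_neg_ord hj0,
    ← WithZero.exp_nsmul, WithZero.exp_inj] at h1
  simp only [nsmul_eq_mul] at h1
  linarith

/-- a polynomial in `j` has no pole where `j` has none. -/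
theorem ucd_ord_aeval_nonneg (v : Place K F) {j : F} (hj : 0 ≤ v.ord j) (p : K[X]) :
    0 ≤ v.ord (aeval j p) :=
  (adicValuation_le_one_iff' v).mp
    (adicValuation_aeval_le_one v ((adicValuation_le_one_iff' v).mpr hj) p)

/-! ### integer arithmetic of the Newton polygon -/

theorem ucdA_neg1 {q i1 D : ℕ} {J x : ℤ} (hq : 2 ≤ q) (hJ : J < 0) (hx : x < 0) (hi : i1 < q)
    (hD : D ≤ q - 2) (h : (D : ℤ) * J + (i1 : ℤ) * x ≤ ((q : ℤ) - 1) * J + (q : ℤ) * x) : False := by
  have h1 : ((q : ℤ) - 2 - D) * J ≤ 0 := by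
    apply mul_nonpos_of_nonneg_of_nonpos _ hJ.le
    have : (D : ℤ) ≤ (q : ℤ) - 2 := by omega
    linarith
  have h2 : ((q : ℤ) - 1 - i1) * x ≤ 0 := by
    apply mul_nonpos_of_nonneg_of_nonpos _ hx.le
    have : (i1 : ℤ) ≤ (q : ℤ) - 1 := by omega
    linarith
  nlinarith

theorem ucdA_neg2 {q i1 D : ℕ} {J x : ℤ} (hq : 2 ≤ q) (hJ : J < 0) (hx : x ≤ ((q : ℤ) - 1) * J)
    (hi : i1 < q) (hD : D ≤ q - 2)
    (h : (D : ℤ) * J + (i1 : ℤ) * x ≤ ((q : ℤ) + 1) * x) : False := by
  have hx0 : x < 0 := by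
    have : ((q : ℤ) - 1) * J < 0 := mul_neg_of_pos_of_neg (by omega) hJ
    linarith
  have h1 : ((q : ℤ) - 2 - D) * J ≤ 0 := by
    apply mul_nonpos_of_nonneg_of_nonpos _ hJ.le
    have : (D : ℤ) ≤ (q : ℤ) - 2 := by omega
    linarith
  have h2 : ((q : ℤ) - 1 - i1) * x ≤ 0 := by
    apply mul_nonpos_of_nonneg_of_nonpos _ hx0.le
    have : (i1 : ℤ) ≤ (q : ℤ) - 1 := by omega
    linarith
  have h3 : (q : ℤ) * J < 0 := mul_neg_of_pos_of_neg (by omega) hJ
  nlinarith

theorem ucdA_pos_mid {q i1 i2 D1 D2 : ℕ} {J x : ℤ} (hJ : J < 0)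
    (hi1 : 0 < i1) (hD1 : D1 ≤ i1 - 1)
    (h1 : (D1 : ℤ) * J + (i1 : ℤ) * x ≤ 0)
    (hi2 : 0 < i2) (hi2q : i2 < q) (hD2 : D2 ≤ i2 - 1)
    (h2 : (D2 : ℤ) * J + (i2 : ℤ) * x ≤ ((q : ℤ) - 1) * J + (q : ℤ) * x) : False := by
  -- from h1: i1 x ≤ (i1 - 1) (-J), so x < -J
  have a1 : ((i1 : ℤ) - 1 - D1) * J ≤ 0 := by
    apply mul_nonpos_of_nonneg_of_nonpos _ hJ.le
    have : (D1 : ℤ) ≤ (i1 : ℤ) - 1 := by omega
    linarith
  have a2 : (i1 : ℤ) * (x + J) < 0 := by nlinarith
  have a3 : x + J < 0 := by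
    by_contra hcon
    have : 0 ≤ (i1 : ℤ) * (x + J) := mul_nonneg (by omega) (by linarith)
    linarith
  -- from h2: (q - i2) (-J) ≤ (q - i2) x
  have b1 : ((i2 : ℤ) - 1 - D2) * J ≤ 0 := by
    apply mul_nonpos_of_nonneg_of_nonpos _ hJ.le
    have : (D2 : ℤ) ≤ (i2 : ℤ) - 1 := by omega
    linarith
  have b2 : 0 ≤ ((q : ℤ) - i2) * (x + J) := by nlinarith
  have b3 : ((q : ℤ) - i2) * (x + J) < 0 := mul_neg_of_pos_of_neg (by omega) a3
  linarith

theorem ucdA_pos_fin {q i1 D1 : ℕ} {J x : ℤ} (hq : 2 ≤ q) (hJ : J < 0)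
    (hi1 : 0 < i1) (hi1q : i1 ≤ q) (hD1 : D1 ≤ i1 - 1)
    (h1 : (D1 : ℤ) * J + (i1 : ℤ) * x ≤ 0)
    (h2 : 0 ≤ ((q : ℤ) - 1) * J + (q : ℤ) * x) : (q : ℤ) * x = -(((q : ℤ) - 1) * J) := by
  have a1 : ((i1 : ℤ) - 1 - D1) * J ≤ 0 := by
    apply mul_nonpos_of_nonneg_of_nonpos _ hJ.le
    have : (D1 : ℤ) ≤ (i1 : ℤ) - 1 := by omega
    linarith
  -- i1 x ≤ -(i1 - 1) J
  have a2 : (i1 : ℤ) * x ≤ -(((i1 : ℤ) - 1) * J) := by nlinarith
  rcases Nat.lt_or_ge i1 q with hlt | hge
  · exfalso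
    -- q * (i1 x) ≤ -q (i1 - 1) J ;  i1 * (q x) ≥ -i1 (q-1) J
    have c1 : (q : ℤ) * ((i1 : ℤ) * x) ≤ (q : ℤ) * (-(((i1 : ℤ) - 1) * J)) :=
      mul_le_mul_of_nonneg_left a2 (by omega)
    have c2 : (i1 : ℤ) * (-(((q : ℤ) - 1) * J)) ≤ (i1 : ℤ) * ((q : ℤ) * x) :=
      mul_le_mul_of_nonneg_left (by linarith) (by omega)
    have c3 : ((q : ℤ) - i1) * J < 0 := mul_neg_of_pos_of_neg (by omega) hJ
    nlinarith
  · have : i1 = q := le_antisymm hi1q hge
    subst this
    linarith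

/-! ### the local analysis -/

theorem ucd_ord_term (v : Place K F) {a u : F} (ha : a ≠ 0) (hu : u ≠ 0) (i : ℕ) :
    v.ord (a * u ^ i) = v.ord a + (i : ℤ) * v.ord u := by
  rw [v.ord_mul ha (pow_ne_zero i hu), ← zpow_natCast, v.ord_zpow]

/-- the equation with the leading term put into the sum. -/
theorem ucd_sum_update {q : ℕ} {j u : F} (c : ℕ → K[X])
    (hroot : u ^ (q + 1) + ∑ i ∈ Finset.range (q + 1), aeval j (c i) * u ^ i = 0) :
    ∑ i ∈ Finset.range (q + 2), aeval j (Function.update c (q + 1) 1 i) * u ^ i = 0 := by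
  rw [Finset.sum_range_succ, Function.update_self, map_one, one_mul, add_comm, ← hroot]
  congr 1
  refine Finset.sum_congr rfl fun i hi => ?_
  rw [Finset.mem_range] at hi
  rw [Function.update_of_ne (by omega)]

/-- the degrees of the coefficients. -/
theorem ucd_profile {q : ℕ} (hq : 2 ≤ q) (c : ℕ → K[X]) {c0 : K} (h0 : c 0 = C c0)
    (htop : c (q + 1) = 1) (hcq : (c q).natDegree = q - 1)
    (hci : ∀ i, 0 < i → i < q → (c i).natDegree ≤ i - 1) {i : ℕ} (hi : i ∈ Finset.range (q + 2)) :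
    (i = q + 1 ∧ (c i).natDegree = 0) ∨ (i = q ∧ (c i).natDegree = q - 1) ∨
      (i < q ∧ (c i).natDegree ≤ q - 2 ∧ (0 < i → (c i).natDegree ≤ i - 1) ∧
        (i = 0 → (c i).natDegree = 0)) := by
  rw [Finset.mem_range] at hi
  rcases Nat.lt_or_ge i q with h1 | h1
  · right; right
    rcases Nat.eq_zero_or_pos i with rfl | hpos
    · have : (c 0).natDegree = 0 := by rw [h0, natDegree_C]
      exact ⟨h1, by omega, fun h => absurd h (lt_irrefl _), fun _ => this⟩
    · have := hci i hpos h1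
      exact ⟨h1, by omega, fun _ => this, fun h => by omega⟩
  · rcases Nat.eq_or_lt_of_le h1 with h2 | h2
    · right; left
      exact ⟨h2.symm, h2 ▸ hcq⟩
    · left
      have : i = q + 1 := by omega
      exact ⟨this, by rw [this, htop, natDegree_one]⟩

/-- **Newton polygon**, in the form with the leading coefficient in the family. -/
theorem ucd_local (v : Place K F) {q : ℕ} (hq : 2 ≤ q) {j u : F} (c : ℕ → K[X]) {c0 : K}
    (hc0 : c0 ≠ 0) (h0 : c 0 = C c0) (htop : c (q + 1) = 1) (hcq : (c q).natDegree = q - 1)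
    (hci : ∀ i, 0 < i → i < q → (c i).natDegree ≤ i - 1)
    (hsum : ∑ i ∈ Finset.range (q + 2), aeval j (c i) * u ^ i = 0) :
    (0 ≤ v.ord j → v.ord u = 0) ∧
      (v.ord j < 0 → (v.ord u = ((q : ℤ) - 1) * v.ord j ∧ v.ord u < 0) ∨
        ((q : ℤ) * v.ord u = -(((q : ℤ) - 1) * v.ord j) ∧ 0 < v.ord u)) := by
  classical
  -- `u ≠ 0`
  have hu : u ≠ 0 := by
    rintro rfl
    rw [Finset.sum_eq_single_of_mem 0 (Finset.mem_range.mpr (by omega))
      (fun i _ hi => by rw [zero_pow hi, mul_zero]), pow_zero, mul_one, h0, aeval_C] at hsum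
    exact hc0 ((map_eq_zero _).mp hsum)
  have hmem : ∀ i, i ≤ q + 1 → i ∈ Finset.range (q + 2) := fun i hi =>
    Finset.mem_range.mpr (by omega)
  -- the three distinguished terms
  have ht0 : aeval j (c 0) * u ^ 0 = algebraMap K F c0 := by rw [pow_zero, mul_one, h0, aeval_C]
  have ht0ne : aeval j (c 0) * u ^ 0 ≠ 0 := by
    rw [ht0]
    exact (_root_.map_ne_zero _).mpr hc0
  have ht0ord : v.ord (aeval j (c 0) * u ^ 0) = 0 := by
    rw [ht0]
    exact Fermat.Agent.S24Res.ord_algebraMap v c0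
  have htt : aeval j (c (q + 1)) * u ^ (q + 1) = u ^ (q + 1) := by rw [htop, map_one, one_mul]
  have httne : aeval j (c (q + 1)) * u ^ (q + 1) ≠ 0 := by
    rw [htt]
    exact pow_ne_zero _ hu
  have httord : v.ord (aeval j (c (q + 1)) * u ^ (q + 1)) = ((q : ℤ) + 1) * v.ord u := by
    rw [htt, ← zpow_natCast, v.ord_zpow]
    push_cast
    ring
  -- a nonzero term has a nonzero coefficient
  have hcoef : ∀ i, aeval j (c i) * u ^ i ≠ 0 → aeval j (c i) ≠ 0 ∧ c i ≠ 0 := by
    intro i hi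
    have h1 : aeval j (c i) ≠ 0 := left_ne_zero_of_mul hi
    refine ⟨h1, ?_⟩
    rintro h2
    rw [h2, map_zero] at h1
    exact h1 rfl
  constructor
  · -- no pole of `j`
    intro hj
    by_contra hx
    rcases lt_or_gt_of_ne hx with hneg | hpos
    · obtain ⟨i1, hi1, hne, h1ne, hle⟩ :=
        ucd_exists_ord_le v _ _ hsum (hmem (q + 1) le_rfl) httne
      rw [httord, ucd_ord_term v (hcoef i1 h1ne).1 hu] at hle
      have ha := ucd_ord_aeval_nonneg v hj (c i1)
      rw [Finset.mem_range] at hi1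
      have hi1q : (i1 : ℤ) ≤ q := by omega
      have : 0 ≤ ((q : ℤ) - i1) * (-v.ord u) := mul_nonneg (by linarith) (by linarith)
      nlinarith
    · obtain ⟨i1, hi1, hne, h1ne, hle⟩ :=
        ucd_exists_ord_le v _ _ hsum (hmem 0 (by omega)) ht0ne
      rw [ht0ord, ucd_ord_term v (hcoef i1 h1ne).1 hu] at hle
      have ha := ucd_ord_aeval_nonneg v hj (c i1)
      have hi1pos : (1 : ℤ) ≤ i1 := by
        have : 0 < i1 := Nat.pos_of_ne_zero hne
        omega
      have : 0 ≤ ((i1 : ℤ) - 1) * v.ord u := mul_nonneg (by linarith) hpos.le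
      nlinarith
  · -- a pole of `j`
    intro hj
    -- the order of a nonzero term
    have hord : ∀ i, aeval j (c i) * u ^ i ≠ 0 →
        v.ord (aeval j (c i) * u ^ i) = ((c i).natDegree : ℤ) * v.ord j + (i : ℤ) * v.ord u := by
      intro i hi
      rw [ucd_ord_term v (hcoef i hi).1 hu, ucd_ord_aeval_of_pole v hj (hcoef i hi).2]
    have hcqne : c q ≠ 0 := by
      intro h
      rw [h, natDegree_zero] at hcq
      omega
    have htqne : aeval j (c q) * u ^ q ≠ 0 :=
      mul_ne_zero (ucd_aeval_ne_zero_of_pole v hj hcqne) (pow_ne_zero _ hu)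
    have htqord : v.ord (aeval j (c q) * u ^ q) = ((q : ℤ) - 1) * v.ord j + (q : ℤ) * v.ord u := by
      rw [hord q htqne, hcq]
      have : ((q - 1 : ℕ) : ℤ) = (q : ℤ) - 1 := by omega
      rw [this]
    set J : ℤ := v.ord j with hJ
    set x : ℤ := v.ord u with hxdef
    rcases lt_trichotomy x 0 with hx | hx | hx
    · -- `x < 0`
      left
      refine ⟨?_, hx⟩
      -- step 1
      have hle1 : x ≤ ((q : ℤ) - 1) * J := by
        obtain ⟨i1, hi1, hne, h1ne, hle⟩ :=
          ucd_exists_ord_le v _ _ hsum (hmem q (by omega)) htqne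
        rw [htqord, hord i1 h1ne] at hle
        rcases ucd_profile hq c h0 htop hcq hci hi1 with ⟨rfl, hD⟩ | ⟨hq', -⟩ | ⟨hlt, hD, -, -⟩
        · rw [hD] at hle
          push_cast at hle
          linarith
        · exact absurd hq' hne
        · exact (ucdA_neg1 hq hj hx hlt hD hle).elim
      -- step 2
      obtain ⟨i1, hi1, hne, h1ne, hle⟩ :=
        ucd_exists_ord_le v _ _ hsum (hmem (q + 1) le_rfl) httne
      rw [httord, hord i1 h1ne] at hle
      rcases ucd_profile hq c h0 htop hcq hci hi1 with ⟨hq', -⟩ | ⟨hq', hD⟩ | ⟨hlt, hD, -, -⟩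
      · exact absurd hq' hne
      · rw [hD, hq'] at hle
        have : ((q - 1 : ℕ) : ℤ) = (q : ℤ) - 1 := by omega
        rw [this] at hle
        linarith
      · exact (ucdA_neg2 hq hj hle1 hlt hD hle).elim
    · -- `x = 0`
      exfalso
      obtain ⟨i1, hi1, hne, h1ne, hle⟩ :=
        ucd_exists_ord_le v _ _ hsum (hmem q (by omega)) htqne
      rw [htqord, hord i1 h1ne, hx] at hle
      have hqJ : ((q : ℤ) - 1) * J < 0 := mul_neg_of_pos_of_neg (by omega) hj
      rcases ucd_profile hq c h0 htop hcq hci hi1 with ⟨rfl, hD⟩ | ⟨hq', -⟩ | ⟨hlt, hD, -, -⟩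
      · rw [hD] at hle
        push_cast at hle
        linarith
      · exact absurd hq' hne
      · have h1 : ((q : ℤ) - 2 - (c i1).natDegree) * J ≤ 0 := by
          apply mul_nonpos_of_nonneg_of_nonpos _ hj.le
          have : ((c i1).natDegree : ℤ) ≤ (q : ℤ) - 2 := by omega
          linarith
        nlinarith
    · -- `0 < x`
      right
      refine ⟨?_, hx⟩
      -- step 1: the constant term
      obtain ⟨i1, hi1, hne1, h1ne, hle1⟩ :=
        ucd_exists_ord_le v _ _ hsum (hmem 0 (by omega)) ht0ne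
      rw [ht0ord, hord i1 h1ne] at hle1
      have hi1pos : 0 < i1 := Nat.pos_of_ne_zero hne1
      have hprof1 : i1 ≤ q ∧ (c i1).natDegree ≤ i1 - 1 := by
        rcases ucd_profile hq c h0 htop hcq hci hi1 with ⟨rfl, hD⟩ | ⟨hq', hD⟩ | ⟨hlt, -, hD, -⟩
        · exfalso
          rw [hD] at hle1
          push_cast at hle1
          nlinarith
        · exact ⟨hq'.le, by rw [hD, hq']⟩
        · exact ⟨hlt.le, hD hi1pos⟩
      -- step 2: the term `i = q`
      obtain ⟨i2, hi2, hne2, h2ne, hle2⟩ :=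
        ucd_exists_ord_le v _ _ hsum (hmem q (by omega)) htqne
      rw [htqord, hord i2 h2ne] at hle2
      have h2 : 0 ≤ ((q : ℤ) - 1) * J + (q : ℤ) * x := by
        rcases ucd_profile hq c h0 htop hcq hci hi2 with ⟨rfl, hD⟩ | ⟨hq', -⟩ | ⟨hlt, -, hD, hD0⟩
        · exfalso
          rw [hD] at hle2
          push_cast at hle2
          have : ((q : ℤ) - 1) * J < 0 := mul_neg_of_pos_of_neg (by omega) hj
          nlinarith
        · exact absurd hq' hne2
        · rcases Nat.eq_zero_or_pos i2 with rfl | hpos2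
          · rw [hD0 rfl] at hle2
            push_cast at hle2
            linarith
          · exact (ucdA_pos_mid hj hi1pos hprof1.2 hle1 hpos2 hlt (hD hpos2) hle2).elim
      exact ucdA_pos_fin hq hj hi1pos hprof1.1 hprof1.2 hle1 h2

/-! ### the hypothesis -/

/-- The shape of the modular equation of `u` over `K(j)`, with the sharp degree bounds:
`u^(q+1) + ∑_{i ≤ q} c_i(j) u^i = 0`, `c_0 ∈ K^×`, `deg c_q = q - 1`, `deg c_i ≤ i - 1`
for `0 < i < q`. -/
structure UCuspEq (K : Type*) {F : Type*} [Field K] [Field F] [Algebra K F] (q : ℕ) (j u : F) :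
    Prop where
  two_le : 2 ≤ q
  exists_coeff : ∃ c : ℕ → K[X], (∃ c0 : K, c0 ≠ 0 ∧ c 0 = C c0) ∧ (c q).natDegree = q - 1 ∧
    (∀ i, 0 < i → i < q → (c i).natDegree ≤ i - 1) ∧
    u ^ (q + 1) + ∑ i ∈ Finset.range (q + 1), aeval j (c i) * u ^ i = 0

/-- the hypothesis from a polynomial `Φ ∈ K[J][T]` (the shape of MA3). -/
theorem UCuspEq.of_poly {q : ℕ} (hq : 2 ≤ q) {j u : F} (Φ : (K[X])[X]) (hm : Φ.Monic)
    (hdeg : Φ.natDegree = q + 1) (hc0 : ∃ c0 : K, c0 ≠ 0 ∧ Φ.coeff 0 = C c0)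
    (hcq : (Φ.coeff q).natDegree = q - 1)
    (hci : ∀ i, 0 < i → i < q → (Φ.coeff i).natDegree ≤ i - 1)
    (hroot : (Φ.map (aeval j : K[X] →ₐ[K] F).toRingHom).eval u = 0) : UCuspEq K q j u := by
  refine ⟨hq, Φ.coeff, hc0, hcq, hci, ?_⟩
  have hnd : (Φ.map (aeval j : K[X] →ₐ[K] F).toRingHom).natDegree = q + 1 := by
    rw [hm.natDegree_map, hdeg]
  rw [eval_eq_sum_range, hnd, Finset.sum_range_succ] at hroot
  rw [add_comm]
  have htop : (Φ.map (aeval j : K[X] →ₐ[K] F).toRingHom).coeff (q + 1) = 1 := by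
    rw [coeff_map, ← hdeg, hm.coeff_natDegree, map_one]
  rw [htop, one_mul] at hroot
  rw [← hroot]
  congr 1
  refine Finset.sum_congr rfl fun i _ => ?_
  rw [coeff_map]
  rfl

/-- the hypothesis from a family `a_0, …, a_{q+1}` with `a_{q+1} = 1`. -/
theorem UCuspEq.of_family {q : ℕ} (hq : 2 ≤ q) {j u : F} (a : ℕ → K[X]) (htop : a (q + 1) = 1)
    (hc0 : ∃ c0 : K, c0 ≠ 0 ∧ a 0 = C c0) (hcq : (a q).natDegree = q - 1)
    (hci : ∀ i, 0 < i → i < q → (a i).natDegree ≤ i - 1)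
    (hsum : ∑ i ∈ Finset.range (q + 2), aeval j (a i) * u ^ i = 0) : UCuspEq K q j u := by
  refine ⟨hq, a, hc0, hcq, hci, ?_⟩
  rw [Finset.sum_range_succ, htop, map_one, one_mul] at hsum
  rw [add_comm]
  exact hsum

namespace UCuspEq

variable {q : ℕ} {j u : F}

/-- the Newton polygon of the modular equation at a place. -/
theorem local_ord (h : UCuspEq K q j u) (v : Place K F) :
    (0 ≤ v.ord j → v.ord u = 0) ∧
      (v.ord j < 0 → (v.ord u = ((q : ℤ) - 1) * v.ord j ∧ v.ord u < 0) ∨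
        ((q : ℤ) * v.ord u = -(((q : ℤ) - 1) * v.ord j) ∧ 0 < v.ord u)) := by
  obtain ⟨c, ⟨c0, hc0, h0⟩, hcq, hci, hroot⟩ := h.exists_coeff
  have hq := h.two_le
  have hne0 : (0 : ℕ) ≠ q + 1 := by omega
  have hneq : q ≠ q + 1 := by omega
  refine ucd_local v hq (Function.update c (q + 1) 1) hc0 ?_ ?_ ?_ ?_ (ucd_sum_update c hroot)
  · rw [Function.update_of_ne hne0, h0]
  · rw [Function.update_self]
  · rw [Function.update_of_ne hneq, hcq]
  · intro i hi hiq
    rw [Function.update_of_ne (by omega)]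
    exact hci i hi hiq

theorem ne_zero (h : UCuspEq K q j u) : u ≠ 0 := by
  obtain ⟨c, ⟨c0, hc0, h0⟩, -, -, hroot⟩ := h.exists_coeff
  rintro rfl
  rw [zero_pow (by omega), zero_add, Finset.sum_eq_single_of_mem 0 (Finset.mem_range.mpr (by omega))
    (fun i _ hi => by rw [zero_pow hi, mul_zero]), pow_zero, mul_one, h0, aeval_C] at hroot
  exact hc0 ((map_eq_zero _).mp hroot)

/-- `u` is a unit at every place where `j` has no pole. -/
theorem ord_eq_zero_of_nonneg (h : UCuspEq K q j u) (v : Place K F) (hj : 0 ≤ v.ord j) :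
    v.ord u = 0 :=
  (h.local_ord v).1 hj

/-- at a pole of `j` of order `e`: `ord u = -(q-1) e` (a pole) or `q * ord u = (q-1) e`
(a zero). -/
theorem ord_of_pole (h : UCuspEq K q j u) (v : Place K F) (hj : v.ord j < 0) :
    (v.ord u = ((q : ℤ) - 1) * v.ord j ∧ v.ord u < 0) ∨
      ((q : ℤ) * v.ord u = -(((q : ℤ) - 1) * v.ord j) ∧ 0 < v.ord u) :=
  (h.local_ord v).2 hj

/-- **(a)** the zeros and poles of `u` are exactly the poles of `j`. -/
theorem ord_j_neg_iff (h : UCuspEq K q j u) (v : Place K F) : v.ord j < 0 ↔ v.ord u ≠ 0 := by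
  constructor
  · intro hj
    rcases h.ord_of_pole v hj with ⟨-, h1⟩ | ⟨-, h1⟩
    · exact h1.ne
    · exact h1.ne'
  · intro hu
    by_contra hj
    exact hu (h.ord_eq_zero_of_nonneg v (not_lt.mp hj))

/-- the poles of `u` are poles of `j`, of order `(q-1)` times the order of `j`. -/
theorem ord_eq_of_neg (h : UCuspEq K q j u) (v : Place K F) (hu : v.ord u < 0) :
    v.ord j < 0 ∧ v.ord u = ((q : ℤ) - 1) * v.ord j := by
  have hj : v.ord j < 0 := (h.ord_j_neg_iff v).mpr hu.ne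
  refine ⟨hj, ?_⟩
  rcases h.ord_of_pole v hj with ⟨h1, -⟩ | ⟨-, h1⟩
  · exact h1
  · exact absurd h1 (not_lt.mpr hu.le)

/-- the zeros of `u` are poles of `j`, with `q * ord u = (q-1) * (- ord j)`. -/
theorem ord_eq_of_pos (h : UCuspEq K q j u) (v : Place K F) (hu : 0 < v.ord u) :
    v.ord j < 0 ∧ (q : ℤ) * v.ord u = -(((q : ℤ) - 1) * v.ord j) := by
  have hj : v.ord j < 0 := (h.ord_j_neg_iff v).mpr hu.ne'
  refine ⟨hj, ?_⟩
  rcases h.ord_of_pole v hj with ⟨-, h1⟩ | ⟨h1, -⟩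
  · exact absurd h1 (not_lt.mpr hu.le)
  · exact h1

/-- the pointwise identity behind (b). -/
theorem pointwise (h : UCuspEq K q j u) (v : Place K F) :
    ((q : ℤ) + 1) * max (-(v.ord u)) 0 - ((q : ℤ) - 1) * max (-(v.ord j)) 0
      + (q : ℤ) * v.ord u = 0 := by
  rcases lt_or_ge (v.ord j) 0 with hj | hj
  · rw [max_eq_left (by omega : (0 : ℤ) ≤ -(v.ord j))]
    rcases h.ord_of_pole v hj with ⟨h1, h2⟩ | ⟨h1, h2⟩
    · rw [max_eq_left (by omega : (0 : ℤ) ≤ -(v.ord u)), h1]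
      ring
    · rw [max_eq_right (by omega : -(v.ord u) ≤ 0)]
      linarith
  · rw [h.ord_eq_zero_of_nonneg v hj, max_eq_right (by omega : -(v.ord j) ≤ 0)]
    simp

/-- **(b)** `(q+1) deg (u)_∞ = (q-1) deg (j)_∞`. -/
theorem degree_poleDiv (h : UCuspEq K q j u) (hF : IsRRField K F) :
    ((q : ℤ) + 1) * Divisor.degree (poleDiv hF u) =
      ((q : ℤ) - 1) * Divisor.degree (poleDiv hF j) := by
  have hE : ((q : ℤ) + 1) • poleDiv hF u - ((q : ℤ) - 1) • poleDiv hF j
      + (q : ℤ) • divOf hF u = 0 := by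
    ext v
    rw [Finsupp.add_apply, Finsupp.sub_apply, Finsupp.smul_apply, Finsupp.smul_apply,
      Finsupp.smul_apply, poleDiv_apply, poleDiv_apply, divOf_apply, smul_eq_mul, smul_eq_mul,
      smul_eq_mul, Finsupp.zero_apply]
    exact h.pointwise v
  have hdeg := congrArg Divisor.degree hE
  rw [map_add, map_sub, map_zsmul, map_zsmul, map_zsmul, degree_divOf, map_zero, smul_zero,
    add_zero, smul_eq_mul, smul_eq_mul] at hdeg
  linarith

/-- `u` is transcendental as soon as `j` has a pole. -/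
theorem transcendental_of_pole [IsAlgClosed K] (h : UCuspEq K q j u) {v : Place K F}
    (hj : v.ord j < 0) : Transcendental K u :=
  Fermat.Agent.S24Res.transcendental_of_ord_ne_zero v ((h.ord_j_neg_iff v).mp hj)

/-- `u` is transcendental (for `j` transcendental). -/
theorem transcendental [IsAlgClosed K] (h : UCuspEq K q j u) (hF : IsRRField K F)
    (hj : Transcendental K j) [FiniteDimensional K⟮j⟯ F] : Transcendental K u := by
  have hdeg := degree_poleDiv_eq_finrank hF hj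
  have hpos : 0 < Divisor.degree (poleDiv hF j) := by
    rw [hdeg]
    exact_mod_cast Module.finrank_pos
  have hne : poleDiv hF j ≠ 0 := by
    intro h0
    rw [h0, map_zero] at hpos
    exact lt_irrefl _ hpos
  obtain ⟨v, hv⟩ := Finsupp.support_nonempty_iff.mpr hne
  exact h.transcendental_of_pole ((support_poleDiv hF j v).mp hv)

theorem finiteDimensional [IsAlgClosed K] (h : UCuspEq K q j u) (hF : IsRRField K F)
    (hj : Transcendental K j) [FiniteDimensional K⟮j⟯ F] : FiniteDimensional K⟮u⟯ F :=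
  Fermat.Agent.S24Res.finiteDimensional_adjoin_simple ⟨hj, inferInstance⟩ (h.transcendental hF hj)

/-- `(q+1) [F : K(u)] = (q-1) [F : K(j)]`. -/
theorem finrank_eq [IsAlgClosed K] (h : UCuspEq K q j u) (hF : IsRRField K F)
    (hj : Transcendental K j) [FiniteDimensional K⟮j⟯ F] :
    (q + 1) * Module.finrank K⟮u⟯ F = (q - 1) * Module.finrank K⟮j⟯ F := by
  have := h.finiteDimensional hF hj
  have h1 := h.degree_poleDiv hF
  rw [degree_poleDiv_eq_finrank hF hj, degree_poleDiv_eq_finrank hF (h.transcendental hF hj)] at h1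
  have hq := h.two_le
  have h2 : ((q - 1 : ℕ) : ℤ) = (q : ℤ) - 1 := by omega
  have h3 : (((q + 1) * Module.finrank K⟮u⟯ F : ℕ) : ℤ) =
      (((q - 1) * Module.finrank K⟮j⟯ F : ℕ) : ℤ) := by
    push_cast
    rw [h2]
    exact h1
  exact_mod_cast h3

/-- if `[F : K(j)] = (q+1) m` then `[F : K(u)] = (q-1) m`. -/
theorem finrank_eq_of_finrank [IsAlgClosed K] (h : UCuspEq K q j u) (hF : IsRRField K F)
    (hj : Transcendental K j) [FiniteDimensional K⟮j⟯ F] {m : ℕ}
    (hm : Module.finrank K⟮j⟯ F = (q + 1) * m) : Module.finrank K⟮u⟯ F = (q - 1) * m := by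
  have h1 := h.finrank_eq hF hj
  rw [hm] at h1
  have h2 : (q + 1) * Module.finrank K⟮u⟯ F = (q + 1) * ((q - 1) * m) := by
    rw [h1]
    ring
  exact Nat.eq_of_mul_eq_mul_left (by omega) h2

end UCuspEq

end Fermat.Agent.BadRed
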