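/-
Cluster T (bad reduction at `q ∥ N`), MA3 (helper84): the modular equation of
`u = Δ(τ) / Δ(qτ)` over `ℂ[j]` — the INTERFACE proposition between the analytic part
(`UModEqAn.lean`: level one cusp forms) and the algebraic part (`UModEq.lean`: `q`-expansions,
descent to `ℚ`, exact degree).

Definitions only.
-/
import Mathlib
import Fermat.Agent.Lib.BadRed.Mod.UParamFun

set_option autoImplicit false

noncomputable section

namespace Fermat.Agent.BadRed

open UpperHalfPlane Polynomial Fermat.Agent.S24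

/-- **the analytic modular equation of `u = Δ(τ) / Δ(qτ)`**: there are polynomials
`a_0, …, a_{q+1} ∈ ℂ[X]` with `a_{q+1} = 1`, `a_0` a nonzero constant, `deg a_i ≤ i - 1` for
`0 < i ≤ q`, and `∑ a_i (j(τ)) u(τ) ^ i = 0` on the upper half plane. -/
def UModEqC (q : ℕ) [NeZero q] : Prop :=
  ∃ a : ℕ → Polynomial ℂ, a (q + 1) = 1 ∧ (∃ c0 : ℂ, c0 ≠ 0 ∧ a 0 = C c0) ∧
    (∀ i, 0 < i → i ≤ q → (a i).natDegree ≤ i - 1) ∧
    ∀ τ : ℍ, ∑ i ∈ Finset.range (q + 2), (a i).eval (jFun τ) * (uFn q τ) ^ i = 0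

/-- **the modular equation of `u` over `ℚ[j]`, in terms of `q`-expansions** (the conclusion of
MA3 before base change to `ℚ̄`): `Φ ∈ ℚ[J][U]` monic of degree `q + 1` in `U`, constant term a
nonzero constant, `deg_J (Φ.coeff i) ≤ i - 1` for `0 < i ≤ q` with equality for `i = q`, and
`Φ (j, u) = 0` in `ℚ((t))`. -/
def UModEqQ (q : ℕ) [NeZero q] : Prop :=
  ∃ Φ : Polynomial (Polynomial ℚ), Φ.Monic ∧ Φ.natDegree = q + 1 ∧
    (∃ c0 : ℚ, c0 ≠ 0 ∧ Φ.coeff 0 = C c0) ∧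
    (∀ i, 0 < i → i ≤ q → (Φ.coeff i).natDegree ≤ i - 1) ∧
    (Φ.coeff q).natDegree = q - 1 ∧
    Polynomial.eval₂ (Polynomial.eval₂RingHom (algebraMap ℚ (LaurentSeries ℚ))
      (ModularCurve.jqModC ℚ)) (uSer ℚ q) Φ = 0

end Fermat.Agent.BadRed
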