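/-
Cluster T (bad reduction at `q ∥ N`), MA3, algebraic part 1 (helper84):
from the analytic modular equation `UModEqC q` of `u = Δ(τ) / Δ(qτ)` (pointwise on `ℍ`,
coefficients in `ℂ[j]`) to a relation between the `q`-expansions with RATIONAL coefficients.

* `hasQ_uFn`: the `q`-expansion of `u` in S28's framework `HasQ`;
* `exists_retraction_ne_zero`: a `ℚ`-linear retraction `ℂ → ℚ` not vanishing at a given `c ≠ 0`;
* `exists_rat_family_of_uModEqC`: rational polynomials `b_0, …, b_{q+1}`, `b_{q+1} = 1`,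
  `b_0 = c ≠ 0`, `deg b_i ≤ i - 1`, with `∑ b_i (j) u ^ i = 0` in `ℚ((t))`.
-/
import Mathlib
import Fermat.Agent.Lib.BadRed.Mod.UModEqDef
import Fermat.Agent.S28.Retract
import Fermat.Agent.S28.QExp

set_option autoImplicit false
set_option linter.unusedVariables false
set_option linter.style.haveILetI false

noncomputable section

namespace Fermat.Agent.BadRed

open UpperHalfPlane Polynomial Fermat.Agent.S24 Fermat.Agent.S28 Fermat.Agent.S28.QExp
  ModularCurve

/-! ### the `q`-expansion of `u` in the framework `HasQ` -/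

theorem mulUH_eq_scale (q : ℕ) [NeZero q] (τ : ℍ) : mulUH q τ = scale q τ := rfl

theorem hasQ_uFn (q : ℕ) [NeZero q] : HasQ (fun τ => uFn q τ) (uSer ℂ q) := by
  have h := hasQ_discriminant.mul (hasQ_inv_discriminant_comp q)
  have e : deltaC * (qExpand ℂ q deltaC)⁻¹ = uSer ℂ q := by
    rw [uSer_eq_div, div_eq_mul_inv]
    rfl
  rw [e] at h
  refine h.congr fun τ => ?_
  simp only [Pi.mul_apply, Pi.inv_apply]
  rw [uFn_apply, div_eq_mul_inv, mulUH_eq_scale]

theorem hasQ_jFun' : HasQ (fun τ => Fermat.Agent.S24.jFun τ) (jqModC ℂ) := hasQ_jFun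

/-! ### the relation between the expansions over `ℂ` -/

theorem series_relation_of_uModEqC (q : ℕ) [NeZero q] (a : ℕ → Polynomial ℂ)
    (h : ∀ τ : ℍ, ∑ i ∈ Finset.range (q + 2),
      (a i).eval (Fermat.Agent.S24.jFun τ) * (uFn q τ) ^ i = 0) :
    ∑ i ∈ Finset.range (q + 2), pev1 (jqModC ℂ) (a i) * (uSer ℂ q) ^ i = 0 := by
  have h1 : HasQ (∑ i ∈ Finset.range (q + 2),
      (fun τ : ℍ => (a i).eval (Fermat.Agent.S24.jFun τ)) * (fun τ : ℍ => uFn q τ) ^ i)
      (∑ i ∈ Finset.range (q + 2), pev1 (jqModC ℂ) (a i) * (uSer ℂ q) ^ i) :=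
    HasQ.sum _ fun i _ => (hasQ_jFun'.aeval (a i)).mul ((hasQ_uFn q).pow i)
  refine h1.eq_zero fun τ => ?_
  rw [Finset.sum_apply]
  exact h τ

/-! ### retractions -/

/-- a `ℚ`-linear retraction `ℂ → ℚ` of the inclusion which does not vanish at a given
`c ≠ 0`. -/
theorem exists_retraction_ne_zero (c : ℂ) (hc : c ≠ 0) :
    ∃ r : ℂ →ₗ[ℚ] ℚ, (∀ a : ℚ, r (algebraMap ℚ ℂ a) = a) ∧ r c ≠ 0 := by
  obtain ⟨r₀, hr₀⟩ := exists_retraction ℂ
  by_cases h0 : r₀ c = 0
  · -- `c ∉ ℚ`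
    have hnot : c ∉ Submodule.span ℚ ({(1 : ℂ)} : Set ℂ) := by
      intro hmem
      rw [Submodule.mem_span_singleton] at hmem
      obtain ⟨t, ht⟩ := hmem
      have h1 : c = algebraMap ℚ ℂ t := by
        rw [← ht, Algebra.smul_def, mul_one]
      rw [h1, hr₀] at h0
      rw [h1, h0, map_zero] at hc
      exact hc rfl
    obtain ⟨s, hs, hs0⟩ := Submodule.exists_dual_map_eq_bot_of_notMem hnot inferInstance
    have hs1 : s 1 = 0 := by
      have : s 1 ∈ (Submodule.span ℚ ({(1 : ℂ)} : Set ℂ)).map s :=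
        Submodule.mem_map_of_mem (Submodule.subset_span rfl)
      rw [hs0] at this
      exact (Submodule.mem_bot ℚ).mp this
    refine ⟨r₀ + s, fun t => ?_, ?_⟩
    · rw [LinearMap.add_apply, hr₀]
      have : algebraMap ℚ ℂ t = t • (1 : ℂ) := by rw [Algebra.smul_def, mul_one]
      rw [this, map_smul, hs1, smul_zero, add_zero]
    · rw [LinearMap.add_apply, h0, zero_add]
      exact hs
  · exact ⟨r₀, hr₀, h0⟩

/-! ### the relation over `ℚ` -/

theorem coeffEmb_jq_C : coeffEmb ℂ jq = jqModC ℂ := by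
  unfold coeffEmb
  rw [← jqModC_rat, coeffMap_jqModC]

theorem coeffEmb_uSer_C (q : ℕ) : coeffEmb ℂ (uSer ℚ q) = uSer ℂ q := by
  unfold coeffEmb
  rw [coeffMap_uSer]

/-- **descent of the modular equation to `ℚ`** (as a family of coefficients). -/
theorem exists_rat_family_of_uModEqC (q : ℕ) [NeZero q] (h : UModEqC q) :
    ∃ b : ℕ → Polynomial ℚ, b (q + 1) = 1 ∧ (∃ c0 : ℚ, c0 ≠ 0 ∧ b 0 = C c0) ∧
      (∀ i, 0 < i → i ≤ q → (b i).natDegree ≤ i - 1) ∧
      ∑ i ∈ Finset.range (q + 2), pev1 jq (b i) * (uSer ℚ q) ^ i = 0 := by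
  obtain ⟨a, ha1, ⟨c0, hc0, ha0⟩, hdeg, hrel⟩ := h
  obtain ⟨r, hr, hrc⟩ := exists_retraction_ne_zero c0 hc0
  have hser := series_relation_of_uModEqC q a hrel
  refine ⟨fun i => polyRet r (a i), ?_, ⟨r c0, hrc, ?_⟩, ?_, ?_⟩
  · show polyRet r (a (q + 1)) = 1
    rw [ha1]
    ext k
    rw [polyRet_coeff, coeff_one, coeff_one]
    split_ifs
    · have := hr 1
      rwa [map_one] at this
    · exact map_zero r
  · show polyRet r (a 0) = C (r c0)
    rw [ha0]
    ext k
    rw [polyRet_coeff, coeff_C, coeff_C]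
    split_ifs
    · rfl
    · exact map_zero r
  · intro i hi hiq
    exact (polyRet_natDegree_le r (a i)).trans (hdeg i hi hiq)
  · have h2 := congrArg (retL r) hser
    rw [retL_zero, retL_sum] at h2
    rw [← h2]
    refine Finset.sum_congr rfl fun i _ => ?_
    rw [← coeffEmb_jq_C, ← coeffEmb_uSer_C, ← map_pow, retL_mul_coeffEmb, retL_pev1]

end Fermat.Agent.BadRed
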