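/-
Cluster T (bad reduction at `q ∥ N`), MA3, algebraic part 2 (helper84):
**the modular equation of `u = Δ(z) / Δ(qz)` over `ℚ(j)`**, from the analytic statement
`UModEqC q`:

`Φ ∈ ℚ[J][U]` monic of degree `q + 1` in `U`, constant term a nonzero constant,
`deg_J (Φ.coeff i) ≤ i - 1` for `0 < i ≤ q`, `deg_J (Φ.coeff q) = q - 1`, and `Φ (j, u) = 0`
in the function field of `X₀(N)` over `ℚ̄` for every `N` divisible by `q`.
-/
import Mathlib
import Fermat.Agent.Lib.BadRed.Mod.UModEqSer
import Fermat.Agent.S28.FormalUnit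
import Fermat.Agent.S28.DescentD1
import Fermat.Agent.S24.EmbF

set_option autoImplicit false
set_option linter.unusedVariables false
set_option linter.style.haveILetI false

noncomputable section

namespace Fermat.Agent.BadRed

open Polynomial Fermat.Agent.S24 Fermat.Agent.S28 ModularCurve

/-! ### coefficients of monic units -/

theorem isMonicUnit_coeff_of_lt {R : Type*} [CommRing R] {x : LaurentSeries R} {a : ℤ}
    (hx : wp10_IsMonicUnit R x a) {m : ℤ} (hm : m < a) : x.coeff m = 0 := by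
  obtain ⟨E, hE, rfl⟩ := hx
  exact wp10_mk_coeff_of_lt a E hm

theorem isMonicUnit_coeff_self {R : Type*} [CommRing R] {x : LaurentSeries R} {a : ℤ}
    (hx : wp10_IsMonicUnit R x a) : x.coeff a = 1 := by
  obtain ⟨E, hE, rfl⟩ := hx
  exact wp10_mk_coeff_self a hE

/-- `j ^ k u ^ i` is a monic unit of order `-(k + i (q - 1))`. -/
theorem isMonicUnit_jq_pow_mul (q k i : ℕ) :
    wp10_IsMonicUnit ℚ (jq ^ k * uSer ℚ q ^ i) (-((k : ℤ) + (i : ℤ) * ((q : ℤ) - 1))) := by
  have h := (wp10_isMonicUnit_jq.pow k).mul ((uSer_isMonicUnit ℚ q).pow i)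
  have e : (k : ℤ) * (-1) + (i : ℤ) * (-((q : ℤ) - 1)) = -((k : ℤ) + (i : ℤ) * ((q : ℤ) - 1)) := by
    ring
  rwa [e] at h

/-- the coefficients of `p(j) u ^ i`. -/
theorem coeff_pev1_mul (q : ℕ) (p : Polynomial ℚ) (i n : ℕ) (hp : p.natDegree < n) (m : ℤ) :
    (pev1 jq p * uSer ℚ q ^ i).coeff m =
      ∑ k ∈ Finset.range n, p.coeff k * (jq ^ k * uSer ℚ q ^ i).coeff m := by
  rw [pev1_apply, eval₂_eq_sum_range' _ hp, Finset.sum_mul]
  have : ∀ x : Finset ℕ, (∑ k ∈ x, HahnSeries.C (p.coeff k) * jq ^ k * uSer ℚ q ^ i).coeff m =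
      ∑ k ∈ x, p.coeff k * (jq ^ k * uSer ℚ q ^ i).coeff m := by
    intro x
    classical
    induction x using Finset.induction_on with
    | empty => simp
    | insert a s ha ih =>
      rw [Finset.sum_insert ha, Finset.sum_insert ha, HahnSeries.coeff_add, ih, mul_assoc,
        HahnSeries.C_mul_eq_smul, HahnSeries.coeff_smul, smul_eq_mul]
  exact this _

/-- **the exact degree of the coefficient of `U ^ q`.** -/
theorem natDegree_coeff_q (q : ℕ) (hq : 2 ≤ q) (b : ℕ → Polynomial ℚ) (hb1 : b (q + 1) = 1)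
    (hb0 : ∃ c0 : ℚ, b 0 = C c0)
    (hdeg : ∀ i, 0 < i → i ≤ q → (b i).natDegree ≤ i - 1)
    (hrel : ∑ i ∈ Finset.range (q + 2), pev1 jq (b i) * (uSer ℚ q) ^ i = 0) :
    (b q).natDegree = q - 1 := by
  obtain ⟨c0, hc0⟩ := hb0
  have hq0 : 0 < q := by omega
  apply le_antisymm (hdeg q hq0 le_rfl)
  -- the coefficient of `t ^ (-(q + 1) (q - 1))`
  set m₀ : ℤ := -(((q : ℤ) + 1) * ((q : ℤ) - 1)) with hm₀
  have hqZ : (2 : ℤ) ≤ (q : ℤ) := by exact_mod_cast hq
  have hcoef := congrArg (fun x : LaurentSeries ℚ => x.coeff m₀) hrel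
  simp only [HahnSeries.coeff_zero] at hcoef
  have hsum : ∀ x : Finset ℕ, (∑ i ∈ x, pev1 jq (b i) * (uSer ℚ q) ^ i).coeff m₀ =
      ∑ i ∈ x, (pev1 jq (b i) * (uSer ℚ q) ^ i).coeff m₀ := by
    intro x
    classical
    induction x using Finset.induction_on with
    | empty => simp
    | insert a s ha ih =>
      rw [Finset.sum_insert ha, Finset.sum_insert ha, HahnSeries.coeff_add, ih]
  rw [hsum] at hcoef
  -- the terms
  have hterm : ∀ i ∈ Finset.range (q + 2),
      (pev1 jq (b i) * (uSer ℚ q) ^ i).coeff m₀ =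
        if i = q + 1 then 1 else if i = q then (b q).coeff (q - 1) else 0 := by
    intro i hi
    rw [Finset.mem_range] at hi
    by_cases h1 : i = q + 1
    · subst h1
      rw [if_pos rfl, hb1, map_one, one_mul]
      have h := (uSer_isMonicUnit ℚ q).pow (q + 1)
      have e : ((q + 1 : ℕ) : ℤ) * (-((q : ℤ) - 1)) = m₀ := by
        rw [hm₀]; push_cast; ring
      rw [e] at h
      exact isMonicUnit_coeff_self h
    rw [if_neg h1]
    by_cases h2 : i = q
    · subst h2
      rw [if_pos rfl]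
      have hlt : (b i).natDegree < i := by
        have := hdeg i hq0 le_rfl
        omega
      rw [coeff_pev1_mul i (b i) i i hlt, Finset.sum_eq_single (i - 1)]
      · have h := isMonicUnit_jq_pow_mul i (i - 1) i
        have e : -(((i - 1 : ℕ) : ℤ) + (i : ℤ) * ((i : ℤ) - 1)) = m₀ := by
          rw [hm₀, Nat.cast_sub hq0]; push_cast; ring
        rw [e] at h
        rw [isMonicUnit_coeff_self h, mul_one]
      · intro k hk hk1
        rw [Finset.mem_range] at hk
        have h := isMonicUnit_jq_pow_mul i k i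
        have hlt' : m₀ < -((k : ℤ) + (i : ℤ) * ((i : ℤ) - 1)) := by
          rw [hm₀]
          have hk2 : (k : ℤ) < (i : ℤ) - 1 := by
            have : k < i - 1 := by omega
            have h3 : (k : ℤ) < ((i - 1 : ℕ) : ℤ) := by exact_mod_cast this
            rwa [Nat.cast_sub hq0] at h3
          nlinarith
        rw [isMonicUnit_coeff_of_lt h hlt', mul_zero]
      · intro hn
        exact absurd (Finset.mem_range.mpr (by omega)) hn
    rw [if_neg h2]
    have hiq : i < q := by omega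
    have hiZ : (i : ℤ) < (q : ℤ) := by exact_mod_cast hiq
    by_cases h3 : i = 0
    · subst h3
      rw [hc0, pev1_C, pow_zero, mul_one, HahnSeries.C_apply, HahnSeries.coeff_single]
      rw [if_neg]
      rw [hm₀]
      intro h
      nlinarith
    · have hi0 : 0 < i := Nat.pos_of_ne_zero h3
      have hlt : (b i).natDegree < i := by
        have := hdeg i hi0 hiq.le
        omega
      rw [coeff_pev1_mul q (b i) i i hlt]
      refine Finset.sum_eq_zero fun k hk => ?_
      rw [Finset.mem_range] at hk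
      have h := isMonicUnit_jq_pow_mul q k i
      have hkZ : (k : ℤ) < (i : ℤ) := by exact_mod_cast hk
      have hi0Z : (0 : ℤ) < (i : ℤ) := by exact_mod_cast hi0
      have hlt' : m₀ < -((k : ℤ) + (i : ℤ) * ((q : ℤ) - 1)) := by
        rw [hm₀]
        nlinarith
      rw [isMonicUnit_coeff_of_lt h hlt', mul_zero]
  rw [Finset.sum_congr rfl hterm] at hcoef
  have hsplit : (∑ i ∈ Finset.range (q + 2),
      (if i = q + 1 then (1 : ℚ) else if i = q then (b q).coeff (q - 1) else 0)) =
      1 + (b q).coeff (q - 1) := by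
    rw [Finset.sum_range_succ, Finset.sum_range_succ, if_pos rfl, if_neg (by omega), if_pos rfl]
    rw [Finset.sum_eq_zero, zero_add, add_comm]
    intro i hi
    rw [Finset.mem_range] at hi
    rw [if_neg (by omega), if_neg (by omega)]
  rw [hsplit] at hcoef
  have hne : (b q).coeff (q - 1) ≠ 0 := by
    intro h0
    rw [h0] at hcoef
    norm_num at hcoef
  exact le_natDegree_of_ne_zero hne


/-! ### the bivariate polynomial of a family of coefficients -/

/-- `∑_{i ≤ n} b_i U ^ i`. -/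
def polyOfFamily {R : Type*} [CommRing R] (n : ℕ) (b : ℕ → Polynomial R) :
    Polynomial (Polynomial R) :=
  ∑ i ∈ Finset.range (n + 1), monomial i (b i)

theorem coeff_polyOfFamily {R : Type*} [CommRing R] (n : ℕ) (b : ℕ → Polynomial R) (i : ℕ) :
    (polyOfFamily n b).coeff i = if i ≤ n then b i else 0 := by
  classical
  rw [polyOfFamily, finsetSum_coeff]
  simp only [coeff_monomial]
  rw [Finset.sum_ite_eq' (Finset.range (n + 1)) i]
  simp only [Finset.mem_range, Nat.lt_succ_iff]

theorem natDegree_polyOfFamily_le {R : Type*} [CommRing R] (n : ℕ) (b : ℕ → Polynomial R) :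
    (polyOfFamily n b).natDegree ≤ n := by
  rw [natDegree_le_iff_coeff_eq_zero]
  intro k hk
  rw [coeff_polyOfFamily, if_neg (by omega)]

theorem natDegree_polyOfFamily {R : Type*} [CommRing R] [Nontrivial R] (n : ℕ)
    (b : ℕ → Polynomial R) (hb : b n = 1) : (polyOfFamily n b).natDegree = n := by
  apply le_antisymm (natDegree_polyOfFamily_le n b)
  apply le_natDegree_of_ne_zero
  rw [coeff_polyOfFamily, if_pos le_rfl, hb]
  exact one_ne_zero

theorem monic_polyOfFamily {R : Type*} [CommRing R] [Nontrivial R] (n : ℕ)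
    (b : ℕ → Polynomial R) (hb : b n = 1) : (polyOfFamily n b).Monic := by
  rw [Monic, leadingCoeff, natDegree_polyOfFamily n b hb, coeff_polyOfFamily, if_pos le_rfl, hb]

theorem pev2_polyOfFamily {A : Type*} [CommRing A] (j u : LaurentSeries A) (n : ℕ)
    (b : ℕ → Polynomial A) :
    pev2 j u (polyOfFamily n b) = ∑ i ∈ Finset.range (n + 1), pev1 j (b i) * u ^ i := by
  rw [polyOfFamily, map_sum]
  refine Finset.sum_congr rfl fun i _ => ?_
  rw [pev2_apply, eval₂_monomial]

/-! ### the modular equation over `ℚ` and over `ℚ̄` -/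

/-- the polynomial `Φ ∈ ℚ[J][U]` with its properties, in terms of `pev2`. -/
theorem exists_modEq_rat (q : ℕ) [NeZero q] (hq : 2 ≤ q) (h : UModEqC q) :
    ∃ Φ : Polynomial (Polynomial ℚ), Φ.Monic ∧ Φ.natDegree = q + 1 ∧
      (∃ c0 : ℚ, c0 ≠ 0 ∧ Φ.coeff 0 = C c0) ∧
      (∀ i, 0 < i → i ≤ q → (Φ.coeff i).natDegree ≤ i - 1) ∧
      (Φ.coeff q).natDegree = q - 1 ∧
      pev2 jq (uSer ℚ q) Φ = 0 := by
  obtain ⟨b, hb1, ⟨c0, hc0, hb0⟩, hdeg, hrel⟩ := exists_rat_family_of_uModEqC q h
  have hexact := natDegree_coeff_q q hq b hb1 ⟨c0, hb0⟩ hdeg hrel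
  refine ⟨polyOfFamily (q + 1) b, monic_polyOfFamily _ b hb1, natDegree_polyOfFamily _ b hb1,
    ⟨c0, hc0, ?_⟩, ?_, ?_, ?_⟩
  · rw [coeff_polyOfFamily, if_pos (Nat.zero_le _), hb0]
  · intro i hi hiq
    rw [coeff_polyOfFamily, if_pos (by omega)]
    exact hdeg i hi hiq
  · rw [coeff_polyOfFamily, if_pos (by omega)]
    exact hexact
  · rw [pev2_polyOfFamily]
    exact hrel

theorem uModEqQ_of_uModEqC (q : ℕ) [NeZero q] (hq : 2 ≤ q) (h : UModEqC q) : UModEqQ q := by
  obtain ⟨Φ, h1, h2, h3, h4, h5, h6⟩ := exists_modEq_rat q hq h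
  refine ⟨Φ, h1, h2, h3, h4, h5, ?_⟩
  rw [jqModC_rat]
  have e : Polynomial.eval₂RingHom (algebraMap ℚ (LaurentSeries ℚ)) jq = pev1 jq := by
    apply Polynomial.ringHom_ext
    · intro a
      simp [pev1, HahnSeries.C_eq_algebraMap]
    · simp [pev1]
  rw [e]
  exact h6

/-- evaluation in `F_N` versus evaluation of `q`-expansions. -/
theorem coe_eval_map_aeval (N : ℕ) [NeZero N] (Φ : Polynomial (Polynomial Kbar))
    (u : modularFunctionFieldBar N) :
    (((Φ.map (Polynomial.aeval (R := Kbar) (jBar N)).toRingHom).eval u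
      : modularFunctionFieldBar N) : LaurentSeries Kbar) =
      pev2 (jqModC Kbar) (u : LaurentSeries Kbar) Φ := by
  rw [eval_map]
  have h1 := Polynomial.hom_eval₂ Φ
    (Polynomial.aeval (R := Kbar) (jBar N)).toRingHom
    ((modularFunctionFieldBar N).val.toRingHom) u
  have h2 : ((modularFunctionFieldBar N).val.toRingHom).comp
      (Polynomial.aeval (R := Kbar) (jBar N)).toRingHom =
      pev1 (jqModC Kbar) := by
    apply Polynomial.ringHom_ext
    · intro a
      rw [pev1_C]
      have e0 : (((modularFunctionFieldBar N).val.toRingHom).comp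
          (Polynomial.aeval (R := Kbar) (jBar N)).toRingHom) (C a) =
          ((algebraMap Kbar (modularFunctionFieldBar N) a : modularFunctionFieldBar N) :
            LaurentSeries Kbar) := by
        simp
      have e : ((algebraMap Kbar (modularFunctionFieldBar N) a : modularFunctionFieldBar N) :
          LaurentSeries Kbar) = algebraMap Kbar (LaurentSeries Kbar) a := rfl
      rw [e0, e, algebraMap_laurentSeries_eq_single]
      rfl
    · simp [pev1, coe_jBar_eq_jqModC]
  rw [h2] at h1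
  exact h1

/-- **MA3: the modular equation of `u = Δ(z) / Δ(qz)` over `ℚ̄(j)`** (from the analytic statement
`UModEqC q`): `Φ ∈ ℚ̄[J][U]` monic of degree `q + 1` in `U`, constant term a nonzero constant,
`deg_J (Φ.coeff i) ≤ i - 1` for `0 < i ≤ q`, `deg_J (Φ.coeff q) = q - 1`, and
`Φ (j, u) = 0` in `F_N` for every `N` divisible by `q`. -/
theorem uModEq_of_uModEqC (q : ℕ) [NeZero q] (hq : 2 ≤ q) (h : UModEqC q) :
    ∃ Φ : Polynomial (Polynomial Kbar), Φ.Monic ∧ Φ.natDegree = q + 1 ∧
      (∃ c0 : Kbar, c0 ≠ 0 ∧ Φ.coeff 0 = C c0) ∧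
      (∀ i, 0 < i → i ≤ q → (Φ.coeff i).natDegree ≤ i - 1) ∧
      (Φ.coeff q).natDegree = q - 1 ∧
      ∀ (N : ℕ) [NeZero N] (hqN : q ∣ N),
        (Φ.map (Polynomial.aeval (R := Kbar) (jBar N)).toRingHom).eval (uF N q hqN) = 0 := by
  obtain ⟨Φ, h1, h2, ⟨c0, hc0, h3⟩, h4, h5, h6⟩ := exists_modEq_rat q hq h
  have hinj : Function.Injective (mapRingHom (algebraMap ℚ Kbar)) :=
    Polynomial.map_injective _ (algebraMap ℚ Kbar).injective
  have hinj0 : Function.Injective (algebraMap ℚ Kbar) := (algebraMap ℚ Kbar).injective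
  refine ⟨Φ.map (mapRingHom (algebraMap ℚ Kbar)), h1.map _, ?_, ⟨algebraMap ℚ Kbar c0, ?_, ?_⟩,
    ?_, ?_, ?_⟩
  · rw [natDegree_map_eq_of_injective hinj, h2]
  · rwa [Ne, map_eq_zero]
  · rw [coeff_map, h3, coe_mapRingHom, map_C]
  · intro i hi hiq
    rw [coeff_map, coe_mapRingHom, natDegree_map_eq_of_injective hinj0]
    exact h4 i hi hiq
  · rw [coeff_map, coe_mapRingHom, natDegree_map_eq_of_injective hinj0]
    exact h5
  · intro N _ hqN
    apply Subtype.ext
    rw [coe_eval_map_aeval, coe_uF, ZeroMemClass.coe_zero]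
    have h7 := congrArg (coeffEmb Kbar) h6
    rw [coeffEmb_pev2, map_zero] at h7
    have e1 : coeffEmb Kbar jq = jqModC Kbar := by
      unfold coeffEmb
      rw [← jqModC_rat, coeffMap_jqModC]
    have e2 : coeffEmb Kbar (uSer ℚ q) = uSer Kbar q := by
      unfold coeffEmb
      rw [coeffMap_uSer]
    rw [e1, e2] at h7
    exact h7

end Fermat.Agent.BadRed
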