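import Mathlib
import Fermat.Agent.Lib.BadRed.Mod.UCuspDeg
import Fermat.Agent.Lib.BadRed.Mod.UParamSeries
import Fermat.Agent.Lib.BadRed.Mod.SSArith
import Fermat.Agent.Lib.GenusEq.Inputs
import Fermat.Agent.Lib.RR.OfModularBar
import Fermat.Agent.Lib.BadRed.Mod.UModEq

set_option autoImplicit false

/-!
# Cluster T, modular assembly MA4 (helper16): the degree of `u` on `X₀(q N₀)`

Modular corollary of `Mod/UCuspDeg.lean`: if `u = uF N q _` satisfies the modular equation over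
`ℚ̄(j)` (`UCuspEq`, the conclusion of MA3), `N = q * N₀`, `q ∤ N₀` prime, then

  `[F_N : ℚ̄(u)] = (q - 1) ψ(N₀)`,   `deg (u)_∞ = (q - 1) ψ(N₀)`,

and (`UCuspEq.ord_j_neg_iff`) the zeros and poles of `u` are exactly the poles of `j` (the cusps).
`uCuspEq_uF` : the hypothesis `UCuspEq` from helper84's MA3 (`uModEq_of_uModEqC`), i.e. from the
analytic modular equation `UModEqC q` (helper47).
-/

noncomputable section

open AlgebraicCurve IntermediateField Polynomial ModularCurve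

namespace Fermat.Agent.BadRed

open Fermat.Agent.RR

local notation "Qb" => AlgebraicClosure ℚ

variable {q N N₀ : ℕ} [NeZero N] [NeZero q]

/-- **MA3 ⇒ the hypothesis of MA4**: the modular equation of `u = uF N q _` over `ℚ̄(j)`. -/
theorem uCuspEq_uF (hq : 2 ≤ q) (hC : UModEqC q) (hdvd : q ∣ N) :
    UCuspEq Qb q (Fermat.Agent.S24.jBar N) (uF N q hdvd) := by
  obtain ⟨Φ, h1, h2, h3, h4, h5, h6⟩ := uModEq_of_uModEqC q hq hC
  exact UCuspEq.of_poly hq Φ h1 h2 h3 h5 (fun i hi hiq => h4 i hi hiq.le) (h6 N hdvd)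

/-- `u` is transcendental. -/
theorem transcendental_uF_of_uModEq (hdvd : q ∣ N)
    (h : UCuspEq Qb q (Fermat.Agent.S24.jBar N) (uF N q hdvd)) :
    Transcendental Qb (uF N q hdvd) := by
  have := Fermat.Agent.S24.finiteDimensional_adjoin_jBar N
  exact h.transcendental (Fermat.Agent.RRMod.isRRField_bar N)
    (Fermat.Agent.S24.transcendental_jBar N)

/-- `F_N` is finite over `ℚ̄(u)`. -/
theorem finiteDimensional_uF_of_uModEq (hdvd : q ∣ N)
    (h : UCuspEq Qb q (Fermat.Agent.S24.jBar N) (uF N q hdvd)) :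
    FiniteDimensional Qb⟮uF N q hdvd⟯ ↥(modularFunctionFieldBar N) := by
  have := Fermat.Agent.S24.finiteDimensional_adjoin_jBar N
  exact h.finiteDimensional (Fermat.Agent.RRMod.isRRField_bar N)
    (Fermat.Agent.S24.transcendental_jBar N)

/-- `[F_N : ℚ̄(u)] = (q - 1) ψ(N₀)` for `N = q N₀`, `q ∤ N₀`. -/
theorem finrank_uF_eq (hq : q.Prime) (hN : N = q * N₀) (hqN : ¬ q ∣ N₀) (hdvd : q ∣ N)
    (h : UCuspEq Qb q (Fermat.Agent.S24.jBar N) (uF N q hdvd)) :
    Module.finrank Qb⟮uF N q hdvd⟯ ↥(modularFunctionFieldBar N) = (q - 1) * dedekindPsi N₀ := by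
  have := Fermat.Agent.S24.finiteDimensional_adjoin_jBar N
  refine h.finrank_eq_of_finrank (Fermat.Agent.RRMod.isRRField_bar N)
    (Fermat.Agent.S24.transcendental_jBar N) ?_
  rw [Fermat.Agent.GenusEq.finrank_jBar_eq_psi N, hN]
  exact SSA.dedekindPsi_prime_mul hq hqN

/-- `deg (u)_∞ = (q - 1) ψ(N₀)`. -/
theorem degree_poleDiv_uF_eq (hq : q.Prime) (hN : N = q * N₀) (hqN : ¬ q ∣ N₀) (hdvd : q ∣ N)
    (h : UCuspEq Qb q (Fermat.Agent.S24.jBar N) (uF N q hdvd)) :
    Divisor.degree (poleDiv (Fermat.Agent.RRMod.isRRField_bar N) (uF N q hdvd))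
      = (((q - 1) * dedekindPsi N₀ : ℕ) : ℤ) := by
  have := finiteDimensional_uF_of_uModEq hdvd h
  rw [Fermat.Agent.RRHur.degree_poleDiv_eq_finrank _ (transcendental_uF_of_uModEq hdvd h),
    finrank_uF_eq hq hN hqN hdvd h]

end Fermat.Agent.BadRed
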