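/-
Cluster T (bad reduction at `q ∥ N`), MA3-A1 (helper47; split of helper84, architect helper81):
**the analytic modular equation of `u = Δ(τ) / Δ(qτ)` over `ℂ[j]`**, `q` prime.

`uModEqC q : UModEqC q` (interface `Mod/UModEqDef.lean`): there are `a_0, …, a_{q+1} ∈ ℂ[X]` with
`a_{q+1} = 1`, `a_0` a nonzero constant, `deg a_i ≤ i - 1` (`0 < i ≤ q`) and
`∑ a_i (j(τ)) u(τ)^i = 0` on `ℍ`.

Proof.  `F := Δ ∣[12] diag(q, 1)` is a cusp form on `Γ₀(q)` (`umDeltaQ`), `F τ = q^11 Δ(qτ)`, so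
`F / Δ = q^11 / u`.  The elementary symmetric functions `e_i` of its `q + 1` translates
(`S23.esymmFun`, `S16Norm.exists_cosetEquiv`) are level one CUSP forms of weight `12 i`
(`S23.isCF_esymmFun`), hence `e_i = Δ^i P_i(J)` with `deg P_i ≤ i - 1` (sharp bound, via
`CuspForm.discriminantEquiv` and `S28.wp4_levelOne_isDeltaPoly`); the norm `e_{q+1}` has no zeros,
hence is `c Δ^{q+1}` (`S28.wp3b_eq_const_mul_discriminant_pow`).  `q^11 / u` is a root of
`∏_x (X - F_x / Δ) = ∑_j (-1)^{n-j} P_{n-j}(J) X^j`; multiply by `u^n / ((-1)^n c)`.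
-/
import Mathlib
import Fermat.Agent.Lib.BadRed.Mod.UModEqDef
import Fermat.Agent.S28.LevelOnePoly
import Fermat.Agent.S28.LevelOneUnit
import Fermat.Agent.S16.NormInt.Cosets
import Fermat.Agent.S23.ThetaDef

set_option autoImplicit false

noncomputable section

namespace Fermat.Agent.BadRed

open UpperHalfPlane ModularForm MatrixGroups Polynomial SlashInvariantForm
open Fermat.Agent.S23 Fermat.Agent.S24 Fermat.Agent.S28

/-- `Δ ∣[12] diag(q, 1)` as a cusp form on `Γ₀(q)`; its value at `τ` is `q^11 Δ(q τ)`. -/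
def umDeltaQ (q : ℕ) [NeZero q] : CuspForm (G0 q) 12 where
  toFun := ⇑CuspForm.discriminant ∣[(12 : ℤ)] heckeDiagMatrix q
  slash_action_eq' γ hγ :=
    (CuspForm.translate CuspForm.discriminant (heckeDiagMatrix q)).slash_action_eq' γ
      (S23.Theta.G0_le_conj q hγ)
  holo' := (CuspForm.translate CuspForm.discriminant (heckeDiagMatrix q)).holo'
  zero_at_cusps' hc :=
    (CuspForm.translate CuspForm.discriminant (heckeDiagMatrix q)).zero_at_cusps'
      (hc.mono (S23.Theta.G0_le_conj q))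

theorem um_heckeDiagMatrix_smul_eq_scale (q : ℕ) [NeZero q] (τ : ℍ) :
    heckeDiagMatrix q • τ = scale q τ := by
  apply UpperHalfPlane.ext
  rw [coe_heckeDiagMatrix_smul (NeZero.ne q), coe_scale]

theorem umDeltaQ_apply (q : ℕ) [NeZero q] (τ : ℍ) :
    umDeltaQ q τ = (q : ℂ) ^ (11 : ℕ) * discriminant (scale q τ) := by
  change (⇑CuspForm.discriminant ∣[(12 : ℤ)] heckeDiagMatrix q) τ = _
  rw [slash_heckeDiagMatrix_apply 12 (NeZero.ne q), um_heckeDiagMatrix_smul_eq_scale,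
    CuspForm.coe_discriminant]
  norm_num

theorem umDeltaQ_ne_zero (q : ℕ) [NeZero q] (τ : ℍ) : umDeltaQ q τ ≠ 0 := by
  rw [umDeltaQ_apply]
  exact mul_ne_zero (pow_ne_zero _ (by exact_mod_cast NeZero.ne q)) (discriminant_ne_zero _)

/-- `F / Δ = q^11 / u`. -/
theorem umDeltaQ_div (q : ℕ) [NeZero q] (τ : ℍ) :
    umDeltaQ q τ / discriminant τ = (q : ℂ) ^ (11 : ℕ) / uFn q τ := by
  rw [umDeltaQ_apply, uFn_apply]
  have h1 := discriminant_ne_zero τ
  have h2 := discriminant_ne_zero (scale q τ)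
  field_simp

/-- the translates of a nowhere vanishing form are nowhere vanishing. -/
theorem um_quotientFunc_ne_zero {N : ℕ} [NeZero N] {k : ℤ} {F : Type*} [FunLike F ℍ ℂ]
    [SlashInvariantFormClass F (G0 N) k] (f : F) (hf : ∀ τ, f τ ≠ 0) (x : Q N) (τ : ℍ) :
    quotientFunc f x τ ≠ 0 := by
  induction x using Quotient.inductionOn with
  | h r =>
    change ((f : ℍ → ℂ) ∣[k] (r : GL (Fin 2) ℝ)⁻¹) τ ≠ 0
    obtain ⟨γ, hγ⟩ := r.2
    have h1 : ((r : GL (Fin 2) ℝ))⁻¹ = Matrix.SpecialLinearGroup.mapGL ℝ γ⁻¹ := by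
      rw [map_inv, hγ]
    rw [h1]
    have h2 : ((f : ℍ → ℂ) ∣[k] (Matrix.SpecialLinearGroup.mapGL ℝ) γ⁻¹) τ =
        ((f : ℍ → ℂ) ∣[k] γ⁻¹) τ := rfl
    rw [h2, ModularForm.SL_slash_apply]
    exact mul_ne_zero (hf _) (zpow_ne_zero _ (denom_ne_zero _ _))

/-- **sharp bound**: a level one CUSP form of weight `12 m`, `m ≥ 1`, is `Δ ^ m · P(J)` with
`deg P ≤ m - 1`. -/
theorem um_cuspForm_isDeltaPoly {k : ℤ} (m : ℕ) (hm : 0 < m) (hk : k = 12 * (m : ℤ))
    (G : CuspForm 𝒮ℒ k) :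
    ∃ P : Polynomial ℂ, P.natDegree ≤ m - 1 ∧
      ∀ τ : ℍ, G τ = discriminant τ ^ m * P.eval (wp4J τ) := by
  obtain ⟨P, hP, hPe⟩ := wp4_levelOne_isDeltaPoly (k := k - 12) (m - 1)
    (by rw [hk, Nat.cast_sub hm]; push_cast; ring) (CuspForm.discriminantEquiv G)
  refine ⟨P, hP, fun τ => ?_⟩
  have h1 := hPe τ
  rw [CuspForm.discriminantEquiv_apply, div_eq_iff (discriminant_ne_zero τ)] at h1
  rw [h1]
  obtain ⟨m', rfl⟩ : ∃ m', m = m' + 1 := ⟨m - 1, by omega⟩
  rw [Nat.add_sub_cancel, pow_succ]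
  ring

theorem um_card_Q (q : ℕ) [Fact q.Prime] : Fintype.card (Q q) = q + 1 := by
  obtain ⟨e, -, -⟩ := Fermat.Agent.S16Norm.exists_cosetEquiv q
  rw [← Fintype.card_congr e, Fintype.card_option, Fintype.card_fin]

/-- the elementary symmetric functions of the translates divided by `Δ`. -/
theorem um_esymm_div {N : ℕ} [NeZero N] {k : ℤ} (F : CuspForm (G0 N) k) (i : ℕ) (τ : ℍ) :
    ∑ s ∈ Finset.powersetCard i (Finset.univ : Finset (Q N)),
        ∏ x ∈ s, quotientFunc F x τ / discriminant τ =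
      esymmFun N F i τ / discriminant τ ^ i := by
  rw [esymmFun_apply, Finset.sum_div]
  refine Finset.sum_congr rfl fun s hs => ?_
  rw [Finset.prod_div_distrib, Finset.prod_const, (Finset.mem_powersetCard.mp hs).2]

/-- **MA3-A1: the analytic modular equation of `u = Δ(τ) / Δ(qτ)`.** -/
theorem uModEqC (q : ℕ) [Fact q.Prime] : UModEqC q := by
  classical
  have hq0 : q ≠ 0 := (Fact.out : q.Prime).ne_zero
  have hqC : (q : ℂ) ≠ 0 := by exact_mod_cast hq0
  set n := Fintype.card (Q q) with hn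
  have hnq : n = q + 1 := um_card_Q q
  -- the polynomials `P_i`, `i ≥ 1`
  have hpoly : ∀ i : ℕ, 0 < i → ∃ P : Polynomial ℂ, P.natDegree ≤ i - 1 ∧
      ∀ τ : ℍ, esymmFun q (umDeltaQ q) i τ = discriminant τ ^ i * P.eval (wp4J τ) := by
    intro i hi
    obtain ⟨G, hG⟩ := isCF_esymmFun q (umDeltaQ q) i hi
    obtain ⟨P, hP, hPe⟩ := um_cuspForm_isDeltaPoly i hi rfl G
    exact ⟨P, hP, fun τ => by rw [← hG]; exact hPe τ⟩
  choose! P hPdeg hPeval using hpoly
  -- the norm is `c Δ ^ n`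
  have hnorm : ∃ c : ℂ, c ≠ 0 ∧
      ∀ τ : ℍ, esymmFun q (umDeltaQ q) n τ = c * discriminant τ ^ n := by
    obtain ⟨G, hG⟩ := isCF_esymmFun q (umDeltaQ q) n card_Q_pos
    have hne : ∀ τ, (CuspForm.toModularFormₗ G) τ ≠ 0 := by
      intro τ
      rw [CuspForm.toModularFormₗ_apply, hG, esymmFun_apply, hn, ← Finset.card_univ,
        Finset.powersetCard_self, Finset.sum_singleton]
      exact Finset.prod_ne_zero_iff.mpr fun x _ =>
        um_quotientFunc_ne_zero (umDeltaQ q) (umDeltaQ_ne_zero q) x τ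
    obtain ⟨c, hc, hce⟩ := wp3b_eq_const_mul_discriminant_pow n (12 * n) rfl
      (CuspForm.toModularFormₗ G) hne
    exact ⟨c, hc, fun τ => by rw [← hG]; exact hce τ⟩
  obtain ⟨c, hc, hce⟩ := hnorm
  -- the normalised coefficients
  set Pf : ℕ → Polynomial ℂ := fun i => if i = 0 then 1 else if i = n then C c else P i
    with hPf
  have hE : ∀ (τ : ℍ) (i : ℕ), i ≤ n →
      esymmFun q (umDeltaQ q) i τ / discriminant τ ^ i = (Pf i).eval (jFun τ) := by
    intro τ i hi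
    have hΔ : discriminant τ ^ i ≠ 0 := pow_ne_zero _ (discriminant_ne_zero τ)
    rw [div_eq_iff hΔ]
    by_cases h0 : i = 0
    · subst h0
      rw [esymmFun_apply]
      simp [hPf]
    by_cases h1 : i = n
    · subst h1
      rw [hce τ]
      simp [hPf, h0]
    · rw [hPeval i (Nat.pos_of_ne_zero h0) τ, mul_comm]
      simp only [hPf, h0, h1, if_false]
      rfl
  set κ : ℂ := (q : ℂ) ^ (11 : ℕ) with hκ
  have hκ0 : κ ≠ 0 := pow_ne_zero _ hqC
  have hsgn : ((-1 : ℂ) ^ n * c) ≠ 0 := mul_ne_zero (pow_ne_zero _ (by norm_num)) hc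
  refine ⟨fun i => C ((-1 : ℂ) ^ i * κ ^ (n - i) / ((-1 : ℂ) ^ n * c)) * Pf i, ?_, ?_, ?_, ?_⟩
  · -- leading coefficient
    show C ((-1 : ℂ) ^ (q + 1) * κ ^ (n - (q + 1)) / ((-1 : ℂ) ^ n * c)) * Pf (q + 1) = 1
    rw [← hnq]
    have h1 : Pf n = C c := by
      simp only [hPf]
      rw [if_neg (by omega)]
      simp
    rw [h1, ← C_mul, Nat.sub_self, pow_zero, mul_one, div_mul_eq_mul_div,
      div_self hsgn, C_1]
  · -- constant coefficient
    refine ⟨κ ^ n / ((-1 : ℂ) ^ n * c), div_ne_zero (pow_ne_zero _ hκ0) hsgn, ?_⟩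
    show C ((-1 : ℂ) ^ 0 * κ ^ (n - 0) / ((-1 : ℂ) ^ n * c)) * Pf 0 = _
    have h1 : Pf 0 = 1 := by simp [hPf]
    rw [h1, mul_one, pow_zero, one_mul, Nat.sub_zero]
  · -- degrees
    intro i hi hiq
    show (C ((-1 : ℂ) ^ i * κ ^ (n - i) / ((-1 : ℂ) ^ n * c)) * Pf i).natDegree ≤ i - 1
    refine (natDegree_C_mul_le _ _).trans ?_
    have h1 : Pf i = P i := by
      simp only [hPf]
      rw [if_neg (by omega), if_neg (by omega)]
    rw [h1]
    exact hPdeg i hi
  · -- the relation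
    intro τ
    have hΔ := discriminant_ne_zero τ
    have hu := uFn_ne_zero q τ
    set t : Q q → ℂ := fun x => quotientFunc (umDeltaQ q) x τ / discriminant τ with ht
    have hroot : (rootPoly t).eval (κ / uFn q τ) = 0 := by
      have h1 := rootPoly_eval_root t (QuotientGroup.mk 1 : Q q)
      have h2 : t (QuotientGroup.mk 1 : Q q) = κ / uFn q τ := by
        rw [ht]
        simp only
        rw [quotientFunc_one (N := q) (umDeltaQ q), umDeltaQ_div]
      rwa [h2] at h1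
    rw [Polynomial.eval_eq_sum_range, rootPoly_natDegree, ← hn] at hroot
    have hcoeff : ∀ j ∈ Finset.range (n + 1), (rootPoly t).coeff j * (κ / uFn q τ) ^ j =
        (-1 : ℂ) ^ (n - j) * (Pf (n - j)).eval (jFun τ) * (κ / uFn q τ) ^ j := by
      intro j hj
      have hj' : j ≤ n := Nat.lt_succ_iff.mp (Finset.mem_range.mp hj)
      rw [rootPoly_coeff t j (by rw [← hn]; exact hj'), ← hn, um_esymm_div,
        hE τ (n - j) (Nat.sub_le _ _)]
    rw [Finset.sum_congr rfl hcoeff] at hroot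
    rw [← Finset.sum_range_reflect] at hroot
    have hfin : ∑ i ∈ Finset.range (q + 2),
        (C ((-1 : ℂ) ^ i * κ ^ (n - i) / ((-1 : ℂ) ^ n * c)) * Pf i).eval (jFun τ) *
          uFn q τ ^ i =
        uFn q τ ^ n / ((-1 : ℂ) ^ n * c) *
          ∑ j ∈ Finset.range (n + 1),
            (-1 : ℂ) ^ (n - (n + 1 - 1 - j)) * (Pf (n - (n + 1 - 1 - j))).eval (jFun τ) *
              (κ / uFn q τ) ^ (n + 1 - 1 - j) := by
      rw [show q + 2 = n + 1 by omega, Finset.mul_sum]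
      refine Finset.sum_congr rfl fun i hi => ?_
      have hi' : i ≤ n := Nat.lt_succ_iff.mp (Finset.mem_range.mp hi)
      have e1 : n - (n + 1 - 1 - i) = i := by omega
      have e2 : n + 1 - 1 - i = n - i := by omega
      rw [e1, e2, eval_mul, eval_C, div_pow]
      have e3 : uFn q τ ^ n = uFn q τ ^ (n - i) * uFn q τ ^ i := by
        rw [← pow_add, Nat.sub_add_cancel hi']
      rw [e3]
      have hui : uFn q τ ^ (n - i) ≠ 0 := pow_ne_zero _ hu
      field_simp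
    show ∑ i ∈ Finset.range (q + 2),
        (C ((-1 : ℂ) ^ i * κ ^ (n - i) / ((-1 : ℂ) ^ n * c)) * Pf i).eval (jFun τ) *
          uFn q τ ^ i = 0
    rw [hfin, hroot, mul_zero]

end Fermat.Agent.BadRed
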