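import Mathlib
import Fermat.Agent.Lib.BadRed.Mod.UCuspDegMod
import Fermat.Agent.Lib.BadRed.Mod.UModEqAn

set_option autoImplicit false

/-!
# Cluster T, modular assembly MA4 (helper16): unconditional form

With helper47's analytic modular equation `uModEqC` and helper84's MA3 (`uModEq_of_uModEqC`)
the results of `UCuspDeg.lean` hold for `u = uF N q _ = Δ(z)/Δ(qz)` and `j = jBar N` on every
`X₀(N)`, `q ∣ N` prime:

* `uCuspEq_uF_prime`     : the modular equation `UCuspEq ℚ̄ q j u`;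
* `ord_jBar_neg_iff_uF`  : the zeros and poles of `u` are exactly the poles of `j`;
* `ord_uF_of_pole`       : `ord u = (q-1) ord j` or `q ord u = -(q-1) ord j` at a pole of `j`;
* `finrank_uF`, `degree_poleDiv_uF` : `[F_N : ℚ̄(u)] = deg (u)_∞ = (q-1) ψ(N₀)`, `N = q N₀`, `q ∤ N₀`.
-/

noncomputable section

open AlgebraicCurve IntermediateField Polynomial ModularCurve

namespace Fermat.Agent.BadRed

open Fermat.Agent.RR

local notation "Qb" => AlgebraicClosure ℚ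

variable {q N N₀ : ℕ} [NeZero N] [NeZero q]

/-- the modular equation of `u` over `ℚ̄(j)`, unconditionally. -/
theorem uCuspEq_uF_prime (hq : q.Prime) (hdvd : q ∣ N) :
    UCuspEq Qb q (Fermat.Agent.S24.jBar N) (uF N q hdvd) := by
  have : Fact q.Prime := ⟨hq⟩
  exact uCuspEq_uF hq.two_le (uModEqC q) hdvd

/-- the zeros and poles of `u` are exactly the poles of `j`. -/
theorem ord_jBar_neg_iff_uF (hq : q.Prime) (hdvd : q ∣ N)
    (v : Place Qb ↥(modularFunctionFieldBar N)) :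
    v.ord (Fermat.Agent.S24.jBar N) < 0 ↔ v.ord (uF N q hdvd) ≠ 0 :=
  (uCuspEq_uF_prime hq hdvd).ord_j_neg_iff v

/-- `u` is a unit where `j` has no pole. -/
theorem ord_uF_eq_zero (hq : q.Prime) (hdvd : q ∣ N)
    (v : Place Qb ↥(modularFunctionFieldBar N)) (hv : 0 ≤ v.ord (Fermat.Agent.S24.jBar N)) :
    v.ord (uF N q hdvd) = 0 :=
  (uCuspEq_uF_prime hq hdvd).ord_eq_zero_of_nonneg v hv

/-- the order of `u` at a pole of `j`. -/
theorem ord_uF_of_pole (hq : q.Prime) (hdvd : q ∣ N)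
    (v : Place Qb ↥(modularFunctionFieldBar N)) (hv : v.ord (Fermat.Agent.S24.jBar N) < 0) :
    (v.ord (uF N q hdvd) = ((q : ℤ) - 1) * v.ord (Fermat.Agent.S24.jBar N) ∧
        v.ord (uF N q hdvd) < 0) ∨
      ((q : ℤ) * v.ord (uF N q hdvd) = -(((q : ℤ) - 1) * v.ord (Fermat.Agent.S24.jBar N)) ∧
        0 < v.ord (uF N q hdvd)) :=
  (uCuspEq_uF_prime hq hdvd).ord_of_pole v hv

theorem transcendental_uF (hq : q.Prime) (hdvd : q ∣ N) : Transcendental Qb (uF N q hdvd) :=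
  transcendental_uF_of_uModEq hdvd (uCuspEq_uF_prime hq hdvd)

theorem finiteDimensional_uF (hq : q.Prime) (hdvd : q ∣ N) :
    FiniteDimensional Qb⟮uF N q hdvd⟯ ↥(modularFunctionFieldBar N) :=
  finiteDimensional_uF_of_uModEq hdvd (uCuspEq_uF_prime hq hdvd)

/-- `[F_N : ℚ̄(u)] = (q - 1) ψ(N₀)` for `N = q N₀`, `q ∤ N₀`. -/
theorem finrank_uF (hq : q.Prime) (hN : N = q * N₀) (hqN : ¬ q ∣ N₀) (hdvd : q ∣ N) :
    Module.finrank Qb⟮uF N q hdvd⟯ ↥(modularFunctionFieldBar N) = (q - 1) * dedekindPsi N₀ :=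
  finrank_uF_eq hq hN hqN hdvd (uCuspEq_uF_prime hq hdvd)

/-- `deg (u)_∞ = (q - 1) ψ(N₀)`. -/
theorem degree_poleDiv_uF (hq : q.Prime) (hN : N = q * N₀) (hqN : ¬ q ∣ N₀) (hdvd : q ∣ N) :
    Divisor.degree (poleDiv (Fermat.Agent.RRMod.isRRField_bar N) (uF N q hdvd))
      = (((q - 1) * dedekindPsi N₀ : ℕ) : ℤ) :=
  degree_poleDiv_uF_eq hq hN hqN hdvd (uCuspEq_uF_prime hq hdvd)

end Fermat.Agent.BadRed
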