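/-
Cluster T (bad reduction at `q ∥ N`), M1u, parts U2 + U4 (helper84):

* the function-level description of the Atkin–Lehner involution: if `u, v ∈ F_N` are the
  `q`-expansions of functions `f, g` on `ℍ` and `f ∘ W = g`, then `w_Q u = v`;
  if `(f ∘ W) · f = c` is constant then `w_Q u · u = c`;
* `u(W τ) · u(τ) = Q ^ 12` for `u = Δ(τ) / Δ(Q τ)`;
* hence `w_Q u · u = Q ^ 12` for every `u ∈ F_N` with the `q`-expansion of `Δ(τ) / Δ(Q τ)`.
-/
import Mathlib
import Fermat.Agent.Lib.BadRed.AtkinLehner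

set_option autoImplicit false
set_option linter.unusedVariables false
set_option linter.style.haveILetI false

noncomputable section

namespace Fermat.Agent.AtkinLehner

open UpperHalfPlane Fermat.Agent.S24 ModularCurve
open scoped MatrixGroups ModularForm

/-! ### functions on `ℍ` versus elements of `F_N` -/

/-- an element of `F_N` which is the expansion of a function `f` on `ℍ` is a quotient `a / b`
of elements of `B_N` with `a = f b` on `ℍ`. -/
theorem exists_BN_of_hasExp (N : ℕ) (u : modularFunctionFieldBar N) (f : Fun)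
    (hf : HasExp 1 f (u : LaurentSeries Kbar)) :
    ∃ a b : BN N, b ≠ 0 ∧
      u = equivF N (algebraMap (BN N) (FB N) a / algebraMap (BN N) (FB N) b) ∧
      ∀ τ : ℍ, (a : Fun) τ = f τ * (b : Fun) τ := by
  obtain ⟨a, b, hb, hab⟩ := IsFractionRing.div_surjective (A := BN N) ((equivF N).symm u)
  have hb0 : b ≠ 0 := nonZeroDivisors.ne_zero hb
  have hu : u = equivF N (algebraMap (BN N) (FB N) a / algebraMap (BN N) (FB N) b) := by
    rw [hab, AlgEquiv.apply_symm_apply]
  refine ⟨a, b, hb0, hu, ?_⟩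
  have hbexp : expB N b ≠ 0 := by
    intro h
    exact hb0 (expB_injective N (h.trans (map_zero _).symm))
  have hcoe : (u : LaurentSeries Kbar) = expB N a / expB N b := by
    rw [hu, coe_equivF, map_div₀, expFB_algebraMap, expFB_algebraMap]
  have h1 : HasExp 1 (f * (b : Fun)) (expB N a) := by
    have h2 := hf.mul (hasExp_expB N b)
    rwa [hcoe, div_mul_cancel₀ _ hbexp] at h2
  have h3 := (hasExp_expB N a).fun_unique h1
  intro τ
  rw [h3]
  rfl

/-- **the Atkin–Lehner involution is composition with `W`**: if `u, v ∈ F_N` are the expansions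
of the functions `f, g` on `ℍ` and `f ∘ W = g`, then `w_Q u = v`. -/
theorem atkinLehner_eq_of_hasExp (D : ALData) (u v : modularFunctionFieldBar (D.Q * D.R))
    (f g : Fun) (hf : HasExp 1 f (u : LaurentSeries Kbar))
    (hg : HasExp 1 g (v : LaurentSeries Kbar)) (h : ∀ τ : ℍ, f (D.W τ) = g τ) :
    atkinLehner D u = v := by
  obtain ⟨a, b, hb, hu, hab⟩ := exists_BN_of_hasExp _ u f hf
  obtain ⟨a', b', hb', hv, hab'⟩ := exists_BN_of_hasExp _ v g hg
  have hwb : wB D b ≠ 0 := fun h0 => hb ((wB D).injective (h0.trans (map_zero _).symm))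
  have key : wB D a * b' = a' * wB D b := by
    apply Subtype.ext
    ext τ
    show (wB D a : Fun) τ * (b' : Fun) τ = (a' : Fun) τ * (wB D b : Fun) τ
    rw [wB_apply, wB_apply, coe_wBHom, coe_wBHom, compW_apply, compW_apply, hab (D.W τ), hab' τ,
      h τ]
    ring
  have inj : Function.Injective (algebraMap (BN (D.Q * D.R)) (FB (D.Q * D.R))) :=
    IsFractionRing.injective _ _
  have hb1 : algebraMap (BN (D.Q * D.R)) (FB (D.Q * D.R)) (wB D b) ≠ 0 :=
    fun h0 => hwb (inj (h0.trans (map_zero _).symm))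
  have hb2 : algebraMap (BN (D.Q * D.R)) (FB (D.Q * D.R)) b' ≠ 0 :=
    fun h0 => hb' (inj (h0.trans (map_zero _).symm))
  rw [hu, hv, atkinLehner_apply, AlgEquiv.symm_apply_apply, map_div₀, wFB_algebraMap,
    wFB_algebraMap]
  congr 1
  rw [div_eq_div_iff hb1 hb2, ← map_mul, ← map_mul, key]

/-- if `u ∈ F_N` is the expansion of a function `f` on `ℍ` with `(f ∘ W) · f = c` constant, then
`w_Q u · u = c`. -/
theorem atkinLehner_mul_self_of_hasExp (D : ALData) (u : modularFunctionFieldBar (D.Q * D.R))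
    (f : Fun) (c : Kbar) (hf : HasExp 1 f (u : LaurentSeries Kbar))
    (h : ∀ τ : ℍ, f (D.W τ) * f τ = iota c) :
    atkinLehner D u * u = algebraMap Kbar (modularFunctionFieldBar (D.Q * D.R)) c := by
  obtain ⟨a, b, hb, hu, hab⟩ := exists_BN_of_hasExp _ u f hf
  have hwb : wB D b ≠ 0 := fun h0 => hb ((wB D).injective (h0.trans (map_zero _).symm))
  have key : wB D a * a = algebraMap Kbar (BN (D.Q * D.R)) c * (wB D b * b) := by
    apply Subtype.ext
    ext τ
    show (wB D a : Fun) τ * (a : Fun) τ = iota c * ((wB D b : Fun) τ * (b : Fun) τ)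
    rw [wB_apply, wB_apply, coe_wBHom, coe_wBHom, compW_apply, compW_apply, hab (D.W τ), hab τ,
      ← h τ]
    ring
  have inj : Function.Injective (algebraMap (BN (D.Q * D.R)) (FB (D.Q * D.R))) :=
    IsFractionRing.injective _ _
  have hb1 : algebraMap (BN (D.Q * D.R)) (FB (D.Q * D.R)) (wB D b) ≠ 0 :=
    fun h0 => hwb (inj (h0.trans (map_zero _).symm))
  have hb2 : algebraMap (BN (D.Q * D.R)) (FB (D.Q * D.R)) b ≠ 0 :=
    fun h0 => hb (inj (h0.trans (map_zero _).symm))
  have e1 : atkinLehner D u * u = equivF (D.Q * D.R)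
      (algebraMap (BN (D.Q * D.R)) (FB (D.Q * D.R)) (wB D a * a) /
        algebraMap (BN (D.Q * D.R)) (FB (D.Q * D.R)) (wB D b * b)) := by
    conv_lhs => rw [hu]
    rw [atkinLehner_apply, AlgEquiv.symm_apply_apply, map_div₀, wFB_algebraMap,
      wFB_algebraMap, ← map_mul, div_mul_div_comm, ← map_mul, ← map_mul]
  rw [e1, key, map_mul, mul_div_assoc, div_self (by rw [map_mul]; exact mul_ne_zero hb1 hb2),
    mul_one, ← IsScalarTower.algebraMap_apply, AlgEquiv.commutes]

/-! ### `u = Δ(τ) / Δ(Q τ)` -/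

theorem scale_congr' {d d' : ℕ} [NeZero d] [NeZero d'] (h : d = d') (τ : ℍ) :
    scale d τ = scale d' τ := by
  subst h
  rfl

theorem scale_one' (τ : ℍ) : scale 1 τ = τ := by
  apply UpperHalfPlane.ext
  rw [coe_scale]
  simp

/-- `Δ (γ τ) = Δ (τ) (c τ + d) ^ 12`. -/
theorem discriminant_sl2_smul (γ : SL(2, ℤ)) (τ : ℍ) :
    ModularForm.discriminant (γ • τ) =
      ModularForm.discriminant τ * ((γ 1 0 : ℂ) * (τ : ℂ) + (γ 1 1 : ℂ)) ^ 12 := by
  have h2 : (ModularForm.discriminant ∣[(12 : ℤ)] γ) = ModularForm.discriminant :=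
    SlashInvariantForm.slash_action_eqn CuspForm.discriminant _ ⟨γ, rfl⟩
  have h := congrFun h2 τ
  rw [ModularForm.SL_slash_apply] at h
  have hd : denom γ τ ≠ 0 := denom_ne_zero γ τ
  have hden : denom γ τ = (γ 1 0 : ℂ) * (τ : ℂ) + (γ 1 1 : ℂ) := by
    rw [ModularGroup.denom_apply]
  rw [← hden]
  have h3 : ModularForm.discriminant (γ • τ) =
      ModularForm.discriminant τ * denom γ τ ^ (12 : ℤ) := by
    rw [← h, mul_assoc, ← zpow_add₀ hd]
    simp
  rw [h3]
  norm_cast

/-- **`u (W τ) · u (τ) = Q ^ 12`** for `u (τ) = Δ (τ) / Δ (Q τ)`. -/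
theorem discriminant_ratio_W (D : ALData) [NeZero D.Q] (τ : ℍ) :
    (ModularForm.discriminant (D.W τ) / ModularForm.discriminant (scale D.Q (D.W τ))) *
      (ModularForm.discriminant τ / ModularForm.discriminant (scale D.Q τ)) = (D.Q : ℂ) ^ 12 := by
  haveI : NeZero (1 * 1) := ⟨by norm_num⟩
  haveI : NeZero (D.Q * 1) := ⟨by rw [mul_one]; exact D.hQ.ne'⟩
  have h1 := D.scale_W D.Q 1 1 D.R (mul_one _) (one_mul _) τ
  have h2 := D.scale_W 1 D.Q 1 D.R (one_mul _) (one_mul _) τ
  rw [scale_congr' (mul_one D.Q) (D.W τ), scale_congr' (one_mul 1) τ, scale_one'] at h1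
  rw [scale_congr' (one_mul 1) (D.W τ), scale_one', scale_congr' (mul_one D.Q) τ] at h2
  rw [h1, discriminant_sl2_smul]
  conv_lhs => rw [h2, discriminant_sl2_smul]
  have e1 : ((D.gam D.Q 1 1 D.R (mul_one _) (one_mul _)) 1 0 : ℤ) = (D.R : ℤ) := rfl
  have e2 : ((D.gam D.Q 1 1 D.R (mul_one _) (one_mul _)) 1 1 : ℤ) = ((1 : ℕ) : ℤ) := rfl
  have e3 : ((D.gam 1 D.Q 1 D.R (one_mul _) (one_mul _)) 1 0 : ℤ) = (D.R : ℤ) := rfl
  have e4 : ((D.gam 1 D.Q 1 D.R (one_mul _) (one_mul _)) 1 1 : ℤ) = (D.Q : ℤ) := rfl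
  rw [e1, e2, e3, e4, coe_scale]
  have hΔ1 := ModularForm.discriminant_ne_zero τ
  have hΔ2 := ModularForm.discriminant_ne_zero (scale D.Q τ)
  have hden : ((D.R : ℤ) : ℂ) * (τ : ℂ) + (((1 : ℕ) : ℤ) : ℂ) ≠ 0 := by
    have := GensExp.int_linear_ne_zero (D.R : ℤ) 1 (Or.inr one_ne_zero) τ
    simpa using this
  push_cast at hden ⊢
  field_simp

/-- **`w_Q u · u = Q ^ 12`** for every element `u` of `F_N` whose `q`-expansion is the one of
`Δ (τ) / Δ (Q τ)`. -/
theorem atkinLehner_mul_self_of_hasExp_discriminant (D : ALData) [NeZero D.Q]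
    (u : modularFunctionFieldBar (D.Q * D.R))
    (hu : HasExp 1 (fun τ => ModularForm.discriminant τ / ModularForm.discriminant (scale D.Q τ))
      (u : LaurentSeries Kbar)) :
    atkinLehner D u * u = (D.Q : modularFunctionFieldBar (D.Q * D.R)) ^ 12 := by
  have h := atkinLehner_mul_self_of_hasExp D u _ ((D.Q : Kbar) ^ 12) hu (fun τ => by
    rw [map_pow, map_natCast]
    exact discriminant_ratio_W D τ)
  rw [h, map_pow, map_natCast]

end Fermat.Agent.AtkinLehner
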