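/-
Cluster T (bad reduction at `q ∥ N`), M1u, part U4 (helper84):
**`w_Q (u) · u = Q ^ 12`** for `u = Δ(z) / Δ(Qz) ∈ F_N`, `N = Q R` (helper68's `uF`).
-/
import Mathlib
import Fermat.Agent.Lib.BadRed.Mod.UParamAL
import Fermat.Agent.Lib.BadRed.Mod.UParamFun

set_option autoImplicit false

noncomputable section

namespace Fermat.Agent.AtkinLehner

open UpperHalfPlane Fermat.Agent.S24 ModularCurve Fermat.Agent.BadRed

/-- `u (W τ) · u (τ) = Q ^ 12`. -/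
theorem uFn_W_mul (D : ALData) [NeZero D.Q] (τ : ℍ) :
    uFn D.Q (D.W τ) * uFn D.Q τ = (D.Q : ℂ) ^ 12 :=
  discriminant_ratio_W D τ

/-- **`w_Q (u) · u = Q ^ 12`.** -/
theorem atkinLehner_uF_mul (D : ALData) [NeZero D.Q] [NeZero (D.Q * D.R)] :
    atkinLehner D (uF (D.Q * D.R) D.Q (Dvd.intro _ rfl)) * uF (D.Q * D.R) D.Q (Dvd.intro _ rfl)
      = (D.Q : modularFunctionFieldBar (D.Q * D.R)) ^ 12 :=
  atkinLehner_mul_self_of_hasExp_discriminant D _ (hasExp_uFn D.Q)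

/-- `w_Q (u) = Q ^ 12 / u`. -/
theorem atkinLehner_uF (D : ALData) [NeZero D.Q] [NeZero (D.Q * D.R)] :
    atkinLehner D (uF (D.Q * D.R) D.Q (Dvd.intro _ rfl)) =
      (D.Q : modularFunctionFieldBar (D.Q * D.R)) ^ 12 / uF (D.Q * D.R) D.Q (Dvd.intro _ rfl) := by
  rw [eq_div_iff (uF_ne_zero _ _ _)]
  exact atkinLehner_uF_mul D

end Fermat.Agent.AtkinLehner
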