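import Mathlib
import Fermat.Agent.Lib.BadRed.Nodal.RRNodal
import Fermat.Agent.Lib.BadRed.Nodal.Gluing.Values
import Fermat.Prelude.Def_AlgebraicCurve_BaseChangeGalois

set_option autoImplicit false

/-!
# Cluster T / S35 (P2m), part (ii), abstract form: the square of the Frobenius fixes the nodes
(helper18)

Special fibre only: `Fk / k` a function field, `Φ` a semilinear automorphism of `Fk / k` (the
coefficientwise Frobenius), nodes `s₁ i` on the first component and `s₂ i = Φ⁻¹ • s₁ i` on the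
second one.  `G ⊂ Fk`: the reductions `ḡ` of the integral OLD functions `g = α g₀`; the reductions
of `w g` are `red₁ (w g) = ḡ(t^q) = (Φ⁻¹ • ḡ) ^ q`, `red₂ (w g) = ḡ`.

* `valAt_semilinear_smul_iff` : transport of values, `ValAt (τ • Q) (τ • f) (τ c) ↔ ValAt Q f c`;
* `frob_sq_smul_node₁`, `frob_sq_smul_node₂` : if the NODE CONDITION holds for the functions
  `w g` (`hnode`) and `G` separates the regular places (`hsep`, MA6c), then
  `(Φ * Φ) • s₁ i = s₁ i` and `(Φ * Φ) • s₂ i = s₂ i`: the nodes are rational over the field with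
  `q²` elements.
-/

noncomputable section

open AlgebraicCurve

namespace Fermat.Agent.BadRed

variable {k Fk : Type*} [Field k] [Field Fk] [Algebra k Fk]

/-- transport of values by a semilinear automorphism. -/
theorem valAt_semilinear_smul_iff (τ : SemilinearAut k Fk) (Q : Place k Fk) (f : Fk) (c : k) :
    ValAt (τ • Q) (τ • f) (SemilinearAut.baseAut τ c) ↔ ValAt Q f c := by
  unfold ValAt
  have e : τ • f - algebraMap k Fk (SemilinearAut.baseAut τ c) = τ • (f - algebraMap k Fk c) := by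
    rw [smul_sub, SemilinearAut.smul_algebraMap]
  rw [e, SemilinearAut.ord_smul, ← SemilinearAut.smul_algebraMap]
  constructor
  · rintro (h | h)
    · exact Or.inl (MulAction.injective τ h)
    · exact Or.inr h
  · rintro (h | h)
    · exact Or.inl (by rw [h])
    · exact Or.inr h

/-- transport of the value `0`. -/
theorem valAt_semilinear_smul_zero (τ : SemilinearAut k Fk) {Q : Place k Fk} {f : Fk}
    (h : ValAt Q f 0) : ValAt (τ • Q) (τ • f) 0 := by
  have h1 := (valAt_semilinear_smul_iff τ Q f 0).mpr h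
  rwa [map_zero] at h1

variable {ι : Type*}

/-- **the square of the Frobenius fixes the nodes of the first component.** -/
theorem frob_sq_smul_node₁ (Φ : SemilinearAut k Fk) {q : ℕ} (hq : q ≠ 0)
    (s₁ s₂ : ι → Place k Fk) (hs : ∀ i, s₂ i = Φ⁻¹ • s₁ i) (G : Set Fk)
    (hnode : ∀ g ∈ G, ∀ i, ∃ c : k, ValAt (s₁ i) ((Φ⁻¹ • g) ^ q) c ∧ ValAt (s₂ i) g c)
    (reg : Place k Fk → Prop)
    (hsep : ∀ Q Q', reg Q → reg Q' → Q ≠ Q' → ∃ g ∈ G, ValAt Q g 0 ∧ ValAt Q' g 1)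
    (hreg₁ : ∀ i, reg (Φ • s₁ i)) (hreg₂ : ∀ i, reg (s₂ i)) (i : ι) :
    (Φ * Φ) • s₁ i = s₁ i := by
  by_contra hne
  have hne' : Φ • s₁ i ≠ s₂ i := by
    intro h
    apply hne
    rw [mul_smul, h, hs i, smul_inv_smul]
  obtain ⟨g, hg, h0, h1⟩ := hsep _ _ (hreg₁ i) (hreg₂ i) hne'
  have h2 := valAt_semilinear_smul_zero Φ⁻¹ h0
  rw [inv_smul_smul] at h2
  have h3 := Gluing.valAt_pow h2 q
  rw [zero_pow hq] at h3
  obtain ⟨c, hc₁, hc₂⟩ := hnode g hg i
  have e₁ : c = 0 := hc₁.unique h3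
  have e₂ : c = 1 := hc₂.unique h1
  rw [e₁] at e₂
  exact zero_ne_one e₂

/-- **the square of the Frobenius fixes the nodes of the second component.** -/
theorem frob_sq_smul_node₂ (Φ : SemilinearAut k Fk) {q : ℕ} (hq : q ≠ 0)
    (s₁ s₂ : ι → Place k Fk) (hs : ∀ i, s₂ i = Φ⁻¹ • s₁ i) (G : Set Fk)
    (hnode : ∀ g ∈ G, ∀ i, ∃ c : k, ValAt (s₁ i) ((Φ⁻¹ • g) ^ q) c ∧ ValAt (s₂ i) g c)
    (reg : Place k Fk → Prop)
    (hsep : ∀ Q Q', reg Q → reg Q' → Q ≠ Q' → ∃ g ∈ G, ValAt Q g 0 ∧ ValAt Q' g 1)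
    (hreg₁ : ∀ i, reg (Φ • s₁ i)) (hreg₂ : ∀ i, reg (s₂ i)) (i : ι) :
    (Φ * Φ) • s₂ i = s₂ i := by
  have h := frob_sq_smul_node₁ Φ hq s₁ s₂ hs G hnode reg hsep hreg₁ hreg₂ i
  have e : Φ * Φ * Φ⁻¹ = Φ⁻¹ * (Φ * Φ) := by group
  rw [hs i, ← mul_smul, e, mul_smul, h]

end Fermat.Agent.BadRed
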