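import Mathlib
import Fermat.Agent.Lib.BadRed.Mod.GaussSetup
import Fermat.Agent.Lib.BadRed.Mod.FrobAut
import Fermat.Agent.Lib.BadRed.Mod.ValZero
import Fermat.Agent.Lib.GaussInt.Galois
import Fermat.Agent.Lib.BadRed.Nodal.Deuring2.CanonSemi

set_option autoImplicit false
set_option linter.unusedSectionVars false

/-!
# Cluster T / S35 (P2m), modular part (i): the decomposition group acts semilinearly on a seed
(helper18)

Abstract part (any seed whose divisors are the pole divisors of ONE function `x`):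
* `cs_node_stable_of_zeros` : the zeros of a `τ`-fixed function are permuted by `τ`;
* `NodalSeed.isSemiAut_of_poleDiv` : if `D₀ = (x)_∞`, `R_i = (red_i x)_∞`, `t • x = x`, `t`
  preserves `O_i` with `red_i (t • f) = τ_i • red_i f`, and `τ_i` permutes the nodes, then
  `N.IsSemiAut t τ₁ τ₂` (so `CanonSemi.lean` applies).

Modular part (`S` with `hS : IsGaussSetup N N₀ A S`, `t = arithmeticGalois σ`):
* `IsGaussSetup.mem_of_decomposition` : `σ ∈ D_A` preserves `S.Ov`;
* `IsGaussSetup.red_inertia` : `σ ∈ I_A` ⟹ `S.red (t • f) = S.red f`;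
* `IsGaussSetup.red_frob` : `σ` a Frobenius at `A | q` ⟹ `S.red (t • f) = frobAut • S.red f`;
* `valSetupZero_mem_galois`, `valSetupZero_red_galois` : the same statements pass to
  `v_0 = v_∞ ∘ w_q` (`w_q` commutes with the Galois action);
* `arithmeticGalois_smul_uF` : `u` has rational coefficients, `t • u = u`;
  `arithmeticGalois_smul_seedFun` : `t • (u + ϖ / u) = u + ϖ / u` if `σ ϖ = ϖ` (e.g. `ϖ = q ^ 12`).
-/

noncomputable section

namespace Fermat.Agent.BadRed

open ModularCurve AlgebraicCurve Fermat.Agent.F3 Fermat.Agent.F3G Fermat.Agent.GaussInt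
  Fermat.Agent.AtkinLehner Fermat.Agent.Deuring Fermat.Agent.RR

/-! ### abstract part -/

section Abstract

variable {K F k Fk₁ Fk₂ : Type*} [Field K] [Field F] [Algebra K F]
  [Field k] [Field Fk₁] [Algebra k Fk₁] [Field Fk₂] [Algebra k Fk₂] {ι : Type*}

/-- the zeros of a `τ`-fixed function are permuted by `τ`. -/
theorem cs_node_stable_of_zeros {Fk : Type*} [Field Fk] [Algebra k Fk] (τ : SemilinearAut k Fk)
    (s : ι → Place k Fk) (y : Fk) (hτy : τ • y = y) (hs : ∀ i, 0 < (s i).ord y)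
    (hz : ∀ Q : Place k Fk, 0 < Q.ord y → ∃ i, Q = s i) : ∀ i, ∃ j, τ • s i = s j := by
  intro i
  apply hz
  have h := SemilinearAut.ord_smul τ (s i) y
  rw [hτy] at h
  rw [h]
  exact hs i

/-- the pole divisor of a `t`-fixed function is `t`-stable. -/
theorem cs_poleDiv_smul (h : IsRRField K F) (t : SemilinearAut K F) {x : F} (htx : t • x = x)
    (P : Place K F) : poleDiv h x (t • P) = poleDiv h x P := by
  rw [poleDiv_apply, poleDiv_apply]
  have h1 := SemilinearAut.ord_smul t P x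
  rw [htx] at h1
  rw [h1]

variable [Fintype ι]

/-- **semilinear automorphisms of a seed of the form** `D₀ = (x)_∞`, `R_i = (red_i x)_∞`. -/
theorem NodalSeed.isSemiAut_of_poleDiv (N : NodalSeed K F k Fk₁ Fk₂ ι) {x : F}
    (hx₁ : x ∈ N.S₁.Ov) (hx₂ : x ∈ N.S₂.Ov)
    (hD : N.D₀ = poleDiv N.S₁.hF x) (hR₁ : N.R₁ = poleDiv N.S₁.hFk (N.S₁.red x))
    (hR₂ : N.R₂ = poleDiv N.S₂.hFk (N.S₂.red x))
    {t : SemilinearAut K F} {τ₁ : SemilinearAut k Fk₁} {τ₂ : SemilinearAut k Fk₂}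
    (hm₁ : ∀ f : F, f ∈ N.S₁.Ov → t • f ∈ N.S₁.Ov)
    (hr₁ : ∀ f : F, f ∈ N.S₁.Ov → N.S₁.red (t • f) = τ₁ • N.S₁.red f)
    (hm₂ : ∀ f : F, f ∈ N.S₂.Ov → t • f ∈ N.S₂.Ov)
    (hr₂ : ∀ f : F, f ∈ N.S₂.Ov → N.S₂.red (t • f) = τ₂ • N.S₂.red f)
    (htx : t • x = x)
    (hn₁ : ∀ i, ∃ j, τ₁ • N.s₁ i = N.s₁ j) (hn₂ : ∀ i, ∃ j, τ₂ • N.s₂ i = N.s₂ j) :
    N.IsSemiAut t τ₁ τ₂ where
  mem₁ := hm₁
  red₁ := hr₁
  mem₂ := hm₂
  red₂ := hr₂
  D₀_smul P := by
    rw [hD]
    exact cs_poleDiv_smul N.S₁.hF t htx P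
  R₁_smul Q := by
    rw [hR₁]
    refine cs_poleDiv_smul N.S₁.hFk τ₁ ?_ Q
    rw [← hr₁ x hx₁, htx]
  R₂_smul Q := by
    rw [hR₂]
    refine cs_poleDiv_smul N.S₂.hFk τ₂ ?_ Q
    rw [← hr₂ x hx₂, htx]
  node₁ := hn₁
  node₂ := hn₂

end Abstract

/-! ### modular part -/

section Modular

set_option synthInstance.maxHeartbeats 400000

local notation "Qb" => AlgebraicClosure ℚ

variable {N N₀ : ℕ} [NeZero N] [NeZero N₀] {A : ValuationSubring Qb}
  {S : ValSetup Qb (FBar N) (IsLocalRing.ResidueField A)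
    (modularFunctionFieldFullC (IsLocalRing.ResidueField A) N₀)}

/-- the coefficientwise Galois action preserves `F_N`. -/
theorem gs_coeffMap_mem_bar (N : ℕ) (σ : Qb ≃ₐ[ℚ] Qb) :
    ∀ y ∈ modularFunctionFieldBar N, coeffMap (σ : Qb →+* Qb) y ∈ modularFunctionFieldBar N :=
  fun _ hy => coeffMap_mem_laurentBaseChange σ hy

/-- the decomposition group preserves the Gauss ring. -/
theorem IsGaussSetup.mem_of_decomposition (hS : IsGaussSetup N N₀ A S) (σ : Qb ≃ₐ[ℚ] Qb)
    (hσ : σ ∈ A.decompositionSubgroup ℚ) (f : FBar N) (hf : f ∈ S.Ov) :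
    arithmeticGalois (modularFunctionFieldFull N) σ • f ∈ S.Ov := by
  rw [hS.mem_iff] at hf ⊢
  rw [coe_arithmeticGalois_smul]
  exact (gaussResFun_decomposition σ hσ (gs_coeffMap_mem_bar N σ) hf).1

/-- a Frobenius element preserves the Gauss ring. -/
theorem IsGaussSetup.mem_of_frob (hS : IsGaussSetup N N₀ A S) (σ : Qb ≃ₐ[ℚ] Qb) {q : ℕ}
    (hσ : A.IsFrobeniusAt σ q) (f : FBar N) (hf : f ∈ S.Ov) :
    arithmeticGalois (modularFunctionFieldFull N) σ • f ∈ S.Ov :=
  hS.mem_of_decomposition σ hσ.mem_decompositionSubgroup f hf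

/-- the inertia group preserves the Gauss ring. -/
theorem IsGaussSetup.mem_of_inertia (hS : IsGaussSetup N N₀ A S) (σ : Qb ≃ₐ[ℚ] Qb)
    (hσ : σ ∈ A.inertiaSubgroupIn ℚ) (f : FBar N) (hf : f ∈ S.Ov) :
    arithmeticGalois (modularFunctionFieldFull N) σ • f ∈ S.Ov := by
  rw [hS.mem_iff] at hf ⊢
  rw [coe_arithmeticGalois_smul]
  exact coeffMap_mem_gaussSub_of_inertia σ hσ (gs_coeffMap_mem_bar N σ) hf

/-- the inertia group acts trivially on the reductions. -/
theorem IsGaussSetup.red_inertia (hS : IsGaussSetup N N₀ A S) (σ : Qb ≃ₐ[ℚ] Qb)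
    (hσ : σ ∈ A.inertiaSubgroupIn ℚ) (f : FBar N) (hf : f ∈ S.Ov) :
    S.red (arithmeticGalois (modularFunctionFieldFull N) σ • f) = S.red f := by
  have hf' := (hS.mem_iff f).mp hf
  apply Subtype.ext
  rw [hS.coe_red _ (hS.mem_of_inertia σ hσ f hf), hS.coe_red f hf, coe_arithmeticGalois_smul]
  exact gaussResFun_inertia σ hσ (gs_coeffMap_mem_bar N σ) hf'

/-- **a Frobenius element acts on the reductions through the coefficientwise Frobenius.** -/
theorem IsGaussSetup.red_frob (hS : IsGaussSetup N N₀ A S) (σ : Qb ≃ₐ[ℚ] Qb) {q : ℕ}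
    [Fact q.Prime] [CharP (IsLocalRing.ResidueField A) q]
    [PerfectRing (IsLocalRing.ResidueField A) q]
    (hσ : A.IsFrobeniusAt σ q) (f : FBar N) (hf : f ∈ S.Ov) :
    S.red (arithmeticGalois (modularFunctionFieldFull N) σ • f) =
      frobAut (IsLocalRing.ResidueField A) N₀ q • S.red f := by
  have hf' := (hS.mem_iff f).mp hf
  apply Subtype.ext
  rw [hS.coe_red _ (hS.mem_of_frob σ hσ f hf), coe_frobAut_smul, hS.coe_red f hf,
    coe_arithmeticGalois_smul]
  ext n
  rw [gaussResFun_frobenius_coeff σ hσ (gs_coeffMap_mem_bar N σ) hf' n, coeffMap_coeff]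
  rfl

/-- `u = Δ(z) / Δ(qz)` has rational coefficients. -/
theorem arithmeticGalois_smul_uF (N q : ℕ) [NeZero N] [NeZero q] (hq : q ∣ N)
    (σ : Qb ≃ₐ[ℚ] Qb) :
    arithmeticGalois (modularFunctionFieldFull N) σ • uF N q hq = uF N q hq := by
  apply Subtype.ext
  rw [coe_arithmeticGalois_smul, coe_uF, coeffMap_uSer]

/-- the seed function `u + ϖ / u`, `ϖ` fixed by `σ`, is fixed by the Galois action. -/
theorem arithmeticGalois_smul_seedFun (N q : ℕ) [NeZero N] [NeZero q] (hq : q ∣ N)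
    (σ : Qb ≃ₐ[ℚ] Qb) (ϖ : Qb) (hϖ : σ ϖ = ϖ) :
    arithmeticGalois (modularFunctionFieldFull N) σ •
        (uF N q hq + algebraMap Qb (FBar N) ϖ / uF N q hq) =
      uF N q hq + algebraMap Qb (FBar N) ϖ / uF N q hq := by
  rw [smul_add, Gluing.sl_smul_div, arithmeticGalois_smul_uF, SemilinearAut.smul_algebraMap]
  have e : SemilinearAut.baseAut (arithmeticGalois (modularFunctionFieldFull N) σ) ϖ = ϖ := hϖ
  rw [e]

/-- the seed function `u + q ^ 12 / u` is fixed by the Galois action. -/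
theorem arithmeticGalois_smul_seedFun_pow (N q : ℕ) [NeZero N] [NeZero q] (hq : q ∣ N)
    (σ : Qb ≃ₐ[ℚ] Qb) (e : ℕ) :
    arithmeticGalois (modularFunctionFieldFull N) σ •
        (uF N q hq + algebraMap Qb (FBar N) ((q : Qb) ^ e) / uF N q hq) =
      uF N q hq + algebraMap Qb (FBar N) ((q : Qb) ^ e) / uF N q hq :=
  arithmeticGalois_smul_seedFun N q hq σ _ (by rw [map_pow, map_natCast])

end Modular

/-! ### the second valuation `v_0 = v_∞ ∘ w_q` -/

section Zero

local notation "Qb" => AlgebraicClosure ℚ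

variable {k Fk : Type*} [Field k] [Field Fk] [Algebra k Fk] (D : ALData)
  (S : ValSetup Qb (modularFunctionFieldBar (D.Q * D.R)) k Fk)

/-- `w_q` commutes with the Galois action, elementwise. -/
theorem atkinLehner_galois_smul (σ : Qb ≃ₐ[ℚ] Qb) (f : modularFunctionFieldBar (D.Q * D.R)) :
    atkinLehner D (arithmeticGalois (modularFunctionFieldFull (D.Q * D.R)) σ • f) =
      arithmeticGalois (modularFunctionFieldFull (D.Q * D.R)) σ • atkinLehner D f :=
  atkinLehner_arithmeticRingAut D σ f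

/-- if the Galois element `σ` preserves `O_∞`, it preserves `O_0`. -/
theorem valSetupZero_mem_galois (σ : Qb ≃ₐ[ℚ] Qb)
    (hm : ∀ f, f ∈ S.Ov → arithmeticGalois (modularFunctionFieldFull (D.Q * D.R)) σ • f ∈ S.Ov)
    (f : modularFunctionFieldBar (D.Q * D.R)) (hf : f ∈ (valSetupZero D S).Ov) :
    arithmeticGalois (modularFunctionFieldFull (D.Q * D.R)) σ • f ∈ (valSetupZero D S).Ov := by
  rw [mem_valSetupZero_Ov] at hf ⊢
  rw [atkinLehner_galois_smul]
  exact hm _ hf

/-- if the Galois element `σ` acts on the reductions for `v_∞` through `τ`, it acts on the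
reductions for `v_0` through `τ`. -/
theorem valSetupZero_red_galois (σ : Qb ≃ₐ[ℚ] Qb) (τ : Fk → Fk)
    (hr : ∀ f, f ∈ S.Ov →
      S.red (arithmeticGalois (modularFunctionFieldFull (D.Q * D.R)) σ • f) = τ (S.red f))
    (f : modularFunctionFieldBar (D.Q * D.R)) (hf : f ∈ (valSetupZero D S).Ov) :
    (valSetupZero D S).red (arithmeticGalois (modularFunctionFieldFull (D.Q * D.R)) σ • f) =
      τ ((valSetupZero D S).red f) := by
  rw [mem_valSetupZero_Ov] at hf
  rw [valSetupZero_red, valSetupZero_red, atkinLehner_galois_smul]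
  exact hr _ hf

end Zero

end Fermat.Agent.BadRed
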