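/-
Cluster T (bad reduction at `q ∥ N`), modular side (helper84): **`w_Q ∘ α = β`**.

`N = Q R`.  The two degeneracy maps `α, β : F_R → F_{QR}` (`α` = inclusion, `β` = `q ↦ q^Q`;
the Prelude's `heckeAlphaBar`, `heckeBetaBar` with the level `R * Q` rewritten as `Q * R`)
are exchanged by the Atkin–Lehner involution `w_Q`.
-/
import Mathlib
import Fermat.Prelude.Def_ModularCurve_HeckeOperator
import Fermat.Prelude.Def_ModularCurve_X0ModL
import Fermat.Agent.Lib.BadRed.AtkinLehner

set_option autoImplicit false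
set_option linter.unusedVariables false
set_option linter.style.haveILetI false

noncomputable section

namespace Fermat.Agent.AtkinLehner

open Fermat.Agent.S24 ModularCurve

theorem le_level_mul (D : ALData) [NeZero D.Q] [NeZero D.R] :
    modularFunctionFieldBar D.R ≤ modularFunctionFieldBar (D.Q * D.R) := by
  intro x hx
  have h := (heckeAlphaBar Kbar D.R D.Q ⟨x, hx⟩).2
  rw [coe_heckeAlphaBar, mul_comm] at h
  exact h

theorem qExpand_mem_level_mul (D : ALData) [NeZero D.Q] [NeZero D.R]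
    (x : modularFunctionFieldBar D.R) :
    qExpand Kbar D.Q (x : LaurentSeries Kbar) ∈ modularFunctionFieldBar (D.Q * D.R) := by
  have h := (heckeBetaBar Kbar D.R D.Q x).2
  rw [coe_heckeBetaBar, mul_comm] at h
  exact h

/-- the degeneracy map `α : F_R → F_{QR}` (inclusion). -/
def alphaQ (D : ALData) [NeZero D.Q] [NeZero D.R] :
    modularFunctionFieldBar D.R →ₐ[Kbar] modularFunctionFieldBar (D.Q * D.R) :=
  IntermediateField.inclusion (le_level_mul D)

/-- the degeneracy map `β : F_R → F_{QR}` (`f(q) ↦ f(q^Q)`). -/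
def betaQ (D : ALData) [NeZero D.Q] [NeZero D.R] :
    modularFunctionFieldBar D.R →ₐ[Kbar] modularFunctionFieldBar (D.Q * D.R) :=
  ((qExpandAlgHomC Kbar D.Q).comp (modularFunctionFieldBar D.R).val).codRestrict
    (modularFunctionFieldBar (D.Q * D.R)).toSubalgebra (fun x => qExpand_mem_level_mul D x)

theorem coe_alphaQ (D : ALData) [NeZero D.Q] [NeZero D.R] (x : modularFunctionFieldBar D.R) :
    ((alphaQ D x : modularFunctionFieldBar (D.Q * D.R)) : LaurentSeries Kbar) =
      (x : LaurentSeries Kbar) :=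
  IntermediateField.coe_inclusion _ x

theorem coe_betaQ (D : ALData) [NeZero D.Q] [NeZero D.R] (x : modularFunctionFieldBar D.R) :
    ((betaQ D x : modularFunctionFieldBar (D.Q * D.R)) : LaurentSeries Kbar) =
      qExpand Kbar D.Q (x : LaurentSeries Kbar) := rfl

/-- `α` is the Prelude's `heckeAlphaBar` (levels `Q * R` and `R * Q`). -/
theorem coe_alphaQ_eq_heckeAlphaBar (D : ALData) [NeZero D.Q] [NeZero D.R]
    (x : modularFunctionFieldBar D.R) :
    ((alphaQ D x : modularFunctionFieldBar (D.Q * D.R)) : LaurentSeries Kbar) =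
      (heckeAlphaBar Kbar D.R D.Q x : LaurentSeries Kbar) := by
  rw [coe_alphaQ, coe_heckeAlphaBar]

/-- `β` is the Prelude's `heckeBetaBar` (levels `Q * R` and `R * Q`). -/
theorem coe_betaQ_eq_heckeBetaBar (D : ALData) [NeZero D.Q] [NeZero D.R]
    (x : modularFunctionFieldBar D.R) :
    ((betaQ D x : modularFunctionFieldBar (D.Q * D.R)) : LaurentSeries Kbar) =
      (heckeBetaBar Kbar D.R D.Q x : LaurentSeries Kbar) := by
  rw [coe_betaQ, coe_heckeBetaBar]

theorem alphaQ_jF (D : ALData) [NeZero D.Q] [NeZero D.R] (d : ℕ) [NeZero d] (hd : d ∣ D.R) :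
    alphaQ D (jF D.R d hd) = jF (D.Q * D.R) d (hd.trans (Dvd.intro_left _ rfl)) := by
  apply Subtype.ext
  rw [coe_alphaQ, coe_jF, coe_jF]

theorem betaQ_jF (D : ALData) [NeZero D.Q] [NeZero D.R] (d : ℕ) [NeZero d] [NeZero (D.Q * d)]
    (hd : d ∣ D.R) :
    betaQ D (jF D.R d hd) = jF (D.Q * D.R) (D.Q * d) (Nat.mul_dvd_mul_left _ hd) := by
  apply Subtype.ext
  rw [coe_betaQ, coe_jF, coe_jF, qExpand_qExpand]

/-- **`w_Q ∘ α = β`.** -/
theorem atkinLehner_alphaQ (D : ALData) [NeZero D.Q] [NeZero D.R]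
    (x : modularFunctionFieldBar D.R) :
    atkinLehner D (alphaQ D x) = betaQ D x := by
  have key : (atkinLehner D).toAlgHom.comp (alphaQ D) = betaQ D := by
    refine IntermediateField.algHom_ext_of_eq_adjoin _
      (modularFunctionFieldBar_eq_adjoin D.R) ?_
    rintro y ⟨d, hdne, hd, rfl⟩
    obtain ⟨f₂, hf₂⟩ := hd
    haveI : NeZero (1 * d) := ⟨by rw [one_mul]; exact NeZero.ne d⟩
    haveI : NeZero (D.Q * d) := ⟨Nat.mul_ne_zero (NeZero.ne _) (NeZero.ne d)⟩
    have hd' : d ∣ D.R := ⟨f₂, hf₂⟩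
    show atkinLehner D (alphaQ D (jF D.R d hd')) = betaQ D (jF D.R d hd')
    rw [alphaQ_jF, betaQ_jF]
    have h := atkinLehner_jF D 1 D.Q d f₂ (one_mul _) hf₂.symm
      (by rw [one_mul]; exact hd'.trans (Dvd.intro_left _ rfl)) (Nat.mul_dvd_mul_left _ hd')
    rw [← h]
    congr 1
    exact jF_congr _ (one_mul d).symm _ _
  exact congrArg (fun φ : modularFunctionFieldBar D.R →ₐ[Kbar]
    modularFunctionFieldBar (D.Q * D.R) => φ x) key

/-- **`w_Q ∘ β = α`.** -/
theorem atkinLehner_betaQ (D : ALData) [NeZero D.Q] [NeZero D.R]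
    (x : modularFunctionFieldBar D.R) :
    atkinLehner D (betaQ D x) = alphaQ D x := by
  rw [← atkinLehner_alphaQ, atkinLehner_atkinLehner]

/-- `w_Q ∘ α = β` in terms of `q`-expansions: on the functions of level `R`, `w_Q` is
`f(q) ↦ f(q^Q)`. -/
theorem coe_atkinLehner_of_mem (D : ALData) [NeZero D.Q] [NeZero D.R]
    (x : modularFunctionFieldBar (D.Q * D.R))
    (hx : (x : LaurentSeries Kbar) ∈ modularFunctionFieldBar D.R) :
    ((atkinLehner D x : modularFunctionFieldBar (D.Q * D.R)) : LaurentSeries Kbar) =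
      qExpand Kbar D.Q (x : LaurentSeries Kbar) := by
  have e : x = alphaQ D ⟨x, hx⟩ := by
    apply Subtype.ext
    rw [coe_alphaQ]
  rw [e, atkinLehner_alphaQ, coe_betaQ, coe_alphaQ]

end Fermat.Agent.AtkinLehner
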