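import Fermat.Agent.Lib.BadRed.Mod.SSPoly
import Fermat.Agent.Lib.BadRed.Mod.SSArith
import Fermat.Agent.Lib.GoodRed.ModularFibres
import Fermat.Agent.Lib.GoodRed.Small.PolyOrd
import Fermat.Agent.Lib.GenusEq.GenusFM
import Fermat.Agent.S24.Comb

/-!
# Cluster T / M3: the count of supersingular points, `q ≥ 5` (helper98)

`ssCount_ge`: for a prime `q ≥ 5`, `q ∤ N₀`, a place `A` of `ℚ̄` over `q` with residue field `k`,
and `h ∈ F_k(N₀)` with `q`-expansion `ssFun k q = Δ̄^{-(q-1)}` (the reduction of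
`u = Δ(z)/Δ(qz)`):

  `g(X₀(q N₀)) + 1 ≤ 2 g(X₀(N₀) mod q) + #{zeros of h}`.

This is the field `genus_le` of `NodalSeed` for the nodes = the zeros of `h` (the supersingular
points).

Proof: `h = u₀ P(j̄)` (`ssPoly`), the zeros of `h` contain the fibres of `j̄` over the roots of `P`
(`sum_card_fibre_le`), the fibres have `ψ`, `(ψ + 2ν₃)/3`, `(ψ + ν₂)/2` points (helper24's
`card_fibre_jC_*` + S24/Comb), `deg P = q - 1` with multiplicities `≤ 12, 4, 6`, and the
arithmetic of the genus formula (`ssArith`, helper94).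
-/

set_option autoImplicit false
set_option linter.unusedSectionVars false
set_option linter.style.haveILetI false

noncomputable section

open AlgebraicCurve Polynomial ModularCurve Fermat.Agent.RR

set_option synthInstance.maxHeartbeats 400000
set_option maxHeartbeats 1000000

namespace Fermat.Agent.BadRed

section Abstract

variable {K F : Type*} [Field K] [Field F] [Algebra K F]

/-- the fibres of `x` over distinct constants are disjoint. -/
lemma fibre_const_unique (v : Place K F) {x : F} {c c' : K}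
    (hc : 0 < v.ord (x - algebraMap K F c)) (hc' : 0 < v.ord (x - algebraMap K F c')) :
    c = c' := by
  by_contra hne
  have h1 : x - algebraMap K F c - algebraMap K F (c' - c) = x - algebraMap K F c' := by
    rw [map_sub]
    ring
  have h2 := Fermat.Agent.GoodRedSmall.ord_eq_zero_of_sub_pos v
    (sub_ne_zero.mpr (Ne.symm hne)) (f := x - algebraMap K F c) (by rw [h1]; exact hc')
  omega

/-- a zero of `x - c`, `c` a root of `P`, is a zero of `u₀ P(x)`. -/
lemma ord_pos_of_root (v : Place K F) {x : F} {c : K} {P : K[X]} (hP : P ≠ 0)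
    (hc : P.IsRoot c) (hv : 0 < v.ord (x - algebraMap K F c)) {u₀ : K} (hu : u₀ ≠ 0) :
    0 < v.ord (algebraMap K F u₀ * Polynomial.aeval x P) := by
  have h1 := Fermat.Agent.GoodRedSmall.ord_aeval_eq v hv hP
  have hm : 0 < P.rootMultiplicity c := (Polynomial.rootMultiplicity_pos hP).mpr hc
  have h2 : 0 < v.ord (Polynomial.aeval x P) := by
    rw [h1]
    exact mul_pos (by exact_mod_cast hm) hv
  have hne : Polynomial.aeval x P ≠ 0 := by
    intro h0
    rw [h0, v.ord_zero] at h2
    exact lt_irrefl _ h2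
  have hu' : algebraMap K F u₀ ≠ 0 := by
    rwa [ne_eq, map_eq_zero_iff _ (algebraMap K F).injective]
  rw [v.ord_mul hu' hne, Fermat.Agent.GoodRedSmall.ord_const, zero_add]
  exact h2

/-- **the zeros of `u₀ P(x)` contain the (disjoint) fibres of `x` over the roots of `P`.** -/
theorem sum_card_fibre_le [DecidableEq K] (hRR : IsRRField K F) {x : F} {P : K[X]} (hP : P ≠ 0)
    {u₀ : K} (hu : u₀ ≠ 0) :
    ∑ c ∈ P.roots.toFinset, Nat.card {v : Place K F // 0 < v.ord (x - algebraMap K F c)} ≤
      Nat.card {v : Place K F // 0 < v.ord (algebraMap K F u₀ * Polynomial.aeval x P)} := by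
  classical
  set h : F := algebraMap K F u₀ * Polynomial.aeval x P with hh
  set Z : Finset (Place K F) := (finite_zeros hRR h).toFinset with hZ
  set Fc : K → Finset (Place K F) :=
    fun c => (finite_zeros hRR (x - algebraMap K F c)).toFinset with hFc
  have hcard : ∀ c, Nat.card {v : Place K F // 0 < v.ord (x - algebraMap K F c)} = (Fc c).card := by
    intro c
    change Nat.card ↥{v : Place K F | 0 < v.ord (x - algebraMap K F c)} = _
    rw [Nat.card_coe_set_eq, Set.ncard_eq_toFinset_card _ (finite_zeros hRR _)]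
  have hZc : Nat.card {v : Place K F // 0 < v.ord h} = Z.card := by
    change Nat.card ↥{v : Place K F | 0 < v.ord h} = _
    rw [Nat.card_coe_set_eq, Set.ncard_eq_toFinset_card _ (finite_zeros hRR _)]
  rw [hZc, Finset.sum_congr rfl (fun c _ => hcard c), ← Finset.card_biUnion]
  · apply Finset.card_le_card
    intro v hv
    rw [Finset.mem_biUnion] at hv
    obtain ⟨c, hc, hvc⟩ := hv
    have hroot : P.IsRoot c := by
      have := Multiset.mem_toFinset.mp hc
      exact (Polynomial.mem_roots hP).mp this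
    have hvc' : 0 < v.ord (x - algebraMap K F c) := by
      have := (Set.Finite.mem_toFinset _).mp hvc
      exact this
    rw [hZ, Set.Finite.mem_toFinset]
    exact ord_pos_of_root v hP hroot hvc' hu
  · intro c _ c' _ hne
    rw [Function.onFun, Finset.disjoint_left]
    intro v hv hv'
    have h1 : 0 < v.ord (x - algebraMap K F c) := by
      have := (Set.Finite.mem_toFinset _).mp hv
      exact this
    have h2 : 0 < v.ord (x - algebraMap K F c') := by
      have := (Set.Finite.mem_toFinset _).mp hv'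
      exact this
    exact hne (fibre_const_unique v h1 h2)

/-- over an algebraically closed field the root multiplicities add up to the degree. -/
lemma sum_rootMultiplicity_eq_natDegree [DecidableEq K] [IsAlgClosed K] (P : K[X]) :
    ∑ c ∈ P.roots.toFinset, P.rootMultiplicity c = P.natDegree := by
  classical
  have h1 : ∑ c ∈ P.roots.toFinset, P.roots.count c = P.roots.card :=
    Multiset.toFinset_sum_count_eq P.roots
  have h2 : P.roots.card = P.natDegree :=
    (IsAlgClosed.splits P).natDegree_eq_card_roots.symm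
  rw [← h2, ← h1]
  refine Finset.sum_congr rfl (fun c _ => ?_)
  rw [Polynomial.count_roots]

end Abstract

section Count

local notation "Qb" => AlgebraicClosure ℚ

open Fermat.Agent.GoodRed Fermat.Agent.GaussInt Fermat.Agent.S24

/-- the arithmetic core of the count. -/
lemma ssCount_arith {κ : Type*} [Field κ] [DecidableEq κ] (h1728 : (1728 : κ) ≠ 0)
    (R : Finset κ) (mult n : κ → ℕ) (ψ ν₂ ν₃ o₂ o₃ d : ℕ)
    (h2 : 2 * o₂ = ψ + ν₂) (h3 : 3 * o₃ = ψ + 2 * ν₃)
    (hn : ∀ c ∈ R, c ≠ 0 → c ≠ 1728 → n c = ψ)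
    (hn0 : n 0 = o₃) (hn1 : n 1728 = o₂)
    (hm : ∀ c, mult c ≤ 12) (hm0 : mult 0 ≤ 4) (hm1 : mult 1728 ≤ 6)
    (hsum : ∑ c ∈ R, mult c = d) :
    d * ψ + (if (0 : κ) ∈ R then 8 * ν₃ else 0) + (if (1728 : κ) ∈ R then 6 * ν₂ else 0) ≤
      12 * ∑ c ∈ R, n c := by
  have hpt : ∀ c ∈ R, mult c * ψ + ((if c = 0 then 8 * ν₃ else 0) +
      (if c = 1728 then 6 * ν₂ else 0)) ≤ 12 * n c := by
    intro c hc
    by_cases hc0 : c = 0
    · subst hc0
      have hne : (0 : κ) ≠ 1728 := fun h => h1728 h.symm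
      rw [if_pos rfl, if_neg hne, hn0]
      have : mult 0 * ψ ≤ 4 * ψ := Nat.mul_le_mul_right _ hm0
      omega
    · by_cases hc1 : c = 1728
      · subst hc1
        rw [if_neg hc0, if_pos rfl, hn1]
        have : mult 1728 * ψ ≤ 6 * ψ := Nat.mul_le_mul_right _ hm1
        omega
      · rw [if_neg hc0, if_neg hc1, hn c hc hc0 hc1]
        have : mult c * ψ ≤ 12 * ψ := Nat.mul_le_mul_right _ (hm c)
        omega
  have hs := Finset.sum_le_sum hpt
  rw [Finset.sum_add_distrib, Finset.sum_add_distrib, ← Finset.sum_mul, hsum, ← Finset.mul_sum,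
    Finset.sum_ite_eq', Finset.sum_ite_eq'] at hs
  omega

/-- **(G) the count of supersingular points**, `q ≥ 5`: `g(q N₀) + 1 ≤ 2 g₀ + s`, `s` the number
of zeros of the reduction `h` of `u` on `X₀(N₀)` mod `q`. -/
theorem ssCount_ge (N₀ N : ℕ) [NeZero N₀] [NeZero N] {q : ℕ} (hq : q.Prime) (h5 : 5 ≤ q)
    (hqN : ¬ q ∣ N₀) (hN : N = q * N₀)
    {A : ValuationSubring Qb} (hA : A.LiesOverPrime q)
    (h : modularFunctionFieldFullC (IsLocalRing.ResidueField A) N₀)
    (hh : (h : LaurentSeries (IsLocalRing.ResidueField A)) =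
      ssFun (IsLocalRing.ResidueField A) q) :
    genusFF Qb ↥(modularFunctionFieldBar N) + 1 ≤
      genusFF (IsLocalRing.ResidueField A)
          ↥(modularFunctionFieldFullC (IsLocalRing.ResidueField A) N₀) +
        genusFF (IsLocalRing.ResidueField A)
          ↥(modularFunctionFieldFullC (IsLocalRing.ResidueField A) N₀) +
        Nat.card {v : Place (IsLocalRing.ResidueField A)
          ↥(modularFunctionFieldFullC (IsLocalRing.ResidueField A) N₀) // 0 < v.ord h} := by
  classical
  subst hN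
  haveI : Fact q.Prime := ⟨hq⟩
  haveI : CharP (IsLocalRing.ResidueField A) q := Fermat.Agent.FrobTrace.charP_residueField A hA
  haveI : IsAlgClosed (IsLocalRing.ResidueField A) := isAlgClosed_residue A
  have hq2 : q ≠ 2 := by omega
  have hq3 : q ≠ 3 := by omega
  obtain ⟨P, u₀, hu₀, hdeg, hss, hm, hm0, hm1, hz0, hz1⟩ :=
    ssPoly (IsLocalRing.ResidueField A) q h5
  have h1728 : (1728 : IsLocalRing.ResidueField A) ≠ 0 := Fermat.Agent.SwD.ne_zero_1728 q h5
  have hP0 : P ≠ 0 := by
    rintro rfl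
    rw [Polynomial.natDegree_zero] at hdeg
    omega
  -- `h = u₀ P(j̄)` in `F_k`
  have hh' : h = algebraMap (IsLocalRing.ResidueField A) _ u₀ *
      Polynomial.aeval (Fermat.Agent.RRMod.jC (IsLocalRing.ResidueField A) N₀) P := by
    apply Subtype.ext
    rw [hh, hss, MulMemClass.coe_mul, ← IntermediateField.aeval_coe, Fermat.Agent.RRMod.coe_jC,
      ← algebraMap_mul_laurent]
    rfl
  have hRR := Fermat.Agent.RRMod.isRRField_fullC' (IsLocalRing.ResidueField A) N₀
  have hcount := sum_card_fibre_le hRR (x := Fermat.Agent.RRMod.jC (IsLocalRing.ResidueField A) N₀)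
    hP0 hu₀
  rw [← hh'] at hcount
  -- the arithmetic
  have harith := ssCount_arith h1728 P.roots.toFinset (fun c => P.rootMultiplicity c)
    (fun c => Nat.card {v : Place (IsLocalRing.ResidueField A)
        ↥(modularFunctionFieldFullC (IsLocalRing.ResidueField A) N₀) //
        0 < v.ord (Fermat.Agent.RRMod.jC (IsLocalRing.ResidueField A) N₀ -
          algebraMap (IsLocalRing.ResidueField A) _ c)})
    (dedekindPsi N₀) (nuTwo N₀) (nuThree N₀)
    (orbCount (CongruenceSubgroup.Gamma0 N₀) ModularGroup.S)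
    (orbCount (CongruenceSubgroup.Gamma0 N₀) (ModularGroup.S * ModularGroup.T)) (q - 1)
    (two_mul_orbCount_S N₀) (three_mul_orbCount_ST N₀)
    (fun c _ hc0 hc1 => by
      rw [card_fibre_jC_of_ne N₀ hq hA hqN hq2 hq3 c hc0 hc1, index_Gamma0])
    (card_fibre_jC_zero N₀ hq hA hqN hq2 hq3)
    (card_fibre_jC_1728 N₀ hq hA hqN hq2 hq3)
    hm hm0 hm1 (by rw [sum_rootMultiplicity_eq_natDegree, hdeg])
  -- the genus formula
  have hA₀ := ssArith N₀ q (NeZero.ne N₀) hq h5 hqN
  have hg₀ := Fermat.Agent.GenusEq.genusFF_modularFunctionFieldBar N₀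
  have hg := Fermat.Agent.GenusEq.genusFF_modularFunctionFieldBar (q * N₀)
  have hgk := genusFF_modular_eq N₀ hq hA hqN hq2 hq3
  rw [← hgk]
  rw [← hg, ← hg₀] at hA₀
  have hr0 : q % 3 = 2 → (0 : IsLocalRing.ResidueField A) ∈ P.roots.toFinset := fun h3 =>
    Multiset.mem_toFinset.mpr ((Polynomial.mem_roots hP0).mpr (hz0 h3))
  have hr1 : q % 4 = 3 → (1728 : IsLocalRing.ResidueField A) ∈ P.roots.toFinset := fun h4 =>
    Multiset.mem_toFinset.mpr ((Polynomial.mem_roots hP0).mpr (hz1 h4))
  set G := genusFF Qb ↥(modularFunctionFieldBar (q * N₀)) with hG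
  set G₀ := genusFF Qb ↥(modularFunctionFieldBar N₀) with hG₀
  set s := Nat.card {v : Place (IsLocalRing.ResidueField A)
          ↥(modularFunctionFieldFullC (IsLocalRing.ResidueField A) N₀) // 0 < v.ord h} with hs
  have hq1 : 1 ≤ q := hq.one_le
  have key : ∀ a b : ℕ,
      (12 * (G : ℚ) + 12 = 24 * (G₀ : ℚ) + ((q : ℚ) - 1) * (dedekindPsi N₀ : ℚ)
        + 3 * (nuTwo N₀ : ℚ) * (a : ℚ) + 4 * (nuThree N₀ : ℚ) * (b : ℚ)) →
      12 * G + 12 = 24 * G₀ + (q - 1) * dedekindPsi N₀ + 3 * nuTwo N₀ * a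
        + 4 * nuThree N₀ * b := by
    intro a b hab
    have e : ((q - 1 : ℕ) : ℚ) = (q : ℚ) - 1 := by
      rw [Nat.cast_sub hq1, Nat.cast_one]
    have : ((12 * G + 12 : ℕ) : ℚ) = ((24 * G₀ + (q - 1) * dedekindPsi N₀
        + 3 * nuTwo N₀ * a + 4 * nuThree N₀ * b : ℕ) : ℚ) := by
      push_cast
      rw [e]
      exact hab
    exact_mod_cast this
  have hAn := key (if q % 4 = 3 then 2 else 0) (if q % 3 = 2 then 2 else 0)
    (by push_cast; exact hA₀)
  have hle := harith.trans (Nat.mul_le_mul_left 12 hcount)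
  generalize (q - 1) * dedekindPsi N₀ = X at hAn hle
  by_cases h4 : q % 4 = 3 <;> by_cases h3 : q % 3 = 2
  · rw [if_pos (hr0 h3), if_pos (hr1 h4)] at hle
    rw [if_pos h4, if_pos h3] at hAn
    omega
  · rw [if_pos (hr1 h4)] at hle
    rw [if_pos h4, if_neg h3] at hAn
    split_ifs at hle <;> omega
  · rw [if_pos (hr0 h3)] at hle
    rw [if_neg h4, if_pos h3] at hAn
    split_ifs at hle <;> omega
  · rw [if_neg h4, if_neg h3] at hAn
    split_ifs at hle <;> omega

/-- `ssFun k q` lies in the function field `F_k(N₀)` (`q ≥ 5`; it is a polynomial in `j̄`). -/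
theorem ssFun_mem_fullC (k : Type) [Field k] (q : ℕ) [Fact q.Prime] [CharP k q] (h5 : 5 ≤ q)
    (N₀ : ℕ) [NeZero N₀] : ssFun k q ∈ modularFunctionFieldFullC k N₀ := by
  obtain ⟨P, u₀, -, -, hss, -⟩ := ssPoly k q h5
  have h1 : ssFun k q = ((algebraMap k (modularFunctionFieldFullC k N₀) u₀ *
      Polynomial.aeval (Fermat.Agent.RRMod.jC k N₀) P :
        modularFunctionFieldFullC k N₀) : LaurentSeries k) := by
    rw [hss, MulMemClass.coe_mul, ← IntermediateField.aeval_coe, Fermat.Agent.RRMod.coe_jC,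
      ← algebraMap_mul_laurent]
    rfl
  rw [h1]
  exact SetLike.coe_mem _

/-- the zeros of an element of `F_k(N₀)` are finite in number (for the `Fintype` instance on the
nodes). -/
theorem finite_ssZeros {A : ValuationSubring Qb} (N₀ : ℕ) [NeZero N₀]
    (h : modularFunctionFieldFullC (IsLocalRing.ResidueField A) N₀) :
    Finite {v : Place (IsLocalRing.ResidueField A)
      ↥(modularFunctionFieldFullC (IsLocalRing.ResidueField A) N₀) // 0 < v.ord h} := by
  haveI : IsAlgClosed (IsLocalRing.ResidueField A) := isAlgClosed_residue A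
  exact (finite_zeros (Fermat.Agent.RRMod.isRRField_fullC' (IsLocalRing.ResidueField A) N₀)
    h).to_subtype

/-- `ssCount_ge` with `Fintype.card` (the form of `NodalSeed.genus_le`). -/
theorem ssCount_ge_fintype (N₀ N : ℕ) [NeZero N₀] [NeZero N] {q : ℕ} (hq : q.Prime) (h5 : 5 ≤ q)
    (hqN : ¬ q ∣ N₀) (hN : N = q * N₀)
    {A : ValuationSubring Qb} (hA : A.LiesOverPrime q)
    (h : modularFunctionFieldFullC (IsLocalRing.ResidueField A) N₀)
    (hh : (h : LaurentSeries (IsLocalRing.ResidueField A)) =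
      ssFun (IsLocalRing.ResidueField A) q)
    [Fintype {v : Place (IsLocalRing.ResidueField A)
          ↥(modularFunctionFieldFullC (IsLocalRing.ResidueField A) N₀) // 0 < v.ord h}] :
    genusFF Qb ↥(modularFunctionFieldBar N) + 1 ≤
      genusFF (IsLocalRing.ResidueField A)
          ↥(modularFunctionFieldFullC (IsLocalRing.ResidueField A) N₀) +
        genusFF (IsLocalRing.ResidueField A)
          ↥(modularFunctionFieldFullC (IsLocalRing.ResidueField A) N₀) +
        Fintype.card {v : Place (IsLocalRing.ResidueField A)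
          ↥(modularFunctionFieldFullC (IsLocalRing.ResidueField A) N₀) // 0 < v.ord h} := by
  rw [← Nat.card_eq_fintype_card]
  exact ssCount_ge N₀ N hq h5 hqN hN hA h hh

end Count

end Fermat.Agent.BadRed
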