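/-
Cluster T (bad reduction at `q ∥ N`), leaf MA1 (helper50): the Gauss constant reduction `v_∞` of
`F_N`, `N = q N₀`, as an `IsGaussSetup`, with the lattice property; and the incomparability of
`v_∞` and `v_0 = v_∞ ∘ w_q`.

* `isGaussSetup_badValSetup` : `badValSetup` is a Gauss setup,
* `exists_isGaussSetup_bad`  : `∃ S, IsGaussSetup (q N₀) N₀ A S ∧ HasLattice S`
  (from `ModFactsAt N₀ hq A hA`),
* `not_le_valSetupZero`      : for EVERY Gauss setup `S` at the level `D.Q * D.R`:
  `¬ S.Ov ≤ (valSetupZero D S).Ov ∧ ¬ (valSetupZero D S).Ov ≤ S.Ov`  (unconditional).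
-/
import Mathlib
import Fermat.Agent.Lib.BadRed.Mod.ValInf
import Fermat.Agent.Lib.BadRed.Mod.GaussSetup
import Fermat.Agent.Lib.BadRed.Bridge.E1Sep

set_option autoImplicit false
set_option linter.style.haveILetI false
set_option synthInstance.maxHeartbeats 400000

noncomputable section

namespace Fermat.Agent.BadRed

open ModularCurve HahnSeries Fermat.Agent.GaussInt Fermat.Agent.S24 Fermat.Agent.Deuring
  Fermat.Agent.AtkinLehner Fermat.Agent.F3G

local notation "Qb" => AlgebraicClosure ℚ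

section Bad

variable {N ℓ : ℕ} [NeZero N] [NeZero ℓ]
variable (hℓ : ℓ.Prime) (hℓN : ¬ ℓ ∣ N) (A : ValuationSubring Qb) (hA : A.LiesOverPrime ℓ)
variable (M : ℕ) [NeZero M] (hM : M = N * ℓ) (h : ModFactsAt N hℓ A hA)

/-- `badValSetup` is the Gauss setup of `F_M`, `M = N ℓ`, with residue function field
`F_k(N)`. -/
theorem isGaussSetup_badValSetup : IsGaussSetup M N A (badValSetup hℓ hℓN A hA M hM h) where
  A_eq := rfl
  res_eq := fun _ _ _ => rfl
  mem_iff := fun _ => Iff.rfl
  coe_red := fun _ hf => coe_badValSetup_red hℓ hℓN A hA M hM h hf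

include hℓN hM h in
/-- **MA1, existence**: the Gauss setup at the bad level, with the lattice property. -/
theorem exists_isGaussSetup_bad :
    ∃ S : ValSetup Qb (FBar M) (IsLocalRing.ResidueField A)
        (modularFunctionFieldFullC (IsLocalRing.ResidueField A) N),
      IsGaussSetup M N A S ∧ HasLattice S :=
  ⟨badValSetup hℓ hℓN A hA M hM h, isGaussSetup_badValSetup hℓ hℓN A hA M hM h,
    hasLattice_badValSetup hℓ hℓN A hA M hM h⟩

end Bad

/-- in a valuation setup, an integral element with reduction `0` is in the maximal ideal. -/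
theorem mem_nonunits_of_red_eq_zero {K F k Fk : Type*} [Field K] [Field F] [Algebra K F]
    [Field k] [Field Fk] [Algebra k Fk] (S : ValSetup K F k Fk) {f : F} (hf : f ∈ S.Ov)
    (h0 : S.red f = 0) : f ∈ S.Ov.nonunits := by
  rw [ValuationSubring.mem_nonunits_iff_or]
  rcases eq_or_ne f 0 with hf0 | hf0
  · exact Or.inl hf0
  · exact Or.inr ((S.red_eq_zero_iff hf hf0).mp h0)

/-- abstract incomparability of two constant reductions from a separating element. -/
theorem not_le_of_sep {K F k Fk₁ Fk₂ : Type*} [Field K] [Field F] [Algebra K F]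
    [Field k] [Field Fk₁] [Algebra k Fk₁] [Field Fk₂] [Algebra k Fk₂]
    (S₁ : ValSetup K F k Fk₁) (S₂ : ValSetup K F k Fk₂) (E : F)
    (hE1 : E ∈ S₁.Ov) (hr1 : S₁.red E = 1) (hE2 : E ∈ S₂.Ov) (hr2 : S₂.red E = 0) :
    ¬ S₁.Ov ≤ S₂.Ov ∧ ¬ S₂.Ov ≤ S₁.Ov := by
  have h1 : E - 1 ∈ S₁.Ov.nonunits := by
    apply mem_nonunits_of_red_eq_zero S₁ (sub_mem hE1 S₁.Ov.one_mem)
    rw [S₁.red_sub hE1 S₁.Ov.one_mem, hr1, S₁.red_one, sub_self]
  have h2 : E ∈ S₂.Ov.nonunits := mem_nonunits_of_red_eq_zero S₂ hE2 hr2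
  have hone : ∀ O : ValuationSubring F, E ∈ O.nonunits → E - 1 ∈ O.nonunits → False := by
    intro O ha hb
    rw [ValuationSubring.mem_nonunits_iff] at ha hb
    have h3 : O.valuation (E - (E - 1)) < 1 :=
      lt_of_le_of_lt (Valuation.map_sub _ _ _) (max_lt ha hb)
    rw [sub_sub_cancel, map_one] at h3
    exact lt_irrefl _ h3
  constructor
  · intro hle
    have := (ValuationSubring.nonunits_le_nonunits.mpr hle) h2
    exact hone _ this h1
  · intro hle
    have := (ValuationSubring.nonunits_le_nonunits.mpr hle) h1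
    exact hone _ h2 this

section Incomparable

variable (D : ALData) {N₀ : ℕ} [NeZero (D.Q * D.R)] [NeZero N₀]
  (hQ : D.Q.Prime) (A : ValuationSubring Qb) (hA : A.LiesOverPrime D.Q)
  (S : ValSetup Qb (FBar (D.Q * D.R)) (IsLocalRing.ResidueField A)
    (modularFunctionFieldFullC (IsLocalRing.ResidueField A) N₀))

set_option maxHeartbeats 2000000 in
include hQ hA in
/-- **MA1, incomparability**: `v_∞` and `v_0 = v_∞ ∘ w_q` are incomparable. -/
theorem not_le_valSetupZero (hS : IsGaussSetup (D.Q * D.R) N₀ A S) :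
    ¬ S.Ov ≤ (valSetupZero D S).Ov ∧ ¬ (valSetupZero D S).Ov ≤ S.Ov := by
  obtain ⟨E, hE1, hE2, hE3, hE4⟩ := gaussSepAt D hQ A hA
  have hEO : E ∈ S.Ov := (hS.mem_iff E).mpr hE1
  have hwEO : atkinLehner D E ∈ S.Ov := (hS.mem_iff _).mpr hE3
  have hred1 : S.red E = 1 := by
    apply Subtype.ext
    rw [hS.coe_red E hEO, hE2]
    exact (OneMemClass.coe_one _).symm
  have hred2 : S.red (atkinLehner D E) = 0 := by
    apply Subtype.ext
    rw [hS.coe_red _ hwEO, hE4]
    exact (ZeroMemClass.coe_zero _).symm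
  have hEO₂ : E ∈ (valSetupZero D S).Ov := (mem_valSetupZero_Ov D S E).mpr hwEO
  have hred3 : (valSetupZero D S).red E = 0 := by
    rw [valSetupZero_red, hred2]
  exact not_le_of_sep S (valSetupZero D S) E hEO hred1 hEO₂ hred3

end Incomparable

end Fermat.Agent.BadRed
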