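/-
Cluster T (bad reduction at `q ∥ N`), leaf MA1, FINAL (helper50 + helper66): UNCONDITIONAL.

For `D : ALData` with `q = D.Q` prime, `q ∤ D.R`, and a place `A` of `ℚ̄` over `q`:

* `gaussSetupBad D hQ hQR A hA : ValSetup ℚ̄ (F_{qR}) k (F_k(R))` : the Gauss valuation `v_∞` of the
  function field of `X₀(q R)` with residue function field `F_k(R)`,
* `isGaussSetup_gaussSetupBad`, `hasLattice_gaussSetupBad`,
* `not_le_gaussSetupBad` : `v_∞` and `v_0 = v_∞ ∘ w_q` are incomparable,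
* `exists_isGaussSetup` : the statement MA1 of `NOTES/blueprint-T-modular-v2.md`.
-/
import Mathlib
import Fermat.Agent.Lib.BadRed.Mod.GaussSetupBad
import Fermat.Agent.Lib.BadRed.ModFacts

set_option autoImplicit false
set_option linter.style.haveILetI false
set_option synthInstance.maxHeartbeats 400000

noncomputable section

namespace Fermat.Agent.BadRed

open ModularCurve HahnSeries Fermat.Agent.GaussInt Fermat.Agent.S24 Fermat.Agent.Deuring
  Fermat.Agent.AtkinLehner Fermat.Agent.F3G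

local notation "Qb" => AlgebraicClosure ℚ

variable (D : ALData) [NeZero (D.Q * D.R)] [NeZero D.R]
  (hQ : D.Q.Prime) (hQR : ¬ D.Q ∣ D.R) (A : ValuationSubring Qb) (hA : A.LiesOverPrime D.Q)

/-- **The Gauss constant reduction `v_∞` of `F_{qR}` at a place over `q ∥ q R`**, with residue
function field `F_k(R)`. -/
def gaussSetupBad :
    ValSetup Qb (FBar (D.Q * D.R)) (IsLocalRing.ResidueField A)
      (modularFunctionFieldFullC (IsLocalRing.ResidueField A) D.R) :=
  haveI : NeZero D.Q := ⟨hQ.ne_zero⟩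
  badValSetup hQ hQR A hA (D.Q * D.R) (Nat.mul_comm D.Q D.R) (modFactsAt D.R D.Q hQ hQR A hA)

theorem isGaussSetup_gaussSetupBad :
    IsGaussSetup (D.Q * D.R) D.R A (gaussSetupBad D hQ hQR A hA) :=
  haveI : NeZero D.Q := ⟨hQ.ne_zero⟩
  isGaussSetup_badValSetup hQ hQR A hA (D.Q * D.R) (Nat.mul_comm D.Q D.R)
    (modFactsAt D.R D.Q hQ hQR A hA)

theorem hasLattice_gaussSetupBad : HasLattice (gaussSetupBad D hQ hQR A hA) :=
  haveI : NeZero D.Q := ⟨hQ.ne_zero⟩
  hasLattice_badValSetup hQ hQR A hA (D.Q * D.R) (Nat.mul_comm D.Q D.R)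
    (modFactsAt D.R D.Q hQ hQR A hA)

theorem not_le_gaussSetupBad :
    ¬ (gaussSetupBad D hQ hQR A hA).Ov ≤ (valSetupZero D (gaussSetupBad D hQ hQR A hA)).Ov ∧
      ¬ (valSetupZero D (gaussSetupBad D hQ hQR A hA)).Ov ≤ (gaussSetupBad D hQ hQR A hA).Ov :=
  not_le_valSetupZero D hQ A hA _ (isGaussSetup_gaussSetupBad D hQ hQR A hA)

include hQ hQR hA in
/-- **MA1** (unconditional). -/
theorem exists_isGaussSetup :
    ∃ S : ValSetup Qb (FBar (D.Q * D.R)) (IsLocalRing.ResidueField A)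
        (modularFunctionFieldFullC (IsLocalRing.ResidueField A) D.R),
      IsGaussSetup (D.Q * D.R) D.R A S ∧ HasLattice S ∧
        ¬ S.Ov ≤ (valSetupZero D S).Ov ∧ ¬ (valSetupZero D S).Ov ≤ S.Ov :=
  ⟨gaussSetupBad D hQ hQR A hA, isGaussSetup_gaussSetupBad D hQ hQR A hA,
    hasLattice_gaussSetupBad D hQ hQR A hA, (not_le_gaussSetupBad D hQ hQR A hA).1,
    (not_le_gaussSetupBad D hQ hQR A hA).2⟩

end Fermat.Agent.BadRed
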