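import Mathlib
import Fermat.Agent.Lib.BadRed.Mod.OldRed
import Fermat.Agent.Lib.BadRed.Mod.AuxUnified
import Fermat.Agent.Lib.BadRed.Mod.SeedNodeMain
import Fermat.Agent.Lib.BadRed.Mod.SSDeg
import Fermat.Agent.Lib.BadRed.Mod.UCuspDegFinal

set_option autoImplicit false
set_option linter.style.haveILetI false
set_option linter.unusedSectionVars false
set_option linter.unusedVariables false
set_option synthInstance.maxHeartbeats 400000

/-!
# Cluster T, modular assembly, MA10-hsep (helper33): the nodes of the modular seed and the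
separating functions

`D : ALData`, `q = D.Q` prime, `N₀ = D.R`, `q ∤ N₀`, `A` a place of `ℚ̄` over `q`, `k = A / 𝔪`,
`Fk = modularFunctionFieldFullC k N₀`, `h : Fk` with expansion `ssFun` (the reduction of `u`).
Shapes of the architect (helper81): nodes `ι = {v : Place k Fk // 0 < v.ord h}`,
`s₁ = Subtype.val`, `s₂ i = (frobAut k N₀ q)⁻¹ • i.val`, `S₂ = valSetupZero D S`.

* `ssNode₂_injective`, `ssNode₂_pos`, `ssNode₂_surj` : `s₂` is injective, `hs₂`, `hz₂` of
  `seedOfU` (for `h`; `hs₁`, `hz₁` are `fun i => i.2` and `fun Q hQ => ⟨⟨Q, hQ⟩, rfl⟩`);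
* `ord_jC_nonneg_of_ss_pos` : the zeros of `h` are not cusps;
* `nodeVal_alphaQ` : an integral old function `g = α g₀` with cuspidal poles satisfies the node
  condition with the values of `ḡ₀` at the zeros of `h`;
* `exists_nodeVal_sep` : `hsep` of `seedOfU`.
-/

noncomputable section

namespace Fermat.Agent.BadRed

open ModularCurve AlgebraicCurve Fermat.Agent.GaussInt Fermat.Agent.AtkinLehner
  Fermat.Agent.Deuring Fermat.Agent.S24 Fermat.Agent.BadRed.SeedNode

local notation "Qb" => AlgebraicClosure ℚ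

section Special

variable {k : Type} [Field k] {N₀ : ℕ} (q : ℕ) [Fact q.Prime] [CharP k q] [PerfectRing k q]

theorem ssNode₂_injective (h : modularFunctionFieldFullC k N₀) :
    Function.Injective (fun i : {v : Place k (modularFunctionFieldFullC k N₀) // 0 < v.ord h} =>
      (frobAut k N₀ q)⁻¹ • i.val) := fun i j hij =>
  Subtype.val_injective (MulAction.injective _ hij)

theorem ssNode₂_pos (q' : ℕ) {h : modularFunctionFieldFullC k N₀}
    (hh : (h : LaurentSeries k) = ssFun k q')
    (i : {v : Place k (modularFunctionFieldFullC k N₀) // 0 < v.ord h}) :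
    0 < ((frobAut k N₀ q)⁻¹ • i.val).ord h :=
  (ord_frobAut_inv_smul_pos_iff k N₀ q q' hh i.1).mpr i.2

theorem ssNode₂_surj (q' : ℕ) {h : modularFunctionFieldFullC k N₀}
    (hh : (h : LaurentSeries k) = ssFun k q')
    (Q : Place k (modularFunctionFieldFullC k N₀)) (hQ : 0 < Q.ord h) :
    ∃ i : {v : Place k (modularFunctionFieldFullC k N₀) // 0 < v.ord h},
      Q = (frobAut k N₀ q)⁻¹ • i.val :=
  ⟨⟨frobAut k N₀ q • Q, (ord_frobAut_smul_pos_iff k N₀ q q' hh Q).mpr hQ⟩,
    (inv_smul_smul _ _).symm⟩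

end Special

section Modular

variable (D : ALData) [NeZero D.Q] [NeZero D.R] [NeZero (D.Q * D.R)]
  (A : ValuationSubring Qb) (hq : D.Q.Prime) (hA : A.LiesOverPrime D.Q) (hqR : ¬ D.Q ∣ D.R)
  (S : ValSetup Qb (modularFunctionFieldBar (D.Q * D.R)) (IsLocalRing.ResidueField A)
    (modularFunctionFieldFullC (IsLocalRing.ResidueField A) D.R))
  (hS : IsGaussSetup (D.Q * D.R) D.R A S)

include hq hA in
/-- the zeros of `h` are not cusps of the special fibre. -/
theorem ord_jC_nonneg_of_ss_pos
    (h : modularFunctionFieldFullC (IsLocalRing.ResidueField A) D.R)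
    (hh : (h : LaurentSeries (IsLocalRing.ResidueField A)) =
      ssFun (IsLocalRing.ResidueField A) D.Q)
    (Q : Place (IsLocalRing.ResidueField A)
      (modularFunctionFieldFullC (IsLocalRing.ResidueField A) D.R))
    (hQ : 0 < Q.ord h) :
    0 ≤ Q.ord (Fermat.Agent.RRMod.jC (IsLocalRing.ResidueField A) D.R) := by
  obtain ⟨P, hdeg, rfl⟩ := ss_eq_aeval D.R hq hA h hh
  by_contra hneg
  rw [not_le] at hneg
  have hP0 : P ≠ 0 := by
    rintro rfl
    rw [Polynomial.natDegree_zero] at hdeg
    have := hq.two_le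
    omega
  have h1 := Fermat.Agent.RRHur.ord_aeval_of_pole (transcendental_jC' D.R _) Q hneg hP0
  rw [h1] at hQ
  have h2 : (0 : ℤ) ≤ (P.natDegree : ℤ) := Int.natCast_nonneg _
  nlinarith

variable [Fact D.Q.Prime] [CharP (IsLocalRing.ResidueField A) D.Q]
  [PerfectRing (IsLocalRing.ResidueField A) D.Q]

include hS in
/-- **node condition for old functions**: `g = α g₀` takes at the node `i` the value of `ḡ₀` at
the zero `i` of `h`, on BOTH components. -/
theorem nodeVal_alphaQ (u : modularFunctionFieldBar (D.Q * D.R))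
    (hcusp : ∀ v : Place Qb (modularFunctionFieldBar (D.Q * D.R)),
      v.ord u = 0 → 0 ≤ v.ord (jBar (D.Q * D.R)))
    (h : modularFunctionFieldFullC (IsLocalRing.ResidueField A) D.R)
    (g₀ : modularFunctionFieldBar D.R)
    (hg₀ : g₀ ∈ (modularValSetup A D.Q D.R hq hA hqR).Ov)
    (hpole : ∀ v₀ : Place Qb (modularFunctionFieldBar D.R),
      0 ≤ v₀.ord (jBar D.R) → 0 ≤ v₀.ord g₀)
    (c : {v : Place (IsLocalRing.ResidueField A)
      (modularFunctionFieldFullC (IsLocalRing.ResidueField A) D.R) // 0 < v.ord h} →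
        IsLocalRing.ResidueField A)
    (hval : ∀ i, ValAt i.val ((modularValSetup A D.Q D.R hq hA hqR).red g₀) (c i)) :
    NodeVal S (valSetupZero D S) u Subtype.val
      (fun i : {v : Place (IsLocalRing.ResidueField A)
        (modularFunctionFieldFullC (IsLocalRing.ResidueField A) D.R) // 0 < v.ord h} =>
        (frobAut (IsLocalRing.ResidueField A) D.R D.Q)⁻¹ • i.val) (alphaQ D g₀) c where
  mem₁ := alphaQ_mem_Ov D A hq hA hqR S hS g₀ hg₀
  mem₂ := alphaQ_mem_Ov_zero D A hq hA hqR S hS g₀ hg₀
  cusp v hv := ord_alphaQ_nonneg D g₀ hpole v (hcusp v hv)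
  val₁ l := by
    rw [red_alphaQ D A hq hA hqR S hS g₀ hg₀]
    exact hval l
  val₂ l := by
    rw [valAt_red_zero_alphaQ D A hq hA hqR S hS g₀ hg₀, smul_inv_smul]
    exact hval l

include hq hA hqR hS in
/-- **`hsep` of `seedOfU`** for the modular seed. -/
theorem exists_nodeVal_sep (haux : AuxLevelOK D.Q D.R)
    (u : modularFunctionFieldBar (D.Q * D.R))
    (hcusp : ∀ v : Place Qb (modularFunctionFieldBar (D.Q * D.R)),
      v.ord u = 0 → 0 ≤ v.ord (jBar (D.Q * D.R)))
    (h : modularFunctionFieldFullC (IsLocalRing.ResidueField A) D.R)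
    (hh : (h : LaurentSeries (IsLocalRing.ResidueField A)) =
      ssFun (IsLocalRing.ResidueField A) D.Q)
    (i j : {v : Place (IsLocalRing.ResidueField A)
      (modularFunctionFieldFullC (IsLocalRing.ResidueField A) D.R) // 0 < v.ord h})
    (hij : i ≠ j) :
    ∃ (g : modularFunctionFieldBar (D.Q * D.R))
      (c : {v : Place (IsLocalRing.ResidueField A)
        (modularFunctionFieldFullC (IsLocalRing.ResidueField A) D.R) // 0 < v.ord h} →
          IsLocalRing.ResidueField A),
      NodeVal S (valSetupZero D S) u Subtype.val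
        (fun i : {v : Place (IsLocalRing.ResidueField A)
          (modularFunctionFieldFullC (IsLocalRing.ResidueField A) D.R) // 0 < v.ord h} =>
          (frobAut (IsLocalRing.ResidueField A) D.R D.Q)⁻¹ • i.val) g c ∧ c i ≠ c j := by
  classical
  haveI : IsAlgClosed (IsLocalRing.ResidueField A) := isAlgClosed_residue A
  haveI : Fintype {v : Place (IsLocalRing.ResidueField A)
      (modularFunctionFieldFullC (IsLocalRing.ResidueField A) D.R) // 0 < v.ord h} :=
    (Fermat.Agent.RR.finite_zeros
      (Fermat.Agent.RRMod.isRRField_fullC' (IsLocalRing.ResidueField A) D.R) h).fintype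
  obtain ⟨g₀, hg₀, hpole, -, hval⟩ := exists_oldSep_of_aux D.R hq hqR haux hA
    (fun l : {v : Place (IsLocalRing.ResidueField A)
      (modularFunctionFieldFullC (IsLocalRing.ResidueField A) D.R) // 0 < v.ord h} => l.val)
    Subtype.val_injective
    (fun l => ord_jC_nonneg_of_ss_pos D A hq hA h hh l.1 l.2)
    (fun l => if l = i then 1 else 0)
  refine ⟨alphaQ D g₀, _, nodeVal_alphaQ D A hq hA hqR S hS u hcusp h g₀ hg₀ hpole _ hval, ?_⟩
  simp [Ne.symm hij]

include hq in
/-- `hcusp` for `u = uF` (MA4a): `u` is a unit off the cusps. -/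
theorem ord_jBar_nonneg_of_ord_uF_eq_zero
    (v : Place Qb (modularFunctionFieldBar (D.Q * D.R)))
    (hv : v.ord (uF (D.Q * D.R) D.Q (Dvd.intro _ rfl)) = 0) :
    0 ≤ v.ord (jBar (D.Q * D.R)) := by
  by_contra hneg
  rw [not_le] at hneg
  exact (ord_jBar_neg_iff_uF hq (Dvd.intro _ rfl) v).mp hneg hv

include hq hA hqR hS in
/-- **`hsep` of `seedOfU`** for `u = uF`. -/
theorem exists_nodeVal_sep_uF (haux : AuxLevelOK D.Q D.R)
    (h : modularFunctionFieldFullC (IsLocalRing.ResidueField A) D.R)
    (hh : (h : LaurentSeries (IsLocalRing.ResidueField A)) =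
      ssFun (IsLocalRing.ResidueField A) D.Q)
    (i j : {v : Place (IsLocalRing.ResidueField A)
      (modularFunctionFieldFullC (IsLocalRing.ResidueField A) D.R) // 0 < v.ord h})
    (hij : i ≠ j) :
    ∃ (g : modularFunctionFieldBar (D.Q * D.R))
      (c : {v : Place (IsLocalRing.ResidueField A)
        (modularFunctionFieldFullC (IsLocalRing.ResidueField A) D.R) // 0 < v.ord h} →
          IsLocalRing.ResidueField A),
      NodeVal S (valSetupZero D S) (uF (D.Q * D.R) D.Q (Dvd.intro _ rfl)) Subtype.val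
        (fun i : {v : Place (IsLocalRing.ResidueField A)
          (modularFunctionFieldFullC (IsLocalRing.ResidueField A) D.R) // 0 < v.ord h} =>
          (frobAut (IsLocalRing.ResidueField A) D.R D.Q)⁻¹ • i.val) g c ∧ c i ≠ c j :=
  exists_nodeVal_sep D A hq hA hqR S hS haux _
    (ord_jBar_nonneg_of_ord_uF_eq_zero D hq) h hh i j hij

end Modular

end Fermat.Agent.BadRed
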