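import Fermat.Agent.Lib.BadRed.Mod.SSDefs
import Fermat.Agent.S16.SwD.Miller

/-!
# Cluster T / M3: homogenisation of polynomials in `j` (helper98)

`κ[Q, R]` with weights `(4, 6)`, `Δ' = Q³ - R² = 1728 Δ`.  For `P ∈ κ[j]` of degree `≤ m`,
`ssHom m P = ∑ P_i (1728 Q³)^i Δ'^(m - i)` is isobaric of weight `12 m`, every isobaric form of
weight `12 m` is of this shape (`exists_ssHom_eq`), its `q`-expansion is `(1728 Δ)^m P(j)`
(`ofPS_evK_ssHom`), and a root `c` of multiplicity `e` of `P` gives the factor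
`(1728 Q³ - c Δ')^e` (`ssLin_pow_dvd_ssHom`).
-/

set_option autoImplicit false
set_option linter.unusedSectionVars false

noncomputable section

open Fermat.Agent.S16SwD MvPolynomial ModularCurve
open Fermat.Agent.SwD (zmap evK e2Z e4Z e6Z deltaZ)

namespace Fermat.Agent.BadRed

section Hom

variable {κ : Type*} [Field κ]

/-- the isobaric form `1728 Q³ - c Δ'` of weight `12` (the point `j = c`) -/
def ssLin (c : κ) : MvPolynomial (Fin 2) κ := C 1728 * X 0 ^ 3 - C c * dlt

/-- homogenisation of `P ∈ κ[j]` at degree `m` in the forms `1728 Q³` and `Δ' = Q³ - R²`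
(both of weight `12`): `∑_{i ≤ m} P_i (1728 Q³)^i Δ'^(m - i)`. -/
def ssHom (m : ℕ) (P : Polynomial κ) : MvPolynomial (Fin 2) κ :=
  ∑ i ∈ Finset.range (m + 1), C (P.coeff i) * (C 1728 * X 0 ^ 3) ^ i * dlt ^ (m - i)

lemma ssHom_add (m : ℕ) (P Q : Polynomial κ) : ssHom m (P + Q) = ssHom m P + ssHom m Q := by
  simp only [ssHom, Polynomial.coeff_add, map_add, add_mul, Finset.sum_add_distrib]

lemma ssHom_C_mul (m : ℕ) (c : κ) (P : Polynomial κ) :
    ssHom m (Polynomial.C c * P) = C c * ssHom m P := by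
  simp only [ssHom, Polynomial.coeff_C_mul, map_mul, Finset.mul_sum]
  refine Finset.sum_congr rfl (fun i _ => ?_)
  ring

lemma ssHom_succ {m : ℕ} {P : Polynomial κ} (hP : P.natDegree ≤ m) :
    ssHom (m + 1) P = dlt * ssHom m P := by
  simp only [ssHom]
  rw [Finset.sum_range_succ, Polynomial.coeff_eq_zero_of_natDegree_lt (by omega), map_zero,
    zero_mul, zero_mul, add_zero, Finset.mul_sum]
  refine Finset.sum_congr rfl (fun i hi => ?_)
  have hi' : i ≤ m := by
    have := Finset.mem_range.mp hi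
    omega
  have e : m + 1 - i = (m - i) + 1 := by omega
  rw [e, pow_succ]
  ring

lemma ssHom_X_mul (m : ℕ) (P : Polynomial κ) :
    ssHom (m + 1) (Polynomial.X * P) = C 1728 * X 0 ^ 3 * ssHom m P := by
  simp only [ssHom]
  rw [Finset.sum_range_succ', Polynomial.coeff_X_mul_zero, map_zero, zero_mul, zero_mul, add_zero,
    Finset.mul_sum]
  refine Finset.sum_congr rfl (fun i _ => ?_)
  rw [Polynomial.coeff_X_mul, Nat.add_sub_add_right, pow_succ]
  ring

lemma ssHom_lin_mul {m : ℕ} {P : Polynomial κ} (hP : P.natDegree ≤ m) (c : κ) :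
    ssHom (m + 1) ((Polynomial.X - Polynomial.C c) * P) = ssLin c * ssHom m P := by
  have e : (Polynomial.X - Polynomial.C c) * P
      = Polynomial.X * P + Polynomial.C (-c) * P := by
    rw [map_neg]; ring
  rw [e, ssHom_add, ssHom_X_mul, ssHom_C_mul, ssHom_succ hP, ssLin, map_neg]
  ring

lemma ssHom_lin_pow_mul (e : ℕ) {m : ℕ} {P : Polynomial κ} (hP : P.natDegree ≤ m) (c : κ) :
    ssHom (m + e) ((Polynomial.X - Polynomial.C c) ^ e * P) = ssLin c ^ e * ssHom m P := by
  induction e with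
  | zero => simp
  | succ e ih =>
    have hdeg : ((Polynomial.X - Polynomial.C c) ^ e * P).natDegree ≤ m + e := by
      refine (Polynomial.natDegree_mul_le).trans ?_
      have h1 : ((Polynomial.X - Polynomial.C c) ^ e).natDegree ≤ e := by
        refine (Polynomial.natDegree_pow_le).trans ?_
        rw [Polynomial.natDegree_X_sub_C, mul_one]
      omega
    rw [pow_succ', mul_assoc, ← add_assoc, ssHom_lin_mul hdeg, ih, pow_succ']
    ring

/-- a root of multiplicity `e` of `P` gives the factor `(1728 Q³ - c Δ')^e` of the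
homogenisation -/
lemma ssLin_pow_dvd_ssHom {m : ℕ} {P : Polynomial κ} (hP0 : P ≠ 0) (hP : P.natDegree ≤ m)
    (c : κ) {e : ℕ} (he : (Polynomial.X - Polynomial.C c) ^ e ∣ P) :
    ssLin c ^ e ∣ ssHom m P := by
  obtain ⟨P₂, hP₂⟩ := he
  have hP₂0 : P₂ ≠ 0 := by
    rintro rfl
    rw [mul_zero] at hP₂
    exact hP0 hP₂
  have hpow0 : (Polynomial.X - Polynomial.C c) ^ e ≠ 0 :=
    pow_ne_zero _ (Polynomial.X_sub_C_ne_zero c)
  have hdeg : P.natDegree = e + P₂.natDegree := by
    rw [hP₂, Polynomial.natDegree_mul hpow0 hP₂0, Polynomial.natDegree_pow,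
      Polynomial.natDegree_X_sub_C, mul_one]
  have hP₂m : P₂.natDegree ≤ m - e := by omega
  have hme : m = (m - e) + e := by omega
  rw [hme, hP₂, ssHom_lin_pow_mul e hP₂m]
  exact dvd_mul_right _ _


lemma ssHom_zero_poly (m : ℕ) : ssHom m (0 : Polynomial κ) = 0 := by
  simp [ssHom]

lemma ssHom_X_pow (m : ℕ) :
    ssHom m ((Polynomial.X : Polynomial κ) ^ m) = (C 1728 * X 0 ^ 3) ^ m := by
  induction m with
  | zero => simp [ssHom]
  | succ m ih =>
    rw [pow_succ' Polynomial.X m, ssHom_X_mul, ih]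
    exact (pow_succ' _ m).symm

lemma canMon_twelve (m : ℕ) : (canMon (12 * m) : MvPolynomial (Fin 2) κ) = X 0 ^ (3 * m) := by
  unfold canMon
  have h1 : (12 * m / 2) % 2 = 0 := by omega
  have h2 : (12 * m - 6 * 0) / 4 = 3 * m := by omega
  rw [h1, h2, pow_zero, mul_one]

lemma isWH_ssHom (m : ℕ) (P : Polynomial κ) :
    IsWeightedHomogeneous wt (ssHom m P) (12 * m) := by
  unfold ssHom
  refine IsWeightedHomogeneous.sum _ _ _ (fun i hi => ?_)
  have hi' : i ≤ m := by
    have := Finset.mem_range.mp hi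
    omega
  have h1 : IsWeightedHomogeneous wt ((C 1728 * X 0 ^ 3 : MvPolynomial (Fin 2) κ) ^ i) (12 * i) := by
    have h0 : IsWeightedHomogeneous wt (C 1728 * X 0 ^ 3 : MvPolynomial (Fin 2) κ) 12 := by
      have := ((isWH_X0 (κ := κ)).pow 3).C_mul (1728 : κ)
      simpa using this
    have := h0.pow i
    rwa [smul_eq_mul, mul_comm i 12] at this
  have h2 : IsWeightedHomogeneous wt ((dlt : MvPolynomial (Fin 2) κ) ^ (m - i)) (12 * (m - i)) := by
    have := (isWH_dlt (κ := κ)).pow (m - i)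
    rwa [smul_eq_mul, mul_comm (m - i) 12] at this
  have h3 := ((h1.mul h2).C_mul (P.coeff i))
  have e : 12 * i + 12 * (m - i) = 12 * m := by omega
  rw [e] at h3
  rwa [mul_assoc]

/-- **structure of isobaric forms of weight `12 m`**: they are the homogenisations of the
polynomials of degree `≤ m` in `j`. -/
theorem exists_ssHom_eq (h1728 : (1728 : κ) ≠ 0) :
    ∀ (m : ℕ) (F : MvPolynomial (Fin 2) κ), IsWeightedHomogeneous wt F (12 * m) →
      ∃ P : Polynomial κ, P.natDegree ≤ m ∧ F = ssHom m P := by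
  intro m
  induction m with
  | zero =>
    intro F hF
    refine ⟨Polynomial.C (coeff 0 F), Polynomial.natDegree_C _ |>.le, ?_⟩
    have h := eq_C_of_isWH_zero (by simpa using hF)
    simp only [ssHom, zero_add, Finset.sum_range_one, Polynomial.coeff_C_zero, pow_zero, mul_one,
      Nat.sub_self]
    exact h
  | succ m ih =>
    intro F hF
    set a : κ := MvPolynomial.eval (fun _ => (1 : κ)) F with ha
    obtain ⟨G, hG⟩ := dlt_dvd_sub_canMon hF
    rw [canMon_twelve] at hG
    have hmon : IsWeightedHomogeneous wt (C a * X 0 ^ (3 * (m + 1)) : MvPolynomial (Fin 2) κ)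
        (12 * (m + 1)) := by
      have := ((isWH_X0 (κ := κ)).pow (3 * (m + 1))).C_mul a
      have e : (3 * (m + 1)) • 4 = 12 * (m + 1) := by simp; omega
      rwa [e] at this
    have hGw : IsWeightedHomogeneous wt (dlt * G) (12 * (m + 1)) := hG ▸ hF.sub hmon
    have hGex : ∃ P' : Polynomial κ, P'.natDegree ≤ m ∧ G = ssHom m P' := by
      by_cases hG0 : G = 0
      · exact ⟨0, by simp, by rw [hG0, ssHom_zero_poly]⟩
      · have hne : (dlt : MvPolynomial (Fin 2) κ) * G ≠ 0 := by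
          intro h0
          rcases mul_eq_zero.mp h0 with h | h
          · have h1 := congrArg (MvPolynomial.eval ![0, 1]) h
            simp [dlt] at h1
          · exact hG0 h
        obtain ⟨i, j, hij, hi, hj⟩ := isWeightedHomogeneous_of_mul wt hGw hne
        have hdlt0 : (dlt : MvPolynomial (Fin 2) κ) ≠ 0 := left_ne_zero_of_mul hne
        have hi12 : i = 12 := hi.inj_right hdlt0 isWH_dlt
        have hj' : j = 12 * m := by omega
        rw [hj'] at hj
        exact ih G hj
    obtain ⟨P', hP', hGP⟩ := hGex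
    set a' : κ := a / 1728 ^ (m + 1) with ha'
    refine ⟨Polynomial.C a' * Polynomial.X ^ (m + 1) + P', ?_, ?_⟩
    · refine (Polynomial.natDegree_add_le _ _).trans (max_le ?_ (by omega))
      exact (Polynomial.natDegree_C_mul_X_pow_le a' (m + 1))
    · rw [ssHom_add, ssHom_C_mul, ssHom_X_pow, ssHom_succ hP', ← hGP, ← hG, mul_pow, ← map_pow,
        ← mul_assoc, ← map_mul, ha', div_mul_cancel₀ _ (pow_ne_zero _ h1728), ← pow_mul]
      ring


/-! ### multiplicities -/

lemma isWH_ssLin (c : κ) : IsWeightedHomogeneous wt (ssLin c) 12 := by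
  unfold ssLin
  have h0 : IsWeightedHomogeneous wt (C 1728 * X 0 ^ 3 : MvPolynomial (Fin 2) κ) 12 := by
    have := ((isWH_X0 (κ := κ)).pow 3).C_mul (1728 : κ)
    simpa using this
  exact h0.sub ((isWH_dlt (κ := κ)).C_mul c)

lemma ssLin_zero : ssLin (0 : κ) = C 1728 * X 0 ^ 3 := by
  simp [ssLin]

lemma ssLin_1728 : ssLin (1728 : κ) = C 1728 * X 1 ^ 2 := by
  simp only [ssLin, dlt]
  ring

lemma eval_ssLin (x : Fin 2 → κ) (c : κ) :
    MvPolynomial.eval x (ssLin c) = 1728 * x 0 ^ 3 - c * (x 0 ^ 3 - x 1 ^ 2) := by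
  simp [ssLin, dlt]

lemma eval_ssLin_zero_one (c : κ) : MvPolynomial.eval ![0, 1] (ssLin c) = c := by
  simp [ssLin, dlt]

lemma eval_ssLin_one_zero (c : κ) : MvPolynomial.eval ![1, 0] (ssLin c) = 1728 - c := by
  simp [ssLin, dlt]

lemma ssLin_ne_zero (h1728 : (1728 : κ) ≠ 0) (c : κ) : ssLin c ≠ 0 := by
  intro h
  have h1 := eval_ssLin_zero_one c
  have h2 := eval_ssLin_one_zero c
  rw [h, map_zero] at h1 h2
  apply h1728
  linear_combination -h2 - h1

lemma not_isUnit_of_isWH {F : MvPolynomial (Fin 2) κ} {w : ℕ} (hw : 0 < w)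
    (hF : IsWeightedHomogeneous wt F w) (hF0 : F ≠ 0) : ¬ IsUnit F := by
  intro hu
  obtain ⟨F', hF'⟩ := hu.exists_right_inv
  have h1 : IsWeightedHomogeneous wt (F * F') 0 := by
    rw [hF']; exact isWeightedHomogeneous_one κ wt
  obtain ⟨i, j, hij, hi, -⟩ := isWeightedHomogeneous_of_mul wt h1 (by rw [hF']; exact one_ne_zero)
  have : i = w := hi.inj_right hF0 hF
  omega

/-- the Hasse invariant is squarefree, hence `π ^ e ∣ A ^ n` forces `e ≤ n`. -/
lemma le_of_prime_pow_dvd_pow {A π : MvPolynomial (Fin 2) κ} (hA0 : A ≠ 0) (hπ : Prime π)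
    (hsq : ¬ π ^ 2 ∣ A) {e n : ℕ} (h : π ^ e ∣ A ^ n) : e ≤ n := by
  have hfin : FiniteMultiplicity π A := FiniteMultiplicity.of_prime_left hπ hA0
  have hfinn : FiniteMultiplicity π (A ^ n) :=
    FiniteMultiplicity.of_prime_left hπ (pow_ne_zero _ hA0)
  have h1 : multiplicity π A ≤ 1 := by
    by_contra hlt
    exact hsq (pow_dvd_of_le_multiplicity (by omega))
  have h2 : e ≤ multiplicity π (A ^ n) := hfinn.le_multiplicity_of_pow_dvd h
  have h3 : multiplicity π (A ^ n) = n * multiplicity π A := hfin.multiplicity_pow hπ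
  calc e ≤ n * multiplicity π A := by rw [← h3]; exact h2
    _ ≤ n * 1 := Nat.mul_le_mul_left _ h1
    _ = n := mul_one n

/-! ### values -/

lemma eval_ssHom (x : Fin 2 → κ) (m : ℕ) (P : Polynomial κ) :
    MvPolynomial.eval x (ssHom m P) = ∑ i ∈ Finset.range (m + 1),
      P.coeff i * (1728 * x 0 ^ 3) ^ i * (x 0 ^ 3 - x 1 ^ 2) ^ (m - i) := by
  simp [ssHom, dlt, map_sum]

lemma eval_ssHom_zero_one (m : ℕ) (P : Polynomial κ) :
    MvPolynomial.eval ![0, 1] (ssHom m P) = P.coeff 0 * (-1) ^ m := by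
  rw [eval_ssHom, Finset.sum_eq_single 0]
  · simp
  · intro i _ hi
    simp [hi]
  · intro h
    exact absurd (Finset.mem_range.mpr (Nat.succ_pos m)) h

lemma eval_ssHom_one_zero {m : ℕ} {P : Polynomial κ} (hP : P.natDegree ≤ m) :
    MvPolynomial.eval ![1, 0] (ssHom m P) = P.eval 1728 := by
  rw [eval_ssHom, Polynomial.eval_eq_sum_range' (Nat.lt_succ_of_le hP)]
  refine Finset.sum_congr rfl (fun i _ => ?_)
  simp

lemma eval_ssHom_one_one (m : ℕ) (P : Polynomial κ) :
    MvPolynomial.eval (fun _ => (1 : κ)) (ssHom m P) = P.coeff m * 1728 ^ m := by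
  rw [eval_ssHom, Finset.sum_eq_single m]
  · simp
  · intro i hi him
    have : m - i ≠ 0 := by
      have := Finset.mem_range.mp hi
      omega
    simp [this]
  · intro h
    exact absurd (Finset.mem_range.mpr (Nat.lt_succ_self m)) h

lemma eval_zero_one_of_isWH {A : MvPolynomial (Fin 2) κ} {w : ℕ}
    (hA : IsWeightedHomogeneous wt A w) (hw : w % 3 = 1) :
    MvPolynomial.eval ![0, 1] A = 0 := by
  rw [MvPolynomial.eval_eq']
  refine Finset.sum_eq_zero (fun d hd => ?_)
  have h := hA (MvPolynomial.mem_support_iff.mp hd)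
  rw [weight_wt] at h
  have hd0 : d 0 ≠ 0 := by omega
  simp [Fin.prod_univ_two, hd0]

lemma eval_one_zero_of_isWH {A : MvPolynomial (Fin 2) κ} {w : ℕ}
    (hA : IsWeightedHomogeneous wt A w) (hw : w % 4 = 2) :
    MvPolynomial.eval ![1, 0] A = 0 := by
  rw [MvPolynomial.eval_eq']
  refine Finset.sum_eq_zero (fun d hd => ?_)
  have h := hA (MvPolynomial.mem_support_iff.mp hd)
  rw [weight_wt] at h
  have hd1 : d 1 ≠ 0 := by omega
  simp [Fin.prod_univ_two, hd1]

end Hom

section QExp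

variable (k : Type*) [Field k]

/-- `1728 Δ` as a Laurent series over `k`. -/
def ssD : LaurentSeries k := HahnSeries.ofPowerSeries ℤ k (evK k dlt)

lemma ssD_eq : ssD k = HahnSeries.C (1728 : k) * HahnSeries.single (1 : ℤ) (1 : k) *
    HahnSeries.ofPowerSeries ℤ k (zmap k dedekindEtaUnit) := by
  rw [ssD, Fermat.Agent.SwD.evK_dlt, deltaZ, map_mul, map_mul, map_mul, PowerSeries.map_X,
    HahnSeries.ofPowerSeries_X, ← map_ofNat (PowerSeries.C (R := k)) 1728,
    HahnSeries.ofPowerSeries_C]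
  exact (mul_assoc _ _ _).symm

lemma zmap_eta_mul_inv : zmap k dedekindEtaUnit * zmap k dedekindEtaUnitInv = 1 := by
  rw [← map_mul, dedekindEtaUnit_mul_inv, map_one]

lemma single_one_mul_neg_one :
    (HahnSeries.single (1 : ℤ) (1 : k)) * HahnSeries.single (-1 : ℤ) (1 : k) = 1 := by
  rw [HahnSeries.single_mul_single]
  simp

/-- **key identity**: `1728 Δ · j = 1728 E₄³` -/
lemma ssD_mul_jq : ssD k * jqModC k =
    HahnSeries.ofPowerSeries ℤ k (evK k (C 1728 * X 0 ^ 3)) := by
  have h1 : HahnSeries.ofPowerSeries ℤ k (zmap k dedekindEtaUnit) *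
      HahnSeries.ofPowerSeries ℤ k (zmap k dedekindEtaUnitInv) = 1 := by
    rw [← map_mul, zmap_eta_mul_inv, map_one]
  have h2 := single_one_mul_neg_one k
  rw [ssD_eq, jqModC, jNum, map_mul, map_mul, map_pow, map_pow, map_mul, map_pow,
    Fermat.Agent.SwD.evK_C, Fermat.Agent.SwD.evK_X0, map_mul, map_pow,
    HahnSeries.ofPowerSeries_C, e4Z]
  linear_combination (HahnSeries.C (1728 : k) *
      HahnSeries.ofPowerSeries ℤ k (zmap k eisenstein4) ^ 3 *
      HahnSeries.ofPowerSeries ℤ k (zmap k dedekindEtaUnit) *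
      HahnSeries.ofPowerSeries ℤ k (zmap k dedekindEtaUnitInv)) * h2
    + (HahnSeries.C (1728 : k) * HahnSeries.ofPowerSeries ℤ k (zmap k eisenstein4) ^ 3) * h1

lemma algebraMap_mul_laurent (c : k) (x : LaurentSeries k) :
    (algebraMap k (LaurentSeries k) c) * x = HahnSeries.C c * x := by
  have h1 : algebraMap k (PowerSeries k) c = PowerSeries.C c := by simp
  rw [HahnSeries.algebraMap_apply', h1, HahnSeries.ofPowerSeries_C]

lemma ofPS_evK_ssHom {m : ℕ} {P : Polynomial k} (hP : P.natDegree ≤ m) :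
    HahnSeries.ofPowerSeries ℤ k (evK k (ssHom m P)) =
      ssD k ^ m * Polynomial.aeval (jqModC k) P := by
  rw [Polynomial.aeval_eq_sum_range' (Nat.lt_succ_of_le hP), Finset.mul_sum, ssHom, map_sum,
    map_sum]
  refine Finset.sum_congr rfl (fun i hi => ?_)
  have hi' : i ≤ m := by
    have := Finset.mem_range.mp hi
    omega
  have hm : ssD k ^ m = ssD k ^ i * ssD k ^ (m - i) := by
    rw [← pow_add]
    congr 1
    omega
  rw [map_mul, map_mul, map_mul, map_mul, map_pow, map_pow, map_pow, map_pow, ← ssD_mul_jq,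
    Fermat.Agent.SwD.evK_C, HahnSeries.ofPowerSeries_C, hm, Algebra.smul_def,
    algebraMap_mul_laurent]
  change _ * _ * ssD k ^ (m - i) = _
  ring

/-- `Δ^{-(q-1)} · (1728 Δ)^{q-1} = 1728^{q-1}` -/
lemma ssFun_mul_ssD_pow (q : ℕ) (hq : 1 ≤ q) :
    ssFun k q * ssD k ^ (q - 1) = HahnSeries.C ((1728 : k) ^ (q - 1)) := by
  have h1 : HahnSeries.ofPowerSeries ℤ k ((dedekindEtaUnitInv ^ (q - 1)).map (Int.castRingHom k)) *
      HahnSeries.ofPowerSeries ℤ k (zmap k dedekindEtaUnit) ^ (q - 1) = 1 := by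
    rw [← map_pow, ← map_mul, map_pow, ← mul_pow]
    have : PowerSeries.map (Int.castRingHom k) dedekindEtaUnitInv * zmap k dedekindEtaUnit = 1 := by
      rw [mul_comm]; exact zmap_eta_mul_inv k
    rw [this, one_pow, map_one]
  have h2 : HahnSeries.single (-((q : ℤ) - 1)) (1 : k) *
      HahnSeries.single (1 : ℤ) (1 : k) ^ (q - 1) = 1 := by
    rw [HahnSeries.single_pow, HahnSeries.single_mul_single]
    have : -((q : ℤ) - 1) + (q - 1) • (1 : ℤ) = 0 := by
      rw [nsmul_eq_mul, mul_one, Nat.cast_sub hq]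
      simp
    rw [this]
    simp
  rw [ssFun, ssD_eq, mul_pow, mul_pow, map_pow (HahnSeries.C (Γ := ℤ) (R := k))]
  linear_combination (HahnSeries.C (1728 : k) ^ (q - 1) *
      HahnSeries.ofPowerSeries ℤ k ((dedekindEtaUnitInv ^ (q - 1)).map (Int.castRingHom k)) *
      HahnSeries.ofPowerSeries ℤ k (zmap k dedekindEtaUnit) ^ (q - 1)) * h2
    + (HahnSeries.C (1728 : k) ^ (q - 1)) * h1

end QExp

end Fermat.Agent.BadRed
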