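import Fermat.Agent.Lib.BadRed.Mod.SSHom
import Fermat.Agent.S16.SwD.Main
import Fermat.Agent.S16.SwD.RatInt
import Fermat.Agent.S16.SwD.RamanujanE2

/-!
# Cluster T / M3: the supersingular polynomial (helper98)

`ssPoly : SSPoly`: for `k` a field of characteristic `q ≥ 5`, `Δ̄^{-(q-1)} = 1728^{q-1} P(j̄)` with
`P ∈ k[X]` of degree `q - 1`, root multiplicities `≤ 12` (`≤ 4` at `0`, `≤ 6` at `1728`),
`P(0) = 0` if `q ≡ 2 mod 3`, `P(1728) = 0` if `q ≡ 3 mod 4`.

Proof: `A = E_{q-1} mod q` (Hasse invariant, `exists_hasse`: von Staudt-Clausen + Miller basis of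
S16/SwD), `A(E₄, E₆) = 1`; `A^12` is isobaric of weight `12 (q - 1)`, hence the homogenisation of
a `P` of degree `≤ q - 1` (`SSHom.lean`); `A` is squarefree (Igusa; `RamSys.not_sq_dvd` of
S16/SwD/Alg).
-/

set_option autoImplicit false
set_option linter.unusedSectionVars false

noncomputable section

open Fermat.Agent.S16SwD MvPolynomial ModularCurve
open UpperHalfPlane ModularForm ModularFormClass MatrixGroups EisensteinSeries
open Fermat.Agent.SwD (zmap evK miller e2Z e4Z e6Z deltaZ)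

namespace Fermat.Agent.BadRed

section Hasse

variable (k : Type*) [Field k] (q : ℕ) [hq : Fact q.Prime] [CharP k q]

/-- the Hasse invariant: an isobaric `A ∈ k[Q, R]` of weight `q - 1` with `A(E₄, E₆) = 1`
(the reduction of `E_{q-1}`). -/
theorem exists_hasse (h5 : 5 ≤ q) :
    ∃ A : MvPolynomial (Fin 2) k, IsWeightedHomogeneous wt A (q - 1) ∧ evK k A = 1 := by
  set O : Subring ℚ := ratInt q with hO
  set ι : O →+* ℂ := (algebraMap ℚ ℂ).comp O.subtype with hι
  have hιinj : Function.Injective ι := by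
    intro x y hxy
    apply Subtype.val_injective
    exact (algebraMap ℚ ℂ).injective hxy
  set φ : O →+* k := (ZMod.castHom (dvd_refl q) k).comp (ratIntToZMod q) with hφ
  have hk3 : 3 ≤ q - 1 := by omega
  have hodd : Odd q := hq.out.odd_of_ne_two (by omega)
  have hk2 : Even (q - 1) := by
    obtain ⟨m, hm⟩ := hodd
    exact ⟨m, by omega⟩
  set β : O := ⟨2 * ((q - 1 : ℕ) : ℚ) / bernoulli (q - 1), bernoulli_ratio_mem (by omega)⟩ with hβ
  have hφβ : φ β = 0 := by
    have h0 : ratIntToZMod q β = 0 :=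
      (ratIntToZMod_eq_zero_iff q β).mpr (bernoulli_ratio_num (by omega))
    rw [hφ, RingHom.comp_apply, h0, map_zero]
  set aE : PowerSeries O :=
    PowerSeries.mk fun n => if n = 0 then 1 else -β * ((ArithmeticFunction.sigma (q - 1 - 1) n : ℕ) : O)
    with haE
  have haE1 : PowerSeries.map ι aE = qExpansion 1 (E hk3) := by
    ext n
    rw [E_qExpansion_coeff hk3 hk2, PowerSeries.coeff_map, haE, PowerSeries.coeff_mk]
    by_cases hn : n = 0
    · simp [hn]
    · simp only [hn, if_false, map_mul, map_neg, map_natCast]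
      congr 2
      simp [hι, hβ]
  have haE2 : PowerSeries.map φ aE = 1 := by
    ext n
    rw [PowerSeries.coeff_map, haE, PowerSeries.coeff_mk, PowerSeries.coeff_one]
    by_cases hn : n = 0
    · simp [hn]
    · simp [hn, hφβ]
  have h1728 : (1728 : k) ≠ 0 := Fermat.Agent.SwD.ne_zero_1728 q h5
  obtain ⟨A, hA, hA1⟩ := miller ι hιinj φ h1728 _ (E hk3) aE haE1
  rw [Int.toNat_natCast] at hA
  exact ⟨A, hA, by rw [hA1, haE2]⟩

/-- the Ramanujan system `(E₂, E₄, E₆)` over `k`. -/
def ssRam (h5 : 5 ≤ q) : RamSys k where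
  e2 := zmap k e2Z
  e4 := zmap k e4Z
  e6 := zmap k e6Z
  h2 := by rw [Fermat.Agent.SwD.constantCoeff_zmap, Fermat.Agent.SwD.constantCoeff_e2Z]; simp
  h4 := by rw [Fermat.Agent.SwD.constantCoeff_zmap, Fermat.Agent.SwD.constantCoeff_e4Z]; simp
  h6 := by rw [Fermat.Agent.SwD.constantCoeff_zmap, Fermat.Agent.SwD.constantCoeff_e6Z]; simp
  hδ := by
    rw [← Fermat.Agent.SwD.delta_map]
    refine mul_ne_zero ?_ Fermat.Agent.SwD.zmap_deltaZ_ne_zero
    rw [← map_ofNat (PowerSeries.C (R := k)) 1728]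
    intro h
    exact Fermat.Agent.SwD.ne_zero_1728 q h5 (PowerSeries.C_injective (by rw [h, map_zero]))
  R2 := by
    rw [← Fermat.Agent.SwD.thetaOp_eq_X_mul_derivative]
    exact Fermat.Agent.SwD.ram2_map Fermat.Agent.SwD.ramanujanE2
  R4 := by
    rw [← Fermat.Agent.SwD.thetaOp_eq_X_mul_derivative]; exact Fermat.Agent.SwD.ram4_map
  R6 := by
    rw [← Fermat.Agent.SwD.thetaOp_eq_X_mul_derivative]; exact Fermat.Agent.SwD.ram6_map

lemma ssRam_ev (h5 : 5 ≤ q) : (ssRam k q h5).ev = evK k := rfl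

end Hasse

/-- **(SS-P)**: `Δ̄^{-(q-1)} = 1728^{q-1} P(j̄)`, `P` the supersingular polynomial (to the power
`12`). -/
theorem ssPoly : SSPoly := by
  intro k _ q hq _ h5
  have h1728 : (1728 : k) ≠ 0 := Fermat.Agent.SwD.ne_zero_1728 q h5
  have hq1 : 1 ≤ q := hq.out.one_le
  obtain ⟨A, hA, hA1⟩ := exists_hasse k q h5
  have hA0 : A ≠ 0 := by
    rintro rfl
    rw [map_zero] at hA1
    exact zero_ne_one hA1
  have hA12 : IsWeightedHomogeneous wt (A ^ 12) (12 * (q - 1)) := by
    have := hA.pow 12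
    rwa [smul_eq_mul] at this
  obtain ⟨P, hPdeg, hAP⟩ := exists_ssHom_eq h1728 (q - 1) (A ^ 12) hA12
  have hkey : ssD k ^ (q - 1) * Polynomial.aeval (jqModC k) P = 1 := by
    rw [← ofPS_evK_ssHom k hPdeg, ← hAP, map_pow, hA1, one_pow, map_one]
  have hP0 : P ≠ 0 := by
    rintro rfl
    rw [map_zero, mul_zero] at hkey
    exact zero_ne_one hkey
  have hsq : ∀ π : MvPolynomial (Fin 2) k, Prime π → ¬ π ^ 2 ∣ A := fun π hπ =>
    (ssRam k q h5).not_sq_dvd q hA hA1 hπ
  have hmult : ∀ (c : k) (π : MvPolynomial (Fin 2) k) (n : ℕ), Prime π → π ^ n ∣ ssLin c →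
      n * P.rootMultiplicity c ≤ 12 := by
    intro c π n hπ hπc
    have h1 : ssLin c ^ P.rootMultiplicity c ∣ A ^ 12 := by
      rw [hAP]
      exact ssLin_pow_dvd_ssHom hP0 hPdeg c (Polynomial.pow_rootMultiplicity_dvd P c)
    have h2 : π ^ (n * P.rootMultiplicity c) ∣ A ^ 12 := by
      rw [pow_mul]
      exact (pow_dvd_pow_of_dvd hπc _).trans h1
    exact le_of_prime_pow_dvd_pow hA0 hπ (hsq π hπ) h2
  refine ⟨P, 1728 ^ (q - 1), pow_ne_zero _ h1728, ?_, ?_, ?_, ?_, ?_, ?_, ?_⟩
  · refine le_antisymm hPdeg ?_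
    have h1 : MvPolynomial.eval (fun _ => (1 : k)) (A ^ 12) = 1 := by
      rw [map_pow, ← (ssRam k q h5).constantCoeff_ev, ssRam_ev, hA1, map_one, one_pow]
    rw [hAP, eval_ssHom_one_one] at h1
    have h2 : P.coeff (q - 1) ≠ 0 := by
      intro h0
      rw [h0, zero_mul] at h1
      exact zero_ne_one h1
    exact Polynomial.le_natDegree_of_ne_zero h2
  · have h := ssFun_mul_ssD_pow k q hq1
    calc ssFun k q = ssFun k q * (ssD k ^ (q - 1) * Polynomial.aeval (jqModC k) P) := by
          rw [hkey, mul_one]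
      _ = (ssFun k q * ssD k ^ (q - 1)) * Polynomial.aeval (jqModC k) P := by ring
      _ = _ := by rw [h]
  · intro c
    have hne := ssLin_ne_zero h1728 c
    have hnu : ¬ IsUnit (ssLin c) := not_isUnit_of_isWH (by norm_num) (isWH_ssLin c) hne
    obtain ⟨π, hπirr, hπc⟩ := WfDvdMonoid.exists_irreducible_factor hnu hne
    have hπ : Prime π := UniqueFactorizationMonoid.irreducible_iff_prime.mp hπirr
    have := hmult c π 1 hπ (by simpa using hπc)
    simpa using this
  · have h := hmult 0 (X 0) 3 MvPolynomial.X_prime (by rw [ssLin_zero]; exact dvd_mul_left _ _)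
    omega
  · have h := hmult 1728 (X 1) 2 MvPolynomial.X_prime
      (by rw [ssLin_1728]; exact dvd_mul_left _ _)
    omega
  · intro h3
    have hw : (q - 1) % 3 = 1 := by omega
    have h1 : MvPolynomial.eval ![0, 1] (A ^ 12) = 0 := by
      rw [map_pow, eval_zero_one_of_isWH hA hw]
      simp
    rw [hAP, eval_ssHom_zero_one] at h1
    have h2 : P.coeff 0 = 0 := by
      rcases mul_eq_zero.mp h1 with h | h
      · exact h
      · exact absurd h (pow_ne_zero _ (neg_ne_zero.mpr one_ne_zero))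
    rw [← Polynomial.coeff_zero_eq_eval_zero]
    exact h2
  · intro h4
    have hw : (q - 1) % 4 = 2 := by omega
    have h1 : MvPolynomial.eval ![1, 0] (A ^ 12) = 0 := by
      rw [map_pow, eval_one_zero_of_isWH hA hw]
      simp
    rw [hAP, eval_ssHom_one_zero hPdeg] at h1
    exact h1

end Fermat.Agent.BadRed
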