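/-
Cluster T (bad reduction at `q ∥ N`), MA3, analytic part, auxiliary lemmas (helper84):

* `isDeltaPoly_of_isCF`: a level one CUSP form of weight `12 m` is `Δ ^ m · P(J)` with
  `deg P ≤ m - 1` (`m ≥ 1`).
-/
import Mathlib
import Fermat.Agent.S28.LevelOnePoly

set_option autoImplicit false
set_option linter.unusedVariables false
set_option linter.style.haveILetI false

noncomputable section

namespace Fermat.Agent.BadRed

open UpperHalfPlane ModularForm MatrixGroups Polynomial Fermat.Agent.S23 Fermat.Agent.S28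

/-- a level one cusp form of weight `12 m`, `m ≥ 1`, is `Δ ^ m · P(J)` with `deg P ≤ m - 1`. -/
theorem cuspForm_levelOne_eq_delta_pow_mul_poly (m : ℕ) (hm : 0 < m)
    (f : CuspForm 𝒮ℒ (12 * (m : ℤ))) :
    ∃ P : Polynomial ℂ, P.natDegree ≤ m - 1 ∧
      ∀ τ : ℍ, f τ = discriminant τ ^ m * P.eval (wp4J τ) := by
  have hk : (12 * (m : ℤ) - 12) = 12 * ((m - 1 : ℕ) : ℤ) := by
    rw [Nat.cast_sub hm]
    push_cast
    ring
  obtain ⟨P, hP, hPe⟩ := wp4_levelOne_isDeltaPoly (m - 1) hk (CuspForm.discriminantEquiv f)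
  refine ⟨P, hP, fun τ => ?_⟩
  have h1 := discriminant_mul_discriminantEquiv_apply f τ
  rw [← h1, hPe τ, ← mul_assoc, ← pow_succ', Nat.sub_add_cancel hm]

/-- version for functions known to be level one cusp forms. -/
theorem isDeltaPoly_of_isCF {k : ℤ} (m : ℕ) (hm : 0 < m) (hk : k = 12 * (m : ℤ)) {g : ℍ → ℂ}
    (hg : IsCF 𝒮ℒ k g) :
    ∃ P : Polynomial ℂ, P.natDegree ≤ m - 1 ∧
      ∀ τ : ℍ, g τ = discriminant τ ^ m * P.eval (wp4J τ) := by
  subst hk
  obtain ⟨G, rfl⟩ := hg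
  exact cuspForm_levelOne_eq_delta_pow_mul_poly m hm G

end Fermat.Agent.BadRed
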