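/-
Cluster T (bad reduction at `q ∥ N`), MA3, final statement (helper84; analytic part helper47):
**the modular equation of `u = Δ(z) / Δ(qz)` over `ℚ̄(j)`**, unconditionally.
-/
import Mathlib
import Fermat.Agent.Lib.BadRed.Mod.UModEq
import Fermat.Agent.Lib.BadRed.Mod.UModEqAn

set_option autoImplicit false

noncomputable section

namespace Fermat.Agent.BadRed

open Polynomial Fermat.Agent.S24 ModularCurve

/-- **MA3: the modular equation of `u = Δ(z) / Δ(qz)` over `ℚ̄(j)`**, `q` prime: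
`Φ ∈ ℚ̄[J][U]` monic of degree `q + 1` in `U`, constant term a nonzero constant,
`deg_J (Φ.coeff i) ≤ i - 1` for `0 < i ≤ q`, `deg_J (Φ.coeff q) = q - 1`, and
`Φ (j, u) = 0` in `F_N` for every `N` divisible by `q`. -/
theorem uModEq (q : ℕ) [Fact q.Prime] :
    ∃ Φ : Polynomial (Polynomial Kbar), Φ.Monic ∧ Φ.natDegree = q + 1 ∧
      (∃ c0 : Kbar, c0 ≠ 0 ∧ Φ.coeff 0 = C c0) ∧
      (∀ i, 0 < i → i ≤ q → (Φ.coeff i).natDegree ≤ i - 1) ∧
      (Φ.coeff q).natDegree = q - 1 ∧
      ∀ (N : ℕ) [NeZero N] (hqN : q ∣ N),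
        (Φ.map (Polynomial.aeval (R := Kbar) (jBar N)).toRingHom).eval (uF N q hqN) = 0 := by
  exact uModEq_of_uModEqC q (Fact.out : q.Prime).two_le (uModEqC q)

/-- the modular equation of `u` with rational coefficients, in terms of `q`-expansions. -/
theorem uModEqQ (q : ℕ) [Fact q.Prime] :
    UModEqQ q := by
  exact uModEqQ_of_uModEqC q (Fact.out : q.Prime).two_le (uModEqC q)

end Fermat.Agent.BadRed
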